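/-
N4-FULL, block C, node C8 (helper22), part 1: the coefficientwise action of the ring automorphisms of
a field `k` on the modular function field `modularFunctionFieldFullC k N ⊂ k((q))`
(the special-fibre analogue of the prelude's `arithmeticGalois`), and generic facts on the action of
a `SemilinearAut` on places (valuation ring, maximal ideal).
-/
import Mathlib
import Fermat.Prelude.Def_ModularCurve_ReductionModL

set_option autoImplicit false

noncomputable section

open HahnSeries IntermediateField AlgebraicCurve ModularCurve
open scoped Pointwise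

namespace Fermat.Agent.N4F.C.CoeffAut

/-! ### Generic: `SemilinearAut` acting on places -/

section Generic

variable {K F : Type*} [Field K] [Field F] [Algebra K F]

theorem mem_smul_place_iff (g : SemilinearAut K F) (v : Place K F) (x : F) :
    x ∈ (g • v).toValuationSubring ↔ g⁻¹ • x ∈ v.toValuationSubring := by
  rw [SemilinearAut.smul_toValuationSubring]
  exact ValuationSubring.mem_pointwise_smul_iff_inv_smul_mem

theorem smul_mem_smul_place_iff (g : SemilinearAut K F) (v : Place K F) (x : F) :
    g • x ∈ (g • v).toValuationSubring ↔ x ∈ v.toValuationSubring := by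
  rw [mem_smul_place_iff, inv_smul_smul]

theorem smul_mem_nonunits_smul_place_iff (g : SemilinearAut K F) (v : Place K F) (x : F) :
    g • x ∈ (g • v).toValuationSubring.nonunits ↔ x ∈ v.toValuationSubring.nonunits := by
  rw [ValuationSubring.mem_nonunits_iff_exists_mem_maximalIdeal,
    ValuationSubring.mem_nonunits_iff_exists_mem_maximalIdeal]
  constructor
  · rintro ⟨hx, hm⟩
    have hx' : x ∈ v.toValuationSubring := (smul_mem_smul_place_iff g v x).1 hx
    refine ⟨hx', ?_⟩
    rw [IsLocalRing.mem_maximalIdeal, mem_nonunits_iff] at hm ⊢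
    intro hu
    exact hm (hu.map (SemilinearAut.smulValuationSubringEquiv g v.toValuationSubring))
  · rintro ⟨hx, hm⟩
    have hx' : g • x ∈ (g • v).toValuationSubring := (smul_mem_smul_place_iff g v x).2 hx
    refine ⟨hx', ?_⟩
    rw [IsLocalRing.mem_maximalIdeal, mem_nonunits_iff] at hm ⊢
    intro hu
    apply hm
    have h1 := hu.map (SemilinearAut.smulValuationSubringEquiv g v.toValuationSubring).symm
    have e : (⟨x, hx⟩ : v.toValuationSubring) =
        (SemilinearAut.smulValuationSubringEquiv g v.toValuationSubring).symm ⟨g • x, hx'⟩ :=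
      Subtype.ext (inv_smul_smul g x).symm
    rw [e]
    exact h1

theorem mem_nonunits_smul_place_iff (g : SemilinearAut K F) (v : Place K F) (x : F) :
    x ∈ (g • v).toValuationSubring.nonunits ↔ g⁻¹ • x ∈ v.toValuationSubring.nonunits := by
  rw [← smul_mem_nonunits_smul_place_iff g v (g⁻¹ • x), smul_inv_smul]

end Generic

/-! ### The coefficientwise automorphisms of `modularFunctionFieldFullC k N` -/

section Coeff

variable (k : Type*) [Field k] (N : ℕ)

theorem coeffMap_mem_full (τ : k →+* k) {x : LaurentSeries k}
    (hx : x ∈ modularFunctionFieldFullC k N) :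
    coeffMap τ x ∈ modularFunctionFieldFullC k N := by
  unfold modularFunctionFieldFullC at hx ⊢
  induction hx using IntermediateField.adjoin_induction with
  | mem y hy =>
      obtain ⟨d, hne, hd, rfl⟩ := hy
      have := hne
      rw [coeffMap_qExpand, coeffMap_jqModC]
      exact subset_adjoin _ _ ⟨d, hne, hd, rfl⟩
  | algebraMap a =>
      rw [coeffMap_algebraMap]
      exact IntermediateField.algebraMap_mem _ _
  | add x y _ _ hx hy => rw [map_add]; exact add_mem hx hy
  | inv x _ hx => rw [map_inv₀]; exact inv_mem hx
  | mul x y _ _ hx hy => rw [map_mul]; exact mul_mem hx hy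

/-- The coefficientwise ring automorphism of `modularFunctionFieldFullC k N` induced by a ring
automorphism of `k`. -/
def coeffRingAut (τ : k ≃+* k) :
    (modularFunctionFieldFullC k N) ≃+* (modularFunctionFieldFullC k N) where
  toFun x := ⟨coeffMap (τ : k →+* k) (x : LaurentSeries k), coeffMap_mem_full k N _ x.2⟩
  invFun x := ⟨coeffMap (τ.symm : k →+* k) (x : LaurentSeries k), coeffMap_mem_full k N _ x.2⟩
  left_inv x := Subtype.ext <| by
    show coeffMap (τ.symm : k →+* k) (coeffMap (τ : k →+* k) (x : LaurentSeries k))
      = (x : LaurentSeries k)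
    rw [coeffMap_coeffMap,
      coeffMap_congr (g := RingHom.id k) (RingHom.ext fun a => τ.symm_apply_apply a)
        (x : LaurentSeries k),
      coeffMap_id]
  right_inv x := Subtype.ext <| by
    show coeffMap (τ : k →+* k) (coeffMap (τ.symm : k →+* k) (x : LaurentSeries k))
      = (x : LaurentSeries k)
    rw [coeffMap_coeffMap,
      coeffMap_congr (g := RingHom.id k) (RingHom.ext fun a => τ.apply_symm_apply a)
        (x : LaurentSeries k),
      coeffMap_id]
  map_mul' x y :=
    Subtype.ext (map_mul (coeffMap (τ : k →+* k)) (x : LaurentSeries k) (y : LaurentSeries k))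
  map_add' x y :=
    Subtype.ext (map_add (coeffMap (τ : k →+* k)) (x : LaurentSeries k) (y : LaurentSeries k))

@[simp]
theorem coe_coeffRingAut_apply (τ : k ≃+* k) (x : modularFunctionFieldFullC k N) :
    (coeffRingAut k N τ x : LaurentSeries k) = coeffMap (τ : k →+* k) (x : LaurentSeries k) :=
  rfl

theorem coeffRingAut_algebraMap (τ : k ≃+* k) (a : k) :
    coeffRingAut k N τ (algebraMap k (modularFunctionFieldFullC k N) a)
      = algebraMap k (modularFunctionFieldFullC k N) (τ a) :=
  Subtype.ext (coeffMap_algebraMap (τ : k →+* k) a)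

/-- **The coefficientwise semilinear automorphisms** of the function field of the special fibre. -/
def coeffAut : (k ≃+* k) →* SemilinearAut k (modularFunctionFieldFullC k N) where
  toFun τ := ⟨(coeffRingAut k N τ, τ), fun a => coeffRingAut_algebraMap k N τ a⟩
  map_one' := by
    refine Subtype.ext (Prod.ext (RingEquiv.ext fun x => Subtype.ext ?_) rfl)
    show coeffMap ((1 : k ≃+* k) : k →+* k) (x : LaurentSeries k) = (x : LaurentSeries k)
    rw [show ((1 : k ≃+* k) : k →+* k) = RingHom.id k from RingHom.ext fun _ => rfl,
      coeffMap_id]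
  map_mul' σ τ := by
    refine Subtype.ext (Prod.ext (RingEquiv.ext fun x => Subtype.ext ?_) rfl)
    show coeffMap ((σ * τ : k ≃+* k) : k →+* k) (x : LaurentSeries k)
      = coeffMap (σ : k →+* k) (coeffMap (τ : k →+* k) (x : LaurentSeries k))
    rw [coeffMap_coeffMap]
    exact coeffMap_congr (RingHom.ext fun _ => rfl) _

@[simp]
theorem toRingAut_coeffAut (τ : k ≃+* k) :
    SemilinearAut.toRingAut (coeffAut k N τ) = coeffRingAut k N τ :=
  rfl

@[simp]
theorem baseAut_coeffAut (τ : k ≃+* k) :
    SemilinearAut.baseAut (coeffAut k N τ) = τ :=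
  rfl

theorem coe_coeffAut_smul (τ : k ≃+* k) (x : modularFunctionFieldFullC k N) :
    ((coeffAut k N τ • x : modularFunctionFieldFullC k N) : LaurentSeries k)
      = coeffMap (τ : k →+* k) (x : LaurentSeries k) :=
  rfl

theorem coe_coeffAut_inv_smul (τ : k ≃+* k) (x : modularFunctionFieldFullC k N) :
    (((coeffAut k N τ)⁻¹ • x : modularFunctionFieldFullC k N) : LaurentSeries k)
      = coeffMap (τ.symm : k →+* k) (x : LaurentSeries k) :=
  rfl

end Coeff

end Fermat.Agent.N4F.C.CoeffAut
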