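import Mathlib
import Fermat.Agent.N4.Cover.LocalUFD
import Fermat.Agent.N4.Cover.Globalize
import Fermat.Agent.S24.PlaceDict
import Fermat.Agent.S24.PlaceExtend

/-!
# N4-FULL, block C, node C4: local multiplicity at a closed point of the special fibre

`O` is a discrete valuation ring with fraction field `K` and uniformiser `ϖ`, `F / K` a function
field, `R ⊆ F` a noetherian `O`-algebra with fraction field `F` (a chart of a model), and
`ρ : R → F'` a "reduction" ring homomorphism into a function field `F' / k'` with kernel `(ϖ)`,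
whose image is a Dedekind domain with fraction field `F'`.  Let `Q` be a place of `F' / k'`
containing the image of `ρ`.

* **Layer 1** (`exists_finset_ord_div_eq`): for a noetherian local domain `S` with fraction field
  `F`, `ϖ` a prime element with `S / ϖ` a principal ideal ring, and `ρ : S → 𝒪_Q` surjective with
  kernel `(ϖ)`:  `ord_Q (ρ a / ρ b) = ∑_{v ⊇ S} ord_v (a / b)`, provided the zeros and poles of
  `a / b` among the places containing `S` are rational.
* **Layer 2** (`ChartData.ord_reduction_eq_sum`): the same for the chart `R`, with `S` the local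
  ring of `R` at the closed point defined by `Q`; places containing `S` are identified with the
  places *centred at `Q`* (`CentredAt`, `ChartData.centredAt_iff`).
-/

set_option autoImplicit false
set_option linter.unusedSectionVars false
set_option linter.style.haveILetI false

namespace Fermat.Agent.N4F.C.LocalMult

open AlgebraicCurve IsLocalRing IsDedekindDomain
open Fermat.Agent.S24.PlaceDeriv (ResidueTrivial)
open Fermat.Agent.S24.PlaceExtend (mem_iff_ord_nonneg ord_pos_of_mem_nonunits mem_nonunits_of_ord_pos)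
open Fermat.Agent.N4.Cover

/-! ### Generalities on places -/

section PlaceBasics

variable {K F : Type*} [Field K] [Field F] [Algebra K F] (v : Place K F)

theorem mem_nonunits_iff_ord_pos {x : F} (hx : x ≠ 0) :
    x ∈ v.toValuationSubring.nonunits ↔ 0 < v.ord x :=
  ⟨ord_pos_of_mem_nonunits v hx, mem_nonunits_of_ord_pos v hx⟩

theorem zero_mem_nonunits : (0 : F) ∈ v.toValuationSubring.nonunits := by
  rw [ValuationSubring.mem_nonunits_iff, map_zero]
  exact zero_lt_one

/-- A nonzero constant is a unit at every place. -/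
theorem ord_algebraMap (c : K) : v.ord (algebraMap K F c) = 0 := by
  rcases eq_or_ne c 0 with rfl | hc
  · simp
  have h0 : algebraMap K F c ≠ 0 := (map_ne_zero _).2 hc
  have h1 : 0 ≤ v.ord (algebraMap K F c) := (mem_iff_ord_nonneg v h0).1 (v.algebraMap_mem' c)
  have h2 : 0 ≤ v.ord (algebraMap K F c⁻¹) :=
    (mem_iff_ord_nonneg v ((map_ne_zero _).2 (inv_ne_zero hc))).1 (v.algebraMap_mem' c⁻¹)
  rw [map_inv₀, v.ord_inv] at h2
  omega

theorem nonunits_add {x y : F} (hx : x ∈ v.toValuationSubring.nonunits)
    (hy : y ∈ v.toValuationSubring.nonunits) : x + y ∈ v.toValuationSubring.nonunits := by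
  rw [ValuationSubring.mem_nonunits_iff] at hx hy ⊢
  exact lt_of_le_of_lt (Valuation.map_add _ _ _) (max_lt hx hy)

theorem nonunits_neg {x : F} (hx : x ∈ v.toValuationSubring.nonunits) :
    -x ∈ v.toValuationSubring.nonunits := by
  rw [ValuationSubring.mem_nonunits_iff] at hx ⊢
  rwa [Valuation.map_neg]

theorem nonunits_sub {x y : F} (hx : x ∈ v.toValuationSubring.nonunits)
    (hy : y ∈ v.toValuationSubring.nonunits) : x - y ∈ v.toValuationSubring.nonunits := by
  rw [sub_eq_add_neg]
  exact nonunits_add v hx (nonunits_neg v hy)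

theorem mul_mem_nonunits {x y : F} (hx : x ∈ v.toValuationSubring)
    (hy : y ∈ v.toValuationSubring.nonunits) : x * y ∈ v.toValuationSubring.nonunits := by
  rw [ValuationSubring.mem_nonunits_iff] at hy ⊢
  rw [map_mul]
  have h1 : v.toValuationSubring.valuation x ≤ 1 :=
    (ValuationSubring.valuation_le_one_iff _ _).2 hx
  calc v.toValuationSubring.valuation x * v.toValuationSubring.valuation y
      ≤ 1 * v.toValuationSubring.valuation y := by gcongr
    _ = v.toValuationSubring.valuation y := one_mul _
    _ < 1 := hy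

theorem nonunits_subset {x : F} (hx : x ∈ v.toValuationSubring.nonunits) :
    x ∈ v.toValuationSubring := by
  rw [ValuationSubring.mem_nonunits_iff] at hx
  exact (ValuationSubring.valuation_le_one_iff _ _).1 hx.le

/-- `1` is not in the maximal ideal. -/
theorem one_not_mem_nonunits : (1 : F) ∉ v.toValuationSubring.nonunits := by
  rw [ValuationSubring.mem_nonunits_iff, map_one]
  exact lt_irrefl _

/-- An element of the valuation ring outside the maximal ideal has its inverse in the ring. -/
theorem inv_mem_of_not_mem_nonunits {x : F} (hx : x ∈ v.toValuationSubring)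
    (hx' : x ∉ v.toValuationSubring.nonunits) : x⁻¹ ∈ v.toValuationSubring := by
  rw [ValuationSubring.mem_nonunits_iff, not_lt] at hx'
  have h1 : v.toValuationSubring.valuation x = 1 :=
    le_antisymm ((ValuationSubring.valuation_le_one_iff _ _).2 hx) hx'
  rw [← ValuationSubring.valuation_le_one_iff, map_inv₀, h1, inv_one]

end PlaceBasics

/-! ### Places containing a local ring `S` -/

section Centre

variable {K F S : Type*} [Field K] [Field F] [Algebra K F]
  [CommRing S] [Algebra S F]

/-- The place `v` contains (the image of) `S`. -/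
def Contains (S : Type*) [CommRing S] [Algebra S F] (v : Place K F) : Prop :=
  ∀ s : S, algebraMap S F s ∈ v.toValuationSubring

variable {v : Place K F}

/-- The centre on `S` of a place containing `S`: the elements of `S` lying in the maximal ideal. -/
def centreIdeal (hv : Contains S v) : Ideal S where
  carrier := {s | algebraMap S F s ∈ v.toValuationSubring.nonunits}
  zero_mem' := by
    show algebraMap S F 0 ∈ v.toValuationSubring.nonunits
    rw [map_zero]; exact zero_mem_nonunits v
  add_mem' := by
    intro a b ha hb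
    show algebraMap S F (a + b) ∈ v.toValuationSubring.nonunits
    rw [map_add]; exact nonunits_add v ha hb
  smul_mem' := by
    intro c a ha
    show algebraMap S F (c • a) ∈ v.toValuationSubring.nonunits
    rw [smul_eq_mul, map_mul]; exact mul_mem_nonunits v (hv c) ha

theorem mem_centreIdeal_iff (hv : Contains S v) {s : S} :
    s ∈ centreIdeal hv ↔ algebraMap S F s ∈ v.toValuationSubring.nonunits := Iff.rfl

theorem centreIdeal_isPrime (hv : Contains S v) : (centreIdeal hv).IsPrime := by
  refine ⟨?_, ?_⟩
  · intro h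
    have h1 : (1 : S) ∈ centreIdeal hv := by rw [h]; trivial
    rw [mem_centreIdeal_iff, map_one] at h1
    exact one_not_mem_nonunits v h1
  · intro a b hab
    rw [mem_centreIdeal_iff, map_mul] at hab
    by_contra hcon
    rw [not_or] at hcon
    obtain ⟨ha, hb⟩ := hcon
    rw [mem_centreIdeal_iff] at ha hb
    have ha' := inv_mem_of_not_mem_nonunits v (hv a) ha
    have hb' := inv_mem_of_not_mem_nonunits v (hv b) hb
    have h0 : algebraMap S F a * algebraMap S F b ≠ 0 := by
      intro h0
      rcases mul_eq_zero.1 h0 with h | h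
      · exact ha (h ▸ zero_mem_nonunits v)
      · exact hb (h ▸ zero_mem_nonunits v)
    have h1 : (1 : F) ∈ v.toValuationSubring.nonunits := by
      have := mul_mem_nonunits v (v.toValuationSubring.mul_mem _ _ ha' hb') hab
      rwa [show (algebraMap S F a)⁻¹ * (algebraMap S F b)⁻¹ *
        (algebraMap S F a * algebraMap S F b) = 1 by
          rw [← mul_inv, mul_comm (algebraMap S F a), inv_mul_cancel₀]
          rwa [mul_comm]] at this
    exact one_not_mem_nonunits v h1

variable [IsDomain S] [IsFractionRing S F]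

theorem centreIdeal_ne_bot (hv : Contains S v) : centreIdeal hv ≠ ⊥ := by
  intro h
  apply v.ne_top'
  rw [eq_top_iff]
  intro x _
  obtain ⟨a, s, hs, rfl⟩ := IsFractionRing.div_surjective (A := S) x
  have hs0 : s ≠ 0 := nonZeroDivisors.ne_zero hs
  have hsc : s ∉ centreIdeal hv := by rw [h]; simpa using hs0
  rw [div_eq_mul_inv]
  exact mul_mem (hv a) (inv_mem_of_not_mem_nonunits v (hv s) hsc)

end Centre

/-! ### The place attached to a prime element -/

section PlaceOfPrime

variable {K F S : Type*} [Field K] [Field F] [Algebra K F]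
  [CommRing S] [IsDomain S] [IsNoetherianRing S] [Algebra S F] [IsFractionRing S F]

/-- **The place of a prime element.** If `p` is a prime element of the noetherian domain `S` (with
fraction field `F`) and the constants `K` are `p`-integral, the localisation `S_(p)` is the
valuation ring of a place of `F / K`: it contains `S` and `p` lies in its maximal ideal. -/
theorem exists_place_of_prime {p : S} (hp : Prime p)
    (hK : ∀ c : K, ∃ a b : S, ¬ p ∣ b ∧ algebraMap K F c * algebraMap S F b = algebraMap S F a) :
    ∃ v : Place K F, Contains S v ∧ algebraMap S F p ∈ v.toValuationSubring.nonunits := by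
  haveI hI : (Ideal.span {p}).IsPrime := (Ideal.span_singleton_prime hp.ne_zero).2 hp
  set V := Globalize.locAt (F := F) (Ideal.span {p}) with hV
  haveI : IsDiscreteValuationRing V := Globalize.isDiscreteValuationRing_locAt_span (F := F) hp
  have hKV : ∀ c : K, algebraMap K F c ∈ V := by
    intro c
    obtain ⟨a, b, hb, h⟩ := hK c
    rw [hV, Globalize.mem_locAt_iff]
    exact ⟨a, b, by rwa [Ideal.mem_span_singleton], h⟩
  letI algKV : Algebra K V := ((algebraMap K F).codRestrict V hKV).toAlgebra
  haveI : IsScalarTower K V F := IsScalarTower.of_algebraMap_eq fun _ => rfl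
  let w : HeightOneSpectrum V := IsDiscreteValuationRing.maximalIdeal V
  refine ⟨Place.ofHeightOneSpectrum (K := K) (F := F) w, ?_, ?_⟩
  · intro s
    rw [IsScalarTower.algebraMap_apply S V F]
    exact Fermat.Agent.S24.algebraMap_mem_ofHeightOneSpectrum w _
  · rw [ValuationSubring.mem_nonunits_iff]
    show (w.valuation F).valuationSubring.valuation (algebraMap S F p) < 1
    rw [← (Valuation.isEquiv_valuation_valuationSubring (w.valuation F)).lt_one_iff_lt_one,
      IsScalarTower.algebraMap_apply S V F, HeightOneSpectrum.valuation_of_algebraMap,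
      HeightOneSpectrum.intValuation_lt_one_iff_mem]
    show algebraMap S V p ∈ IsLocalRing.maximalIdeal V
    rw [IsLocalization.AtPrime.to_map_mem_maximal_iff V (Ideal.span {p})]
    exact Ideal.mem_span_singleton_self p

end PlaceOfPrime

/-! ### Layer 1: a two-dimensional regular local ring over a discrete valuation ring -/

section Layer1

variable {O K F S : Type*}
  [CommRing O] [IsDomain O] [IsDiscreteValuationRing O]
  [Field K] [Algebra O K] [IsFractionRing O K]
  [Field F] [Algebra K F] [Algebra O F] [IsScalarTower O K F]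
  [CommRing S] [IsDomain S] [IsNoetherianRing S] [IsLocalRing S]
  [Algebra S F] [IsFractionRing S F] [Algebra O S] [IsScalarTower O S F]

omit [IsDomain O] [IsDiscreteValuationRing O] [IsDomain S] [IsNoetherianRing S] [IsLocalRing S]
  [IsFractionRing S F] in
theorem algebraMap_O_F_eq (K : Type*) [Field K] [Algebra O K] [Algebra K F] [IsScalarTower O K F]
    (c : O) : algebraMap S F (algebraMap O S c) = algebraMap K F (algebraMap O K c) := by
  rw [← IsScalarTower.algebraMap_apply O S F, IsScalarTower.algebraMap_apply O K F]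

omit [IsDiscreteValuationRing O] [IsDomain S] [IsNoetherianRing S] [IsLocalRing S]
  [IsFractionRing S F] in
theorem algebraMap_O_K_ne_zero {c : O} (hc : c ≠ 0) : algebraMap O K c ≠ 0 := fun h =>
  hc (IsFractionRing.injective O K (by rw [h, map_zero]))

omit [IsDiscreteValuationRing O] [IsNoetherianRing S] [IsLocalRing S] in
theorem algebraMap_O_S_injective (K F : Type*) [Field K] [Algebra O K] [IsFractionRing O K]
    [Field F] [Algebra K F] [Algebra O F] [IsScalarTower O K F] [Algebra S F]
    [IsFractionRing S F] [IsScalarTower O S F] : Function.Injective (algebraMap O S) :=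
  Globalize.algebraMap_injective_of_tower K F

/-- Nonzero elements of `O` are units at every place of `F / K`. -/
theorem algebraMap_O_not_mem_nonunits (v : Place K F) {c : O} (hc : c ≠ 0) :
    algebraMap S F (algebraMap O S c) ∉ v.toValuationSubring.nonunits := by
  intro h
  rw [algebraMap_O_F_eq K] at h
  have h0 : algebraMap K F (algebraMap O K c) ≠ 0 :=
    (map_ne_zero _).2 (algebraMap_O_K_ne_zero hc)
  have := (mem_nonunits_iff_ord_pos v h0).1 h
  rw [ord_algebraMap] at this
  exact lt_irrefl _ this

variable {ϖ : O} (hϖ : Irreducible ϖ)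

include hϖ in
/-- A prime element of `S` not dividing the uniformiser divides no nonzero element of `O`. -/
theorem not_dvd_algebraMap_O {p : S} (hp : Prime p) (hpπ : ¬ p ∣ algebraMap O S ϖ) {c : O}
    (hc : c ≠ 0) : ¬ p ∣ algebraMap O S c := by
  obtain ⟨n, u, hu⟩ := IsDiscreteValuationRing.associated_pow_irreducible hc hϖ
  intro hdvd
  have h1 : algebraMap O S c * algebraMap O S (u : O) = algebraMap O S ϖ ^ n := by
    rw [← map_mul, hu, map_pow]
  have h2 : p ∣ algebraMap O S ϖ ^ n := h1 ▸ Dvd.dvd.mul_right hdvd _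
  exact hpπ (hp.dvd_of_dvd_pow h2)

include hϖ in
/-- The place attached to a prime element of `S` not dividing the uniformiser. -/
theorem exists_place_of_prime_of_not_dvd {p : S} (hp : Prime p)
    (hpπ : ¬ p ∣ algebraMap O S ϖ) :
    ∃ v : Place K F, Contains S v ∧ algebraMap S F p ∈ v.toValuationSubring.nonunits := by
  refine exists_place_of_prime hp fun c => ?_
  obtain ⟨x, y, hy, rfl⟩ := IsFractionRing.div_surjective (A := O) c
  have hy0 : y ≠ 0 := nonZeroDivisors.ne_zero hy
  refine ⟨algebraMap O S x, algebraMap O S y, not_dvd_algebraMap_O hϖ hp hpπ hy0, ?_⟩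
  rw [algebraMap_O_F_eq K x, algebraMap_O_F_eq K y, map_div₀]
  have : algebraMap K F (algebraMap O K y) ≠ 0 := (map_ne_zero _).2 (algebraMap_O_K_ne_zero hy0)
  field_simp

/-! #### The centre of a place containing `S` -/

variable {v : Place K F}

include hϖ in
/-- The centre of a place containing `S` is generated by a prime element. -/
theorem exists_centre_generator (hπ : ¬ IsUnit (algebraMap O S ϖ))
    (hPID : IsPrincipalIdealRing (S ⧸ Ideal.span {algebraMap O S ϖ})) (hv : Contains S v) :
    ∃ t : S, Prime t ∧ centreIdeal hv = Ideal.span {t} := by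
  haveI := centreIdeal_isPrime hv
  have hπc : algebraMap O S ϖ ∉ centreIdeal hv := fun h =>
    algebraMap_O_not_mem_nonunits v hϖ.ne_zero ((mem_centreIdeal_iff hv).1 h)
  obtain ⟨t, -, ht⟩ := LocalUFD.isPrincipal_of_prime hπ hPID (centreIdeal hv) hπc
  have ht0 : t ≠ 0 := by
    rintro rfl
    apply centreIdeal_ne_bot hv
    rw [ht]; simp
  refine ⟨t, ?_, ht⟩
  rw [← Ideal.span_singleton_prime ht0, ← ht]
  infer_instance

omit [IsDomain O] [IsDiscreteValuationRing O] [IsFractionRing O K] [Algebra O F]
  [IsScalarTower O K F] [IsDomain S] [IsNoetherianRing S] [IsLocalRing S] [IsFractionRing S F]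
  [Algebra O S] [IsScalarTower O S F] in
/-- Elements of `S` outside the centre are units at `v`. -/
theorem ord_eq_zero_of_not_mem_centre (hv : Contains S v) {s : S} (hs : s ∉ centreIdeal hv) :
    v.ord (algebraMap S F s) = 0 := by
  have hs0 : algebraMap S F s ≠ 0 := fun h => hs (by
    rw [mem_centreIdeal_iff, h]; exact zero_mem_nonunits v)
  have h1 : 0 ≤ v.ord (algebraMap S F s) := (mem_iff_ord_nonneg v hs0).1 (hv s)
  have h2 : ¬ 0 < v.ord (algebraMap S F s) := fun h =>
    hs ((mem_centreIdeal_iff hv).2 ((mem_nonunits_iff_ord_pos v hs0).2 h))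
  omega

omit [IsDomain O] [IsDiscreteValuationRing O] [IsFractionRing O K] [Algebra O F]
  [IsScalarTower O K F] [IsLocalRing S] [Algebra O S] [IsScalarTower O S F] in
/-- The order at `v` of a nonzero element of `S`, in terms of the generator of the centre. -/
theorem ord_eq_mul_of_centre (hv : Contains S v) {t : S} (ht : Prime t)
    (hc : centreIdeal hv = Ideal.span {t}) {s : S} (hs : s ≠ 0) :
    ∃ (m : ℕ) (s' : S), ¬ t ∣ s' ∧ s = t ^ m * s' ∧
      v.ord (algebraMap S F s) = m * v.ord (algebraMap S F t) := by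
  have hinj : Function.Injective (algebraMap S F) := IsFractionRing.injective S F
  obtain ⟨m, s', hnd, hs'⟩ := WfDvdMonoid.max_power_factor' hs ht.not_isUnit
  refine ⟨m, s', hnd, hs', ?_⟩
  have hs'0 : s' ≠ 0 := by rintro rfl; exact hs (by rw [hs', mul_zero])
  have hs'c : s' ∉ centreIdeal hv := by
    rw [hc, Ideal.mem_span_singleton]; exact hnd
  have ht0F : algebraMap S F t ≠ 0 := fun h => ht.ne_zero (hinj (by rw [h, map_zero]))
  have hs'0F : algebraMap S F s' ≠ 0 := fun h => hs'0 (hinj (by rw [h, map_zero]))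
  rw [hs', map_mul, map_pow, v.ord_mul (pow_ne_zero m ht0F) hs'0F,
    ord_eq_zero_of_not_mem_centre hv hs'c, add_zero, ← zpow_natCast, v.ord_zpow]

omit [IsDomain O] [IsDiscreteValuationRing O] [IsFractionRing O K] [Algebra O F]
  [IsScalarTower O K F] [IsLocalRing S] [Algebra O S] [IsScalarTower O S F] in
/-- The generator of the centre is a uniformiser of the place. -/
theorem ord_generator_eq_one (hv : Contains S v) {t : S} (ht : Prime t)
    (hc : centreIdeal hv = Ideal.span {t}) : v.ord (algebraMap S F t) = 1 := by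
  have hinj : Function.Injective (algebraMap S F) := IsFractionRing.injective S F
  have ht0F : algebraMap S F t ≠ 0 := fun h => ht.ne_zero (hinj (by rw [h, map_zero]))
  have htc : t ∈ centreIdeal hv := by rw [hc]; exact Ideal.mem_span_singleton_self t
  have hpos : 0 < v.ord (algebraMap S F t) :=
    (mem_nonunits_iff_ord_pos v ht0F).1 ((mem_centreIdeal_iff hv).1 htc)
  -- a uniformiser of `v` as a fraction
  obtain ⟨π, hπ⟩ := IsDiscreteValuationRing.exists_irreducible v.toValuationSubring
  have hπ1 : v.ord (π : F) = 1 := v.ord_coe_irreducible hπ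
  obtain ⟨a, b, hb, hab⟩ := IsFractionRing.div_surjective (A := S) (π : F)
  have hb0 : b ≠ 0 := nonZeroDivisors.ne_zero hb
  have hb0F : algebraMap S F b ≠ 0 := fun h => hb0 (hinj (by rw [h, map_zero]))
  have ha0 : a ≠ 0 := by
    rintro rfl
    rw [map_zero, zero_div] at hab
    rw [← hab, v.ord_zero] at hπ1
    exact zero_ne_one hπ1
  have ha0F : algebraMap S F a ≠ 0 := fun h => ha0 (hinj (by rw [h, map_zero]))
  obtain ⟨m, a', -, -, hma⟩ := ord_eq_mul_of_centre hv ht hc ha0
  obtain ⟨n, b', -, -, hnb⟩ := ord_eq_mul_of_centre hv ht hc hb0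
  have h1 : v.ord (π : F) = v.ord (algebraMap S F a) - v.ord (algebraMap S F b) := by
    rw [← hab, div_eq_mul_inv, v.ord_mul ha0F (inv_ne_zero hb0F), v.ord_inv]; ring
  rw [hπ1, hma, hnb] at h1
  have h2 : v.ord (algebraMap S F t) ∣ 1 := ⟨(m : ℤ) - n, by rw [h1]; ring⟩
  exact Int.eq_one_of_dvd_one hpos.le h2

omit [IsDomain O] [IsDiscreteValuationRing O] [IsFractionRing O K] [Algebra O F]
  [IsScalarTower O K F] [IsLocalRing S] [Algebra O S] [IsScalarTower O S F] in
/-- Two places containing `S` with the same centre have the same order function. -/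
theorem ord_eq_of_centre_eq {v' : Place K F} (hv : Contains S v) (hv' : Contains S v') {t : S}
    (ht : Prime t) (hc : centreIdeal hv = Ideal.span {t}) (hc' : centreIdeal hv' = Ideal.span {t})
    (x : F) : v.ord x = v'.ord x := by
  have hinj : Function.Injective (algebraMap S F) := IsFractionRing.injective S F
  have key : ∀ s : S, s ≠ 0 → v.ord (algebraMap S F s) = v'.ord (algebraMap S F s) := by
    intro s hs
    obtain ⟨m, s', hnd, hs', -⟩ := ord_eq_mul_of_centre hv ht hc hs
    have hs'0 : s' ≠ 0 := by rintro rfl; exact hs (by rw [hs', mul_zero])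
    have ht0F : algebraMap S F t ≠ 0 := fun h => ht.ne_zero (hinj (by rw [h, map_zero]))
    have hs'0F : algebraMap S F s' ≠ 0 := fun h => hs'0 (hinj (by rw [h, map_zero]))
    have e1 : s' ∉ centreIdeal hv := by rw [hc, Ideal.mem_span_singleton]; exact hnd
    have e2 : s' ∉ centreIdeal hv' := by rw [hc', Ideal.mem_span_singleton]; exact hnd
    rw [hs', map_mul, map_pow, v.ord_mul (pow_ne_zero m ht0F) hs'0F,
      v'.ord_mul (pow_ne_zero m ht0F) hs'0F, ord_eq_zero_of_not_mem_centre hv e1,
      ord_eq_zero_of_not_mem_centre hv' e2, ← zpow_natCast, v.ord_zpow, v'.ord_zpow,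
      ord_generator_eq_one hv ht hc, ord_generator_eq_one hv' ht hc']
  obtain ⟨a, b, hb, rfl⟩ := IsFractionRing.div_surjective (A := S) x
  have hb0 : b ≠ 0 := nonZeroDivisors.ne_zero hb
  have hb0F : algebraMap S F b ≠ 0 := fun h => hb0 (hinj (by rw [h, map_zero]))
  rcases eq_or_ne a 0 with rfl | ha0
  · simp
  have ha0F : algebraMap S F a ≠ 0 := fun h => ha0 (hinj (by rw [h, map_zero]))
  rw [div_eq_mul_inv, v.ord_mul ha0F (inv_ne_zero hb0F), v'.ord_mul ha0F (inv_ne_zero hb0F),
    v.ord_inv, v'.ord_inv, key a ha0, key b hb0]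

omit [IsDomain O] [IsDiscreteValuationRing O] [IsFractionRing O K] [Algebra O F]
  [IsScalarTower O K F] [IsLocalRing S] [Algebra O S] [IsScalarTower O S F] in
/-- A place containing `S` is determined by its centre. -/
theorem eq_of_centre_eq {v' : Place K F} (hv : Contains S v) (hv' : Contains S v') {t : S}
    (ht : Prime t) (hc : centreIdeal hv = Ideal.span {t}) (hc' : centreIdeal hv' = Ideal.span {t}) :
    v = v' := by
  apply Place.ext
  ext x
  rcases eq_or_ne x 0 with rfl | hx
  · exact ⟨fun _ => zero_mem _, fun _ => zero_mem _⟩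
  rw [mem_iff_ord_nonneg v hx, mem_iff_ord_nonneg v' hx, ord_eq_of_centre_eq hv hv' ht hc hc']

omit [IsDomain O] [IsDiscreteValuationRing O] [IsFractionRing O K] [Algebra O F]
  [IsScalarTower O K F] [IsDomain S] [IsNoetherianRing S] [IsLocalRing S] [IsFractionRing S F]
  [Algebra O S] [IsScalarTower O S F] in
/-- Units of `S` are units at every place containing `S`. -/
theorem not_mem_nonunits_of_isUnit (hv : Contains S v) {z : S} (hz : IsUnit z) :
    algebraMap S F z ∉ v.toValuationSubring.nonunits := by
  obtain ⟨u, rfl⟩ := hz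
  intro h
  have h1 := mul_mem_nonunits v (hv ((u⁻¹ : Sˣ) : S)) h
  rw [← map_mul, Units.inv_mul, map_one] at h1
  exact one_not_mem_nonunits v h1

/-! #### Rational places -/

omit [IsDomain O] [IsDiscreteValuationRing O] [IsFractionRing O K] [Algebra O F]
  [IsScalarTower O K F] in
/-- At a place with residue field `K`, every element of the valuation ring is congruent to a
constant. -/
theorem exists_const_of_residueTrivial (hres : ResidueTrivial v) {x : F}
    (hx : x ∈ v.toValuationSubring) :
    ∃ c : K, x - algebraMap K F c ∈ v.toValuationSubring.nonunits := by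
  obtain ⟨c, hc⟩ := hres ⟨x, hx⟩
  refine ⟨c, ?_⟩
  rw [ValuationSubring.mem_nonunits_iff_exists_mem_maximalIdeal]
  exact ⟨v.toValuationSubring.sub_mem hx (v.algebraMap_mem' c), hc⟩

include hϖ in
/-- At a rational place containing `S` the residue constants of elements of `S` lie in `O`. -/
theorem exists_const_mem_O (hπ : ¬ IsUnit (algebraMap O S ϖ)) (hres : ResidueTrivial v)
    (hv : Contains S v) (s : S) :
    ∃ c : O, algebraMap S F s - algebraMap S F (algebraMap O S c) ∈
      v.toValuationSubring.nonunits := by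
  obtain ⟨c, hc⟩ := exists_const_of_residueTrivial hres (hv s)
  -- `c = x / y` with `x, y ∈ O`; either `c ∈ O` or `c⁻¹ ∈ ϖ O`
  by_cases hcO : ∃ c₀ : O, algebraMap O K c₀ = c
  · obtain ⟨c₀, rfl⟩ := hcO
    exact ⟨c₀, by rw [algebraMap_O_F_eq K]; exact hc⟩
  · exfalso
    have hc0 : c ≠ 0 := by
      rintro rfl
      exact hcO ⟨0, map_zero _⟩
    -- `c⁻¹ = ϖ * c'` with `c' ∈ O`
    obtain ⟨c', hc'⟩ : ∃ c' : O, algebraMap O K (ϖ * c') = c⁻¹ := by
      obtain ⟨x, y, hy, hxy⟩ := IsFractionRing.div_surjective (A := O) c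
      have hy0 : y ≠ 0 := nonZeroDivisors.ne_zero hy
      have hx0 : x ≠ 0 := by
        rintro rfl
        rw [map_zero, zero_div] at hxy
        exact hc0 hxy.symm
      obtain ⟨m, u, hu⟩ := IsDiscreteValuationRing.eq_unit_mul_pow_irreducible hx0 hϖ
      obtain ⟨n, w, hw⟩ := IsDiscreteValuationRing.eq_unit_mul_pow_irreducible hy0 hϖ
      have hϖK : algebraMap O K ϖ ≠ 0 := algebraMap_O_K_ne_zero hϖ.ne_zero
      have huK : algebraMap O K (u : O) ≠ 0 := algebraMap_O_K_ne_zero u.ne_zero
      have hwK : algebraMap O K (w : O) ≠ 0 := algebraMap_O_K_ne_zero w.ne_zero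
      by_cases hmn : n ≤ m
      · exfalso
        apply hcO
        refine ⟨(u : O) * ((w⁻¹ : Oˣ) : O) * ϖ ^ (m - n), ?_⟩
        rw [← hxy, hu, hw, eq_div_iff (by
          rw [map_mul, map_pow]; exact mul_ne_zero hwK (pow_ne_zero _ hϖK)), ← map_mul]
        congr 1
        have : ϖ ^ m = ϖ ^ (m - n) * ϖ ^ n := by rw [← pow_add, Nat.sub_add_cancel hmn]
        rw [this]
        have hww : ((w⁻¹ : Oˣ) : O) * (w : O) = 1 := Units.inv_mul w
        linear_combination ((u : O) * ϖ ^ (m - n) * ϖ ^ n) * hww
      · rw [not_le] at hmn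
        refine ⟨(w : O) * ((u⁻¹ : Oˣ) : O) * ϖ ^ (n - m - 1), ?_⟩
        rw [← hxy, hu, hw, inv_div, eq_div_iff (by
          rw [map_mul, map_pow]; exact mul_ne_zero huK (pow_ne_zero _ hϖK)), ← map_mul]
        congr 1
        have : ϖ ^ n = ϖ ^ (n - m - 1) * ϖ * ϖ ^ m := by
          rw [← pow_succ, ← pow_add]; congr 1; omega
        rw [this]
        have huu : ((u⁻¹ : Oˣ) : O) * (u : O) = 1 := Units.inv_mul u
        linear_combination ((w : O) * ϖ ^ (n - m - 1) * ϖ * ϖ ^ m) * huu
    -- then `c⁻¹ s - 1` lies in the maximal ideal of `v` but is a unit of `S`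
    set z : S := algebraMap O S (ϖ * c') * s - 1 with hz
    have hzF : algebraMap S F z =
        algebraMap K F c⁻¹ * (algebraMap S F s - algebraMap K F c) := by
      rw [hz, map_sub, map_mul, map_one, algebraMap_O_F_eq K, hc', mul_sub, ← map_mul,
        inv_mul_cancel₀ hc0, map_one]
    have hzmem : algebraMap S F z ∈ v.toValuationSubring.nonunits := by
      rw [hzF]
      exact mul_mem_nonunits v (v.algebraMap_mem' _) hc
    have hzunit : IsUnit z := by
      have hmem : algebraMap O S (ϖ * c') * s ∈ nonunits S := by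
        rw [← IsLocalRing.mem_maximalIdeal]
        apply Ideal.mul_mem_right
        rw [map_mul]
        apply Ideal.mul_mem_right
        rw [IsLocalRing.mem_maximalIdeal, mem_nonunits_iff]
        exact hπ
      have h1 := IsLocalRing.isUnit_one_sub_self_of_mem_nonunits _ hmem
      have h2 : z = -(1 - algebraMap O S (ϖ * c') * s) := by rw [hz]; ring
      rw [h2]
      exact h1.neg
    exact not_mem_nonunits_of_isUnit hv hzunit hzmem

include hϖ in
/-- **A rational place meets the special fibre transversally**: if `v` is a place with residue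
field `K` containing `S` and `t` generates its centre, then `(t, ϖ)` is the maximal ideal of `S`. -/
theorem span_pair_eq_maximalIdeal (hπ : ¬ IsUnit (algebraMap O S ϖ)) (hres : ResidueTrivial v)
    (hv : Contains S v) {t : S} (ht : Prime t) (hc : centreIdeal hv = Ideal.span {t}) :
    Ideal.span {t, algebraMap O S ϖ} = IsLocalRing.maximalIdeal S := by
  apply le_antisymm
  · rw [Ideal.span_le]
    rintro x (rfl | rfl)
    · exact (IsLocalRing.mem_maximalIdeal _).2 ht.not_isUnit
    · exact (IsLocalRing.mem_maximalIdeal _).2 hπ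
  · intro s hs
    obtain ⟨c, hc'⟩ := exists_const_mem_O hϖ hπ hres hv s
    rw [← map_sub] at hc'
    have h1 : s - algebraMap O S c ∈ Ideal.span {t} := by
      rw [← hc]; exact (mem_centreIdeal_iff hv).2 hc'
    have htm : Ideal.span {t} ≤ IsLocalRing.maximalIdeal S := by
      rw [Ideal.span_le, Set.singleton_subset_iff]
      exact (IsLocalRing.mem_maximalIdeal _).2 ht.not_isUnit
    have h2 : algebraMap O S c ∈ IsLocalRing.maximalIdeal S := by
      have := (IsLocalRing.maximalIdeal S).sub_mem hs (htm h1)
      rwa [sub_sub_cancel] at this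
    have h3 : ¬ IsUnit c := fun hu => (IsLocalRing.mem_maximalIdeal _).1 h2 (hu.map _)
    have h4 : c ∈ IsLocalRing.maximalIdeal O := (IsLocalRing.mem_maximalIdeal _).2 h3
    rw [hϖ.maximalIdeal_eq, Ideal.mem_span_singleton] at h4
    obtain ⟨c'', rfl⟩ := h4
    have h5 : s = (s - algebraMap O S (ϖ * c'')) + algebraMap O S (ϖ * c'') := by ring
    rw [h5]
    refine Ideal.add_mem _ ?_ ?_
    · exact Ideal.span_mono (by simp) h1
    · rw [map_mul]
      exact Ideal.mul_mem_right _ _ (Ideal.subset_span (by simp))

omit [IsDomain O] [IsDiscreteValuationRing O] [IsFractionRing O K] [Algebra O F]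
  [IsScalarTower O K F] [IsNoetherianRing S] [IsLocalRing S] [Algebra O S] [IsScalarTower O S F] in
theorem ord_nonneg_of_contains (hv : Contains S v) {s : S} (hs : s ≠ 0) :
    0 ≤ v.ord (algebraMap S F s) := by
  have hinj : Function.Injective (algebraMap S F) := IsFractionRing.injective S F
  exact (mem_iff_ord_nonneg v fun h => hs (hinj (by rw [h, map_zero]))).1 (hv s)

include hϖ in
/-- A place containing `S` at which the prime element `p` vanishes has centre `(p)`. -/
theorem centreIdeal_eq_span_of_mem (hπ : ¬ IsUnit (algebraMap O S ϖ))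
    (hPID : IsPrincipalIdealRing (S ⧸ Ideal.span {algebraMap O S ϖ})) (hv : Contains S v) {p : S}
    (hp : Prime p) (hpv : algebraMap S F p ∈ v.toValuationSubring.nonunits) :
    centreIdeal hv = Ideal.span {p} := by
  obtain ⟨t, ht, hc⟩ := exists_centre_generator hϖ hπ hPID hv
  have h1 : p ∈ Ideal.span {t} := by rw [← hc]; exact (mem_centreIdeal_iff hv).2 hpv
  rw [Ideal.mem_span_singleton] at h1
  have h2 : Associated t p := (ht.dvd_prime_iff_associated hp).1 h1
  rw [hc, Ideal.span_singleton_eq_span_singleton]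
  exact h2

/-! #### The special fibre -/

variable {k' F' : Type*} [Field k'] [Field F'] [Algebra k' F'] {Q : Place k' F'}
  {ρ : S →+* Q.toValuationSubring}

omit [IsDomain O] [IsDiscreteValuationRing O] [IsFractionRing O K] [Algebra O F]
  [IsScalarTower O K F] [IsDomain S] [IsNoetherianRing S] [Algebra S F] [IsFractionRing S F]
  [IsScalarTower O S F] [Field K] [Algebra K F] in
/-- The reduction map sends the maximal ideal onto the maximal ideal. -/
theorem map_maximalIdeal_eq (hsurj : Function.Surjective ρ) :
    (IsLocalRing.maximalIdeal S).map ρ = IsLocalRing.maximalIdeal Q.toValuationSubring := by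
  rcases Ideal.map_eq_top_or_isMaximal_of_surjective ρ hsurj
    (IsLocalRing.maximalIdeal.isMaximal S) with h | h
  · exfalso
    have h1 : (1 : Q.toValuationSubring) ∈ (IsLocalRing.maximalIdeal S).map ρ := by
      rw [h]; trivial
    rw [Ideal.mem_map_iff_of_surjective ρ hsurj] at h1
    obtain ⟨s, hs, hs1⟩ := h1
    -- `ρ s = 1` is a unit, so `s` is a unit as `ρ` is a local homomorphism
    have hloc : IsLocalHom ρ := hsurj.isLocalHom ρ
    have : IsUnit s := by
      apply hloc.map_nonunit
      rw [hs1]; exact isUnit_one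
    exact (IsLocalRing.mem_maximalIdeal _).1 hs this
  · exact IsLocalRing.eq_maximalIdeal h

omit [IsDomain O] [IsDiscreteValuationRing O] [IsFractionRing O K] [Algebra O F]
  [IsScalarTower O K F] [IsDomain S] [IsNoetherianRing S] [Algebra S F] [IsFractionRing S F]
  [IsScalarTower O S F] [Field K] [Algebra K F] in
/-- If `(t, ϖ)` is the maximal ideal of `S`, the reduction of `t` is a uniformiser at `Q`. -/
theorem ord_rho_eq_one (hsurj : Function.Surjective ρ)
    (hker : RingHom.ker ρ = Ideal.span {algebraMap O S ϖ}) {t : S}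
    (ht : Ideal.span {t, algebraMap O S ϖ} = IsLocalRing.maximalIdeal S) :
    Q.ord ((ρ t : Q.toValuationSubring) : F') = 1 := by
  have hπ0 : ρ (algebraMap O S ϖ) = 0 := by
    rw [← RingHom.mem_ker, hker]; exact Ideal.mem_span_singleton_self _
  have h1 : IsLocalRing.maximalIdeal Q.toValuationSubring = Ideal.span {ρ t} := by
    rw [← map_maximalIdeal_eq hsurj, ← ht, Ideal.map_span, Set.image_pair, hπ0]
    apply le_antisymm
    · rw [Ideal.span_le]
      rintro x (rfl | rfl)
      · exact Ideal.mem_span_singleton_self _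
      · exact Ideal.zero_mem _
    · exact Ideal.span_mono (by simp)
  have hirr : Irreducible (ρ t) :=
    (IsDiscreteValuationRing.irreducible_iff_uniformizer _).2 h1
  exact Q.ord_coe_irreducible hirr

omit [IsDomain O] [IsDiscreteValuationRing O] [IsFractionRing O K] [Algebra O F]
  [IsScalarTower O K F] [IsDomain S] [IsNoetherianRing S] [Algebra S F] [IsFractionRing S F]
  [IsScalarTower O S F] [Field K] [Algebra K F] [IsLocalRing S] [Algebra O S] in
theorem ord_rho_unit {u : S} (hu : IsUnit u) : Q.ord ((ρ u : Q.toValuationSubring) : F') = 0 := by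
  obtain ⟨w, hw⟩ := hu.map ρ
  rw [← hw]
  exact Q.ord_coe_unit w

omit [IsDomain O] [IsDiscreteValuationRing O] [IsFractionRing O K] [Algebra O F]
  [IsScalarTower O K F] [IsDomain S] [IsNoetherianRing S] [Algebra S F] [IsFractionRing S F]
  [IsScalarTower O S F] [Field K] [Algebra K F] [IsLocalRing S] in
theorem rho_ne_zero_iff (hker : RingHom.ker ρ = Ideal.span {algebraMap O S ϖ}) {s : S} :
    ((ρ s : Q.toValuationSubring) : F') ≠ 0 ↔ ¬ algebraMap O S ϖ ∣ s := by
  rw [← Ideal.mem_span_singleton, ← hker, RingHom.mem_ker, not_iff_not]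
  exact ⟨fun h => Subtype.ext h, fun h => by rw [h]; rfl⟩

include hϖ in
/-- **Local multiplicity, single element.**  For `s ∈ S` prime to `ϖ` all of whose zeros on the
generic fibre (places containing `S`) are rational, the order of the reduction of `s` at the closed
point is the sum of the orders of `s` at these places. -/
theorem exists_finset_ord_eq (hsurj : Function.Surjective ρ)
    (hker : RingHom.ker ρ = Ideal.span {algebraMap O S ϖ}) (s : S) :
    s ≠ 0 → ¬ algebraMap O S ϖ ∣ s →
    (∀ v : Place K F, Contains S v → v.ord (algebraMap S F s) ≠ 0 → ResidueTrivial v) →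
    ∃ T : Finset (Place K F), (∀ v, v ∈ T ↔ Contains S v ∧ v.ord (algebraMap S F s) ≠ 0) ∧
      Q.ord ((ρ s : Q.toValuationSubring) : F') = ∑ v ∈ T, v.ord (algebraMap S F s) := by
  classical
  have hinj : Function.Injective (algebraMap S F) := IsFractionRing.injective S F
  -- the standing hypotheses of `LocalUFD`
  have hπ0 : algebraMap O S ϖ ≠ 0 := fun h =>
    hϖ.ne_zero (algebraMap_O_S_injective K F (by rw [h, map_zero]))
  have hπprime : Prime (algebraMap O S ϖ) := by
    have : (RingHom.ker ρ).IsPrime := RingHom.ker_isPrime ρ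
    rw [hker] at this
    exact (Ideal.span_singleton_prime hπ0).1 this
  have hπnu : ¬ IsUnit (algebraMap O S ϖ) := hπprime.not_isUnit
  have hPID : IsPrincipalIdealRing (S ⧸ Ideal.span {algebraMap O S ϖ}) := by
    have e := (Ideal.quotEquivOfEq hker).symm.trans (RingHom.quotientKerEquivOfSurjective hsurj)
    exact IsPrincipalIdealRing.of_surjective e.symm.toRingHom e.symm.surjective
  haveI : UniqueFactorizationMonoid S := LocalUFD.uniqueFactorizationMonoid hπprime hPID
  induction s using UniqueFactorizationMonoid.induction_on_prime with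
  | h₁ => intro h; exact absurd rfl h
  | h₂ u hu =>
    intro _ _ _
    refine ⟨∅, fun v => ?_, ?_⟩
    · simp only [Finset.notMem_empty, false_iff, not_and, not_not]
      intro hv
      have h1 := not_mem_nonunits_of_isUnit hv hu
      have h0 : algebraMap S F u ≠ 0 := fun h => h1 (h ▸ zero_mem_nonunits v)
      have h2 := (mem_iff_ord_nonneg v h0).1 (hv u)
      have h3 : ¬ 0 < v.ord (algebraMap S F u) := fun h =>
        h1 ((mem_nonunits_iff_ord_pos v h0).2 h)
      omega
    · rw [Finset.sum_empty]
      exact ord_rho_unit hu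
  | h₃ a p ha0 hp ih =>
    intro _ hsπ hrat
    have hpπ : ¬ algebraMap O S ϖ ∣ p := fun h => hsπ (Dvd.dvd.mul_right h a)
    have haπ : ¬ algebraMap O S ϖ ∣ a := fun h => hsπ (Dvd.dvd.mul_left h p)
    have hpπ' : ¬ p ∣ algebraMap O S ϖ := fun h =>
      hpπ ((hp.dvd_prime_iff_associated hπprime).1 h).symm.dvd
    have hp0F : algebraMap S F p ≠ 0 := fun h => hp.ne_zero (hinj (by rw [h, map_zero]))
    have ha0F : algebraMap S F a ≠ 0 := fun h => ha0 (hinj (by rw [h, map_zero]))
    have hmul : ∀ v : Place K F, v.ord (algebraMap S F (p * a)) =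
        v.ord (algebraMap S F p) + v.ord (algebraMap S F a) := fun v => by
      rw [map_mul, v.ord_mul hp0F ha0F]
    -- the place of `p`
    obtain ⟨vp, hvp, hpvp⟩ := exists_place_of_prime_of_not_dvd (K := K) (F := F) hϖ hp hpπ'
    have hcp : centreIdeal hvp = Ideal.span {p} :=
      centreIdeal_eq_span_of_mem hϖ hπnu hPID hvp hp hpvp
    have hordp : vp.ord (algebraMap S F p) = 1 := ord_generator_eq_one hvp hp hcp
    -- `vp` is the only place containing `S` at which `p` vanishes
    have huniq : ∀ v : Place K F, Contains S v → v.ord (algebraMap S F p) ≠ 0 → v = vp := by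
      intro v hv hne
      have hpos : 0 < v.ord (algebraMap S F p) :=
        lt_of_le_of_ne (ord_nonneg_of_contains hv hp.ne_zero) (Ne.symm hne)
      have hpv : algebraMap S F p ∈ v.toValuationSubring.nonunits :=
        (mem_nonunits_iff_ord_pos v hp0F).2 hpos
      exact eq_of_centre_eq hv hvp hp (centreIdeal_eq_span_of_mem hϖ hπnu hPID hv hp hpv) hcp
    -- rationality of `vp`
    have hvprat : ResidueTrivial vp := by
      apply hrat vp hvp
      rw [hmul, hordp]
      have := ord_nonneg_of_contains hvp ha0
      omega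
    have hρp : Q.ord ((ρ p : Q.toValuationSubring) : F') = 1 :=
      ord_rho_eq_one hsurj hker (span_pair_eq_maximalIdeal hϖ hπnu hvprat hvp hp hcp)
    -- induction hypothesis
    obtain ⟨T₁, hT₁, hsum₁⟩ := ih ha0 haπ (fun v hv hne => hrat v hv (by
      rw [hmul]
      have h1 := ord_nonneg_of_contains hv hp.ne_zero
      have h2 := ord_nonneg_of_contains hv ha0
      omega))
    refine ⟨insert vp T₁, fun v => ?_, ?_⟩
    · rw [Finset.mem_insert, hT₁, hmul]
      constructor
      · rintro (rfl | ⟨hv, hne⟩)
        · refine ⟨hvp, ?_⟩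
          rw [hordp]
          have := ord_nonneg_of_contains hvp ha0
          omega
        · refine ⟨hv, ?_⟩
          have h1 := ord_nonneg_of_contains hv hp.ne_zero
          have h2 := ord_nonneg_of_contains hv ha0
          omega
      · rintro ⟨hv, hne⟩
        by_cases hpv : v.ord (algebraMap S F p) = 0
        · right
          exact ⟨hv, by rw [hpv, zero_add] at hne; exact hne⟩
        · left
          exact huniq v hv hpv
    · have hρ : ((ρ (p * a) : Q.toValuationSubring) : F') =
          ((ρ p : Q.toValuationSubring) : F') * ((ρ a : Q.toValuationSubring) : F') := by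
        rw [map_mul]; rfl
      rw [hρ, Q.ord_mul ((rho_ne_zero_iff hker).2 hpπ) ((rho_ne_zero_iff hker).2 haπ), hρp, hsum₁]
      simp_rw [hmul]
      rw [Finset.sum_add_distrib]
      congr 1
      · -- the sum of the orders of `p`
        rw [Finset.sum_eq_single_of_mem vp (Finset.mem_insert_self _ _), hordp]
        intro v hvT hne
        by_contra h0
        rcases Finset.mem_insert.1 hvT with h | h
        · exact hne h
        · exact hne (huniq v ((hT₁ v).1 h).1 h0)
      · -- the sum of the orders of `a`
        apply Finset.sum_subset (Finset.subset_insert _ _)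
        intro v hvT hvT₁
        rcases Finset.mem_insert.1 hvT with rfl | h
        · by_contra h0
          exact hvT₁ ((hT₁ v).2 ⟨hvp, h0⟩)
        · exact absurd h hvT₁

include hϖ in
/-- **Local multiplicity, fractions.**  For `a, b ∈ S` prime to `ϖ` such that all zeros and poles
of `y = a / b` among the places containing `S` are rational, the order of the reduction `ā / b̄`
at the closed point is the sum of the orders of `y` at these places. -/
theorem exists_finset_ord_div_eq (hsurj : Function.Surjective ρ)
    (hker : RingHom.ker ρ = Ideal.span {algebraMap O S ϖ}) (a b : S)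
    (ha : ¬ algebraMap O S ϖ ∣ a) (hb : ¬ algebraMap O S ϖ ∣ b)
    (hrat : ∀ v : Place K F, Contains S v →
      v.ord (algebraMap S F a / algebraMap S F b) ≠ 0 → ResidueTrivial v) :
    ∃ T : Finset (Place K F),
      (∀ v, v ∈ T ↔ Contains S v ∧ v.ord (algebraMap S F a / algebraMap S F b) ≠ 0) ∧
      Q.ord (((ρ a : Q.toValuationSubring) : F') / ((ρ b : Q.toValuationSubring) : F')) =
        ∑ v ∈ T, v.ord (algebraMap S F a / algebraMap S F b) := by
  classical
  have hinj : Function.Injective (algebraMap S F) := IsFractionRing.injective S F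
  have hπ0 : algebraMap O S ϖ ≠ 0 := fun h =>
    hϖ.ne_zero (algebraMap_O_S_injective K F (by rw [h, map_zero]))
  have hπprime : Prime (algebraMap O S ϖ) := by
    have : (RingHom.ker ρ).IsPrime := RingHom.ker_isPrime ρ
    rw [hker] at this
    exact (Ideal.span_singleton_prime hπ0).1 this
  have hπnu : ¬ IsUnit (algebraMap O S ϖ) := hπprime.not_isUnit
  have hPID : IsPrincipalIdealRing (S ⧸ Ideal.span {algebraMap O S ϖ}) := by
    have e := (Ideal.quotEquivOfEq hker).symm.trans (RingHom.quotientKerEquivOfSurjective hsurj)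
    exact IsPrincipalIdealRing.of_surjective e.symm.toRingHom e.symm.surjective
  haveI : UniqueFactorizationMonoid S := LocalUFD.uniqueFactorizationMonoid hπprime hPID
  have ha0 : a ≠ 0 := fun h => ha (h ▸ dvd_zero _)
  have hb0 : b ≠ 0 := fun h => hb (h ▸ dvd_zero _)
  have hb0F : algebraMap S F b ≠ 0 := fun h => hb0 (hinj (by rw [h, map_zero]))
  -- reduced fraction
  obtain ⟨a', ⟨b', hb'mem⟩, hrel, hab⟩ :=
    IsFractionRing.exists_reduced_fraction (A := S) (algebraMap S F a / algebraMap S F b)
  have hb'0 : b' ≠ 0 := nonZeroDivisors.ne_zero hb'mem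
  have hb'0F : algebraMap S F b' ≠ 0 := fun h => hb'0 (hinj (by rw [h, map_zero]))
  have hfrac : algebraMap S F a / algebraMap S F b = algebraMap S F a' / algebraMap S F b' := by
    rw [← hab, IsFractionRing.mk'_eq_div]
  have hcross : a * b' = a' * b := by
    apply hinj
    rw [map_mul, map_mul]
    rw [div_eq_div_iff hb0F hb'0F] at hfrac
    exact hfrac
  have ha'0 : a' ≠ 0 := by
    rintro rfl
    rw [zero_mul] at hcross
    exact (mul_ne_zero ha0 hb'0) hcross
  have ha'0F : algebraMap S F a' ≠ 0 := fun h => ha'0 (hinj (by rw [h, map_zero]))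
  have ha'π : ¬ algebraMap O S ϖ ∣ a' := by
    intro h
    have h1 : algebraMap O S ϖ ∣ a * b' := hcross ▸ Dvd.dvd.mul_right h b
    rcases hπprime.dvd_or_dvd h1 with h2 | h2
    · exact ha h2
    · exact hπnu (hrel h h2)
  have hb'π : ¬ algebraMap O S ϖ ∣ b' := by
    intro h
    have h1 : algebraMap O S ϖ ∣ a' * b := hcross ▸ Dvd.dvd.mul_left h a
    rcases hπprime.dvd_or_dvd h1 with h2 | h2
    · exact hπnu (hrel h2 h)
    · exact hb h2
  -- at a place containing `S`, `a'` and `b'` do not vanish simultaneously
  have hnotboth : ∀ v : Place K F, Contains S v → v.ord (algebraMap S F a') ≠ 0 →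
      v.ord (algebraMap S F b') ≠ 0 → False := by
    intro v hv h1 h2
    obtain ⟨t, ht, hc⟩ := exists_centre_generator hϖ hπnu hPID hv
    have hmem : ∀ s : S, s ≠ 0 → v.ord (algebraMap S F s) ≠ 0 → t ∣ s := by
      intro s hs hne
      have hs0F : algebraMap S F s ≠ 0 := fun h => hs (hinj (by rw [h, map_zero]))
      have hpos : 0 < v.ord (algebraMap S F s) :=
        lt_of_le_of_ne (ord_nonneg_of_contains hv hs) (Ne.symm hne)
      have : s ∈ centreIdeal hv :=
        (mem_centreIdeal_iff hv).2 ((mem_nonunits_iff_ord_pos v hs0F).2 hpos)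
      rwa [hc, Ideal.mem_span_singleton] at this
    exact ht.not_isUnit (hrel (hmem a' ha'0 h1) (hmem b' hb'0 h2))
  have hord : ∀ v : Place K F, v.ord (algebraMap S F a / algebraMap S F b) =
      v.ord (algebraMap S F a') - v.ord (algebraMap S F b') := fun v => by
    rw [hfrac, div_eq_mul_inv, v.ord_mul ha'0F (inv_ne_zero hb'0F), v.ord_inv]; ring
  obtain ⟨Ta, hTa, hsa⟩ := exists_finset_ord_eq (Q := Q) hϖ hsurj hker a' ha'0 ha'π (by
    intro v hv hne
    apply hrat v hv
    rw [hord]
    have hz : v.ord (algebraMap S F b') = 0 := by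
      by_contra h2
      exact hnotboth v hv hne h2
    rw [hz, sub_zero]
    exact hne)
  obtain ⟨Tb, hTb, hsb⟩ := exists_finset_ord_eq (Q := Q) hϖ hsurj hker b' hb'0 hb'π (by
    intro v hv hne
    apply hrat v hv
    rw [hord]
    have hz : v.ord (algebraMap S F a') = 0 := by
      by_contra h2
      exact hnotboth v hv h2 hne
    rw [hz, zero_sub, neg_ne_zero]
    exact hne)
  refine ⟨Ta ∪ Tb, fun v => ?_, ?_⟩
  · rw [Finset.mem_union, hTa, hTb, hord]
    constructor
    · rintro (⟨hv, hne⟩ | ⟨hv, hne⟩)
      · refine ⟨hv, ?_⟩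
        have hz : v.ord (algebraMap S F b') = 0 := by
          by_contra h2
          exact hnotboth v hv hne h2
        rw [hz, sub_zero]; exact hne
      · refine ⟨hv, ?_⟩
        have hz : v.ord (algebraMap S F a') = 0 := by
          by_contra h2
          exact hnotboth v hv h2 hne
        rw [hz, zero_sub, neg_ne_zero]; exact hne
    · rintro ⟨hv, hne⟩
      by_cases h1 : v.ord (algebraMap S F a') = 0
      · right
        refine ⟨hv, fun h2 => hne ?_⟩
        rw [h1, h2, sub_zero]
      · left
        exact ⟨hv, h1⟩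
  · -- the special fibre side
    have hρcross : ((ρ a : Q.toValuationSubring) : F') * ((ρ b' : Q.toValuationSubring) : F') =
        ((ρ a' : Q.toValuationSubring) : F') * ((ρ b : Q.toValuationSubring) : F') := by
      have := congrArg (fun x : Q.toValuationSubring => (x : F')) (congrArg ρ hcross)
      simpa only [map_mul, MulMemClass.coe_mul] using this
    have hρb : ((ρ b : Q.toValuationSubring) : F') ≠ 0 := (rho_ne_zero_iff hker).2 hb
    have hρb' : ((ρ b' : Q.toValuationSubring) : F') ≠ 0 := (rho_ne_zero_iff hker).2 hb'π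
    have hρa' : ((ρ a' : Q.toValuationSubring) : F') ≠ 0 := (rho_ne_zero_iff hker).2 ha'π
    have hρfrac : ((ρ a : Q.toValuationSubring) : F') / ((ρ b : Q.toValuationSubring) : F') =
        ((ρ a' : Q.toValuationSubring) : F') / ((ρ b' : Q.toValuationSubring) : F') := by
      rw [div_eq_div_iff hρb hρb']
      exact hρcross
    rw [hρfrac, div_eq_mul_inv, Q.ord_mul hρa' (inv_ne_zero hρb'), Q.ord_inv, hsa, hsb]
    simp_rw [hord]
    rw [Finset.sum_sub_distrib, ← sub_eq_add_neg]
    congr 1
    · apply Finset.sum_subset Finset.subset_union_left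
      intro v hvT hvTa
      by_contra h0
      rcases Finset.mem_union.1 hvT with h | h
      · exact hvTa h
      · exact hvTa ((hTa v).2 ⟨((hTb v).1 h).1, h0⟩)
    · apply Finset.sum_subset Finset.subset_union_right
      intro v hvT hvTb
      by_contra h0
      rcases Finset.mem_union.1 hvT with h | h
      · exact hvTb ((hTb v).2 ⟨((hTa v).1 h).1, h0⟩)
      · exact hvTb h

end Layer1


/-! ### Layer 2: a chart `R` over `O`, its reduction `ρ`, and a closed point `Q` -/

section LocalPID

variable {T : Type*} [CommRing T] [IsDomain T] [IsLocalRing T] [IsPrincipalIdealRing T]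

/-- In a local principal ideal domain, a fraction can be reduced so that the numerator or the
denominator is a unit. -/
theorem exists_reduced_pair (x y : T) (hy : y ≠ 0) :
    ∃ d x₁ y₁ : T, x = d * x₁ ∧ y = d * y₁ ∧ (IsUnit x₁ ∨ IsUnit y₁) := by
  obtain ⟨d, hd⟩ := (IsPrincipalIdealRing.principal (Ideal.span {x, y})).principal
  have hd' : Ideal.span {x, y} = Ideal.span {d} := hd
  have hx : x ∈ Ideal.span {d} := hd' ▸ Ideal.subset_span (by simp)
  have hy' : y ∈ Ideal.span {d} := hd' ▸ Ideal.subset_span (by simp)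
  obtain ⟨x₁, hx₁⟩ := Ideal.mem_span_singleton'.1 hx
  obtain ⟨y₁, hy₁⟩ := Ideal.mem_span_singleton'.1 hy'
  have hdm : d ∈ Ideal.span {x, y} := hd' ▸ Ideal.mem_span_singleton_self d
  obtain ⟨u, w, huw⟩ := Ideal.mem_span_pair.1 hdm
  have hd0 : d ≠ 0 := by
    rintro rfl
    rw [mul_zero] at hy₁
    exact hy hy₁.symm
  have h1 : u * x₁ + w * y₁ = 1 := by
    apply mul_left_cancel₀ hd0
    rw [mul_one]
    calc d * (u * x₁ + w * y₁) = u * (x₁ * d) + w * (y₁ * d) := by ring
      _ = d := by rw [hx₁, hy₁, huw]
  refine ⟨d, x₁, y₁, by rw [← hx₁, mul_comm], by rw [← hy₁, mul_comm], ?_⟩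
  rcases IsLocalRing.isUnit_or_isUnit_of_add_one h1 with h | h
  · exact Or.inl (isUnit_of_mul_isUnit_right h)
  · exact Or.inr (isUnit_of_mul_isUnit_right h)

end LocalPID

section Layer2

variable {O K F R k' F' : Type*}
  [CommRing O] [IsDomain O] [IsDiscreteValuationRing O]
  [Field K] [Algebra O K] [IsFractionRing O K]
  [Field F] [Algebra K F] [Algebra O F] [IsScalarTower O K F]
  [CommRing R] [IsDomain R] [IsNoetherianRing R] [Algebra R F] [IsFractionRing R F]
  [Algebra O R] [IsScalarTower O R F]
  [Field k'] [Field F'] [Algebra k' F']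

variable (ρ : R →+* F') (Q : Place k' F') (hQ : ∀ r, ρ r ∈ Q.toValuationSubring)

/-- The reduction map, with values in the valuation ring of `Q`. -/
def rhoQ : R →+* Q.toValuationSubring := ρ.codRestrict Q.toValuationSubring hQ

omit [IsDomain R] [IsNoetherianRing R] in
@[simp] theorem coe_rhoQ (r : R) : ((rhoQ ρ Q hQ r : Q.toValuationSubring) : F') = ρ r := rfl

/-- The closed point of the chart attached to `Q`: the ideal `ρ⁻¹(𝔪_Q)`. -/
def closedPoint : Ideal R := (IsLocalRing.maximalIdeal Q.toValuationSubring).comap (rhoQ ρ Q hQ)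

omit [IsDomain R] [IsNoetherianRing R] in
theorem mem_closedPoint_iff {r : R} :
    r ∈ closedPoint ρ Q hQ ↔ ρ r ∈ Q.toValuationSubring.nonunits := by
  rw [closedPoint, Ideal.mem_comap, ValuationSubring.mem_nonunits_iff_exists_mem_maximalIdeal]
  exact ⟨fun h => ⟨hQ r, h⟩, fun ⟨_, h⟩ => h⟩

instance closedPoint_isPrime : (closedPoint ρ Q hQ).IsPrime := Ideal.comap_isPrime _ _

variable {ϖ : O}

omit [IsDomain R] [IsNoetherianRing R] in
/-- There is an element of the closed point with nonzero reduction. -/
theorem exists_mem_closedPoint_rho_ne_zero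
    (hfrac : ∀ z : F', ∃ a b : R, ρ b ≠ 0 ∧ z * ρ b = ρ a) :
    ∃ a : R, a ∈ closedPoint ρ Q hQ ∧ ρ a ≠ 0 := by
  obtain ⟨τ, hτ⟩ := IsDiscreteValuationRing.exists_irreducible Q.toValuationSubring
  have hτ0 : (τ : F') ≠ 0 := fun h => hτ.ne_zero (Subtype.ext h)
  have hτm : (τ : F') ∈ Q.toValuationSubring.nonunits := by
    rw [ValuationSubring.mem_nonunits_iff_exists_mem_maximalIdeal]
    exact ⟨τ.2, (IsLocalRing.mem_maximalIdeal _).2 hτ.not_isUnit⟩
  obtain ⟨a, b, hb, hab⟩ := hfrac (τ : F')
  refine ⟨a, ?_, ?_⟩
  · rw [mem_closedPoint_iff, ← hab, mul_comm]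
    exact mul_mem_nonunits Q (hQ b) hτm
  · rw [← hab]
    exact mul_ne_zero hτ0 hb

omit [IsNoetherianRing R] in
/-- The closed point is a maximal ideal and the special fibre is not a field. -/
theorem closedPoint_isMaximal
    (hD : IsDedekindDomain (R ⧸ Ideal.span {algebraMap O R ϖ}))
    (hker : RingHom.ker ρ = Ideal.span {algebraMap O R ϖ})
    (hfrac : ∀ z : F', ∃ a b : R, ρ b ≠ 0 ∧ z * ρ b = ρ a) :
    (closedPoint ρ Q hQ).IsMaximal ∧ ¬ IsField (R ⧸ Ideal.span {algebraMap O R ϖ}) := by
  set I : Ideal R := Ideal.span {algebraMap O R ϖ} with hI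
  set 𝔫 := closedPoint ρ Q hQ with h𝔫
  haveI := hD
  have hI𝔫 : I ≤ 𝔫 := by
    intro r hr
    rw [← hker, RingHom.mem_ker] at hr
    rw [h𝔫, mem_closedPoint_iff, hr]
    exact zero_mem_nonunits Q
  obtain ⟨a, ha𝔫, haρ⟩ := exists_mem_closedPoint_rho_ne_zero ρ Q hQ hfrac
  have haI : a ∉ I := by
    rw [← hker, RingHom.mem_ker]; exact haρ
  have hmk : Function.Surjective (Ideal.Quotient.mk I) := Ideal.Quotient.mk_surjective
  have hkerle : RingHom.ker (Ideal.Quotient.mk I) ≤ 𝔫 := by rw [Ideal.mk_ker]; exact hI𝔫
  have hprime : (𝔫.map (Ideal.Quotient.mk I)).IsPrime :=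
    Ideal.map_isPrime_of_surjective hmk hkerle
  have hne : 𝔫.map (Ideal.Quotient.mk I) ≠ ⊥ := by
    intro h
    have h1 : Ideal.Quotient.mk I a ∈ 𝔫.map (Ideal.Quotient.mk I) := Ideal.mem_map_of_mem _ ha𝔫
    rw [h, Ideal.mem_bot, Ideal.Quotient.eq_zero_iff_mem] at h1
    exact haI h1
  have hmax : (𝔫.map (Ideal.Quotient.mk I)).IsMaximal := hprime.isMaximal hne
  have hcomap : (𝔫.map (Ideal.Quotient.mk I)).comap (Ideal.Quotient.mk I) = 𝔫 := by
    rw [Ideal.comap_map_of_surjective _ hmk, ← RingHom.ker_eq_comap_bot]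
    exact sup_eq_left.2 hkerle
  refine ⟨?_, ?_⟩
  · rw [← hcomap]
    exact Ideal.comap_isMaximal_of_surjective _ hmk
  · exact Ring.not_isField_iff_exists_ideal_bot_lt_and_lt_top.2
      ⟨_, bot_lt_iff_ne_bot.2 hne, lt_top_iff_ne_top.2 hmax.ne_top⟩

/-- **The data of node C4**: a chart `R` over the discrete valuation ring `O` (uniformiser `ϖ`), its
reduction `ρ : R → F'` with kernel `ϖ R` and Dedekind special fibre `R / ϖ` whose fraction field is
`F'`, and a place `Q` of `F'` containing the reduced chart. -/
structure ChartData (ϖ : O) (ρ : R →+* F') (Q : Place k' F') : Prop where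
  irreducible : Irreducible ϖ
  dedekind : IsDedekindDomain (R ⧸ Ideal.span {algebraMap O R ϖ})
  ker_eq : RingHom.ker ρ = Ideal.span {algebraMap O R ϖ}
  frac : ∀ z : F', ∃ a b : R, ρ b ≠ 0 ∧ z * ρ b = ρ a
  mem : ∀ r, ρ r ∈ Q.toValuationSubring

namespace ChartData

variable {ρ Q} (h : ChartData ϖ ρ Q)

/-- The closed point `𝔫 = ρ⁻¹(𝔪_Q)`. -/
abbrev pt : Ideal R := closedPoint ρ Q h.mem

include h in
theorem pt_isMaximal : h.pt.IsMaximal :=
  (closedPoint_isMaximal ρ Q h.mem h.dedekind h.ker_eq h.frac).1

include h in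
theorem not_isField : ¬ IsField (R ⧸ Ideal.span {algebraMap O R ϖ}) :=
  (closedPoint_isMaximal ρ Q h.mem h.dedekind h.ker_eq h.frac).2

variable (F) in
/-- The local ring `S = R_𝔫 ⊆ F` of the chart at the closed point. -/
noncomputable abbrev locRing : Subalgebra R F := Globalize.locAt (F := F) h.pt

instance : IsLocalRing (h.locRing F) := Globalize.isLocalRing_locAt _
instance : IsNoetherianRing (h.locRing F) := Globalize.isNoetherianRing_locAt _

instance : IsScalarTower O (h.locRing F) F := IsScalarTower.of_algebraMap_eq fun _ => rfl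

omit [IsNoetherianRing R] in
theorem algebraMap_locRing (c : O) :
    algebraMap O (h.locRing F) c = algebraMap R (h.locRing F) (algebraMap O R c) := by
  apply Subtype.ext
  show algebraMap O F c = algebraMap R F (algebraMap O R c)
  exact IsScalarTower.algebraMap_apply O R F c

/-- Elements outside the closed point have unit reduction. -/
theorem isUnit_rhoQ (y : h.pt.primeCompl) : IsUnit (rhoQ ρ Q h.mem y) := by
  have hy : (y : R) ∉ h.pt := y.2
  unfold pt closedPoint at hy
  rw [Ideal.mem_comap, IsLocalRing.mem_maximalIdeal, mem_nonunits_iff, not_not] at hy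
  exact hy

variable (F) in
/-- The reduction map on the local ring `S`. -/
noncomputable def rhoS : h.locRing F →+* Q.toValuationSubring :=
  IsLocalization.lift (M := h.pt.primeCompl) (g := rhoQ ρ Q h.mem) h.isUnit_rhoQ

theorem rhoS_algebraMap (r : R) : h.rhoS F (algebraMap R (h.locRing F) r) = rhoQ ρ Q h.mem r :=
  IsLocalization.lift_eq _ r

include h in
theorem uniformiser_mem_pt : algebraMap O R ϖ ∈ h.pt := by
  rw [mem_closedPoint_iff]
  have : ρ (algebraMap O R ϖ) = 0 := by
    rw [← RingHom.mem_ker, h.ker_eq]; exact Ideal.mem_span_singleton_self _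
  rw [this]
  exact zero_mem_nonunits Q

theorem rhoS_uniformiser : h.rhoS F (algebraMap O (h.locRing F) ϖ) = 0 := by
  rw [h.algebraMap_locRing, rhoS_algebraMap]
  apply Subtype.ext
  rw [coe_rhoQ]
  show ρ (algebraMap O R ϖ) = 0
  rw [← RingHom.mem_ker, h.ker_eq]; exact Ideal.mem_span_singleton_self _

/-- The kernel of the reduction map on `S` is `ϖ S`. -/
theorem ker_rhoS :
    RingHom.ker (h.rhoS F) = Ideal.span {algebraMap O (h.locRing F) ϖ} := by
  apply le_antisymm
  · intro x hx
    rw [RingHom.mem_ker] at hx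
    obtain ⟨a, s, rfl⟩ := IsLocalization.exists_mk'_eq h.pt.primeCompl x
    have h1 := congrArg (h.rhoS F) (IsLocalization.mk'_spec (h.locRing F) a s)
    rw [map_mul, hx, zero_mul, rhoS_algebraMap] at h1
    have h2 : a ∈ RingHom.ker ρ := by
      rw [RingHom.mem_ker]
      have := congrArg (fun x : Q.toValuationSubring => (x : F')) h1
      simpa using this.symm
    rw [h.ker_eq, Ideal.mem_span_singleton] at h2
    obtain ⟨a', rfl⟩ := h2
    rw [Ideal.mem_span_singleton, h.algebraMap_locRing]
    exact ⟨IsLocalization.mk' (h.locRing F) a' s, (IsLocalization.mul_mk'_eq_mk'_of_mul _ _ _).symm⟩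
  · rw [Ideal.span_le, Set.singleton_subset_iff]
    exact h.rhoS_uniformiser

/-- The reduction map on `S` is a local homomorphism. -/
theorem rhoS_mem_maximalIdeal {y : h.locRing F} (hy : y ∈ IsLocalRing.maximalIdeal (h.locRing F)) :
    h.rhoS F y ∈ IsLocalRing.maximalIdeal Q.toValuationSubring := by
  obtain ⟨r, s, rfl⟩ := IsLocalization.exists_mk'_eq h.pt.primeCompl y
  rw [IsLocalization.AtPrime.mk'_mem_maximal_iff (h.locRing F) h.pt] at hy
  have h1 := congrArg (h.rhoS F) (IsLocalization.mk'_spec (h.locRing F) r s)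
  rw [map_mul, rhoS_algebraMap, rhoS_algebraMap] at h1
  have h2 : rhoQ ρ Q h.mem r ∈ IsLocalRing.maximalIdeal Q.toValuationSubring := hy
  rw [← h1] at h2
  rcases (IsLocalRing.maximalIdeal.isMaximal Q.toValuationSubring).isPrime.mem_or_mem h2 with h3 | h3
  · exact h3
  · exact absurd (h.isUnit_rhoQ s) ((IsLocalRing.mem_maximalIdeal _).1 h3)

variable (K) in
include h K in
/-- The hypotheses of `LocalUFD` for the local ring `S`. -/
theorem prime_and_pid :
    Prime (algebraMap O (h.locRing F) ϖ) ∧
      IsPrincipalIdealRing (h.locRing F ⧸ Ideal.span {algebraMap O (h.locRing F) ϖ}) := by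
  have hϖ0 : algebraMap O R ϖ ≠ 0 := fun h0 =>
    h.irreducible.ne_zero (Globalize.algebraMap_injective_of_tower K F (by rw [h0, map_zero]))
  haveI := h.pt_isMaximal
  have := Globalize.prime_and_pid (F := F) (algebraMap O R ϖ) hϖ0 h.dedekind h.not_isField h.pt
    h.uniformiser_mem_pt
  rw [← h.algebraMap_locRing] at this
  exact this

variable (K) in
include h K in
/-- **The reduction map `S → O_Q` is surjective**: `S / ϖ S` is the discrete valuation ring of `Q`. -/
theorem rhoS_surjective : Function.Surjective (h.rhoS F) := by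
  obtain ⟨hπ, hPID⟩ := h.prime_and_pid K (F := F)
  set S := h.locRing F with hS
  set π : S := algebraMap O S ϖ with hπdef
  set T := S ⧸ Ideal.span {π} with hT
  haveI : (Ideal.span {π}).IsPrime := (Ideal.span_singleton_prime hπ.ne_zero).2 hπ
  haveI : IsDomain T := Ideal.Quotient.isDomain _
  haveI : IsPrincipalIdealRing T := hPID
  have hmk : Function.Surjective (Ideal.Quotient.mk (Ideal.span {π})) :=
    Ideal.Quotient.mk_surjective
  haveI : IsLocalRing T := IsLocalRing.of_surjective' _ hmk
  haveI hloc : IsLocalHom (Ideal.Quotient.mk (Ideal.span {π})) := hmk.isLocalHom _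
  -- congruent elements have the same reduction
  have hcong : ∀ x y : S, Ideal.Quotient.mk (Ideal.span {π}) x = Ideal.Quotient.mk (Ideal.span {π}) y →
      h.rhoS F x = h.rhoS F y := by
    intro x y hxy
    rw [Ideal.Quotient.eq, ← h.ker_rhoS, RingHom.mem_ker, map_sub, sub_eq_zero] at hxy
    exact hxy
  intro z
  obtain ⟨a, b, hb, hab⟩ := h.frac (z : F')
  set aS : S := algebraMap R S a with haS
  set bS : S := algebraMap R S b with hbS
  have hρb : h.rhoS F bS ≠ 0 := by
    rw [hbS, rhoS_algebraMap]
    intro h0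
    exact hb (by simpa using congrArg (fun x : Q.toValuationSubring => (x : F')) h0)
  have hzab : z * h.rhoS F bS = h.rhoS F aS := by
    rw [hbS, haS, rhoS_algebraMap, rhoS_algebraMap]
    exact Subtype.ext hab
  have hbT : Ideal.Quotient.mk (Ideal.span {π}) bS ≠ 0 := by
    intro h0
    apply hρb
    rw [hcong bS 0 (by rw [h0, map_zero]), map_zero]
  obtain ⟨d', x', y', hx', hy', hor⟩ :=
    exists_reduced_pair (Ideal.Quotient.mk (Ideal.span {π}) aS)
      (Ideal.Quotient.mk (Ideal.span {π}) bS) hbT
  obtain ⟨d, rfl⟩ := hmk d'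
  obtain ⟨x₁, rfl⟩ := hmk x'
  obtain ⟨y₁, rfl⟩ := hmk y'
  have hxρ : h.rhoS F aS = h.rhoS F d * h.rhoS F x₁ := by
    rw [← map_mul]; exact hcong _ _ (by rw [hx', map_mul])
  have hyρ : h.rhoS F bS = h.rhoS F d * h.rhoS F y₁ := by
    rw [← map_mul]; exact hcong _ _ (by rw [hy', map_mul])
  have hd0 : h.rhoS F d ≠ 0 := by
    intro h0
    apply hρb
    rw [hyρ, h0, zero_mul]
  have hkey : z * h.rhoS F y₁ = h.rhoS F x₁ := by
    apply mul_left_cancel₀ hd0
    rw [← hxρ, ← hzab, hyρ]
    ring
  by_cases hy₁ : IsUnit y₁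
  · obtain ⟨u, rfl⟩ := hy₁
    refine ⟨x₁ * ((u⁻¹ : Sˣ) : S), ?_⟩
    have hu0 : h.rhoS F (u : S) ≠ 0 := ((u.isUnit.map (h.rhoS F))).ne_zero
    apply mul_right_cancel₀ hu0
    rw [hkey, ← map_mul, mul_assoc, Units.inv_mul, mul_one]
  · exfalso
    have hx₁ : IsUnit x₁ := by
      rcases hor with h1 | h1
      · exact hloc.map_nonunit _ h1
      · exact absurd (hloc.map_nonunit _ h1) hy₁
    have h1 : h.rhoS F y₁ ∈ IsLocalRing.maximalIdeal Q.toValuationSubring :=
      h.rhoS_mem_maximalIdeal ((IsLocalRing.mem_maximalIdeal _).2 hy₁)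
    have h2 : z * h.rhoS F y₁ ∈ IsLocalRing.maximalIdeal Q.toValuationSubring :=
      Ideal.mul_mem_left _ _ h1
    rw [hkey] at h2
    exact (IsLocalRing.mem_maximalIdeal _).1 h2 (hx₁.map (h.rhoS F))

end ChartData

/-! #### Places centred at the closed point -/

variable (O) in
/-- A place `v` of `F / K` is **centred at `Q`** (on the chart `R`): it is rational, contains `R`,
the residue constants of the elements of `R` lie in `O`, and an element of `R` has residue constant
in `𝔪_O` exactly when its reduction vanishes at `Q`. -/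
structure CentredAt (ρ : R →+* F') (Q : Place k' F') (v : Place K F) : Prop where
  resTriv : ResidueTrivial v
  mem : ∀ r : R, algebraMap R F r ∈ v.toValuationSubring
  exists_const : ∀ r : R, ∃ c : O,
    algebraMap R F r - algebraMap O F c ∈ v.toValuationSubring.nonunits
  mem_iff : ∀ (r : R) (c : O),
    algebraMap R F r - algebraMap O F c ∈ v.toValuationSubring.nonunits →
      (c ∈ IsLocalRing.maximalIdeal O ↔ ρ r ∈ Q.toValuationSubring.nonunits)

namespace ChartData

variable {ρ Q} (h : ChartData ϖ ρ Q) {v : Place K F}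

/-- **(4a)** A place centred at `Q` contains the local ring `S = R_𝔫`. -/
theorem contains_of_centredAt (hv : CentredAt O ρ Q v) : Contains (h.locRing F) v := by
  intro x
  obtain ⟨a, s, rfl⟩ := IsLocalization.exists_mk'_eq h.pt.primeCompl x
  have hs : ρ (s : R) ∉ Q.toValuationSubring.nonunits := fun hmem =>
    s.2 ((mem_closedPoint_iff ρ Q h.mem).2 hmem)
  obtain ⟨c, hc⟩ := hv.exists_const (s : R)
  have hcm : c ∉ IsLocalRing.maximalIdeal O := fun hcm => hs ((hv.mem_iff _ c hc).1 hcm)
  have hcu : IsUnit c := by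
    rwa [IsLocalRing.mem_maximalIdeal, mem_nonunits_iff, not_not] at hcm
  -- `s = c + (s - c)` is a unit at `v`
  have hcF : algebraMap O F c ∉ v.toValuationSubring.nonunits := by
    intro hmem
    obtain ⟨c', hc'⟩ := hcu.exists_right_inv
    have h1 := mul_mem_nonunits v (x := algebraMap O F c') (by
      rw [IsScalarTower.algebraMap_apply O K F]; exact v.algebraMap_mem' _) hmem
    rw [← map_mul, mul_comm, hc', map_one] at h1
    exact one_not_mem_nonunits v h1
  have hsF : algebraMap R F (s : R) ∉ v.toValuationSubring.nonunits := by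
    intro hmem
    apply hcF
    have := nonunits_sub v hmem hc
    rwa [sub_sub_cancel] at this
  have hinv := inv_mem_of_not_mem_nonunits v (hv.mem (s : R)) hsF
  have hx : algebraMap (h.locRing F) F (IsLocalization.mk' (h.locRing F) a s) =
      algebraMap R F a * (algebraMap R F (s : R))⁻¹ := by
    have h1 := congrArg (algebraMap (h.locRing F) F) (IsLocalization.mk'_spec (h.locRing F) a s)
    rw [map_mul, ← IsScalarTower.algebraMap_apply R (h.locRing F) F,
      ← IsScalarTower.algebraMap_apply R (h.locRing F) F] at h1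
    have hs0 : algebraMap R F (s : R) ≠ 0 := fun h0 => hsF (h0 ▸ zero_mem_nonunits v)
    rw [← h1, mul_assoc, mul_inv_cancel₀ hs0, mul_one]
  rw [hx]
  exact v.toValuationSubring.mul_mem _ _ (hv.mem a) hinv

include h in
/-- **(4b)** A rational place containing the local ring `S = R_𝔫` is centred at `Q`. -/
theorem centredAt_of_contains (hres : ResidueTrivial v) (hv : Contains (h.locRing F) v) :
    CentredAt O ρ Q v := by
  obtain ⟨hπ, hPID⟩ := h.prime_and_pid K (F := F)
  have hRS : ∀ r : R, algebraMap (h.locRing F) F (algebraMap R (h.locRing F) r) =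
      algebraMap R F r := fun r => (IsScalarTower.algebraMap_apply R (h.locRing F) F r).symm
  have hOS : ∀ c : O, algebraMap (h.locRing F) F (algebraMap O (h.locRing F) c) =
      algebraMap O F c := fun c => (IsScalarTower.algebraMap_apply O (h.locRing F) F c).symm
  have hcle : centreIdeal hv ≤ IsLocalRing.maximalIdeal (h.locRing F) :=
    IsLocalRing.le_maximalIdeal (centreIdeal_isPrime hv).ne_top
  have hOmax : ∀ c : O, algebraMap O (h.locRing F) c ∈ IsLocalRing.maximalIdeal (h.locRing F) ↔
      c ∈ IsLocalRing.maximalIdeal O := by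
    intro c
    constructor
    · intro hc
      rw [IsLocalRing.mem_maximalIdeal, mem_nonunits_iff]
      exact fun hu => (IsLocalRing.mem_maximalIdeal _).1 hc (hu.map _)
    · intro hc
      rw [h.irreducible.maximalIdeal_eq, Ideal.mem_span_singleton] at hc
      obtain ⟨c', rfl⟩ := hc
      rw [map_mul]
      exact Ideal.mul_mem_right _ _ ((IsLocalRing.mem_maximalIdeal _).2 hπ.not_isUnit)
  refine ⟨hres, fun r => ?_, fun r => ?_, fun r c hc => ?_⟩
  · rw [← hRS]; exact hv _
  · obtain ⟨c, hc⟩ := exists_const_mem_O h.irreducible hπ.not_isUnit hres hv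
      (algebraMap R (h.locRing F) r)
    exact ⟨c, by rwa [hRS, hOS] at hc⟩
  · have hmem : algebraMap R (h.locRing F) r - algebraMap O (h.locRing F) c ∈ centreIdeal hv := by
      rw [mem_centreIdeal_iff, map_sub, hRS, hOS]; exact hc
    have hmem' := hcle hmem
    rw [← mem_closedPoint_iff ρ Q h.mem,
      ← IsLocalization.AtPrime.to_map_mem_maximal_iff (h.locRing F) h.pt, ← hOmax]
    constructor
    · intro hc'
      have := Ideal.add_mem _ hmem' hc'
      rwa [sub_add_cancel] at this
    · intro hr'
      have := Ideal.sub_mem _ hr' hmem'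
      rwa [sub_sub_cancel] at this

include h in
/-- A rational place is centred at `Q` iff it contains the local ring `S = R_𝔫`. -/
theorem centredAt_iff (hres : ResidueTrivial v) :
    CentredAt O ρ Q v ↔ Contains (h.locRing F) v :=
  ⟨h.contains_of_centredAt, h.centredAt_of_contains hres⟩

include h in
/-- **(4c) Local multiplicity at a closed point of the special fibre.**  Let `a, b ∈ R` have nonzero
reduction, `y = a / b`.  If all zeros and poles of `y` among the places of `F / K` containing `R`
are rational, then the places centred at `Q` at which `y` has a zero or a pole form a finite set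
`T`, and `ord_Q (ρ a / ρ b) = ∑_{v ∈ T} ord_v y`. -/
theorem ord_reduction_eq_sum (a b : R) (ha : ρ a ≠ 0) (hb : ρ b ≠ 0)
    (hrat : ∀ v : Place K F, (∀ r : R, algebraMap R F r ∈ v.toValuationSubring) →
      v.ord (algebraMap R F a / algebraMap R F b) ≠ 0 → ResidueTrivial v) :
    ∃ T : Finset (Place K F),
      (∀ v, v ∈ T ↔ CentredAt O ρ Q v ∧ v.ord (algebraMap R F a / algebraMap R F b) ≠ 0) ∧
      Q.ord (ρ a / ρ b) = ∑ v ∈ T, v.ord (algebraMap R F a / algebraMap R F b) := by
  have hRS : ∀ r : R, algebraMap (h.locRing F) F (algebraMap R (h.locRing F) r) =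
      algebraMap R F r := fun r => (IsScalarTower.algebraMap_apply R (h.locRing F) F r).symm
  have hker := h.ker_rhoS (F := F)
  have hsurj := h.rhoS_surjective K (F := F)
  have hcontR : ∀ v : Place K F, Contains (h.locRing F) v →
      ∀ r : R, algebraMap R F r ∈ v.toValuationSubring := fun v hv r => by
    rw [← hRS]; exact hv _
  have hρ : ∀ r : R, ((h.rhoS F (algebraMap R (h.locRing F) r) : Q.toValuationSubring) : F') =
      ρ r := fun r => by rw [rhoS_algebraMap, coe_rhoQ]
  have ha' : ¬ algebraMap O (h.locRing F) ϖ ∣ algebraMap R (h.locRing F) a := by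
    rw [← rho_ne_zero_iff hker, hρ]; exact ha
  have hb' : ¬ algebraMap O (h.locRing F) ϖ ∣ algebraMap R (h.locRing F) b := by
    rw [← rho_ne_zero_iff hker, hρ]; exact hb
  obtain ⟨T, hT, hsum⟩ := exists_finset_ord_div_eq (K := K) h.irreducible hsurj hker
    (algebraMap R (h.locRing F) a) (algebraMap R (h.locRing F) b) ha' hb' (by
      intro v hv hne
      rw [hRS, hRS] at hne
      exact hrat v (hcontR v hv) hne)
  simp only [hRS, hρ] at hT hsum
  refine ⟨T, fun v => ?_, hsum⟩
  rw [hT]
  constructor
  · rintro ⟨hv, hne⟩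
    exact ⟨h.centredAt_of_contains (hrat v (hcontR v hv) hne) hv, hne⟩
  · rintro ⟨hv, hne⟩
    exact ⟨h.contains_of_centredAt hv, hne⟩

end ChartData

end Layer2

end Fermat.Agent.N4F.C.LocalMult
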