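/-
N4-FULL, block C, node C1 (helper22): the Gauss ring of Laurent series over an arbitrary LOCAL ring
`A` with an injective map to a field `Q` (e.g. a valuation subring of `ℚ̄`, not noetherian), its
reduction map `thetaBar` to `κ((q))`, `κ` the residue field, and the functoriality of both for
local homomorphisms (inclusions of levels `O_K ⊂ A`, Galois automorphisms preserving `A`).

This is the first half of `S28/GaussRing.lean` without the DVR hypothesis.
-/
import Mathlib
import Fermat.Prelude.Def_ModularCurve_LaurentCoeff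

set_option autoImplicit false
set_option linter.unusedSectionVars false

open ModularCurve

namespace Fermat.Agent.N4F.C.GaussBar

section Basic

variable (A : Type*) [CommRing A] [IsLocalRing A]
  (Q : Type*) [Field Q] [Algebra A Q] [FaithfulSMul A Q]

/-- The coefficientwise map `A((q)) → Q((q))`. -/
noncomputable def embBar : LaurentSeries A →+* LaurentSeries Q := coeffMap (algebraMap A Q)

/-- The coefficientwise reduction `A((q)) → κ((q))`. -/
noncomputable def redBar : LaurentSeries A →+* LaurentSeries (IsLocalRing.ResidueField A) :=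
  coeffMap (IsLocalRing.residue A)

variable {A}

@[simp] theorem embBar_coeff (a : LaurentSeries A) (n : ℤ) :
    (embBar A Q a).coeff n = algebraMap A Q (a.coeff n) := rfl

@[simp] theorem redBar_coeff (a : LaurentSeries A) (n : ℤ) :
    (redBar A a).coeff n = IsLocalRing.residue A (a.coeff n) := rfl

theorem embBar_injective : Function.Injective (embBar A Q) := by
  intro a b h
  ext n
  have := congrArg (fun x : LaurentSeries Q => x.coeff n) h
  exact FaithfulSMul.algebraMap_injective A Q this

theorem embBar_eq_zero_iff {a : LaurentSeries A} : embBar A Q a = 0 ↔ a = 0 :=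
  map_eq_zero_iff _ (embBar_injective Q)

variable (A)

/-- **The Gauss ring**: quotients `a / b` of Laurent series over `A` with `b` of nonzero
reduction. -/
def gaussBar : Subring (LaurentSeries Q) where
  carrier := {x | ∃ a b : LaurentSeries A, redBar A b ≠ 0 ∧ x * embBar A Q b = embBar A Q a}
  mul_mem' := by
    rintro x y ⟨a, b, hb, hx⟩ ⟨c, d, hd, hy⟩
    refine ⟨a * c, b * d, ?_, ?_⟩
    · rw [map_mul]; exact mul_ne_zero hb hd
    · rw [map_mul, map_mul, ← hx, ← hy]; ring
  one_mem' := ⟨1, 1, by rw [map_one]; exact one_ne_zero, by rw [map_one, mul_one]⟩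
  add_mem' := by
    rintro x y ⟨a, b, hb, hx⟩ ⟨c, d, hd, hy⟩
    refine ⟨a * d + c * b, b * d, ?_, ?_⟩
    · rw [map_mul]; exact mul_ne_zero hb hd
    · rw [map_add, map_mul, map_mul, map_mul, ← hx, ← hy]; ring
  zero_mem' := ⟨0, 1, by rw [map_one]; exact one_ne_zero, by rw [map_zero, zero_mul]⟩
  neg_mem' := by
    rintro x ⟨a, b, hb, hx⟩
    exact ⟨-a, b, hb, by rw [map_neg, ← hx, neg_mul]⟩

variable {A Q}

theorem mem_gaussBar_iff {x : LaurentSeries Q} :
    x ∈ gaussBar A Q ↔
      ∃ a b : LaurentSeries A, redBar A b ≠ 0 ∧ x * embBar A Q b = embBar A Q a := Iff.rfl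

theorem embBar_mem_gaussBar (a : LaurentSeries A) : embBar A Q a ∈ gaussBar A Q :=
  ⟨a, 1, by rw [map_one]; exact one_ne_zero, by rw [map_one, mul_one]⟩

/-- The underlying function of the reduction map. -/
noncomputable def thetaBarFun (x : gaussBar A Q) : LaurentSeries (IsLocalRing.ResidueField A) :=
  redBar A (Classical.choose x.2) / redBar A (Classical.choose (Classical.choose_spec x.2))

theorem thetaBarFun_eq (x : gaussBar A Q) {a b : LaurentSeries A} (hb : redBar A b ≠ 0)
    (h : (x : LaurentSeries Q) * embBar A Q b = embBar A Q a) :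
    thetaBarFun x = redBar A a / redBar A b := by
  obtain ⟨hb₀, h₀⟩ := Classical.choose_spec (Classical.choose_spec x.2)
  set a₀ := Classical.choose x.2
  set b₀ := Classical.choose (Classical.choose_spec x.2)
  show redBar A a₀ / redBar A b₀ = redBar A a / redBar A b
  have key : a₀ * b = a * b₀ := by
    apply embBar_injective Q
    rw [map_mul, map_mul, ← h₀, ← h]
    ring
  rw [div_eq_div_iff hb₀ hb, ← map_mul, ← map_mul, key]

/-- **The reduction map of the Gauss ring**, `a / b ↦ ā / b̄`. -/
noncomputable def thetaBar : gaussBar A Q →+* LaurentSeries (IsLocalRing.ResidueField A) where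
  toFun := thetaBarFun
  map_one' := by
    have h := thetaBarFun_eq (1 : gaussBar A Q) (a := 1) (b := 1)
      (by rw [map_one]; exact one_ne_zero)
      (by rw [map_one, mul_one]; rfl)
    rw [h, map_one, div_one]
  map_mul' := by
    intro x y
    obtain ⟨a, b, hb, hx⟩ := x.2
    obtain ⟨c, d, hd, hy⟩ := y.2
    have hbd : redBar A (b * d) ≠ 0 := by rw [map_mul]; exact mul_ne_zero hb hd
    have hxy : ((x * y : gaussBar A Q) : LaurentSeries Q) * embBar A Q (b * d) =
        embBar A Q (a * c) := by
      rw [Subring.coe_mul, map_mul, map_mul, ← hx, ← hy]; ring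
    rw [thetaBarFun_eq _ hbd hxy, thetaBarFun_eq x hb hx, thetaBarFun_eq y hd hy, map_mul, map_mul,
      mul_div_mul_comm]
  map_zero' := by
    have h := thetaBarFun_eq (0 : gaussBar A Q) (a := 0) (b := 1)
      (by rw [map_one]; exact one_ne_zero)
      (by rw [map_zero, Subring.coe_zero, zero_mul])
    rw [h, map_zero, zero_div]
  map_add' := by
    intro x y
    obtain ⟨a, b, hb, hx⟩ := x.2
    obtain ⟨c, d, hd, hy⟩ := y.2
    have hbd : redBar A (b * d) ≠ 0 := by rw [map_mul]; exact mul_ne_zero hb hd
    have hxy : ((x + y : gaussBar A Q) : LaurentSeries Q) * embBar A Q (b * d) =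
        embBar A Q (a * d + b * c) := by
      rw [Subring.coe_add, map_add, map_mul, map_mul, map_mul, ← hx, ← hy]; ring
    rw [thetaBarFun_eq _ hbd hxy, thetaBarFun_eq x hb hx, thetaBarFun_eq y hd hy, map_add, map_mul,
      map_mul, map_mul, div_add_div _ _ hb hd]

theorem thetaBar_eq (x : gaussBar A Q) {a b : LaurentSeries A} (hb : redBar A b ≠ 0)
    (h : (x : LaurentSeries Q) * embBar A Q b = embBar A Q a) :
    thetaBar x = redBar A a / redBar A b :=
  thetaBarFun_eq x hb h

theorem thetaBar_mul_redBar (x : gaussBar A Q) {a b : LaurentSeries A}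
    (h : (x : LaurentSeries Q) * embBar A Q b = embBar A Q a) :
    thetaBar x * redBar A b = redBar A a := by
  obtain ⟨c, d, hd, hx⟩ := x.2
  rw [thetaBar_eq x hd hx, div_mul_eq_mul_div, div_eq_iff hd, ← map_mul, ← map_mul]
  congr 1
  apply embBar_injective Q
  rw [map_mul, map_mul, ← hx, ← h]
  ring

theorem thetaBar_embBar (a : LaurentSeries A) :
    thetaBar (⟨embBar A Q a, embBar_mem_gaussBar a⟩ : gaussBar A Q) = redBar A a := by
  rw [thetaBar_eq _ (a := a) (b := 1) (by rw [map_one]; exact one_ne_zero)
    (by rw [map_one, mul_one]), map_one, div_one]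

end Basic

/-! ### Functoriality -/

section Functorial

variable {A : Type*} [CommRing A] [IsLocalRing A]
  {Q : Type*} [Field Q] [Algebra A Q] [FaithfulSMul A Q]
  {A' : Type*} [CommRing A'] [IsLocalRing A']
  {Q' : Type*} [Field Q'] [Algebra A' Q'] [FaithfulSMul A' Q']

theorem coeffMap_injective_of_injective {R S : Type*} [CommRing R] [CommRing S] (f : R →+* S)
    (hf : Function.Injective f) : Function.Injective (coeffMap f) := by
  intro x y h
  ext n
  exact hf (congrArg (fun z : LaurentSeries S => z.coeff n) h)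

variable (φ : A →+* A') [IsLocalHom φ] (ψ : Q →+* Q')
  (hcomp : ψ.comp (algebraMap A Q) = (algebraMap A' Q').comp φ)

include hcomp in
theorem coeffMap_embBar (a : LaurentSeries A) :
    coeffMap ψ (embBar A Q a) = embBar A' Q' (coeffMap φ a) := by
  rw [embBar, embBar, coeffMap_coeffMap, coeffMap_coeffMap, hcomp]

theorem redBar_coeffMap (a : LaurentSeries A) :
    redBar A' (coeffMap φ a) = coeffMap (IsLocalRing.ResidueField.map φ) (redBar A a) := by
  rw [redBar, redBar, coeffMap_coeffMap, coeffMap_coeffMap]
  refine coeffMap_congr (RingHom.ext fun c => ?_) a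
  simp [IsLocalRing.ResidueField.map_residue]

theorem redBar_coeffMap_ne_zero {b : LaurentSeries A} (hb : redBar A b ≠ 0) :
    redBar A' (coeffMap φ b) ≠ 0 := by
  rw [redBar_coeffMap]
  intro h
  apply hb
  exact coeffMap_injective_of_injective _ (IsLocalRing.ResidueField.map φ).injective
    (h.trans (map_zero _).symm)

include hcomp in
/-- **Functoriality of the Gauss ring.** -/
theorem coeffMap_mem_gaussBar {x : LaurentSeries Q} (hx : x ∈ gaussBar A Q) :
    coeffMap ψ x ∈ gaussBar A' Q' := by
  obtain ⟨a, b, hb, h⟩ := hx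
  refine ⟨coeffMap φ a, coeffMap φ b, redBar_coeffMap_ne_zero φ hb, ?_⟩
  rw [← coeffMap_embBar φ ψ hcomp, ← coeffMap_embBar φ ψ hcomp, ← map_mul, h]

include hcomp in
/-- **Functoriality of the reduction map.** -/
theorem thetaBar_coeffMap (x : gaussBar A Q) :
    thetaBar (⟨coeffMap ψ (x : LaurentSeries Q), coeffMap_mem_gaussBar φ ψ hcomp x.2⟩ :
        gaussBar A' Q') =
      coeffMap (IsLocalRing.ResidueField.map φ) (thetaBar x) := by
  obtain ⟨a, b, hb, h⟩ := x.2
  have h' : ((⟨coeffMap ψ (x : LaurentSeries Q), coeffMap_mem_gaussBar φ ψ hcomp x.2⟩ :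
      gaussBar A' Q') : LaurentSeries Q') * embBar A' Q' (coeffMap φ b) =
      embBar A' Q' (coeffMap φ a) := by
    show coeffMap ψ (x : LaurentSeries Q) * _ = _
    rw [← coeffMap_embBar φ ψ hcomp, ← coeffMap_embBar φ ψ hcomp, ← map_mul, h]
  rw [thetaBar_eq _ (redBar_coeffMap_ne_zero φ hb) h', thetaBar_eq x hb h, redBar_coeffMap,
    redBar_coeffMap, map_div₀]

end Functorial

end Fermat.Agent.N4F.C.GaussBar
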