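/-
N4-FULL block C, node C0 (helper9): basic objects over `Q̄` (moonshots #30, §0).

* `Qb`, `Fb N` (the prelude function field `Q̄·F_N`), `Kap A` (residue field of `A`), `Ft A N`
  (the function field of the special fibre), `jb N`;
* `IntAt A P f` : `f` is regular at the place `P` with value in `A` ("`f ∈ W_P`"), `valAt`, `redAt`,
  the composite valuation ring `wRing A P` and its reduction map `redW A P : wRing A P →+* Kap A`;
* the `Q̄`-level charts `RtFin A N`, `RtInf A N` (integral closures of `A[j]`, `A[j⁻¹]` in `Fb N`).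
-/
import Mathlib
import Fermat.Prelude.Def_ModularCurve_ReductionModL
import Fermat.Agent.N4.Chart
import Fermat.Agent.S24.FFBasics
import Fermat.Agent.N4F.C.GaussBar

set_option autoImplicit false

open ModularCurve AlgebraicCurve Fermat.Agent.N4.Chart

noncomputable section

namespace Fermat.Agent.N4F.C

/-- `Q̄`. -/
abbrev Qb : Type := AlgebraicClosure ℚ

/-- The prelude function field `Q̄·F_N ⊆ Q̄((q))`. -/
abbrev Fb (N : ℕ) : Type := ↥(modularFunctionFieldBar N)

/-- The residue field of a valuation subring of `Q̄`. -/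
abbrev Kap (A : ValuationSubring Qb) : Type := IsLocalRing.ResidueField ↥A

/-- The function field of the special fibre, `κ(j(q^d) : d ∣ N) ⊆ κ((q))`. -/
abbrev Ft (A : ValuationSubring Qb) (N : ℕ) : Type := ↥(modularFunctionFieldFullC (Kap A) N)

/-- `j` as an element of `Q̄·F_N`. -/
def jb (N : ℕ) [NeZero N] : Fb N :=
  ⟨jqModC Qb, Fermat.Agent.S24.FFBasics.jqModC_mem_laurentBaseChange Qb N⟩

@[simp] theorem coe_jb (N : ℕ) [NeZero N] : ((jb N : Fb N) : LaurentSeries Qb) = jqModC Qb := rfl

variable (A : ValuationSubring Qb) {N : ℕ}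

/-! ### The composite valuation ring `W_P` -/

/-- `f` is regular at `P` and its value at `P` lies in `A`. -/
def IntAt (P : Place Qb (Fb N)) (f : Fb N) : Prop :=
  ∃ c : ↥A, f - algebraMap Qb (Fb N) (c : Qb) ∈ P.toValuationSubring.nonunits

variable {A}

theorem zero_mem_nonunits (P : Place Qb (Fb N)) : (0 : Fb N) ∈ P.toValuationSubring.nonunits := by
  rw [ValuationSubring.mem_nonunits_iff, map_zero]
  exact zero_lt_one

theorem mem_nonunits_iff_maximalIdeal (P : Place Qb (Fb N)) {x : Fb N} :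
    x ∈ P.toValuationSubring.nonunits ↔
      ∃ hx : x ∈ P.toValuationSubring,
        (⟨x, hx⟩ : P.toValuationSubring) ∈ IsLocalRing.maximalIdeal P.toValuationSubring :=
  ValuationSubring.mem_nonunits_iff_exists_mem_maximalIdeal

theorem const_not_mem_nonunits (P : Place Qb (Fb N)) {c : Qb} (hc : c ≠ 0) :
    algebraMap Qb (Fb N) c ∉ P.toValuationSubring.nonunits := by
  intro h
  obtain ⟨hx, hm⟩ := (mem_nonunits_iff_maximalIdeal P).mp h
  rw [IsLocalRing.mem_maximalIdeal] at hm
  apply hm
  refine isUnit_iff_exists_inv.mpr ⟨⟨algebraMap Qb (Fb N) c⁻¹, P.algebraMap_mem' c⁻¹⟩, ?_⟩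
  apply Subtype.ext
  show algebraMap Qb (Fb N) c * algebraMap Qb (Fb N) c⁻¹ = 1
  rw [← map_mul, mul_inv_cancel₀ hc, map_one]

theorem const_eq_zero_of_mem_nonunits (P : Place Qb (Fb N)) {c : Qb}
    (h : algebraMap Qb (Fb N) c ∈ P.toValuationSubring.nonunits) : c = 0 := by
  by_contra hc
  exact const_not_mem_nonunits P hc h

theorem nonunits_add_mem (P : Place Qb (Fb N)) {x y : Fb N}
    (hx : x ∈ P.toValuationSubring.nonunits) (hy : y ∈ P.toValuationSubring.nonunits) :
    x + y ∈ P.toValuationSubring.nonunits := by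
  obtain ⟨hx', hxm⟩ := (mem_nonunits_iff_maximalIdeal P).mp hx
  obtain ⟨hy', hym⟩ := (mem_nonunits_iff_maximalIdeal P).mp hy
  exact (mem_nonunits_iff_maximalIdeal P).mpr ⟨add_mem hx' hy', Ideal.add_mem _ hxm hym⟩

theorem nonunits_neg_mem (P : Place Qb (Fb N)) {x : Fb N}
    (hx : x ∈ P.toValuationSubring.nonunits) : -x ∈ P.toValuationSubring.nonunits := by
  obtain ⟨hx', hxm⟩ := (mem_nonunits_iff_maximalIdeal P).mp hx
  exact (mem_nonunits_iff_maximalIdeal P).mpr ⟨neg_mem hx', Ideal.neg_mem_iff _ |>.mpr hxm⟩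

theorem nonunits_sub_mem (P : Place Qb (Fb N)) {x y : Fb N}
    (hx : x ∈ P.toValuationSubring.nonunits) (hy : y ∈ P.toValuationSubring.nonunits) :
    x - y ∈ P.toValuationSubring.nonunits := by
  rw [sub_eq_add_neg]
  exact nonunits_add_mem P hx (nonunits_neg_mem P hy)

theorem mul_mem_nonunits_of_mem (P : Place Qb (Fb N)) {x y : Fb N}
    (hx : x ∈ P.toValuationSubring) (hy : y ∈ P.toValuationSubring.nonunits) :
    x * y ∈ P.toValuationSubring.nonunits := by
  rw [ValuationSubring.mem_nonunits_iff] at hy ⊢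
  have hx' : P.toValuationSubring.valuation x ≤ 1 :=
    (ValuationSubring.valuation_le_one_iff _ _).mpr hx
  rw [map_mul]
  calc P.toValuationSubring.valuation x * P.toValuationSubring.valuation y
      ≤ 1 * P.toValuationSubring.valuation y := mul_le_mul_left hx' _
    _ < 1 := by rw [one_mul]; exact hy

/-- The value of `f` at `P` is unique. -/
theorem IntAt.unique {P : Place Qb (Fb N)} {f : Fb N} {c c' : ↥A}
    (hc : f - algebraMap Qb (Fb N) (c : Qb) ∈ P.toValuationSubring.nonunits)
    (hc' : f - algebraMap Qb (Fb N) (c' : Qb) ∈ P.toValuationSubring.nonunits) : c = c' := by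
  have h := nonunits_sub_mem P hc' hc
  have e : f - algebraMap Qb (Fb N) (c' : Qb) - (f - algebraMap Qb (Fb N) (c : Qb)) =
      algebraMap Qb (Fb N) ((c : Qb) - (c' : Qb)) := by
    rw [map_sub]; ring
  rw [e] at h
  exact Subtype.ext (sub_eq_zero.mp (const_eq_zero_of_mem_nonunits P h))

/-- The value of `f` at `P`, an element of `A`. -/
def valAt {P : Place Qb (Fb N)} {f : Fb N} (h : IntAt A P f) : ↥A := h.choose

theorem valAt_spec {P : Place Qb (Fb N)} {f : Fb N} (h : IntAt A P f) :
    f - algebraMap Qb (Fb N) (valAt h : Qb) ∈ P.toValuationSubring.nonunits := h.choose_spec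

theorem valAt_eq {P : Place Qb (Fb N)} {f : Fb N} (h : IntAt A P f) {c : ↥A}
    (hc : f - algebraMap Qb (Fb N) (c : Qb) ∈ P.toValuationSubring.nonunits) : valAt h = c :=
  IntAt.unique (valAt_spec h) hc

/-- The reduction of the value of `f` at `P`. -/
def redAt {P : Place Qb (Fb N)} {f : Fb N} (h : IntAt A P f) : Kap A :=
  IsLocalRing.residue ↥A (valAt h)

theorem redAt_eq {P : Place Qb (Fb N)} {f : Fb N} (h : IntAt A P f) {c : ↥A}
    (hc : f - algebraMap Qb (Fb N) (c : Qb) ∈ P.toValuationSubring.nonunits) :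
    redAt h = IsLocalRing.residue ↥A c := by
  rw [redAt, valAt_eq h hc]

theorem IntAt.mem {P : Place Qb (Fb N)} {f : Fb N} (h : IntAt A P f) :
    f ∈ P.toValuationSubring := by
  obtain ⟨c, hc⟩ := h
  have h1 : f - algebraMap Qb (Fb N) (c : Qb) ∈ P.toValuationSubring :=
    ValuationSubring.nonunits_subset hc
  have h2 := add_mem h1 (P.algebraMap_mem' (c : Qb))
  rwa [sub_add_cancel] at h2

theorem intAt_const (P : Place Qb (Fb N)) (c : ↥A) : IntAt A P (algebraMap Qb (Fb N) (c : Qb)) :=
  ⟨c, by rw [sub_self]; exact zero_mem_nonunits P⟩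

theorem IntAt.add {P : Place Qb (Fb N)} {f g : Fb N} (hf : IntAt A P f) (hg : IntAt A P g) :
    IntAt A P (f + g) := by
  obtain ⟨c, hc⟩ := hf
  obtain ⟨d, hd⟩ := hg
  refine ⟨c + d, ?_⟩
  have e : f + g - algebraMap Qb (Fb N) ((c + d : ↥A) : Qb) =
      (f - algebraMap Qb (Fb N) (c : Qb)) + (g - algebraMap Qb (Fb N) (d : Qb)) := by
    rw [show (((_ + _ : ↥A)) : Qb) = _ + _ from rfl, map_add]; ring
  rw [e]
  exact nonunits_add_mem P hc hd

theorem IntAt.neg {P : Place Qb (Fb N)} {f : Fb N} (hf : IntAt A P f) : IntAt A P (-f) := by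
  obtain ⟨c, hc⟩ := hf
  refine ⟨-c, ?_⟩
  have e : -f - algebraMap Qb (Fb N) ((-c : ↥A) : Qb) = -(f - algebraMap Qb (Fb N) (c : Qb)) := by
    rw [show (((-c : ↥A)) : Qb) = -(c : Qb) from rfl, map_neg]; ring
  rw [e]
  exact nonunits_neg_mem P hc

theorem IntAt.mul {P : Place Qb (Fb N)} {f g : Fb N} (hf : IntAt A P f) (hg : IntAt A P g) :
    IntAt A P (f * g) := by
  have hgm := hg.mem
  obtain ⟨c, hc⟩ := hf
  obtain ⟨d, hd⟩ := hg
  refine ⟨c * d, ?_⟩
  have e : f * g - algebraMap Qb (Fb N) ((c * d : ↥A) : Qb) =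
      g * (f - algebraMap Qb (Fb N) (c : Qb)) +
        algebraMap Qb (Fb N) (c : Qb) * (g - algebraMap Qb (Fb N) (d : Qb)) := by
    rw [show (((_ * _ : ↥A)) : Qb) = _ * _ from rfl, map_mul]; ring
  rw [e]
  exact nonunits_add_mem P (mul_mem_nonunits_of_mem P hgm hc)
    (mul_mem_nonunits_of_mem P (P.algebraMap_mem' _) hd)

variable (A)

/-- The composite valuation ring `W_P = {f ∈ O_P | f(P) ∈ A}`. -/
def wRing (P : Place Qb (Fb N)) : Subring (Fb N) where
  carrier := {f | IntAt A P f}
  mul_mem' := IntAt.mul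
  one_mem' := by
    have := intAt_const (A := A) P 1
    simpa using this
  add_mem' := IntAt.add
  zero_mem' := by
    have := intAt_const (A := A) P 0
    simpa using this
  neg_mem' := IntAt.neg

variable {A}

theorem mem_wRing_iff {P : Place Qb (Fb N)} {f : Fb N} : f ∈ wRing A P ↔ IntAt A P f := Iff.rfl

theorem valAt_add {P : Place Qb (Fb N)} {f g : Fb N} (hf : IntAt A P f) (hg : IntAt A P g)
    (hfg : IntAt A P (f + g)) : valAt hfg = valAt hf + valAt hg := by
  apply valAt_eq
  have e : f + g - algebraMap Qb (Fb N) ((valAt hf + valAt hg : ↥A) : Qb) =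
      (f - algebraMap Qb (Fb N) (valAt hf : Qb)) + (g - algebraMap Qb (Fb N) (valAt hg : Qb)) := by
    rw [show (((_ + _ : ↥A)) : Qb) = _ + _ from rfl, map_add]; ring
  rw [e]
  exact nonunits_add_mem P (valAt_spec hf) (valAt_spec hg)

theorem valAt_mul {P : Place Qb (Fb N)} {f g : Fb N} (hf : IntAt A P f) (hg : IntAt A P g)
    (hfg : IntAt A P (f * g)) : valAt hfg = valAt hf * valAt hg := by
  apply valAt_eq
  have e : f * g - algebraMap Qb (Fb N) ((valAt hf * valAt hg : ↥A) : Qb) =
      g * (f - algebraMap Qb (Fb N) (valAt hf : Qb)) +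
        algebraMap Qb (Fb N) (valAt hf : Qb) * (g - algebraMap Qb (Fb N) (valAt hg : Qb)) := by
    rw [show (((_ * _ : ↥A)) : Qb) = _ * _ from rfl, map_mul]; ring
  rw [e]
  exact nonunits_add_mem P (mul_mem_nonunits_of_mem P hg.mem (valAt_spec hf))
    (mul_mem_nonunits_of_mem P (P.algebraMap_mem' _) (valAt_spec hg))

theorem valAt_const (P : Place Qb (Fb N)) (c : ↥A)
    (h : IntAt A P (algebraMap Qb (Fb N) (c : Qb))) : valAt h = c :=
  valAt_eq h (by rw [sub_self]; exact zero_mem_nonunits P)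

variable (A)

/-- Evaluation at `P`: `W_P → A`. -/
def valW (P : Place Qb (Fb N)) : wRing A P →+* ↥A where
  toFun f := valAt (A := A) (P := P) f.2
  map_one' := by
    have h : IntAt A P (algebraMap Qb (Fb N) ((1 : ↥A) : Qb)) := intAt_const P 1
    have := valAt_const P 1 h
    convert this using 2
    simp
  map_mul' f g := valAt_mul f.2 g.2 _
  map_zero' := by
    have h : IntAt A P (algebraMap Qb (Fb N) ((0 : ↥A) : Qb)) := intAt_const P 0
    have := valAt_const P 0 h
    convert this using 2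
    simp
  map_add' f g := valAt_add f.2 g.2 _

/-- The reduction map `W_P → κ`. -/
def redW (P : Place Qb (Fb N)) : wRing A P →+* Kap A :=
  (IsLocalRing.residue ↥A).comp (valW A P)

variable {A}

theorem valW_apply (P : Place Qb (Fb N)) (f : wRing A P) : valW A P f = valAt (A := A) f.2 := rfl

theorem redW_apply (P : Place Qb (Fb N)) (f : wRing A P) : redW A P f = redAt (A := A) f.2 := rfl

theorem valW_spec (P : Place Qb (Fb N)) (f : wRing A P) :
    (f : Fb N) - algebraMap Qb (Fb N) (valW A P f : Qb) ∈ P.toValuationSubring.nonunits :=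
  valAt_spec f.2

/-! ### The `Q̄`-level charts -/

variable (A)

/-- The `A`-algebra structure of `Q̄·F_N`. -/
instance algebraFb : Algebra ↥A (Fb N) :=
  ((algebraMap Qb (Fb N)).comp (algebraMap ↥A Qb)).toAlgebra

instance isScalarTower_Fb : IsScalarTower ↥A Qb (Fb N) :=
  IsScalarTower.of_algebraMap_eq fun _ => rfl

theorem algebraMap_Fb_apply (c : ↥A) :
    algebraMap ↥A (Fb N) c = algebraMap Qb (Fb N) (c : Qb) := rfl

section Charts

variable (N) [NeZero N]

/-- The chart `j ≠ ∞` over `A`: the integral closure of `A[j]` in `Q̄·F_N`. -/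
abbrev RtFin : Subalgebra ↥A (Fb N) := chartAlg ↥A (Fb N) {jb N}

/-- The chart `j ≠ 0` over `A`: the integral closure of `A[j⁻¹]` in `Q̄·F_N`. -/
abbrev RtInf : Subalgebra ↥A (Fb N) := chartAlg ↥A (Fb N) {(jb N)⁻¹}

end Charts


/-! ### Reduction of `q`-expansions: `thetaBar`, `thetaFt` -/

variable (N)

/-- The elements of `Q̄·F_N` whose `q`-expansion lies in the Gauss ring over `A`. -/
def gaussSub : Subring (Fb N) :=
  (GaussBar.gaussBar ↥A Qb).comap (modularFunctionFieldBar N).val.toRingHom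

theorem mem_gaussSub_iff {g : Fb N} :
    g ∈ gaussSub A N ↔ (g : LaurentSeries Qb) ∈ GaussBar.gaussBar ↥A Qb := Iff.rfl

/-- The inclusion of `gaussSub` into the Gauss ring. -/
def gaussSubIncl : gaussSub A N →+* GaussBar.gaussBar ↥A Qb where
  toFun g := ⟨((g : Fb N) : LaurentSeries Qb), g.2⟩
  map_one' := rfl
  map_mul' _ _ := rfl
  map_zero' := rfl
  map_add' _ _ := rfl

/-- Reduction of `q`-expansions, as a ring homomorphism on `gaussSub`. -/
def thetaHom : gaussSub A N →+* LaurentSeries (Kap A) :=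
  (GaussBar.thetaBar (A := ↥A) (Q := Qb)).comp (gaussSubIncl A N)

open Classical in
/-- Reduction of `q`-expansions `a / b ↦ ā / b̄`, as a total function (`0` outside `gaussSub`). -/
def thetaBar (g : Fb N) : LaurentSeries (Kap A) :=
  if h : g ∈ gaussSub A N then thetaHom A N ⟨g, h⟩ else 0

open Classical in
/-- Reduction of `q`-expansions with values in the function field of the special fibre
(`0` if the reduction is not in it). -/
def thetaFt (g : Fb N) : Ft A N :=
  if h : thetaBar A N g ∈ modularFunctionFieldFullC (Kap A) N then ⟨thetaBar A N g, h⟩ else 0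

variable {A N}

theorem thetaBar_of_mem {g : Fb N} (h : g ∈ gaussSub A N) :
    thetaBar A N g = thetaHom A N ⟨g, h⟩ := dif_pos h

theorem thetaBar_of_not_mem {g : Fb N} (h : g ∉ gaussSub A N) : thetaBar A N g = 0 := dif_neg h

theorem coe_thetaFt_of_mem {g : Fb N}
    (h : thetaBar A N g ∈ modularFunctionFieldFullC (Kap A) N) :
    ((thetaFt A N g : Ft A N) : LaurentSeries (Kap A)) = thetaBar A N g := by
  rw [thetaFt, dif_pos h]

theorem thetaFt_of_not_mem {g : Fb N}
    (h : thetaBar A N g ∉ modularFunctionFieldFullC (Kap A) N) : thetaFt A N g = 0 := dif_neg h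

/-- Characterisation of the reduction: if `g · b = a` with `a, b ∈ A((q))`, `b̄ ≠ 0`, then
`thetaBar g · b̄ = ā`. -/
theorem thetaBar_mul_eq {g : Fb N} {a b : LaurentSeries ↥A}
    (hb : coeffMap (IsLocalRing.residue ↥A) b ≠ 0)
    (h : (g : LaurentSeries Qb) * coeffMap A.subtype b = coeffMap A.subtype a) :
    thetaBar A N g * coeffMap (IsLocalRing.residue ↥A) b = coeffMap (IsLocalRing.residue ↥A) a := by
  have hg : g ∈ gaussSub A N := ⟨a, b, hb, h⟩
  rw [thetaBar_of_mem hg]
  exact GaussBar.thetaBar_mul_redBar (A := ↥A) (Q := Qb) (gaussSubIncl A N ⟨g, hg⟩) h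

/-- The reduction of a series with coefficients in `A` is its coefficientwise reduction. -/
theorem thetaBar_of_coeffs (y : LaurentSeries ↥A)
    (hy : coeffMap A.subtype y ∈ modularFunctionFieldBar N) :
    thetaBar A N ⟨coeffMap A.subtype y, hy⟩ = coeffMap (IsLocalRing.residue ↥A) y := by
  have h := thetaBar_mul_eq (A := A) (N := N) (g := ⟨coeffMap A.subtype y, hy⟩) (a := y) (b := 1)
    (by rw [map_one]; exact one_ne_zero) (by rw [map_one, mul_one])
  rwa [map_one, mul_one] at h

theorem thetaBar_add {g h : Fb N} (hg : g ∈ gaussSub A N) (hh : h ∈ gaussSub A N) :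
    thetaBar A N (g + h) = thetaBar A N g + thetaBar A N h := by
  rw [thetaBar_of_mem hg, thetaBar_of_mem hh, thetaBar_of_mem ((gaussSub A N).add_mem hg hh),
    ← map_add]
  rfl

theorem thetaBar_mul {g h : Fb N} (hg : g ∈ gaussSub A N) (hh : h ∈ gaussSub A N) :
    thetaBar A N (g * h) = thetaBar A N g * thetaBar A N h := by
  rw [thetaBar_of_mem hg, thetaBar_of_mem hh, thetaBar_of_mem ((gaussSub A N).mul_mem hg hh),
    ← map_mul]
  rfl

theorem thetaBar_one : thetaBar A N (1 : Fb N) = 1 := by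
  rw [thetaBar_of_mem (gaussSub A N).one_mem]
  exact map_one (thetaHom A N)

theorem thetaBar_zero : thetaBar A N (0 : Fb N) = 0 := by
  rw [thetaBar_of_mem (gaussSub A N).zero_mem]
  exact map_zero (thetaHom A N)

end Fermat.Agent.N4F.C

end
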