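/-
N4-FULL, block C, node C8 (helper22): GALOIS EQUIVARIANCE of the canonical place reduction.

`A ⊂ ℚ̄` a valuation subring, `κ` its residue field, `σ` in the decomposition group of `A`,
`σbar = resAut σ : κ ≃+* κ` the induced automorphism.

* `resAut`, `galA` : the automorphisms of `κ` and of `A` induced by `σ`; inertia ⇒ `resAut = 1`,
  Frobenius ⇒ `resAut x = x ^ ℓ`;
* `coeffMap_mem_gaussBar_of_decomp`, `thetaBar_galois` : `σ` preserves the Gauss ring of `A` and
  `thetaBar (σ x) = coeffMap σbar (thetaBar x)`;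
* `thetaBar_gal_smul`, `thetaFt_gal_smul` : the same for helper9's total functions `thetaBar`,
  `thetaFt` on `ℚ̄ · F_N` (`C/Base.lean`);
* `smul_eq_of_spec` : **(T4), abstract form**: a place map `r` characterised by congruences
  `thetaFt g - res c ∈ m_{r P}` for a `σ`-stable family of test pairs `(g, c)` satisfies
  `r (σ • P) = coeffAut σbar • r P`;
* `intAt_gal_smul_iff`, `gal_smul_mem_chartAlg`, `gal_inv_smul_mem_RtFin/RtInf` : stability of
  `IntAt`, `RtFin`, `RtInf`; `smul_eq_of_T1` : **(T4)** for a place map characterised by (T1);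
* `reductionPic0Along_galois_smul` : **(T5)**: the induced map on `Pic⁰` is equivariant;
  `reductionPic0Along_inertia`, `reductionPic0Along_frobenius`, `exists_frobenius_core(_of_T1)` :
  the clauses (i), (ii) of `N4F.Core.ESCore`.
-/
import Mathlib
import Fermat.Prelude.Def_ModularCurve_ReductionModL
import Fermat.Agent.N4F.Core
import Fermat.Agent.N4F.C.CoeffAut
import Fermat.Agent.N4F.C.GaussBar
import Fermat.Agent.N4F.C.Base

set_option autoImplicit false
set_option linter.unusedSectionVars false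

noncomputable section

open HahnSeries IntermediateField AlgebraicCurve ModularCurve
open scoped Pointwise

namespace Fermat.Agent.N4F.C.Galois

open Fermat.Agent.N4F.C Fermat.Agent.N4F.C.CoeffAut

/-! ### The decomposition group acting on `A` and on its residue field -/

section Decomp

variable {L : Type*} [Field L] (K : Type*) [Field K] [Algebra K L] (A : ValuationSubring L)

/-- The ring automorphism of `A` induced by an element of its decomposition group. -/
def galA (σ : A.decompositionSubgroup K) : A ≃+* A :=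
  MulSemiringAction.toRingAut (A.decompositionSubgroup K) A σ

/-- The automorphism of the residue field induced by an element of the decomposition group. -/
def resAut (σ : A.decompositionSubgroup K) :
    IsLocalRing.ResidueField A ≃+* IsLocalRing.ResidueField A :=
  MulSemiringAction.toRingAut (A.decompositionSubgroup K) (IsLocalRing.ResidueField A) σ

variable {K A}

@[simp] theorem coe_galA (σ : A.decompositionSubgroup K) (a : A) :
    ((galA K A σ a : A) : L) = (σ : L ≃ₐ[K] L) (a : L) := rfl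

theorem coe_galA_symm (σ : A.decompositionSubgroup K) (a : A) :
    (((galA K A σ).symm a : A) : L) = ((σ : L ≃ₐ[K] L)).symm (a : L) := by
  have h := coe_galA σ ((galA K A σ).symm a)
  rw [RingEquiv.apply_symm_apply] at h
  rw [h, AlgEquiv.symm_apply_apply]

theorem galA_symm (σ : A.decompositionSubgroup K) : (galA K A σ).symm = galA K A σ⁻¹ := by
  have h : galA K A σ⁻¹ = (galA K A σ)⁻¹ := map_inv _ σ
  rw [h]
  rfl

theorem resAut_symm (σ : A.decompositionSubgroup K) : (resAut K A σ).symm = resAut K A σ⁻¹ := by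
  have h : resAut K A σ⁻¹ = (resAut K A σ)⁻¹ := map_inv _ σ
  rw [h]
  rfl

theorem resAut_apply (σ : A.decompositionSubgroup K) (x : IsLocalRing.ResidueField A) :
    resAut K A σ x = σ • x := rfl

theorem resAut_residue (σ : A.decompositionSubgroup K) (a : A) :
    resAut K A σ (IsLocalRing.residue A a) = IsLocalRing.residue A (galA K A σ a) :=
  (IsLocalRing.ResidueField.residue_smul (A.decompositionSubgroup K) σ a).symm

theorem resAut_toRingHom (σ : A.decompositionSubgroup K) :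
    ((resAut K A σ : _ ≃+* _) : IsLocalRing.ResidueField A →+* IsLocalRing.ResidueField A) =
      IsLocalRing.ResidueField.map ((galA K A σ : A ≃+* A) : A →+* A) := rfl

theorem algebraMap_comp_galA (σ : A.decompositionSubgroup K) :
    (((σ : L ≃ₐ[K] L) : L ≃+* L) : L →+* L).comp (algebraMap A L) =
      (algebraMap A L).comp ((galA K A σ : A ≃+* A) : A →+* A) := rfl

/-- Inertia acts trivially on the residue field. -/
theorem resAut_eq_one_of_mem_inertia {τ : L ≃ₐ[K] L} (hτ : τ ∈ A.inertiaSubgroupIn K)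
    (hτD : τ ∈ A.decompositionSubgroup K) : resAut K A ⟨τ, hτD⟩ = 1 := by
  obtain ⟨h, hx⟩ := (Fermat.Agent.N4F.Core.mem_inertiaSubgroupIn_iff A τ).1 hτ
  exact RingEquiv.ext fun x => hx x

theorem mem_decompositionSubgroup_of_mem_inertia {τ : L ≃ₐ[K] L}
    (hτ : τ ∈ A.inertiaSubgroupIn K) : τ ∈ A.decompositionSubgroup K :=
  ((Fermat.Agent.N4F.Core.mem_inertiaSubgroupIn_iff A τ).1 hτ).1

/-- A Frobenius element acts on the residue field by `x ↦ x ^ q`. -/
theorem resAut_apply_of_isFrobeniusAt {σ : L ≃ₐ[K] L} {q : ℕ} (h : A.IsFrobeniusAt σ q)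
    (x : IsLocalRing.ResidueField A) :
    resAut K A ⟨σ, h.mem_decompositionSubgroup⟩ x = x ^ q :=
  h.smul_residue_eq x

theorem resAut_eq_of_isFrobeniusAt {σ : L ≃ₐ[K] L} {q : ℕ} (h : A.IsFrobeniusAt σ q)
    (φ : IsLocalRing.ResidueField A ≃+* IsLocalRing.ResidueField A) (hφ : ∀ x, φ x = x ^ q) :
    resAut K A ⟨σ, h.mem_decompositionSubgroup⟩ = φ :=
  RingEquiv.ext fun x => (resAut_apply_of_isFrobeniusAt h x).trans (hφ x).symm

/-! ### Equivariance of the Gauss ring and of `thetaBar` -/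

/-- The decomposition group preserves the Gauss ring of `A`. -/
theorem coeffMap_mem_gaussBar_of_decomp (σ : A.decompositionSubgroup K) {x : LaurentSeries L}
    (hx : x ∈ GaussBar.gaussBar A L) :
    coeffMap (((σ : L ≃ₐ[K] L) : L ≃+* L) : L →+* L) x ∈ GaussBar.gaussBar A L :=
  GaussBar.coeffMap_mem_gaussBar ((galA K A σ : A ≃+* A) : A →+* A) _ (algebraMap_comp_galA σ) hx

/-- **`thetaBar (σ x) = σbar (GaussBar.thetaBar x)`**. -/
theorem thetaBar_galois (σ : A.decompositionSubgroup K) (x : GaussBar.gaussBar A L) :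
    GaussBar.thetaBar (⟨coeffMap (((σ : L ≃ₐ[K] L) : L ≃+* L) : L →+* L) (x : LaurentSeries L),
        coeffMap_mem_gaussBar_of_decomp σ x.2⟩ : GaussBar.gaussBar A L) =
      coeffMap ((resAut K A σ : _ ≃+* _) : _ →+* _) (GaussBar.thetaBar x) := by
  rw [resAut_toRingHom]
  exact GaussBar.thetaBar_coeffMap ((galA K A σ : A ≃+* A) : A →+* A) _ (algebraMap_comp_galA σ) x

end Decomp

/-! ### The modular setting -/

section Modular

set_option synthInstance.maxHeartbeats 400000
set_option maxHeartbeats 1600000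

local notation "Γ" => (AlgebraicClosure ℚ ≃ₐ[ℚ] AlgebraicClosure ℚ)

variable (A : ValuationSubring Qb) (N : ℕ)

/-- The Galois action on the function field `ℚ̄ · F_N` (the prelude's `arithmeticGalois`). -/
abbrev gal (σ : Γ) : SemilinearAut Qb (Fb N) :=
  arithmeticGalois (modularFunctionFieldFull N) σ

theorem coe_gal_smul (σ : Γ) (g : Fb N) :
    ((gal N σ • g : Fb N) : LaurentSeries Qb) =
      coeffMap ((σ : Qb ≃+* Qb) : Qb →+* Qb) (g : LaurentSeries Qb) := rfl

theorem coe_gal_inv_smul (σ : Γ) (g : Fb N) :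
    (((gal N σ)⁻¹ • g : Fb N) : LaurentSeries Qb) =
      coeffMap ((σ.symm : Qb ≃+* Qb) : Qb →+* Qb) (g : LaurentSeries Qb) := rfl

theorem gal_smul_algebraMap (σ : Γ) (c : Qb) :
    gal N σ • algebraMap Qb (Fb N) c = algebraMap Qb (Fb N) (σ c) :=
  SemilinearAut.smul_algebraMap (gal N σ) c

theorem gal_inv_smul_algebraMap (σ : Γ) (c : Qb) :
    (gal N σ)⁻¹ • algebraMap Qb (Fb N) c = algebraMap Qb (Fb N) (σ.symm c) :=
  SemilinearAut.smul_algebraMap (gal N σ)⁻¹ c

theorem gal_inv (σ : Γ) : gal N σ⁻¹ = (gal N σ)⁻¹ :=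
  map_inv (arithmeticGalois (modularFunctionFieldFull N)) σ

/-- `j` is Galois invariant. -/
theorem gal_smul_jb [NeZero N] (σ : Γ) : gal N σ • jb N = jb N :=
  Subtype.ext (coeffMap_jqModC _)

theorem gal_smul_jb_inv [NeZero N] (σ : Γ) : gal N σ • (jb N)⁻¹ = (jb N)⁻¹ := by
  rw [smul_inv'', gal_smul_jb]

variable {A N}

theorem resAut_inv (σ : A.decompositionSubgroup ℚ) : resAut ℚ A σ⁻¹ = (resAut ℚ A σ)⁻¹ :=
  map_inv (MulSemiringAction.toRingAut (A.decompositionSubgroup ℚ) (Kap A)) σ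

/-! #### Equivariance of the reduction of functions -/

theorem gal_smul_mem_gaussSub (σ : A.decompositionSubgroup ℚ) {g : Fb N}
    (hg : g ∈ gaussSub A N) : gal N (σ : Γ) • g ∈ gaussSub A N :=
  coeffMap_mem_gaussBar_of_decomp σ hg

theorem gal_smul_mem_gaussSub_iff (σ : A.decompositionSubgroup ℚ) {g : Fb N} :
    gal N (σ : Γ) • g ∈ gaussSub A N ↔ g ∈ gaussSub A N := by
  refine ⟨fun h => ?_, gal_smul_mem_gaussSub σ⟩
  have h1 := gal_smul_mem_gaussSub σ⁻¹ h
  have h2 : gal N ((σ⁻¹ : A.decompositionSubgroup ℚ) : Γ) = (gal N (σ : Γ))⁻¹ := gal_inv N (σ : Γ)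
  rwa [h2, inv_smul_smul] at h1

/-- **`thetaBar (σ g) = σbar (thetaBar g)`**, for every `g` (both sides vanish outside the Gauss
ring). -/
theorem thetaBar_gal_smul (σ : A.decompositionSubgroup ℚ) (g : Fb N) :
    thetaBar A N (gal N (σ : Γ) • g) =
      coeffMap ((resAut ℚ A σ : _ ≃+* _) : Kap A →+* Kap A) (thetaBar A N g) := by
  by_cases hg : g ∈ gaussSub A N
  · rw [thetaBar_of_mem hg, thetaBar_of_mem (gal_smul_mem_gaussSub σ hg)]
    exact thetaBar_galois σ (⟨(g : LaurentSeries Qb), hg⟩ : GaussBar.gaussBar A Qb)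
  · rw [thetaBar_of_not_mem hg,
      thetaBar_of_not_mem (fun h => hg ((gal_smul_mem_gaussSub_iff σ).1 h)), map_zero]

theorem thetaBar_gal_smul_mem_iff (σ : A.decompositionSubgroup ℚ) (g : Fb N) :
    thetaBar A N (gal N (σ : Γ) • g) ∈ modularFunctionFieldFullC (Kap A) N ↔
      thetaBar A N g ∈ modularFunctionFieldFullC (Kap A) N := by
  rw [thetaBar_gal_smul]
  refine ⟨fun h => ?_, fun h => coeffMap_mem_full (Kap A) N _ h⟩
  have h1 := coeffMap_mem_full (Kap A) N
    (((resAut ℚ A σ).symm : _ ≃+* _) : Kap A →+* Kap A) h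
  rwa [coeffMap_coeffMap,
    coeffMap_congr (g := RingHom.id (Kap A))
      (RingHom.ext fun a => (resAut ℚ A σ).symm_apply_apply a), coeffMap_id] at h1

/-- **`thetaFt (σ g) = σbar • thetaFt g`**, for every `g`. -/
theorem thetaFt_gal_smul (σ : A.decompositionSubgroup ℚ) (g : Fb N) :
    thetaFt A N (gal N (σ : Γ) • g) = coeffAut (Kap A) N (resAut ℚ A σ) • thetaFt A N g := by
  by_cases h : thetaBar A N g ∈ modularFunctionFieldFullC (Kap A) N
  · have h' := (thetaBar_gal_smul_mem_iff σ g).2 h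
    apply Subtype.ext
    rw [coe_thetaFt_of_mem h', coe_coeffAut_smul, coe_thetaFt_of_mem h, thetaBar_gal_smul]
  · have h' : thetaBar A N (gal N (σ : Γ) • g) ∉ modularFunctionFieldFullC (Kap A) N :=
      fun h1 => h ((thetaBar_gal_smul_mem_iff σ g).1 h1)
    rw [thetaFt_of_not_mem h, thetaFt_of_not_mem h', smul_zero]

theorem thetaFt_gal_inv_smul (σ : A.decompositionSubgroup ℚ) (g : Fb N) :
    thetaFt A N ((gal N (σ : Γ))⁻¹ • g) =
      (coeffAut (Kap A) N (resAut ℚ A σ))⁻¹ • thetaFt A N g := by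
  have h1 := thetaFt_gal_smul σ⁻¹ g
  have h2 : gal N ((σ⁻¹ : A.decompositionSubgroup ℚ) : Γ) = (gal N (σ : Γ))⁻¹ := gal_inv N (σ : Γ)
  rwa [resAut_inv, map_inv, h2] at h1

/-! #### Congruences at places -/

/-- `g - c ∈ m_{σ P} ↔ σ⁻¹ g - σ⁻¹ c ∈ m_P`. -/
theorem sub_algebraMap_mem_nonunits_gal_smul_iff (σ : Γ)
    (P : Place Qb (Fb N)) (g : Fb N) (c : Qb) :
    g - algebraMap Qb (Fb N) c ∈ (gal N σ • P).toValuationSubring.nonunits ↔
      (gal N σ)⁻¹ • g - algebraMap Qb (Fb N) (σ.symm c) ∈ P.toValuationSubring.nonunits := by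
  rw [mem_nonunits_smul_place_iff, smul_sub, gal_inv_smul_algebraMap]

/-- `g - c ∈ m_{σ P} ↔ σ⁻¹ g - σ⁻¹ c ∈ m_P`, for `c ∈ A` and `σ` in the decomposition group. -/
theorem sub_const_mem_nonunits_gal_smul_iff (σ : A.decompositionSubgroup ℚ)
    (P : Place Qb (Fb N)) (g : Fb N) (c : A) :
    g - algebraMap Qb (Fb N) (c : Qb) ∈ (gal N (σ : Γ) • P).toValuationSubring.nonunits ↔
      (gal N (σ : Γ))⁻¹ • g - algebraMap Qb (Fb N) (((galA ℚ A σ).symm c : A) : Qb) ∈
        P.toValuationSubring.nonunits := by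
  rw [sub_algebraMap_mem_nonunits_gal_smul_iff, coe_galA_symm]

/-- **(T4), abstract form.**  Let `r` be a map from the places of `ℚ̄ · F_N` to the places of
`F_N(κ)` which is characterised by the congruences `thetaFt g - c̄ ∈ m_{r P}` for all test pairs
`(g, c)` at `P` (`hspec`, `huniq`).  If the family of test pairs is stable under `σ` in the
decomposition group of `A` (`hTest`), then `r (σ • P) = σbar • r P`. -/
theorem smul_eq_of_spec
    (r : Place Qb (Fb N) → Place (Kap A) (Ft A N))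
    (Test : Place Qb (Fb N) → Fb N → A → Prop)
    (hspec : ∀ P g c, Test P g c →
      thetaFt A N g - algebraMap (Kap A) (Ft A N) (IsLocalRing.residue A c) ∈
        (r P).toValuationSubring.nonunits)
    (huniq : ∀ P (Q : Place (Kap A) (Ft A N)),
      (∀ g c, Test P g c →
        thetaFt A N g - algebraMap (Kap A) (Ft A N) (IsLocalRing.residue A c) ∈
          Q.toValuationSubring.nonunits) → Q = r P)
    (σ : A.decompositionSubgroup ℚ)
    (hTest : ∀ P g c, Test (gal N (σ : Γ) • P) g c →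
      Test P ((gal N (σ : Γ))⁻¹ • g) ((galA ℚ A σ).symm c))
    (P : Place Qb (Fb N)) :
    r (gal N (σ : Γ) • P) = coeffAut (Kap A) N (resAut ℚ A σ) • r P := by
  symm
  refine huniq _ _ fun g c hT => ?_
  have h1 := hspec P _ _ (hTest P g c hT)
  rw [thetaFt_gal_inv_smul, ← smul_mem_nonunits_smul_place_iff
    (coeffAut (Kap A) N (resAut ℚ A σ)), smul_sub, smul_inv_smul,
    SemilinearAut.smul_algebraMap, baseAut_coeffAut, resAut_residue,
    RingEquiv.apply_symm_apply] at h1
  exact h1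

/-! #### Stability of the test pairs: `IntAt`, `RtFin`, `RtInf` -/

theorem intAt_gal_smul_iff (σ : A.decompositionSubgroup ℚ)
    (P : Place Qb (Fb N)) (f : Fb N) :
    IntAt A (gal N (σ : Γ) • P) (gal N (σ : Γ) • f) ↔ IntAt A P f := by
  constructor
  · rintro ⟨c, hc⟩
    refine ⟨(galA ℚ A σ).symm c, ?_⟩
    rwa [sub_const_mem_nonunits_gal_smul_iff, inv_smul_smul] at hc
  · rintro ⟨c, hc⟩
    refine ⟨galA ℚ A σ c, ?_⟩
    rw [sub_const_mem_nonunits_gal_smul_iff, inv_smul_smul, RingEquiv.symm_apply_apply]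
    exact hc

theorem intAt_gal_smul_of_fixed (σ : A.decompositionSubgroup ℚ)
    (P : Place Qb (Fb N)) {f : Fb N} (hf : gal N (σ : Γ) • f = f) :
    IntAt A (gal N (σ : Γ) • P) f ↔ IntAt A P f := by
  conv_lhs => rw [← hf]
  exact intAt_gal_smul_iff σ P f

theorem gal_smul_algebraMap_A (σ : A.decompositionSubgroup ℚ) (c : A) :
    gal N (σ : Γ) • algebraMap A (Fb N) c = algebraMap A (Fb N) (galA ℚ A σ c) := by
  rw [algebraMap_Fb_apply, algebraMap_Fb_apply, gal_smul_algebraMap, coe_galA]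

theorem gal_smul_mem_adjoin (σ : A.decompositionSubgroup ℚ) {S : Set (Fb N)}
    (hS : ∀ u ∈ S, gal N (σ : Γ) • u = u) {x : Fb N} (hx : x ∈ Algebra.adjoin A S) :
    gal N (σ : Γ) • x ∈ Algebra.adjoin A S := by
  induction hx using Algebra.adjoin_induction with
  | mem y hy => rw [hS y hy]; exact Algebra.subset_adjoin hy
  | algebraMap c => rw [gal_smul_algebraMap_A]; exact Subalgebra.algebraMap_mem _ _
  | add x y _ _ hx hy => rw [smul_add]; exact Subalgebra.add_mem _ hx hy
  | mul x y _ _ hx hy => rw [smul_mul']; exact Subalgebra.mul_mem _ hx hy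

/-- The Galois action preserves the charts `chartAlg A (Fb N) S` for Galois invariant `S`. -/
theorem gal_smul_mem_chartAlg (σ : A.decompositionSubgroup ℚ) {S : Set (Fb N)}
    (hS : ∀ u ∈ S, gal N (σ : Γ) • u = u) {x : Fb N}
    (hx : x ∈ Fermat.Agent.N4.Chart.chartAlg A (Fb N) S) :
    gal N (σ : Γ) • x ∈ Fermat.Agent.N4.Chart.chartAlg A (Fb N) S := by
  rw [Fermat.Agent.N4.Chart.mem_chartAlg_iff] at hx ⊢
  let φ : Algebra.adjoin A S →+* Algebra.adjoin A S :=
    { toFun := fun y => ⟨gal N (σ : Γ) • (y : Fb N), gal_smul_mem_adjoin σ hS y.2⟩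
      map_one' := Subtype.ext (smul_one _)
      map_mul' := fun y y' => Subtype.ext (smul_mul' _ _ _)
      map_zero' := Subtype.ext (smul_zero _)
      map_add' := fun y y' => Subtype.ext (smul_add _ _ _) }
  let ψ : Fb N →+* Fb N := ((SemilinearAut.toRingAut (gal N (σ : Γ)) : _ ≃+* _) : _ →+* _)
  have hcomp : (algebraMap (Algebra.adjoin A S) (Fb N)).comp φ =
      ψ.comp (algebraMap (Algebra.adjoin A S) (Fb N)) :=
    RingHom.ext fun y => rfl
  exact IsIntegral.map_of_comp_eq φ ψ hcomp hx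

theorem gal_inv_smul_mem_chartAlg (σ : A.decompositionSubgroup ℚ) {S : Set (Fb N)}
    (hS : ∀ u ∈ S, gal N (σ : Γ) • u = u) {x : Fb N}
    (hx : x ∈ Fermat.Agent.N4.Chart.chartAlg A (Fb N) S) :
    (gal N (σ : Γ))⁻¹ • x ∈ Fermat.Agent.N4.Chart.chartAlg A (Fb N) S := by
  have h2 : gal N ((σ⁻¹ : A.decompositionSubgroup ℚ) : Γ) = (gal N (σ : Γ))⁻¹ := gal_inv N (σ : Γ)
  rw [← h2]
  refine gal_smul_mem_chartAlg σ⁻¹ (fun u hu => ?_) hx
  rw [h2, inv_smul_eq_iff, hS u hu]

theorem gal_inv_smul_mem_RtFin [NeZero N] (σ : A.decompositionSubgroup ℚ) {x : Fb N}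
    (hx : x ∈ RtFin A N) : (gal N (σ : Γ))⁻¹ • x ∈ RtFin A N :=
  gal_inv_smul_mem_chartAlg σ (fun u hu => by
    rw [Set.mem_singleton_iff] at hu
    rw [hu, gal_smul_jb]) hx

theorem gal_inv_smul_mem_RtInf [NeZero N] (σ : A.decompositionSubgroup ℚ) {x : Fb N}
    (hx : x ∈ RtInf A N) : (gal N (σ : Γ))⁻¹ • x ∈ RtInf A N :=
  gal_inv_smul_mem_chartAlg σ (fun u hu => by
    rw [Set.mem_singleton_iff] at hu
    rw [hu, gal_smul_jb_inv]) hx

/-! #### (T4) for a place map characterised on the two charts -/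

/-- The test pairs of the characterisation (T1) of the canonical place reduction: `g` in the chart
`RtFin` (if `j` is integral at `P`) resp. `RtInf` (otherwise), and `g ≡ c` at `P`. -/
def TestT1 [NeZero N] (A : ValuationSubring Qb) (P : Place Qb (Fb N)) (g : Fb N) (c : A) : Prop :=
  ((IntAt A P (jb N) ∧ g ∈ RtFin A N) ∨ (¬ IntAt A P (jb N) ∧ g ∈ RtInf A N)) ∧
    g - algebraMap Qb (Fb N) (c : Qb) ∈ P.toValuationSubring.nonunits

theorem testT1_gal_inv [NeZero N] (σ : A.decompositionSubgroup ℚ) (P : Place Qb (Fb N))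
    (g : Fb N) (c : A) (h : TestT1 A (gal N (σ : Γ) • P) g c) :
    TestT1 A P ((gal N (σ : Γ))⁻¹ • g) ((galA ℚ A σ).symm c) := by
  obtain ⟨h1, h2⟩ := h
  refine ⟨?_, (sub_const_mem_nonunits_gal_smul_iff σ P g c).1 h2⟩
  rcases h1 with ⟨hj, hg⟩ | ⟨hj, hg⟩
  · exact Or.inl ⟨(intAt_gal_smul_of_fixed σ P (gal_smul_jb N (σ : Γ))).1 hj,
      gal_inv_smul_mem_RtFin σ hg⟩
  · exact Or.inr ⟨fun h => hj ((intAt_gal_smul_of_fixed σ P (gal_smul_jb N (σ : Γ))).2 h),
      gal_inv_smul_mem_RtInf σ hg⟩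

/-- **(T4)**: a place map `r` characterised by the congruences (T1) on the charts `RtFin`
(places where `j` is integral) and `RtInf` (the other places) is equivariant for the decomposition
group of `A`: `r (σ • P) = σbar • r P`. -/
theorem smul_eq_of_T1 [NeZero N]
    (r : Place Qb (Fb N) → Place (Kap A) (Ft A N))
    (hfin : ∀ P, IntAt A P (jb N) → ∀ g ∈ RtFin A N, ∀ c : A,
      g - algebraMap Qb (Fb N) (c : Qb) ∈ P.toValuationSubring.nonunits →
      thetaFt A N g - algebraMap (Kap A) (Ft A N) (IsLocalRing.residue A c) ∈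
        (r P).toValuationSubring.nonunits)
    (hinf : ∀ P, ¬ IntAt A P (jb N) → ∀ g ∈ RtInf A N, ∀ c : A,
      g - algebraMap Qb (Fb N) (c : Qb) ∈ P.toValuationSubring.nonunits →
      thetaFt A N g - algebraMap (Kap A) (Ft A N) (IsLocalRing.residue A c) ∈
        (r P).toValuationSubring.nonunits)
    (huniq_fin : ∀ P (Q : Place (Kap A) (Ft A N)), IntAt A P (jb N) →
      (∀ g ∈ RtFin A N, ∀ c : A,
        g - algebraMap Qb (Fb N) (c : Qb) ∈ P.toValuationSubring.nonunits →
        thetaFt A N g - algebraMap (Kap A) (Ft A N) (IsLocalRing.residue A c) ∈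
          Q.toValuationSubring.nonunits) → Q = r P)
    (huniq_inf : ∀ P (Q : Place (Kap A) (Ft A N)), ¬ IntAt A P (jb N) →
      (∀ g ∈ RtInf A N, ∀ c : A,
        g - algebraMap Qb (Fb N) (c : Qb) ∈ P.toValuationSubring.nonunits →
        thetaFt A N g - algebraMap (Kap A) (Ft A N) (IsLocalRing.residue A c) ∈
          Q.toValuationSubring.nonunits) → Q = r P)
    (σ : A.decompositionSubgroup ℚ) (P : Place Qb (Fb N)) :
    r (gal N (σ : Γ) • P) = coeffAut (Kap A) N (resAut ℚ A σ) • r P := by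
  refine smul_eq_of_spec r (TestT1 A) ?_ ?_ σ (testT1_gal_inv σ) P
  · rintro P g c ⟨h1, h2⟩
    rcases h1 with ⟨hj, hg⟩ | ⟨hj, hg⟩
    · exact hfin P hj g hg c h2
    · exact hinf P hj g hg c h2
  · intro P Q hQ
    by_cases hj : IntAt A P (jb N)
    · exact huniq_fin P Q hj fun g hg c hc => hQ g c ⟨Or.inl ⟨hj, hg⟩, hc⟩
    · exact huniq_inf P Q hj fun g hg c hc => hQ g c ⟨Or.inr ⟨hj, hg⟩, hc⟩

/-! #### (T5): equivariance on `Pic⁰` and the clauses (i), (ii) of `ESCore` -/

section Pic0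

variable {r : Place Qb (Fb N) →
  Place (Kap A) (Ft A N)}

theorem mapDomain_gal_smul (σ : Γ)
    (τ : Kap A ≃+* Kap A)
    (h : ∀ P, r (gal N σ • P) = coeffAut (Kap A) N τ • r P)
    (D : Divisor Qb (Fb N)) :
    Finsupp.mapDomain r (gal N σ • D) =
      coeffAut (Kap A) N τ • Finsupp.mapDomain r D := by
  rw [SemilinearAut.divisor_smul_def, SemilinearAut.divisor_smul_def, ← Finsupp.mapDomain_comp,
    ← Finsupp.mapDomain_comp]
  congr 1
  funext P
  exact h P

/-- **(T5)** If the place map `r` is `σ`-equivariant, so is the induced map on `Pic⁰`. -/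
theorem reductionPic0Along_galois_smul (hr : IsPlaceReductionModL A N r)
    (hgen : PrincipalGeneratedByIntegral A (IsLocalRing.residue A) N) (σ : Γ)
    (τ : Kap A ≃+* Kap A)
    (h : ∀ P, r (gal N σ • P) = coeffAut (Kap A) N τ • r P)
    (x : JZero N) :
    reductionPic0Along r hr hgen (σ • x) =
      coeffAut (Kap A) N τ • reductionPic0Along r hr hgen x := by
  obtain ⟨D, rfl⟩ := Pic0.mk_surjective x
  rw [galois_smul_pic0_def, SemilinearAut.pic0_smul_mk, reductionPic0Along_mk,
    reductionPic0Along_mk, SemilinearAut.pic0_smul_mk]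
  congr 1
  apply Subtype.ext
  rw [coe_reductionDegZeroAlong, SemilinearAut.coe_degZeroSMulHom,
    SemilinearAut.coe_degZeroSMulHom, coe_reductionDegZeroAlong]
  exact mapDomain_gal_smul σ τ h D

/-- The automorphism of `Pic⁰` induced by a semilinear automorphism. -/
def pic0AddEquiv {K F : Type*} [Field K] [Field F] [Algebra K F] (g : SemilinearAut K F) :
    Pic0 K F ≃+ Pic0 K F :=
  DistribMulAction.toAddEquiv (Pic0 K F) g

@[simp] theorem pic0AddEquiv_apply {K F : Type*} [Field K] [Field F] [Algebra K F]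
    (g : SemilinearAut K F) (x : Pic0 K F) : pic0AddEquiv g x = g • x := rfl

@[simp] theorem pic0AddEquiv_symm_apply {K F : Type*} [Field K] [Field F] [Algebra K F]
    (g : SemilinearAut K F) (x : Pic0 K F) : (pic0AddEquiv g).symm x = g⁻¹ • x := rfl

variable (hr : IsPlaceReductionModL A N r)
  (hgen : PrincipalGeneratedByIntegral A (IsLocalRing.residue A) N)
  (hT4 : ∀ (σ : A.decompositionSubgroup ℚ) P,
    r (gal N (σ : Γ) • P) = coeffAut (Kap A) N (resAut ℚ A σ) • r P)

include hT4 in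
/-- **Clause (i) of `ESCore`**: the reduction map is invariant under inertia. -/
theorem reductionPic0Along_inertia {τ : Γ} (hτ : τ ∈ A.inertiaSubgroupIn ℚ) (x : JZero N) :
    reductionPic0Along r hr hgen (τ • x) = reductionPic0Along r hr hgen x := by
  have hτD := mem_decompositionSubgroup_of_mem_inertia hτ
  have h := reductionPic0Along_galois_smul hr hgen τ (resAut ℚ A ⟨τ, hτD⟩) (hT4 ⟨τ, hτD⟩) x
  rw [resAut_eq_one_of_mem_inertia hτ hτD, map_one, one_smul] at h
  exact h

include hT4 in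
/-- **Clause (ii) of `ESCore`**: Frobenius elements act through the coefficientwise Frobenius. -/
theorem reductionPic0Along_frobenius {ℓ : ℕ} {σ : Γ} (hσ : A.IsFrobeniusAt σ ℓ)
    (φ : Kap A ≃+* Kap A) (hφ : ∀ x, φ x = x ^ ℓ)
    (x : JZero N) :
    reductionPic0Along r hr hgen (σ • x) =
      coeffAut (Kap A) N φ • reductionPic0Along r hr hgen x := by
  have h := reductionPic0Along_galois_smul hr hgen σ
    (resAut ℚ A ⟨σ, hσ.mem_decompositionSubgroup⟩) (hT4 ⟨σ, hσ.mem_decompositionSubgroup⟩) x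
  rw [resAut_eq_of_isFrobeniusAt hσ φ hφ] at h
  exact h

include hT4 in
/-- **Clauses (i) and (ii) of `ESCore`**, packaged with `Φ :=` the action of the coefficientwise
`ℓ`-power Frobenius of `κ((q))` on `Pic⁰` of the special fibre. -/
theorem exists_frobenius_core {ℓ : ℕ} (hℓ : ℓ.Prime) (hA : A.LiesOverPrime ℓ) :
    ∃ φ : Kap A ≃+* Kap A, (∀ x, φ x = x ^ ℓ) ∧
      (∀ τ ∈ A.inertiaSubgroupIn ℚ, ∀ x : JZero N,
        reductionPic0Along r hr hgen (τ • x) = reductionPic0Along r hr hgen x) ∧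
      (∀ σ : Γ, A.IsFrobeniusAt σ ℓ → ∀ x : JZero N,
        reductionPic0Along r hr hgen (σ • x) =
          pic0AddEquiv (coeffAut (Kap A) N φ)
            (reductionPic0Along r hr hgen x)) := by
  obtain ⟨σ₀, hσ₀⟩ := Fermat.Agent.N4F.Core.exists_isFrobeniusAt_of_liesOver ℓ hℓ A hA
  refine ⟨resAut ℚ A ⟨σ₀, hσ₀.mem_decompositionSubgroup⟩,
    fun x => resAut_apply_of_isFrobeniusAt hσ₀ x,
    fun τ hτ x => reductionPic0Along_inertia hr hgen hT4 hτ x, fun σ hσ x => ?_⟩
  exact reductionPic0Along_frobenius hr hgen hT4 hσ _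
    (fun y => resAut_apply_of_isFrobeniusAt hσ₀ y) x

/-- **Clauses (i) and (ii) of `ESCore` for a place map characterised by (T1)** (the canonical
place reduction `rCan` of block C). -/
theorem exists_frobenius_core_of_T1 [NeZero N] (hr : IsPlaceReductionModL A N r)
    (hgen : PrincipalGeneratedByIntegral A (IsLocalRing.residue A) N)
    (hfin : ∀ P, IntAt A P (jb N) → ∀ g ∈ RtFin A N, ∀ c : A,
      g - algebraMap Qb (Fb N) (c : Qb) ∈ P.toValuationSubring.nonunits →
      thetaFt A N g - algebraMap (Kap A) (Ft A N) (IsLocalRing.residue A c) ∈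
        (r P).toValuationSubring.nonunits)
    (hinf : ∀ P, ¬ IntAt A P (jb N) → ∀ g ∈ RtInf A N, ∀ c : A,
      g - algebraMap Qb (Fb N) (c : Qb) ∈ P.toValuationSubring.nonunits →
      thetaFt A N g - algebraMap (Kap A) (Ft A N) (IsLocalRing.residue A c) ∈
        (r P).toValuationSubring.nonunits)
    (huniq_fin : ∀ P (Q : Place (Kap A) (Ft A N)), IntAt A P (jb N) →
      (∀ g ∈ RtFin A N, ∀ c : A,
        g - algebraMap Qb (Fb N) (c : Qb) ∈ P.toValuationSubring.nonunits →
        thetaFt A N g - algebraMap (Kap A) (Ft A N) (IsLocalRing.residue A c) ∈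
          Q.toValuationSubring.nonunits) → Q = r P)
    (huniq_inf : ∀ P (Q : Place (Kap A) (Ft A N)), ¬ IntAt A P (jb N) →
      (∀ g ∈ RtInf A N, ∀ c : A,
        g - algebraMap Qb (Fb N) (c : Qb) ∈ P.toValuationSubring.nonunits →
        thetaFt A N g - algebraMap (Kap A) (Ft A N) (IsLocalRing.residue A c) ∈
          Q.toValuationSubring.nonunits) → Q = r P)
    {ℓ : ℕ} (hℓ : ℓ.Prime) (hA : A.LiesOverPrime ℓ) :
    ∃ φ : Kap A ≃+* Kap A, (∀ x, φ x = x ^ ℓ) ∧
      (∀ τ ∈ A.inertiaSubgroupIn ℚ, ∀ x : JZero N,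
        reductionPic0Along r hr hgen (τ • x) = reductionPic0Along r hr hgen x) ∧
      (∀ σ : Γ, A.IsFrobeniusAt σ ℓ → ∀ x : JZero N,
        reductionPic0Along r hr hgen (σ • x) =
          pic0AddEquiv (coeffAut (Kap A) N φ) (reductionPic0Along r hr hgen x)) :=
  exists_frobenius_core hr hgen
    (fun σ P => smul_eq_of_T1 r hfin hinf huniq_fin huniq_inf σ P) hℓ hA

end Pic0

end Modular

end Fermat.Agent.N4F.C.Galois
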