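/-
N4-FULL block C, node C3, part 1 (moonshots #30 §3): **levels**.

* `lev K N : FF K N →ₐ[K] ↥(modularFunctionFieldBar N)` — the coefficientwise inclusion
  `K(j(q^d) : d ∣ N) → Q̄(j(q^d) : d ∣ N)` for ANY field `K` with `[Algebra K Q̄]` (the algebra structure
  `[Algebra K ↥(modularFunctionFieldBar N)] [IsScalarTower K Q̄ ↥(modularFunctionFieldBar N)]` is a
  variable: found by instance search for `↥K`, `K : IntermediateField ℚ Q̄`, and provided for `Lvl K` in
  `Rationality.lean`);  (3a): `lev_injective`, `lev_jF`, `linDisj_lev`, `adjoin_range_lev`, finite data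
  `exists_finiteDimensional_forall_mem_range_lev`.
* generic (any `φ : F →ₐ[K] F'`, `F' = L(φ F)`, `L/K` algebraic): (3b) `restrictPlace φ hgen P` with
  `mem_restrictPlace_iff`, `extends_restrictPlace`, `eq_restrictPlace_of_extends`;
  rationality criterion `residueTrivial_of_extends`; `exists_extends` (every place has an unramified
  extension: block dU) and (3e) `residueTrivial_of_ord_ne_zero`.
-/
import Mathlib
import Fermat.Prelude.Def_ModularCurve_ArithmeticGalois
import Fermat.Prelude.Def_AlgebraicCurve_BaseChangeGalois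
import Fermat.Agent.N4.Setting
import Fermat.Agent.N4.BaseDescent
import Fermat.Agent.N4.ConstExtPlace
import Fermat.Agent.S24.PlaceExtend
import Fermat.Agent.S24.FFBasics

set_option autoImplicit false
set_option linter.style.haveILetI false
set_option linter.unusedSectionVars false

open AlgebraicCurve ModularCurve IntermediateField
open Fermat.Agent.N4.Setting Fermat.Agent.S24

noncomputable section

namespace Fermat.Agent.N4F.C.Levels

local notation "Qb" => AlgebraicClosure ℚ

/-- `Q̄ F_N` is generated by the `j(q^d)`, `d ∣ N`. -/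
theorem bar_eq_full (N : ℕ) : modularFunctionFieldBar N = modularFunctionFieldFullC Qb N :=
  FFBasics.laurentBaseChange_full Qb N

section Lev

variable (K : Type) [Field K] [Algebra K Qb] (N : ℕ) [NeZero N]
  [Algebra K ↥(modularFunctionFieldBar N)] [IsScalarTower K Qb ↥(modularFunctionFieldBar N)]

omit [NeZero N] [Algebra K ↥(modularFunctionFieldBar N)]
  [IsScalarTower K Qb ↥(modularFunctionFieldBar N)] in
theorem coeffMap_mem_bar {x : LaurentSeries K} (hx : x ∈ modularFunctionFieldFullC K N) :
    coeffMap (algebraMap K Qb) x ∈ modularFunctionFieldBar N := by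
  rw [bar_eq_full]
  exact Fermat.Agent.N4.BaseDescent.coeffMap_mem_full (algebraMap K Qb) N hx

omit [NeZero N] in
theorem algebraMap_bar_coe (c : K) :
    ((algebraMap K ↥(modularFunctionFieldBar N) c : ↥(modularFunctionFieldBar N)) :
      LaurentSeries Qb) = algebraMap Qb (LaurentSeries Qb) (algebraMap K Qb c) := by
  rw [IsScalarTower.algebraMap_apply K Qb ↥(modularFunctionFieldBar N)]
  rfl

/-- The level map: coefficientwise inclusion `K(j(q^d)) → Q̄(j(q^d))`. -/
def lev : FF K N →ₐ[K] ↥(modularFunctionFieldBar N) where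
  toFun x := ⟨coeffMap (algebraMap K Qb) x, coeffMap_mem_bar K N x.2⟩
  map_one' := Subtype.ext (map_one _)
  map_mul' _ _ := Subtype.ext (map_mul _ _ _)
  map_zero' := Subtype.ext (map_zero _)
  map_add' _ _ := Subtype.ext (map_add _ _ _)
  commutes' c := by
    apply Subtype.ext
    rw [algebraMap_bar_coe]
    show coeffMap (algebraMap K Qb) (algebraMap K (LaurentSeries K) c) = _
    rw [algebraMap_laurentSeries_eq_single, algebraMap_laurentSeries_eq_single, coeffMap_single]

@[simp] theorem coe_lev (x : FF K N) :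
    ((lev K N x : ↥(modularFunctionFieldBar N)) : LaurentSeries Qb) =
      coeffMap (algebraMap K Qb) (x : LaurentSeries K) := rfl

theorem lev_injective : Function.Injective (lev K N) := (lev K N).toRingHom.injective

/-- `j` as an element of `Q̄ F_N`. -/
def jb : ↥(modularFunctionFieldBar N) :=
  ⟨jqModC Qb, by rw [bar_eq_full]; exact jqModC_mem_full Qb N⟩

@[simp] theorem coe_jb : ((jb N : ↥(modularFunctionFieldBar N)) : LaurentSeries Qb) = jqModC Qb :=
  rfl

theorem lev_jF : lev K N (jF K N) = jb N := by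
  apply Subtype.ext
  rw [coe_lev, coe_jF, coeffMap_jqModC, coe_jb]

theorem lev_jdF {d : ℕ} [NeZero d] (hd : d ∣ N) :
    ((lev K N (jdF K N hd) : ↥(modularFunctionFieldBar N)) : LaurentSeries Qb) =
      qExpand Qb d (jqModC Qb) := by
  rw [coe_lev, coe_jdF, coeffMap_qExpand, coeffMap_jqModC]

/-- `Q̄ · lev(F_K) = Q̄ F_N`. -/
theorem adjoin_range_lev :
    IntermediateField.adjoin Qb (Set.range (lev K N)) = ⊤ := by
  rw [eq_top_iff]
  intro x _
  have hx : (x : LaurentSeries Qb) ∈ modularFunctionFieldFullC Qb N := by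
    rw [← bar_eq_full]
    exact x.2
  -- induction on the generators
  have h : ∀ y ∈ modularFunctionFieldFullC Qb N,
      ∃ z : ↥(modularFunctionFieldBar N),
        z ∈ IntermediateField.adjoin Qb (Set.range (lev K N)) ∧ (z : LaurentSeries Qb) = y := by
    intro y hy
    rw [modularFunctionFieldFullC] at hy
    induction hy using IntermediateField.adjoin_induction with
    | mem y hy =>
      obtain ⟨d, hd, hdN, rfl⟩ := hy
      haveI := hd
      exact ⟨lev K N (jdF K N hdN), IntermediateField.subset_adjoin Qb _ ⟨jdF K N hdN, rfl⟩,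
        lev_jdF K N hdN⟩
    | algebraMap c =>
      exact ⟨algebraMap Qb _ c,
        (IntermediateField.adjoin Qb (Set.range (lev K N))).algebraMap_mem c, rfl⟩
    | add x y hx hy ihx ihy =>
      obtain ⟨zx, hzx, rfl⟩ := ihx
      obtain ⟨zy, hzy, rfl⟩ := ihy
      exact ⟨zx + zy, add_mem hzx hzy, rfl⟩
    | inv x hx ihx =>
      obtain ⟨zx, hzx, rfl⟩ := ihx
      exact ⟨zx⁻¹, inv_mem hzx, rfl⟩
    | mul x y hx hy ihx ihy =>
      obtain ⟨zx, hzx, rfl⟩ := ihx
      obtain ⟨zy, hzy, rfl⟩ := ihy
      exact ⟨zx * zy, mul_mem hzx hzy, rfl⟩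
  obtain ⟨z, hz, hzx⟩ := h _ hx
  have : z = x := Subtype.ext hzx
  rwa [this] at hz

/-- Linear disjointness of `Q̄` and `lev(F_K)` over `K`. -/
theorem linDisj_lev : PlaceExtend.LinDisj Qb (lev K N) := by
  intro n b hb
  -- push the family to `K((q))`
  have h1 : @LinearIndependent (Fin n) K (LaurentSeries K)
      (fun i => ((b i : FF K N) : LaurentSeries K)) _ _ Algebra.toModule := by
    rw [FFBasics.linearIndependent_algebra_iff]
    intro t g hg i hi
    refine (linearIndependent_iff'.mp hb) t g ?_ i hi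
    apply Subtype.ext
    rw [ZeroMemClass.coe_zero, ← hg, AddSubmonoidClass.coe_finsetSum]
    refine Finset.sum_congr rfl fun j _ => ?_
    rw [Algebra.smul_def, MulMemClass.coe_mul]
    rfl
  have h2 := FFBasics.linearIndependent_coeffMap (K := K) (L := Qb) _ h1
  rw [FFBasics.linearIndependent_algebra_iff] at h2
  rw [linearIndependent_iff']
  intro t g hg i hi
  refine h2 t g ?_ i hi
  have hg' := congrArg (Subtype.val) hg
  rw [ZeroMemClass.coe_zero, AddSubmonoidClass.coe_finsetSum] at hg'
  rw [← hg']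
  refine Finset.sum_congr rfl fun j _ => ?_
  rw [Algebra.smul_def, MulMemClass.coe_mul]
  rfl

end Lev

end Fermat.Agent.N4F.C.Levels

open AlgebraicCurve ModularCurve IntermediateField Polynomial
open Fermat.Agent.N4.Setting Fermat.Agent.S24
open Fermat.Agent.S24.PlaceDeriv (ResidueTrivial)

noncomputable section

namespace Fermat.Agent.N4F.C.Levels

section Generic

variable {K L F F' : Type*} [Field K] [Field L] [Field F] [Field F']
  [Algebra K L] [Algebra K F] [Algebra L F'] [Algebra K F'] [IsScalarTower K L F']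
  (φ : F →ₐ[K] F')

/-- A polynomial expression in an element of a valuation subring, with coefficients in the valuation
subring, lies in the valuation subring. -/
theorem eval₂_mem_valuationSubring (A : ValuationSubring F') (ψ : F →+* F') (p : F[X])
    (hp : ∀ i, ψ (p.coeff i) ∈ A) {t : F'} (ht : t ∈ A) : p.eval₂ ψ t ∈ A := by
  rw [eval₂_eq_sum, Polynomial.sum]
  exact sum_mem fun i _ => mul_mem (hp i) (pow_mem ht i)

variable [Algebra.IsAlgebraic K L]

/-- `F' = L(φ F)` is algebraic over `φ F`, so every place of `F'` is nontrivial on `φ F`. -/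
theorem exists_ne_zero_mem_nonunits (hgen : IntermediateField.adjoin L (Set.range φ) = ⊤)
    (P : Place L F') : ∃ x : F, x ≠ 0 ∧ φ x ∈ P.toValuationSubring.nonunits := by
  classical
  letI : Algebra F F' := φ.toRingHom.toAlgebra
  haveI : IsScalarTower K F F' := IsScalarTower.of_algebraMap_eq fun a => (φ.commutes a).symm
  have hφ : ∀ f : F, algebraMap F F' f = φ f := fun _ => rfl
  have htop : IntermediateField.adjoin F (Set.range (algebraMap L F')) = ⊤ :=
    Fermat.Agent.N4.ConstExtPlace.adjoin_range_eq_top hgen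
  haveI halg : Algebra.IsAlgebraic F (IntermediateField.adjoin F (Set.range (algebraMap L F'))) :=
    IntermediateField.isAlgebraic_adjoin fun x hx => by
      obtain ⟨c, rfl⟩ := hx
      have h1 : IsIntegral K c := (Algebra.IsAlgebraic.isAlgebraic (R := K) c).isIntegral
      exact (h1.map (IsScalarTower.toAlgHom K L F')).tower_top
  have hall : ∀ z : F', IsAlgebraic F z := by
    intro z
    have hz : z ∈ IntermediateField.adjoin F (Set.range (algebraMap L F')) := by
      rw [htop]; exact IntermediateField.mem_top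
    have := halg.isAlgebraic ⟨z, hz⟩
    exact (isAlgebraic_algebraMap_iff
      (algebraMap (IntermediateField.adjoin F (Set.range (algebraMap L F'))) F').injective).mpr this
  -- a uniformiser
  obtain ⟨π, hπ⟩ := IsDiscreteValuationRing.exists_irreducible P.toValuationSubring
  set t : F' := (π : F') with ht
  have ht0 : t ≠ 0 := fun h0 => hπ.ne_zero (Subtype.ext h0)
  have htnon : t ∈ P.toValuationSubring.nonunits :=
    (ValuationSubring.coe_mem_nonunits_iff (a := π)).mpr
      ((IsLocalRing.mem_maximalIdeal _).mpr hπ.not_isUnit)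
  have htint : IsIntegral F t := (hall t).isIntegral
  set p := minpoly F t with hp
  have hp0 : p.coeff 0 ≠ 0 := minpoly.coeff_zero_ne_zero htint ht0
  by_contra hcon
  simp only [not_exists, not_and] at hcon
  -- all nonzero elements of `φ F` are units at `P`
  have hmem : ∀ a : F, φ a ∈ P.toValuationSubring := by
    intro a
    by_cases ha : a = 0
    · rw [ha, map_zero]; exact zero_mem _
    · have h1 := hcon a⁻¹ (inv_ne_zero ha)
      rw [ValuationSubring.mem_nonunits_iff_or, not_or, map_inv₀, inv_inv] at h1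
      exact not_not.mp h1.2
  have hroot : p.eval₂ (φ : F →+* F') t = 0 := by
    have := minpoly.aeval F t
    rwa [aeval_def] at this
  have hdec : p = p.divX * X + C (p.coeff 0) := (divX_mul_X_add p).symm
  rw [hdec, eval₂_add, eval₂_mul, eval₂_X, eval₂_C] at hroot
  have h2 : p.divX.eval₂ (φ : F →+* F') t ∈ P.toValuationSubring :=
    eval₂_mem_valuationSubring P.toValuationSubring (φ : F →+* F') p.divX (fun i => hmem _)
      (ValuationSubring.nonunits_subset htnon)
  have h3 : φ (p.coeff 0) ∈ P.toValuationSubring.nonunits := by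
    have h4 : φ (p.coeff 0) = -(p.divX.eval₂ (φ : F →+* F') t * t) := by
      have : (φ : F →+* F') (p.coeff 0) = φ (p.coeff 0) := rfl
      rw [this] at hroot
      linear_combination hroot
    rw [h4]
    set q : P.toValuationSubring := ⟨p.divX.eval₂ (φ : F →+* F') t, h2⟩ with hq
    have h5 : -(q * π) ∈ IsLocalRing.maximalIdeal P.toValuationSubring :=
      neg_mem (Ideal.mul_mem_left _ _ ((IsLocalRing.mem_maximalIdeal _).mpr hπ.not_isUnit))
    exact (ValuationSubring.coe_mem_nonunits_iff (a := -(q * π))).mpr h5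
  exact hcon (p.coeff 0) hp0 h3

/-- **Restriction of a place** of `F' = L(φ F)` to `F`. -/
def restrictPlace (hgen : IntermediateField.adjoin L (Set.range φ) = ⊤) (P : Place L F') :
    Place K F :=
  PlaceExtend.restrict φ P (exists_ne_zero_mem_nonunits φ hgen P).choose
    (exists_ne_zero_mem_nonunits φ hgen P).choose_spec.1
    (exists_ne_zero_mem_nonunits φ hgen P).choose_spec.2

theorem mem_restrictPlace_iff (hgen : IntermediateField.adjoin L (Set.range φ) = ⊤)
    (P : Place L F') (f : F) :
    f ∈ (restrictPlace φ hgen P).toValuationSubring ↔ φ f ∈ P.toValuationSubring :=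
  PlaceExtend.mem_restrict_iff P _ _ _ f

theorem extends_restrictPlace (hgen : IntermediateField.adjoin L (Set.range φ) = ⊤)
    (P : Place L F') : PlaceExtend.Extends L φ (restrictPlace φ hgen P) P :=
  PlaceExtend.extends_restrict P _ _ _

variable {φ} in
/-- A place of `F` extended by `P` is the restriction of `P`. -/
theorem eq_restrictPlace_of_extends (hgen : IntermediateField.adjoin L (Set.range φ) = ⊤)
    {v : Place K F} {P : Place L F'} (h : PlaceExtend.Extends L φ v P) :
    v = restrictPlace φ hgen P := by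
  apply Place.ext
  ext f
  rw [mem_restrictPlace_iff, h f]

end Generic

end Fermat.Agent.N4F.C.Levels

open AlgebraicCurve ModularCurve IntermediateField Polynomial
open Fermat.Agent.N4.Setting Fermat.Agent.S24
open Fermat.Agent.S24.PlaceDeriv (ResidueTrivial)
open scoped Pointwise

noncomputable section

namespace Fermat.Agent.N4F.C.Levels

section Generic

variable {K L F F' : Type*} [Field K] [Field L] [Field F] [Field F']
  [Algebra K L] [Algebra K F] [Algebra L F'] [Algebra K F'] [IsScalarTower K L F']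
  {φ : F →ₐ[K] F'}

/-- A constant which is a nonunit at a place vanishes. -/
theorem eq_zero_of_algebraMap_mem_nonunits (P : Place L F') {c : L}
    (hc : algebraMap L F' c ∈ P.toValuationSubring.nonunits) : c = 0 := by
  by_contra h0
  rw [ValuationSubring.mem_nonunits_iff_or] at hc
  rcases hc with hc | hc
  · exact h0 ((map_eq_zero _).mp hc)
  · apply hc
    rw [← map_inv₀]
    exact P.algebraMap_mem' _

/-- Semilinear automorphisms map nonunits to nonunits. -/
theorem smul_mem_nonunits (g : SemilinearAut L F') (P : Place L F') {x : F'}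
    (hx : x ∈ P.toValuationSubring.nonunits) : g • x ∈ (g • P).toValuationSubring.nonunits := by
  rw [ValuationSubring.mem_nonunits_iff_or] at hx ⊢
  rcases hx with hx | hx
  · left; rw [hx, smul_zero]
  · right
    intro h
    apply hx
    rw [SemilinearAut.smul_toValuationSubring, ← smul_inv'' ,
      ValuationSubring.smul_mem_pointwise_smul_iff] at h
    exact h

/-- **Rationality criterion.**  Let `P` be a place of `F' = L(φ F)` with residue field `L`, fixed by a
set `𝒢` of semilinear automorphisms which fix `φ F` pointwise and whose fixed field in `L` is `K`.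
Then every place `v` of `F` below `P` has residue field `K`. -/
theorem residueTrivial_of_extends {v : Place K F} {P : Place L F'}
    (h : PlaceExtend.Extends L φ v P) (hP : ResidueTrivial P) (𝒢 : Set (SemilinearAut L F'))
    (hfixP : ∀ g ∈ 𝒢, g • P = P) (hfixφ : ∀ g ∈ 𝒢, ∀ f : F, g • φ f = φ f)
    (hfixed : ∀ c : L, (∀ g ∈ 𝒢, SemilinearAut.baseAut g c = c) → c ∈ (algebraMap K L).range) :
    ResidueTrivial v := by
  intro u
  have hu : φ (u : F) ∈ P.toValuationSubring := (h _).mpr u.2
  obtain ⟨c, hc⟩ := hP ⟨φ (u : F), hu⟩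
  have hc' : φ (u : F) - algebraMap L F' c ∈ P.toValuationSubring.nonunits :=
    (ValuationSubring.coe_mem_nonunits_iff
      (a := (⟨φ (u : F), hu⟩ - algebraMap L P.toValuationSubring c))).mpr hc
  have hcK : c ∈ (algebraMap K L).range := by
    refine hfixed c fun g hg => ?_
    have h1 := smul_mem_nonunits g P hc'
    rw [hfixP g hg, smul_sub, hfixφ g hg, SemilinearAut.smul_algebraMap] at h1
    have h2 : algebraMap L F' (SemilinearAut.baseAut g c - c) ∈ P.toValuationSubring.nonunits := by
      have : algebraMap L F' (SemilinearAut.baseAut g c - c) =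
          (φ (u : F) - algebraMap L F' c) -
            (φ (u : F) - algebraMap L F' (SemilinearAut.baseAut g c)) := by
        rw [map_sub]; ring
      rw [this]
      exact sub_mem hc' h1
    exact sub_eq_zero.mp (eq_zero_of_algebraMap_mem_nonunits P h2)
  obtain ⟨a, ha⟩ := hcK
  refine ⟨a, ?_⟩
  rw [IsLocalRing.mem_maximalIdeal, mem_nonunits_iff, ← mem_nonunits_iff,
    ← IsLocalRing.mem_maximalIdeal, ← ValuationSubring.coe_mem_nonunits_iff,
    ← PlaceExtend.Extends.mem_nonunits_iff h]
  have : φ ((u - algebraMap K v.toValuationSubring a : v.toValuationSubring) : F) =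
      φ (u : F) - algebraMap L F' c := by
    rw [← ha, ← IsScalarTower.algebraMap_apply, ← φ.commutes]
    simp
  rw [this]
  exact hc'

variable [CharZero K] [Algebra.IsAlgebraic K L]

variable (φ) in
/-- **Existence of an unramified extension** of an arbitrary place (block dU). -/
theorem exists_extends (hgen : IntermediateField.adjoin L (Set.range φ) = ⊤) (v : Place K F) :
    ∃ P : Place L F', PlaceExtend.Extends L φ v P ∧ ∀ f : F, P.ord (φ f) = v.ord f := by
  classical
  obtain ⟨P, h1, h2, h3⟩ := Fermat.Agent.N4.ConstExtPlace.exists_place_above' (K := K) φ hgen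
    v.toValuationSubring (fun a => ⟨⟨algebraMap K F a, v.algebraMap_mem' a⟩, rfl⟩)
  have hext : PlaceExtend.Extends L φ v P := by
    intro f
    refine ⟨fun hf => ?_, fun hf => h1 ⟨f, hf⟩⟩
    by_contra hfv
    have hf0 : f ≠ 0 := fun h0 => hfv (h0 ▸ zero_mem _)
    have hinv : f⁻¹ ∈ v.toValuationSubring :=
      (v.toValuationSubring.mem_or_inv_mem f).resolve_left hfv
    have hnu : ¬ IsUnit (⟨f⁻¹, hinv⟩ : v.toValuationSubring) := by
      intro hu
      obtain ⟨b, hb⟩ := isUnit_iff_exists_inv.1 hu
      have hb' : f⁻¹ * (b : F) = 1 := congrArg Subtype.val hb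
      have : (b : F) = f := by
        field_simp at hb'
        exact hb'
      exact hfv (this ▸ b.2)
    have h4 := h2 ⟨f⁻¹, hinv⟩ hnu
    rw [ValuationSubring.mem_nonunits_iff_or] at h4
    rcases h4 with h4 | h4
    · exact hf0 (inv_eq_zero.mp ((map_eq_zero φ).mp h4))
    · apply h4
      have : (φ ((algebraMap v.toValuationSubring F) ⟨f⁻¹, hinv⟩))⁻¹ = φ f := by
        show (φ f⁻¹)⁻¹ = φ f
        rw [map_inv₀, inv_inv]
      rw [this]
      exact hf
  refine ⟨P, hext, fun f => ?_⟩
  by_cases hf : f = 0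
  · simp [hf]
  obtain ⟨π, hπ⟩ := IsDiscreteValuationRing.exists_irreducible v.toValuationSubring
  obtain ⟨u, hu⟩ := v.exists_unit_mul_zpow hf hπ
  have hφπ : P.ord (φ (π : F)) = 1 := h3 π hπ
  have hφu0 : φ ((u : v.toValuationSubring) : F) ≠ 0 := by
    rw [ne_eq, map_eq_zero]
    exact fun h0 => u.ne_zero (Subtype.ext h0)
  have hφπ0 : φ (π : F) ≠ 0 := by
    rw [ne_eq, map_eq_zero]; exact fun h0 => hπ.ne_zero (Subtype.ext h0)
  have hordu : P.ord (φ ((u : v.toValuationSubring) : F)) = 0 := by
    have h5 : 0 ≤ P.ord (φ ((u : v.toValuationSubring) : F)) :=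
      (PlaceExtend.mem_iff_ord_nonneg P hφu0).1 ((hext _).2 (u : v.toValuationSubring).2)
    have h6 : 0 ≤ P.ord (φ ((u : v.toValuationSubring) : F))⁻¹ := by
      apply (PlaceExtend.mem_iff_ord_nonneg P (inv_ne_zero hφu0)).1
      rw [← map_inv₀]
      apply (hext _).2
      have : ((u : v.toValuationSubring) : F)⁻¹ =
          ((u⁻¹ : v.toValuationSubringˣ) : v.toValuationSubring) := by
        rw [eq_comm, ← mul_eq_one_iff_eq_inv₀ (fun h0 => u.ne_zero (Subtype.ext h0))]
        have h7 : ((u⁻¹ : v.toValuationSubringˣ) : v.toValuationSubring) *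
            (u : v.toValuationSubring) = 1 := u.inv_mul
        exact congrArg Subtype.val h7
      rw [this]
      exact ((u⁻¹ : v.toValuationSubringˣ) : v.toValuationSubring).2
    rw [P.ord_inv] at h6
    omega
  conv_lhs => rw [hu, map_mul, map_zpow₀]
  rw [P.ord_mul hφu0 (zpow_ne_zero _ hφπ0), hordu, zero_add, P.ord_zpow, hφπ, mul_one]

variable (φ) in
/-- **(3e)**: if all zeros and poles of `φ y` restrict to places with residue field `K`, then all
zeros and poles of `y` have residue field `K` (and are such restrictions). -/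
theorem residueTrivial_of_ord_ne_zero (hgen : IntermediateField.adjoin L (Set.range φ) = ⊤)
    (y : F) (hrat : ∀ P : Place L F', P.ord (φ y) ≠ 0 →
      ResidueTrivial (restrictPlace φ hgen P)) (v : Place K F) (hv : v.ord y ≠ 0) :
    ResidueTrivial v ∧ ∃ P : Place L F', P.ord (φ y) ≠ 0 ∧ v = restrictPlace φ hgen P := by
  obtain ⟨P, hext, hord⟩ := exists_extends φ hgen v
  have hP : P.ord (φ y) ≠ 0 := by rw [hord]; exact hv
  have hv' : v = restrictPlace φ hgen P := eq_restrictPlace_of_extends hgen hext
  exact ⟨hv' ▸ hrat P hP, P, hP, hv'⟩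

end Generic

end Fermat.Agent.N4F.C.Levels

open AlgebraicCurve ModularCurve IntermediateField Polynomial
open Fermat.Agent.N4.Setting Fermat.Agent.S24
open Fermat.Agent.S24.PlaceDeriv (ResidueTrivial)
open scoped Pointwise

noncomputable section

namespace Fermat.Agent.N4F.C.Levels

local notation "Qb" => AlgebraicClosure ℚ

section FiniteData

variable (N : ℕ) [NeZero N]

/-- **Finite data**: every element of `Q̄ F_N` is defined over a finite extension of `ℚ`: it comes
from `F_K` for every field `K → Q̄` whose image contains a suitable number field `K₁`. -/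
theorem exists_finiteDimensional_forall_exists_coeffMap_eq {y : LaurentSeries Qb}
    (hy : y ∈ modularFunctionFieldFullC Qb N) :
    ∃ K₁ : IntermediateField ℚ Qb, FiniteDimensional ℚ K₁ ∧
      ∀ (K : Type) [Field K] [Algebra K Qb], (∀ c ∈ K₁, c ∈ (algebraMap K Qb).range) →
        ∃ z : FF K N, coeffMap (algebraMap K Qb) (z : LaurentSeries K) = y := by
  classical
  haveI : Algebra.IsAlgebraic ℚ Qb := AlgebraicClosure.isAlgebraic ℚ
  rw [modularFunctionFieldFullC] at hy
  induction hy using IntermediateField.adjoin_induction with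
  | mem y hy =>
    obtain ⟨d, hd, hdN, rfl⟩ := hy
    haveI := hd
    refine ⟨⊥, inferInstance, fun K _ _ _ => ⟨jdF K N hdN, ?_⟩⟩
    rw [coe_jdF, coeffMap_qExpand, coeffMap_jqModC]
  | algebraMap c =>
    refine ⟨ℚ⟮c⟯, IntermediateField.adjoin.finiteDimensional
      (Algebra.IsAlgebraic.isAlgebraic (R := ℚ) c).isIntegral, fun K _ _ hK => ?_⟩
    obtain ⟨a, ha⟩ := hK c (IntermediateField.mem_adjoin_simple_self ℚ c)
    refine ⟨algebraMap K (FF K N) a, ?_⟩
    show coeffMap (algebraMap K Qb) (algebraMap K (LaurentSeries K) a) = _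
    rw [algebraMap_laurentSeries_eq_single, algebraMap_laurentSeries_eq_single, coeffMap_single,
      ← ha]
  | add x y hx hy ihx ihy =>
    obtain ⟨K₁, h₁, hK₁⟩ := ihx
    obtain ⟨K₂, h₂, hK₂⟩ := ihy
    refine ⟨K₁ ⊔ K₂, IntermediateField.finiteDimensional_sup _ _, fun K _ _ hK => ?_⟩
    obtain ⟨zx, hzx⟩ := hK₁ K fun c hc => hK c ((le_sup_left : K₁ ≤ K₁ ⊔ K₂) hc)
    obtain ⟨zy, hzy⟩ := hK₂ K fun c hc => hK c ((le_sup_right : K₂ ≤ K₁ ⊔ K₂) hc)
    exact ⟨zx + zy, by rw [AddMemClass.coe_add, map_add, hzx, hzy]⟩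
  | inv x hx ihx =>
    obtain ⟨K₁, h₁, hK₁⟩ := ihx
    refine ⟨K₁, h₁, fun K _ _ hK => ?_⟩
    obtain ⟨zx, hzx⟩ := hK₁ K hK
    refine ⟨zx⁻¹, ?_⟩
    have : ((zx⁻¹ : FF K N) : LaurentSeries K) = (zx : LaurentSeries K)⁻¹ := rfl
    rw [this, map_inv₀, hzx]
  | mul x y hx hy ihx ihy =>
    obtain ⟨K₁, h₁, hK₁⟩ := ihx
    obtain ⟨K₂, h₂, hK₂⟩ := ihy
    refine ⟨K₁ ⊔ K₂, IntermediateField.finiteDimensional_sup _ _, fun K _ _ hK => ?_⟩
    obtain ⟨zx, hzx⟩ := hK₁ K fun c hc => hK c ((le_sup_left : K₁ ≤ K₁ ⊔ K₂) hc)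
    obtain ⟨zy, hzy⟩ := hK₂ K fun c hc => hK c ((le_sup_right : K₂ ≤ K₁ ⊔ K₂) hc)
    exact ⟨zx * zy, by rw [MulMemClass.coe_mul, map_mul, hzx, hzy]⟩

/-- Finite data, for finitely many elements of `Q̄ F_N` and in terms of `lev`. -/
theorem exists_finiteDimensional_forall_mem_range_lev (T : Finset ↥(modularFunctionFieldBar N)) :
    ∃ K₁ : IntermediateField ℚ Qb, FiniteDimensional ℚ K₁ ∧
      ∀ (K : Type) [Field K] [Algebra K Qb] [Algebra K ↥(modularFunctionFieldBar N)]
        [IsScalarTower K Qb ↥(modularFunctionFieldBar N)],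
        (∀ c ∈ K₁, c ∈ (algebraMap K Qb).range) → ∀ t ∈ T, t ∈ Set.range (lev K N) := by
  classical
  have h : ∀ t : ↥(modularFunctionFieldBar N), ∃ K₁ : IntermediateField ℚ Qb,
      FiniteDimensional ℚ K₁ ∧ ∀ (K : Type) [Field K] [Algebra K Qb],
        (∀ c ∈ K₁, c ∈ (algebraMap K Qb).range) →
        ∃ z : FF K N, coeffMap (algebraMap K Qb) (z : LaurentSeries K) = (t : LaurentSeries Qb) :=
    fun t => exists_finiteDimensional_forall_exists_coeffMap_eq N
      (by rw [← bar_eq_full]; exact t.2)
  choose E hEfin hE using h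
  refine ⟨⨆ t ∈ T, E t, IntermediateField.finiteDimensional_iSup_of_finset,
    fun K _ _ _ _ hK t ht => ?_⟩
  obtain ⟨z, hz⟩ := hE t K fun c hc =>
    hK c ((le_iSup₂ (f := fun t _ => E t) t ht : E t ≤ ⨆ t ∈ T, E t) hc)
  exact ⟨z, Subtype.ext hz⟩

end FiniteData

end Fermat.Agent.N4F.C.Levels
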