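/-
N4-FULL block C, node C3, part 2 (moonshots #30 §3): **rationality** and the concrete level API.

* `HasFixedField K`, `residueTrivial_bar` (every place of `Q̄ F_N` has residue field `Q̄`),
  `arithmeticGalois_smul_lev`, (3d) `exists_finiteDimensional_residueTrivial` (on top of helper21's
  `Continuity.exists_fixing_place`).
* `Lvl K` — the subfield `K ⊆ Q̄` as a bare type (instance search on `↥K` inside `FF ↥K N` times out:
  USE `Lvl K`), with `Field`, `Algebra (Lvl K) Q̄`, `CharZero`, `Algebra.IsAlgebraic ℚ (Lvl K)`,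
  `Algebra.IsAlgebraic (Lvl K) Q̄`, `Algebra (Lvl K) ↥(modularFunctionFieldBar N)` + tower,
  `Lvl.mem_range_iff`, `hasFixedField_lvl`.
* concrete API: `levK N K`, `restrictK N K P`, `mem_restrictK_iff`, `extends_restrictK`,
  `eq_restrictK_of_extends`, (3c) `existsUnique_extendsK`, `ord_levK`, `ord_levK_restrictK`,
  `exists_extendsK`, (3e) `residueTrivial_of_ord_ne_zeroK`, (3a)+(3d) `exists_finiteDimensional_level`.
* `baseRing A K : Subring (Lvl K)` (= `BigDVR.trSubring A K`), `exists_level`, `statements_of_level`.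
-/
import Mathlib
import Fermat.Agent.N4F.C.Levels
import Fermat.Agent.N4F.Continuity
import Fermat.Agent.S24.Hurwitz
import Fermat.Agent.N4F.A.LevelMaps
import Fermat.Agent.N4.BigDVRLevel

set_option autoImplicit false
set_option linter.style.haveILetI false
set_option linter.unusedSectionVars false

open AlgebraicCurve ModularCurve IntermediateField Polynomial
open Fermat.Agent.N4.Setting Fermat.Agent.S24
open Fermat.Agent.S24.PlaceDeriv (ResidueTrivial)
open scoped Pointwise

noncomputable section

namespace Fermat.Agent.N4F.C.Levels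

local notation "Qb" => AlgebraicClosure ℚ

section Rationality

variable (N : ℕ) [NeZero N]

/-- The image of `K` in `Q̄` is the fixed field of the automorphisms of `Q̄` fixing it
(true for every subfield of `Q̄`: `hasFixedField_intermediateField`). -/
def HasFixedField (K : Type) [Field K] [Algebra K Qb] : Prop :=
  ∀ c : Qb, (∀ σ : Qb ≃ₐ[ℚ] Qb, (∀ a : K, σ (algebraMap K Qb a) = algebraMap K Qb a) → σ c = c) →
    c ∈ (algebraMap K Qb).range

/-- Every place of `Q̄ F_N` has residue field `Q̄`. -/
theorem residueTrivial_bar (P : Place Qb ↥(modularFunctionFieldBar N)) : ResidueTrivial P := by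
  haveI : P.FiniteResidue := ⟨Fermat.Agent.N4F.A.LevelMaps.finite_residueField_bar N P⟩
  exact Fermat.Agent.S24.Hurwitz.residueTrivial P

variable (K : Type) [Field K] [Algebra K Qb]
  [Algebra K ↥(modularFunctionFieldBar N)] [IsScalarTower K Qb ↥(modularFunctionFieldBar N)]

/-- Automorphisms of `Q̄` fixing `K` fix `lev(F_K)`. -/
theorem arithmeticGalois_smul_lev (σ : Qb ≃ₐ[ℚ] Qb)
    (hσ : ∀ a : K, σ (algebraMap K Qb a) = algebraMap K Qb a) (f : FF K N) :
    arithmeticGalois (modularFunctionFieldFull N) σ • lev K N f = lev K N f := by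
  apply Subtype.ext
  rw [coe_arithmeticGalois_smul, coe_lev, coeffMap_coeffMap]
  exact coeffMap_congr (RingHom.ext fun a => hσ a) _

/-- **(3d) Rationality.**  Every place `P` of `Q̄ F_N` is defined over a number field `E`: for every
subfield `K ⊇ E` of `Q̄` the restriction of `P` to `F_K` has residue field `K`. -/
theorem exists_finiteDimensional_residueTrivial (P : Place Qb ↥(modularFunctionFieldBar N)) :
    ∃ E : IntermediateField ℚ Qb, FiniteDimensional ℚ E ∧
      ∀ (K : Type) [Field K] [Algebra K Qb] [Algebra K ↥(modularFunctionFieldBar N)]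
        [IsScalarTower K Qb ↥(modularFunctionFieldBar N)] [Algebra.IsAlgebraic K Qb],
        (∀ e ∈ E, e ∈ (algebraMap K Qb).range) → HasFixedField K →
        ResidueTrivial (restrictPlace (lev K N) (adjoin_range_lev K N) P) := by
  obtain ⟨E, hEfin, hE⟩ := Fermat.Agent.N4F.Continuity.exists_fixing_place N P
  refine ⟨E, hEfin, fun K _ _ _ _ _ hK hfix => ?_⟩
  refine residueTrivial_of_extends (extends_restrictPlace (lev K N) (adjoin_range_lev K N) P)
    (residueTrivial_bar N P)
    {g | ∃ σ : Qb ≃ₐ[ℚ] Qb, (∀ a : K, σ (algebraMap K Qb a) = algebraMap K Qb a) ∧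
      g = arithmeticGalois (modularFunctionFieldFull N) σ} ?_ ?_ ?_
  · rintro g ⟨σ, hσ, rfl⟩
    refine hE σ fun e he => ?_
    obtain ⟨a, rfl⟩ := hK e he
    exact hσ a
  · rintro g ⟨σ, hσ, rfl⟩ f
    exact arithmeticGalois_smul_lev N K σ hσ f
  · intro c hc
    refine hfix c fun σ hσ => ?_
    exact hc _ ⟨σ, hσ, rfl⟩

end Rationality

section Concrete

local instance isAlgebraicQbar_lev : Algebra.IsAlgebraic ℚ Qb := AlgebraicClosure.isAlgebraic ℚ
local instance isAlgClosureQbar_lev : IsAlgClosure ℚ Qb := ⟨inferInstance, inferInstance⟩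
local instance isGaloisQbar_lev : IsGalois ℚ Qb := IsAlgClosure.isGalois ℚ Qb

/-- Subfields of `Q̄` are fixed fields. -/
theorem hasFixedField_intermediateField (K : IntermediateField ℚ Qb) : HasFixedField ↥K := by
  intro c hc
  have h1 : c ∈ IntermediateField.fixedField K.fixingSubgroup := by
    rw [IntermediateField.mem_fixedField_iff]
    intro σ hσ
    refine hc σ fun a => ?_
    exact (IntermediateField.mem_fixingSubgroup_iff K σ).mp hσ a a.2
  rw [InfiniteGalois.fixedField_fixingSubgroup] at h1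
  exact ⟨⟨c, h1⟩, rfl⟩

theorem isAlgebraic_intermediateField (K : IntermediateField ℚ Qb) : Algebra.IsAlgebraic ↥K Qb :=
  inferInstance

end Concrete

end Fermat.Agent.N4F.C.Levels

open AlgebraicCurve ModularCurve IntermediateField Polynomial
open Fermat.Agent.N4.Setting Fermat.Agent.S24
open Fermat.Agent.S24.PlaceDeriv (ResidueTrivial)

noncomputable section

namespace Fermat.Agent.N4F.C.Levels

local notation "Qb" => AlgebraicClosure ℚ

/-- The subfield `K ⊆ Q̄` as a bare type.  **Use this instead of `↥K` as the base field of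
`FF · N`**: instance search on `↥K` (an `IntermediateField` coercion) inside the tower
`↥K → FF ↥K N → …` times out (`Algebra ↥K (FF ↥K N)`, `Module`, `SMul`, … all exceed the default
`synthInstance.maxHeartbeats`), whereas `Lvl K` is opaque to instance search.  `Lvl K` is
definitionally `↥K`. -/
def Lvl (K : IntermediateField ℚ Qb) : Type := ↥K

section LvlInstances

variable (K : IntermediateField ℚ Qb)

instance : Field (Lvl K) := inferInstanceAs (Field ↥K)

instance : Algebra (Lvl K) Qb := inferInstanceAs (Algebra ↥K Qb)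

instance : CharZero (Lvl K) := inferInstanceAs (CharZero ↥K)

/-- `Lvl K → ↥K` (the identity). -/
def Lvl.toSub : Lvl K ≃+* ↥K := RingEquiv.refl _

theorem Lvl.algebraMap_apply (a : Lvl K) : algebraMap (Lvl K) Qb a = ((Lvl.toSub K a : ↥K) : Qb) :=
  rfl

theorem Lvl.algebraMap_mem (a : Lvl K) : algebraMap (Lvl K) Qb a ∈ K := (Lvl.toSub K a).2

theorem Lvl.mem_range_iff {c : Qb} : c ∈ (algebraMap (Lvl K) Qb).range ↔ c ∈ K :=
  ⟨fun ⟨a, ha⟩ => ha ▸ Lvl.algebraMap_mem K a, fun hc => ⟨(Lvl.toSub K).symm ⟨c, hc⟩, rfl⟩⟩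

instance : Algebra.IsAlgebraic (Lvl K) Qb := by
  haveI : Algebra.IsAlgebraic ℚ Qb := AlgebraicClosure.isAlgebraic ℚ
  refine ⟨fun c => ?_⟩
  obtain ⟨p, hp0, hp⟩ := Algebra.IsAlgebraic.isAlgebraic (R := ℚ) c
  refine ⟨p.map (algebraMap ℚ (Lvl K)), (Polynomial.map_ne_zero_iff (algebraMap ℚ (Lvl K)).injective).mpr hp0, ?_⟩
  rw [aeval_def, eval₂_map]
  have : (algebraMap (Lvl K) Qb).comp (algebraMap ℚ (Lvl K)) = algebraMap ℚ Qb :=
    RingHom.ext fun q => by simp
  rw [this, ← aeval_def, hp]

instance : Algebra.IsAlgebraic ℚ (Lvl K) := by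
  haveI : Algebra.IsAlgebraic ℚ Qb := AlgebraicClosure.isAlgebraic ℚ
  refine ⟨fun a => ?_⟩
  obtain ⟨p, hp0, hp⟩ := Algebra.IsAlgebraic.isAlgebraic (R := ℚ) (algebraMap (Lvl K) Qb a)
  refine ⟨p, hp0, (algebraMap (Lvl K) Qb).injective ?_⟩
  rw [map_zero, ← hp, aeval_def, aeval_def, hom_eval₂]
  congr 1

theorem hasFixedField_lvl : HasFixedField (Lvl K) := by
  intro c hc
  obtain ⟨a, ha⟩ := hasFixedField_intermediateField K c fun σ hσ => hc σ fun a => hσ _
  exact ⟨(Lvl.toSub K).symm a, ha⟩

variable (N : ℕ)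

instance : Algebra (Lvl K) ↥(modularFunctionFieldBar N) :=
  ((algebraMap Qb ↥(modularFunctionFieldBar N)).comp (algebraMap (Lvl K) Qb)).toAlgebra

instance : IsScalarTower (Lvl K) Qb ↥(modularFunctionFieldBar N) :=
  IsScalarTower.of_algebraMap_eq fun _ => rfl

end LvlInstances

end Fermat.Agent.N4F.C.Levels

open AlgebraicCurve ModularCurve IntermediateField Polynomial
open Fermat.Agent.N4.Setting Fermat.Agent.S24
open Fermat.Agent.S24.PlaceDeriv (ResidueTrivial)

noncomputable section

namespace Fermat.Agent.N4F.C.Levels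

local notation "Qb" => AlgebraicClosure ℚ

section Concrete

variable (N : ℕ) [NeZero N] (K : IntermediateField ℚ Qb)

/-- The level map `F_K → Q̄ F_N` for a subfield `K ⊆ Q̄`. -/
abbrev levK : FF (Lvl K) N →ₐ[Lvl K] ↥(modularFunctionFieldBar N) := lev (Lvl K) N

/-- Restriction of a place of `Q̄ F_N` to `F_K`. -/
abbrev restrictK (P : Place Qb ↥(modularFunctionFieldBar N)) : Place (Lvl K) (FF (Lvl K) N) :=
  restrictPlace (levK N K) (adjoin_range_lev (Lvl K) N) P

theorem mem_restrictK_iff (P : Place Qb ↥(modularFunctionFieldBar N)) (f : FF (Lvl K) N) :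
    f ∈ (restrictK N K P).toValuationSubring ↔ levK N K f ∈ P.toValuationSubring :=
  mem_restrictPlace_iff _ _ P f

theorem extends_restrictK (P : Place Qb ↥(modularFunctionFieldBar N)) :
    PlaceExtend.Extends Qb (levK N K) (restrictK N K P) P :=
  extends_restrictPlace _ _ P

theorem eq_restrictK_of_extends {v : Place (Lvl K) (FF (Lvl K) N)}
    {P : Place Qb ↥(modularFunctionFieldBar N)} (h : PlaceExtend.Extends Qb (levK N K) v P) :
    v = restrictK N K P :=
  eq_restrictPlace_of_extends _ h

/-- **(3c)** a place of `F_K` with residue field `K` has exactly one extension to `Q̄ F_N`. -/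
theorem existsUnique_extendsK {v : Place (Lvl K) (FF (Lvl K) N)} (hres : ResidueTrivial v) :
    ∃! P : Place Qb ↥(modularFunctionFieldBar N), PlaceExtend.Extends Qb (levK N K) v P :=
  PlaceExtend.existsUnique_extends (linDisj_lev (Lvl K) N) (adjoin_range_lev (Lvl K) N) hres

/-- **(3c)** `ord` is preserved along `lev` at places with residue field `K`. -/
theorem ord_levK {v : Place (Lvl K) (FF (Lvl K) N)} (hres : ResidueTrivial v)
    {P : Place Qb ↥(modularFunctionFieldBar N)} (h : PlaceExtend.Extends Qb (levK N K) v P)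
    (f : FF (Lvl K) N) : P.ord (levK N K f) = v.ord f :=
  PlaceExtend.Extends.ord_map (adjoin_range_lev (Lvl K) N) hres h f

/-- `ord` at `P` and at its restriction, when the restriction has residue field `K`. -/
theorem ord_levK_restrictK (P : Place Qb ↥(modularFunctionFieldBar N))
    (hres : ResidueTrivial (restrictK N K P)) (f : FF (Lvl K) N) :
    P.ord (levK N K f) = (restrictK N K P).ord f :=
  ord_levK N K hres (extends_restrictK N K P) f

/-- Every place of `F_K` has an (unramified) extension to `Q̄ F_N` (block dU). -/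
theorem exists_extendsK (v : Place (Lvl K) (FF (Lvl K) N)) :
    ∃ P : Place Qb ↥(modularFunctionFieldBar N), PlaceExtend.Extends Qb (levK N K) v P ∧
      ∀ f : FF (Lvl K) N, P.ord (levK N K f) = v.ord f :=
  exists_extends (levK N K) (adjoin_range_lev (Lvl K) N) v

/-- **(3e)** if all zeros and poles of `lev y` restrict to places of `F_K` with residue field `K`,
then all zeros and poles of `y` have residue field `K` (and are such restrictions). -/
theorem residueTrivial_of_ord_ne_zeroK (y : FF (Lvl K) N)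
    (hrat : ∀ P : Place Qb ↥(modularFunctionFieldBar N), P.ord (levK N K y) ≠ 0 →
      ResidueTrivial (restrictK N K P))
    (v : Place (Lvl K) (FF (Lvl K) N)) (hv : v.ord y ≠ 0) :
    ResidueTrivial v ∧ ∃ P : Place Qb ↥(modularFunctionFieldBar N),
      P.ord (levK N K y) ≠ 0 ∧ v = restrictK N K P :=
  residueTrivial_of_ord_ne_zero (levK N K) (adjoin_range_lev (Lvl K) N) y hrat v hv

end Concrete

section Exists

variable (N : ℕ) [NeZero N]

/-- **(3a) finite data + (3d) rationality, combined**: for finitely many functions `T` and finitely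
many places `S` of `Q̄ F_N` there is a number field `K₁ ⊆ Q̄` such that for every subfield `K ⊇ K₁`
of `Q̄`: all `t ∈ T` come from `F_K`, and all `P ∈ S` restrict to places of `F_K` with residue field
`K`. -/
theorem exists_finiteDimensional_level (T : Finset ↥(modularFunctionFieldBar N))
    (S : Finset (Place Qb ↥(modularFunctionFieldBar N))) :
    ∃ K₁ : IntermediateField ℚ Qb, FiniteDimensional ℚ K₁ ∧
      ∀ K : IntermediateField ℚ Qb, K₁ ≤ K →
        (∀ t ∈ T, t ∈ Set.range (levK N K)) ∧
        ∀ P ∈ S, ResidueTrivial (restrictK N K P) := by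
  classical
  obtain ⟨K₀, hK₀fin, hK₀⟩ := exists_finiteDimensional_forall_mem_range_lev N T
  choose E hEfin hE using exists_finiteDimensional_residueTrivial N
  refine ⟨K₀ ⊔ ⨆ P ∈ S, E P, ?_, fun K hK => ⟨?_, fun P hP => ?_⟩⟩
  · haveI : FiniteDimensional ℚ (⨆ P ∈ S, E P : IntermediateField ℚ Qb) :=
      IntermediateField.finiteDimensional_iSup_of_finset
    exact IntermediateField.finiteDimensional_sup _ _
  · exact hK₀ (Lvl K) fun c hc => (Lvl.mem_range_iff K).mpr (hK (le_sup_left (a := K₀) hc))
  · refine hE P (Lvl K) (fun e he => (Lvl.mem_range_iff K).mpr (hK ?_)) (hasFixedField_lvl K)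
    exact (le_sup_right : (⨆ P ∈ S, E P) ≤ K₀ ⊔ ⨆ P ∈ S, E P)
      ((le_iSup₂ (f := fun P _ => E P) P hP : E P ≤ ⨆ P ∈ S, E P) he)

end Exists

section BigDVRLevel

open Fermat.Agent.N4.BigDVR

/-- The base ring `A ∩ K ⊆ K` of a level, as a subring of `Lvl K` (definitionally `trSubring A K`). -/
abbrev baseRing (A : ValuationSubring Qb) (K : IntermediateField ℚ Qb) : Subring (Lvl K) :=
  trSubring A K

/-- Block Onr in `Lvl` language: levels exist above any finite set of constants. -/
theorem exists_level (A : ValuationSubring Qb) {ℓ : ℕ} (hℓ : ℓ.Prime) (hA : A.LiesOverPrime ℓ)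
    {N : ℕ} (hℓN : ¬ ℓ ∣ N) (T : Finset Qb) :
    ∃ K : IntermediateField ℚ Qb, (∀ t ∈ T, t ∈ K) ∧
      ∃ (_ : IsDiscreteValuationRing ↥(baseRing A K))
        (_ : IsAlgClosed (IsLocalRing.ResidueField ↥(baseRing A K))),
        GoodBase (Lvl K) N (baseRing A K) ℓ := by
  obtain ⟨K, hT, hDVR, hAC, hGB, -, -⟩ := exists_goodBase A hℓ hA T N hℓN
  exact ⟨K, hT, hDVR, hAC, hGB⟩

/-- Usage check: `StarTarget` and `SmoothTarget` apply to `(Lvl K, baseRing A K)`. -/
theorem statements_of_level (hStar : StarTarget) (hSmooth : SmoothTarget)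
    (A : ValuationSubring Qb) (K : IntermediateField ℚ Qb) (N : ℕ) [NeZero N] (ℓ : ℕ)
    [IsDiscreteValuationRing ↥(baseRing A K)]
    [IsAlgClosed (IsLocalRing.ResidueField ↥(baseRing A K))]
    (hGB : GoodBase (Lvl K) N (baseRing A K) ℓ) :
    StarStatement (Lvl K) N (baseRing A K) ∧ SmoothStatement (Lvl K) N (baseRing A K) :=
  ⟨hStar (Lvl K) N (baseRing A K) ℓ hGB, hSmooth (Lvl K) N (baseRing A K) ℓ hGB⟩

end BigDVRLevel

end Fermat.Agent.N4F.C.Levels
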