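/-
N4-FULL block C, node C3 part 3 (moonshots #30 §5b): **the `Q̄`-level charts are the union of the
level charts**, `R̃^± = ⋃_K lev(R_K^±)`.

* generic: `map_mem_adjoin`, `adjoinMap`, `map_mem_chartAlg` (base change maps charts into charts),
  `mem_chartAlg_of_lifts` (descent along an injective base change);
* `baseIncl A K : A ∩ K →+* A`, `levK_algebraMap`, `levK_jF`, `levK_jF_inv`;
* `lev_mem_RtFin`, `lev_mem_RtInf` : `lev(R_K^±) ⊆ R̃^±`;
* `exists_finiteDimensional_RtFin`, `exists_finiteDimensional_RtInf` : every `g ∈ R̃^±` comes from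
  `R_K^±` for ALL `K` containing a suitable number field `K₀` (`exists_finiteDimensional_chart` for a
  general generator);
* `exists_level_ge` : block Onr above a given number field; `exists_level_of_finite` : ONE good level
  for finitely many constants, functions, places and chart elements.
-/
import Mathlib
import Fermat.Agent.N4F.C.Base
import Fermat.Agent.N4F.C.Rationality

set_option autoImplicit false
set_option linter.style.haveILetI false
set_option linter.unusedSectionVars false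

open AlgebraicCurve ModularCurve IntermediateField Polynomial
open Fermat.Agent.N4.Setting Fermat.Agent.N4.Chart Fermat.Agent.S24
open Fermat.Agent.N4F.C Fermat.Agent.N4F.C.Levels

noncomputable section

namespace Fermat.Agent.N4F.C.LevelCharts

section Generic

variable {O O' F F' : Type*} [CommRing O] [CommRing O'] [Field F] [Field F'] [Algebra O F]
  [Algebra O' F'] (f₀ : O →+* O') (φ : F →+* F')
  (hcomp : ∀ a, φ (algebraMap O F a) = algebraMap O' F' (f₀ a))
  {S : Set F} {S' : Set F'} (hS : ∀ y ∈ S, φ y ∈ S')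

include hcomp hS in
theorem map_mem_adjoin {x : F} (hx : x ∈ Algebra.adjoin O S) :
    φ x ∈ Algebra.adjoin O' S' := by
  induction hx using Algebra.adjoin_induction with
  | mem y hy => exact Algebra.subset_adjoin (hS y hy)
  | algebraMap a => rw [hcomp]; exact Subalgebra.algebraMap_mem _ _
  | add y z _ _ hy hz => rw [map_add]; exact add_mem hy hz
  | mul y z _ _ hy hz => rw [map_mul]; exact mul_mem hy hz

/-- Base change of `O[S]`. -/
def adjoinMap : ↥(Algebra.adjoin O S) →+* ↥(Algebra.adjoin O' S') :=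
  (φ.comp (algebraMap ↥(Algebra.adjoin O S) F)).codRestrict (Algebra.adjoin O' S')
    (fun a => map_mem_adjoin f₀ φ hcomp hS a.2)

@[simp] theorem coe_adjoinMap (a : ↥(Algebra.adjoin O S)) :
    ((adjoinMap f₀ φ hcomp hS a : ↥(Algebra.adjoin O' S')) : F') = φ (a : F) := rfl

include hcomp hS in
/-- Base change maps charts into charts. -/
theorem map_mem_chartAlg {x : F} (hx : x ∈ chartAlg O F S) :
    φ x ∈ chartAlg O' F' S' := by
  rw [mem_chartAlg_iff] at hx ⊢
  exact hx.map_of_comp_eq (adjoinMap f₀ φ hcomp hS) φ (by ext; rfl)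

/-- **Descent**: if `φ x` is a root of a monic polynomial over `O'[S']` all of whose coefficients
come from `O[S]`, then `x` lies in the chart over `O`. -/
theorem mem_chartAlg_of_lifts {x : F} (p : Polynomial ↥(Algebra.adjoin O' S'))
    (hp : p.Monic) (hroot : p.eval₂ (algebraMap ↥(Algebra.adjoin O' S') F') (φ x) = 0)
    (hlift : ∀ i, p.coeff i ∈ Set.range (adjoinMap f₀ φ hcomp hS)) :
    x ∈ chartAlg O F S := by
  have hl : p ∈ Polynomial.lifts (adjoinMap f₀ φ hcomp hS) :=
    (Polynomial.lifts_iff_coeff_lifts p).mpr hlift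
  obtain ⟨q, hq, -, hqm⟩ := Polynomial.lifts_and_natDegree_eq_and_monic hl hp
  rw [mem_chartAlg_iff]
  refine ⟨q, hqm, φ.injective ?_⟩
  rw [map_zero, ← hroot, ← hq, Polynomial.eval₂_map, Polynomial.hom_eval₂]
  rfl

end Generic

section Concrete

open Fermat.Agent.N4.BigDVR

variable (A : ValuationSubring Qb) (N : ℕ) [NeZero N] (K : IntermediateField ℚ Qb)

/-- `A ∩ K → A`. -/
def baseIncl : ↥(baseRing A K) →+* ↥A :=
  ((algebraMap (Lvl K) Qb).comp (baseRing A K).subtype).codRestrict A.toSubring (fun a => a.2)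

@[simp] theorem coe_baseIncl (a : ↥(baseRing A K)) :
    ((baseIncl A K a : ↥A) : Qb) = algebraMap (Lvl K) Qb (a : Lvl K) := rfl

theorem baseIncl_injective : Function.Injective (baseIncl A K) := fun _ _ h =>
  Subtype.ext ((algebraMap (Lvl K) Qb).injective (congrArg (fun z : ↥A => (z : Qb)) h))

/-- `lev` is compatible with the structure maps of the bases. -/
theorem levK_algebraMap (a : ↥(baseRing A K)) :
    levK N K (algebraMap ↥(baseRing A K) (FF (Lvl K) N) a) =
      algebraMap ↥A (Fb N) (baseIncl A K a) := by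
  rw [IsScalarTower.algebraMap_apply ↥(baseRing A K) (Lvl K) (FF (Lvl K) N), AlgHom.commutes]
  rfl

theorem levK_jF : levK N K (jF (Lvl K) N) = Fermat.Agent.N4F.C.jb N :=
  (lev_jF (Lvl K) N).trans (Subtype.ext rfl)

theorem levK_jF_inv : levK N K (jF (Lvl K) N)⁻¹ = (Fermat.Agent.N4F.C.jb N)⁻¹ := by
  rw [map_inv₀, levK_jF]

/-- **Base change of the finite chart**: `lev` maps `R_K^fin` into `R̃^fin`. -/
theorem lev_mem_RtFin {x : FF (Lvl K) N} (hx : x ∈ Rfin (Lvl K) N (baseRing A K)) :
    levK N K x ∈ RtFin A N :=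
  map_mem_chartAlg (baseIncl A K) (levK N K : FF (Lvl K) N →+* Fb N) (levK_algebraMap A N K)
    (by rintro _ rfl; exact levK_jF N K) hx

/-- **Base change of the chart at infinity**: `lev` maps `R_K^inf` into `R̃^inf`. -/
theorem lev_mem_RtInf {x : FF (Lvl K) N} (hx : x ∈ Rinf (Lvl K) N (baseRing A K)) :
    levK N K x ∈ RtInf A N :=
  map_mem_chartAlg (baseIncl A K) (levK N K : FF (Lvl K) N →+* Fb N) (levK_algebraMap A N K)
    (by rintro _ rfl; exact levK_jF_inv N K) hx

/-- Polynomials over `A` with coefficients in `K` come from `A ∩ K`. -/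
theorem exists_map_baseIncl_eq (q : Polynomial ↥A) (hK : ∀ a ∈ q.coeffs, (a : Qb) ∈ K) :
    ∃ q' : Polynomial ↥(baseRing A K), q'.map (baseIncl A K) = q := by
  have h : q ∈ Polynomial.lifts (baseIncl A K) := by
    rw [Polynomial.lifts_iff_coeff_lifts]
    intro n
    by_cases h : q.coeff n = 0
    · exact ⟨0, by rw [map_zero, h]⟩
    · have hn := hK _ (Polynomial.coeff_mem_coeffs h)
      exact ⟨⟨(Lvl.toSub K).symm ⟨_, hn⟩, (q.coeff n).2⟩, Subtype.ext rfl⟩
  exact h

/-- **Descent of chart elements to a finite level** (generic generator `s = lev s_K`): every element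
of the `Q̄`-level chart `A[s]~` comes from the chart `(A ∩ K)[s_K]~` of `F_K`, for all `K` containing a
suitable number field. -/
theorem exists_finiteDimensional_chart {s : Fb N}
    (sK : ∀ K : IntermediateField ℚ Qb, FF (Lvl K) N) (hs : ∀ K, levK N K (sK K) = s)
    {g : Fb N} (hg : g ∈ chartAlg ↥A (Fb N) {s}) :
    ∃ K₀ : IntermediateField ℚ Qb, FiniteDimensional ℚ K₀ ∧
      ∀ K : IntermediateField ℚ Qb, K₀ ≤ K →
        ∃ x ∈ chartAlg ↥(baseRing A K) (FF (Lvl K) N) {sK K}, levK N K x = g := by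
  classical
  obtain ⟨p, hpm, hp⟩ := mem_chartAlg_iff.mp hg
  have hc : ∀ i, ∃ q : Polynomial ↥A,
      Polynomial.aeval s q = ((p.coeff i : ↥(Algebra.adjoin ↥A {s})) : Fb N) := by
    intro i
    have h : ((p.coeff i : ↥(Algebra.adjoin ↥A {s})) : Fb N) ∈ (Polynomial.aeval (R := ↥A) s).range := by
      rw [← Algebra.adjoin_singleton_eq_range_aeval]
      exact (p.coeff i).2
    exact h
  choose q hq using hc
  obtain ⟨K₁, hK₁fin, hK₁⟩ := exists_finiteDimensional_level N {g} ∅
  let T : Finset Qb := (Finset.range (p.natDegree + 1)).biUnion fun i =>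
    (q i).coeffs.image fun a : ↥A => (a : Qb)
  refine ⟨IntermediateField.adjoin ℚ (T : Set Qb) ⊔ K₁, ?_, fun K hK => ?_⟩
  · haveI := hK₁fin
    haveI : Algebra.IsAlgebraic ℚ Qb := AlgebraicClosure.isAlgebraic ℚ
    haveI : FiniteDimensional ℚ (IntermediateField.adjoin ℚ (T : Set Qb)) :=
      IntermediateField.finiteDimensional_adjoin fun x _ =>
        (Algebra.IsAlgebraic.isAlgebraic x).isIntegral
    exact IntermediateField.finiteDimensional_sup _ _
  · obtain ⟨x, hx⟩ := (hK₁ K (le_trans le_sup_right hK)).1 g (Finset.mem_singleton_self g)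
    refine ⟨x, ?_, hx⟩
    have hcomp := levK_algebraMap A N K
    have hS : ∀ y ∈ ({sK K} : Set (FF (Lvl K) N)),
        (levK N K : FF (Lvl K) N →+* Fb N) y ∈ ({s} : Set (Fb N)) := by
      rintro _ rfl; exact hs K
    refine mem_chartAlg_of_lifts (baseIncl A K) (levK N K : FF (Lvl K) N →+* Fb N) hcomp hS p hpm
      (by rw [← hx] at hp; exact hp) ?_
    intro i
    by_cases hi : i ≤ p.natDegree
    · have hTK : ∀ a ∈ (q i).coeffs, (a : Qb) ∈ K := fun a ha =>
        hK ((le_sup_left : IntermediateField.adjoin ℚ (T : Set Qb) ≤ _)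
          (IntermediateField.subset_adjoin ℚ _ (Finset.mem_coe.mpr
            (Finset.mem_biUnion.mpr ⟨i, Finset.mem_range.mpr (Nat.lt_succ_of_le hi),
              Finset.mem_image_of_mem _ ha⟩))))
      obtain ⟨q', hq'⟩ := exists_map_baseIncl_eq A K (q i) hTK
      refine ⟨⟨Polynomial.aeval (sK K) q', ?_⟩, Subtype.ext ?_⟩
      · rw [Algebra.adjoin_singleton_eq_range_aeval]; exact ⟨q', rfl⟩
      · show levK N K (Polynomial.aeval (sK K) q') = ((p.coeff i : ↥(Algebra.adjoin ↥A {s})) : Fb N)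
        rw [← hq i, ← hq', Polynomial.aeval_def, Polynomial.aeval_def, Polynomial.eval₂_map]
        show (levK N K : FF (Lvl K) N →+* Fb N) _ = _
        rw [Polynomial.hom_eval₂]
        show Polynomial.eval₂ _ (levK N K (sK K)) q' = _
        rw [hs K]
        congr 1
        exact RingHom.ext hcomp
    · rw [Polynomial.coeff_eq_zero_of_natDegree_lt (not_le.mp hi)]
      exact ⟨0, map_zero _⟩

/-- **Converse of `lev_mem_RtFin`**: every element of `R̃^fin` comes from `R_K^fin` for all `K`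
containing a suitable number field. -/
theorem exists_finiteDimensional_RtFin {g : Fb N} (hg : g ∈ RtFin A N) :
    ∃ K₀ : IntermediateField ℚ Qb, FiniteDimensional ℚ K₀ ∧
      ∀ K : IntermediateField ℚ Qb, K₀ ≤ K →
        ∃ x ∈ Rfin (Lvl K) N (baseRing A K), levK N K x = g :=
  exists_finiteDimensional_chart A N (fun K => jF (Lvl K) N) (fun K => levK_jF N K) hg

/-- **Converse of `lev_mem_RtInf`**. -/
theorem exists_finiteDimensional_RtInf {g : Fb N} (hg : g ∈ RtInf A N) :
    ∃ K₀ : IntermediateField ℚ Qb, FiniteDimensional ℚ K₀ ∧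
      ∀ K : IntermediateField ℚ Qb, K₀ ≤ K →
        ∃ x ∈ Rinf (Lvl K) N (baseRing A K), levK N K x = g :=
  exists_finiteDimensional_chart A N (fun K => (jF (Lvl K) N)⁻¹) (fun K => levK_jF_inv N K) hg

end Concrete

section Levels

open Fermat.Agent.N4.BigDVR
open Fermat.Agent.S24.PlaceDeriv (ResidueTrivial)

variable (A : ValuationSubring Qb) (N : ℕ) [NeZero N]

/-- Block Onr: good levels exist above any number field. -/
theorem exists_level_ge {ℓ : ℕ} (hℓ : ℓ.Prime) (hA : A.LiesOverPrime ℓ) (hℓN : ¬ ℓ ∣ N)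
    (K₁ : IntermediateField ℚ Qb) [FiniteDimensional ℚ K₁] :
    ∃ K : IntermediateField ℚ Qb, K₁ ≤ K ∧
      ∃ (_ : IsDiscreteValuationRing ↥(baseRing A K))
        (_ : IsAlgClosed (IsLocalRing.ResidueField ↥(baseRing A K))),
        GoodBase (Lvl K) N (baseRing A K) ℓ ∧
        Function.Bijective (IsLocalRing.ResidueField.map (trIncl A K)) ∧
        (∀ ξ ∈ goodRoots A, ξ ∈ K) := by
  obtain ⟨T, hT⟩ : K₁.FG := IntermediateField.essFiniteType_iff.mp inferInstance
  obtain ⟨K, hTK, h⟩ := exists_goodBase A hℓ hA T N hℓN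
  refine ⟨K, ?_, h⟩
  rw [← hT, IntermediateField.adjoin_le_iff]
  exact fun t ht => hTK t (Finset.mem_coe.mp ht)

/-- **All-in-one level**: for finitely many constants `C`, functions `T` and places `S` of `Q̄ F_N`
there is ONE good level `K` (block Onr) containing `C` over which all `t ∈ T` are defined, all
`P ∈ S` are rational, and all `t ∈ T` lying in a `Q̄`-level chart come from the level-`K` chart. -/
theorem exists_level_of_finite {ℓ : ℕ} (hℓ : ℓ.Prime) (hA : A.LiesOverPrime ℓ) (hℓN : ¬ ℓ ∣ N)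
    (C : Finset Qb) (T : Finset (Fb N)) (S : Finset (Place Qb (Fb N))) :
    ∃ K : IntermediateField ℚ Qb, (∀ c ∈ C, c ∈ K) ∧
      (∃ (_ : IsDiscreteValuationRing ↥(baseRing A K))
        (_ : IsAlgClosed (IsLocalRing.ResidueField ↥(baseRing A K))),
        GoodBase (Lvl K) N (baseRing A K) ℓ ∧
        Function.Bijective (IsLocalRing.ResidueField.map (trIncl A K)) ∧
        (∀ ξ ∈ goodRoots A, ξ ∈ K)) ∧
      (∀ t ∈ T, t ∈ Set.range (levK N K)) ∧
      (∀ P ∈ S, ResidueTrivial (restrictK N K P)) ∧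
      (∀ t ∈ T, t ∈ RtFin A N → ∃ x ∈ Rfin (Lvl K) N (baseRing A K), levK N K x = t) ∧
      (∀ t ∈ T, t ∈ RtInf A N → ∃ x ∈ Rinf (Lvl K) N (baseRing A K), levK N K x = t) := by
  classical
  obtain ⟨K₁, hK₁fin, hK₁⟩ := exists_finiteDimensional_level N T S
  have hfin : ∀ t : Fb N, ∃ K₀ : IntermediateField ℚ Qb, FiniteDimensional ℚ K₀ ∧
      ∀ K : IntermediateField ℚ Qb, K₀ ≤ K → t ∈ RtFin A N →
        ∃ x ∈ Rfin (Lvl K) N (baseRing A K), levK N K x = t := by
    intro t
    by_cases ht : t ∈ RtFin A N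
    · obtain ⟨K₀, h1, h2⟩ := exists_finiteDimensional_RtFin A N ht
      exact ⟨K₀, h1, fun K hK _ => h2 K hK⟩
    · exact ⟨⊥, inferInstance, fun _ _ h => absurd h ht⟩
  have hinf : ∀ t : Fb N, ∃ K₀ : IntermediateField ℚ Qb, FiniteDimensional ℚ K₀ ∧
      ∀ K : IntermediateField ℚ Qb, K₀ ≤ K → t ∈ RtInf A N →
        ∃ x ∈ Rinf (Lvl K) N (baseRing A K), levK N K x = t := by
    intro t
    by_cases ht : t ∈ RtInf A N
    · obtain ⟨K₀, h1, h2⟩ := exists_finiteDimensional_RtInf A N ht
      exact ⟨K₀, h1, fun K hK _ => h2 K hK⟩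
    · exact ⟨⊥, inferInstance, fun _ _ h => absurd h ht⟩
  choose E hEfin hE using hfin
  choose E' hE'fin hE' using hinf
  haveI := hK₁fin
  haveI : Algebra.IsAlgebraic ℚ Qb := AlgebraicClosure.isAlgebraic ℚ
  haveI : FiniteDimensional ℚ (IntermediateField.adjoin ℚ (C : Set Qb)) :=
    IntermediateField.finiteDimensional_adjoin fun x _ =>
      (Algebra.IsAlgebraic.isAlgebraic x).isIntegral
  haveI : FiniteDimensional ℚ (⨆ t ∈ T, E t : IntermediateField ℚ Qb) :=
    IntermediateField.finiteDimensional_iSup_of_finset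
  haveI : FiniteDimensional ℚ (⨆ t ∈ T, E' t : IntermediateField ℚ Qb) :=
    IntermediateField.finiteDimensional_iSup_of_finset
  obtain ⟨K, hK, h⟩ := exists_level_ge A N hℓ hA hℓN
    (IntermediateField.adjoin ℚ (C : Set Qb) ⊔ K₁ ⊔ (⨆ t ∈ T, E t) ⊔ (⨆ t ∈ T, E' t))
  have h1 : IntermediateField.adjoin ℚ (C : Set Qb) ≤ K :=
    le_trans (le_trans (le_trans le_sup_left le_sup_left) le_sup_left) hK
  have h2 : K₁ ≤ K := le_trans (le_trans (le_trans le_sup_right le_sup_left) le_sup_left) hK
  have h3 : (⨆ t ∈ T, E t) ≤ K := le_trans (le_trans le_sup_right le_sup_left) hK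
  have h4 : (⨆ t ∈ T, E' t) ≤ K := le_trans le_sup_right hK
  refine ⟨K, fun c hc => h1 (IntermediateField.subset_adjoin ℚ _ (Finset.mem_coe.mpr hc)), h,
    (hK₁ K h2).1, (hK₁ K h2).2, fun t ht => hE t K (le_trans ?_ h3), fun t ht =>
      hE' t K (le_trans ?_ h4)⟩
  · exact le_iSup₂ (f := fun t _ => E t) t ht
  · exact le_iSup₂ (f := fun t _ => E' t) t ht

end Levels

end Fermat.Agent.N4F.C.LevelCharts
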