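/-
N4-FULL, block C, node C5 (helper22), abstract part: the CENTRE of a "point" of a Dedekind model.

`κ` a field, `F'` a function field over `κ`, `S ⊂ F'` a Dedekind domain with fraction field `F'`
(a chart of the special fibre), `χ : S →+* κ` a retraction of `κ → S` (evaluation at a
`κ`-rational point of the chart).  Then there is a unique place `Q` of `F'/κ` with
`s - χ s ∈ m_Q` for all `s ∈ S`: the place attached to the maximal ideal `ker χ`.
-/
import Mathlib
import Fermat.Agent.S24.PlaceDict

set_option autoImplicit false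
set_option linter.unusedSectionVars false

open AlgebraicCurve IsDedekindDomain IsDedekindDomain.HeightOneSpectrum

namespace Fermat.Agent.N4F.C.CentreAbstract

open Fermat.Agent.S24

section

variable {κ F' : Type*} [Field κ] [Field F'] [Algebra κ F']
variable {S : Type*} [CommRing S] [IsDedekindDomain S] [Algebra S F'] [IsFractionRing S F']
  [Algebra κ S] [IsScalarTower κ S F']

/-- Membership in the maximal ideal of the place attached to a prime `w` of `S`. -/
theorem mem_nonunits_ofHeightOneSpectrum_iff (w : HeightOneSpectrum S) (x : F') :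
    x ∈ (Place.ofHeightOneSpectrum (K := κ) (F := F') w).toValuationSubring.nonunits ↔
      w.valuation F' x < 1 := by
  rw [ValuationSubring.mem_nonunits_iff_exists_mem_maximalIdeal]
  constructor
  · rintro ⟨hx, hm⟩
    exact (mem_maximalIdeal_ofHeightOneSpectrum_iff (K := κ) w ⟨x, hx⟩).1 hm
  · intro h
    have hx : x ∈ (Place.ofHeightOneSpectrum (K := κ) (F := F') w).toValuationSubring :=
      (mem_ofHeightOneSpectrum_iff (K := κ) w x).2 h.le
    exact ⟨hx, (mem_maximalIdeal_ofHeightOneSpectrum_iff (K := κ) w ⟨x, hx⟩).2 h⟩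

theorem algebraMap_mem_nonunits_ofHeightOneSpectrum_iff (w : HeightOneSpectrum S) (s : S) :
    algebraMap S F' s ∈
        (Place.ofHeightOneSpectrum (K := κ) (F := F') w).toValuationSubring.nonunits ↔
      s ∈ w.asIdeal := by
  rw [mem_nonunits_ofHeightOneSpectrum_iff, valuation_of_algebraMap, intValuation_lt_one_iff_mem]

variable (χ : S →+* κ) (hχ : ∀ a : κ, χ (algebraMap κ S a) = a)

include hχ in
theorem ker_isMaximal : (RingHom.ker χ).IsMaximal :=
  RingHom.ker_isMaximal_of_surjective χ fun a => ⟨algebraMap κ S a, hχ a⟩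

/-- The prime of `S` attached to the point `χ`. -/
def centreSpec (hker : RingHom.ker χ ≠ ⊥) : HeightOneSpectrum S :=
  ⟨RingHom.ker χ, (ker_isMaximal χ hχ).isPrime, hker⟩

/-- **The place of `F'/κ` centred at the point `χ` of the chart `S`.** -/
noncomputable def centrePlace (hker : RingHom.ker χ ≠ ⊥) : Place κ F' :=
  Place.ofHeightOneSpectrum (K := κ) (F := F') (centreSpec χ hχ hker)

variable (hker : RingHom.ker χ ≠ ⊥)

theorem algebraMap_mem_centrePlace (s : S) :
    algebraMap S F' s ∈ (centrePlace (F' := F') χ hχ hker).toValuationSubring :=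
  algebraMap_mem_ofHeightOneSpectrum _ s

theorem algebraMap_mem_nonunits_centrePlace_iff (s : S) :
    algebraMap S F' s ∈ (centrePlace (F' := F') χ hχ hker).toValuationSubring.nonunits ↔
      χ s = 0 := by
  unfold centrePlace
  rw [algebraMap_mem_nonunits_ofHeightOneSpectrum_iff]
  exact RingHom.mem_ker

/-- `s ≡ χ s` at the centre. -/
theorem centrePlace_spec (s : S) :
    algebraMap S F' s - algebraMap κ F' (χ s) ∈
      (centrePlace (F' := F') χ hχ hker).toValuationSubring.nonunits := by
  have h1 : algebraMap S F' s - algebraMap κ F' (χ s) =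
      algebraMap S F' (s - algebraMap κ S (χ s)) := by
    rw [map_sub, ← IsScalarTower.algebraMap_apply]
  rw [h1, algebraMap_mem_nonunits_centrePlace_iff, map_sub, hχ, sub_self]

/-- **Uniqueness of the centre.** -/
theorem centrePlace_unique (Q : Place κ F')
    (hQ : ∀ s : S, algebraMap S F' s - algebraMap κ F' (χ s) ∈ Q.toValuationSubring.nonunits) :
    Q = centrePlace (F' := F') χ hχ hker := by
  have hR : ∀ s : S, algebraMap S F' s ∈ Q.toValuationSubring := by
    intro s
    have h1 : algebraMap S F' s - algebraMap κ F' (χ s) ∈ Q.toValuationSubring :=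
      Q.toValuationSubring.nonunits_subset (hQ s)
    have h2 := add_mem h1 (Q.algebraMap_mem' (χ s))
    rwa [sub_add_cancel] at h2
  rw [← ofHeightOneSpectrum_centerSpec Q hR]
  unfold centrePlace
  congr 1
  apply HeightOneSpectrum.ext
  show center Q hR = RingHom.ker χ
  symm
  refine (ker_isMaximal χ hχ).eq_of_le (center_isPrime Q hR).ne_top fun s hs => ?_
  rw [mem_center_iff, ← ValuationSubring.coe_mem_nonunits_iff]
  have h1 := hQ s
  rw [RingHom.mem_ker.1 hs, map_zero, sub_zero] at h1
  exact h1

theorem eq_centrePlace_iff (Q : Place κ F') :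
    Q = centrePlace (F' := F') χ hχ hker ↔
      ∀ s : S, algebraMap S F' s - algebraMap κ F' (χ s) ∈ Q.toValuationSubring.nonunits :=
  ⟨fun h => h ▸ centrePlace_spec χ hχ hker, centrePlace_unique χ hχ hker Q⟩

end

end Fermat.Agent.N4F.C.CentreAbstract
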