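/-
N4-FULL, block C, node C5 (helper22), part 1: the composite valuation ring `W_P` contains the charts.

`P` a place of `ℚ̄·F_N`, `A ⊂ ℚ̄` a valuation subring.  All places of `ℚ̄·F_N` are rational, so there
is an evaluation `evP P : O_P →ₐ[ℚ̄] ℚ̄`, and `IntAt A P f ↔ f ∈ O_P ∧ f(P) ∈ A`.

* `chartAlg_le_wRing` : if every `u ∈ S` is `A`-integral at `P` then so is every element of the
  integral closure of `A[S]` (`O_P` is integrally closed, `A` is integrally closed in `ℚ̄`);
* `RtFin_le_wRing`, `RtInf_le_wRing`;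
* `intAt_or_inv` : `f` is `A`-integral at `P`, or `f⁻¹` is with value in `𝔪_A`;
* `redW_smul_eq_zero` : `red_P` kills `𝔪_A · W_P`.
-/
import Mathlib
import Fermat.Agent.N4F.C.Base
import Fermat.Agent.N4F.A.LevelMaps
import Fermat.Agent.N4F.E.EvalAt

set_option autoImplicit false
set_option linter.unusedSectionVars false

open ModularCurve AlgebraicCurve Fermat.Agent.N4.Chart Polynomial

noncomputable section

namespace Fermat.Agent.N4F.C.WRing

open Fermat.Agent.N4F.C Fermat.Agent.N4F.E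

variable {A : ValuationSubring Qb} {N : ℕ} [NeZero N]

/-- All places of `ℚ̄·F_N` are rational. -/
theorem rational (P : Place Qb (Fb N)) : Function.Bijective (algebraMap Qb P.ResidueField) :=
  EvalAt.bijective_algebraMap_residueField P
    (Fermat.Agent.N4F.A.LevelMaps.finite_residueField_bar N P)

/-- Evaluation at a place of `ℚ̄·F_N`. -/
def evP (P : Place Qb (Fb N)) : P.toValuationSubring →ₐ[Qb] Qb := EvalAt.evalAt P (rational P)

theorem mem_nonunits_iff_evP {P : Place Qb (Fb N)} {f : Fb N} (hf : f ∈ P.toValuationSubring)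
    (c : Qb) :
    f - algebraMap Qb (Fb N) c ∈ P.toValuationSubring.nonunits ↔ evP P ⟨f, hf⟩ = c := by
  rw [evP, EvalAt.evalAt_eq_iff, mem_nonunits_iff_maximalIdeal]
  constructor
  · rintro ⟨h1, h2⟩
    exact h2
  · intro h
    exact ⟨sub_mem hf (P.algebraMap_mem' c), h⟩

theorem intAt_iff {P : Place Qb (Fb N)} {f : Fb N} :
    IntAt A P f ↔ ∃ hf : f ∈ P.toValuationSubring, evP P ⟨f, hf⟩ ∈ A := by
  constructor
  · intro h
    refine ⟨h.mem, ?_⟩
    obtain ⟨c, hc⟩ := h
    rw [(mem_nonunits_iff_evP _ _).1 hc]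
    exact c.2
  · rintro ⟨hf, hc⟩
    exact ⟨⟨_, hc⟩, (mem_nonunits_iff_evP hf _).2 rfl⟩

theorem coe_valAt {P : Place Qb (Fb N)} {f : Fb N} (h : IntAt A P f) :
    ((valAt h : ↥A) : Qb) = evP P ⟨f, h.mem⟩ :=
  ((mem_nonunits_iff_evP h.mem _).1 (valAt_spec h)).symm

/-- **`W_P` is integrally closed in `ℚ̄·F_N`** (relative form): an element integral over a
subring of `W_P` lies in `W_P`. -/
theorem intAt_of_isIntegral {P : Place Qb (Fb N)} (B : Subalgebra ↥A (Fb N))
    (hB : ∀ b ∈ B, IntAt A P b) {g : Fb N} (hg : IsIntegral B g) : IntAt A P g := by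
  have hgO : g ∈ P.toValuationSubring :=
    Fermat.Agent.S24.mem_of_isIntegral_of_forall_mem P (fun b : B => (hB b b.2).mem) hg
  obtain ⟨p, hp, hpg⟩ := hg
  -- the inclusion `B → O_P` and the value map `B → A`
  let incl : ↥B →+* P.toValuationSubring :=
    (B.val.toRingHom).codRestrict P.toValuationSubring.toSubring fun b => (hB b b.2).mem
  let φ : ↥B →+* ↥A :=
    (valW A P).comp ((B.val.toRingHom).codRestrict (wRing A P) fun b => hB b b.2)
  have hcomp : (evP P : P.toValuationSubring →+* Qb).comp incl = (algebraMap ↥A Qb).comp φ := by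
    ext b
    show evP P ⟨(b : Fb N), _⟩ = ((valAt (hB b b.2) : ↥A) : Qb)
    rw [coe_valAt]
  have h0 : eval₂ incl ⟨g, hgO⟩ p = 0 := by
    apply Subtype.ext
    have := Polynomial.hom_eval₂ p incl P.toValuationSubring.subtype ⟨g, hgO⟩
    rw [show (((eval₂ incl ⟨g, hgO⟩ p : P.toValuationSubring)) : Fb N) =
      P.toValuationSubring.subtype (eval₂ incl ⟨g, hgO⟩ p) from rfl, this]
    exact hpg
  have h1 : eval₂ ((algebraMap ↥A Qb).comp φ) (evP P ⟨g, hgO⟩) p = 0 := by
    have := Polynomial.hom_eval₂ p incl (evP P : P.toValuationSubring →+* Qb) ⟨g, hgO⟩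
    rw [h0, map_zero, hcomp] at this
    exact this.symm
  have hint : IsIntegral ↥A (evP P ⟨g, hgO⟩) :=
    ⟨p.map φ, hp.map φ, by rw [Polynomial.eval₂_map]; exact h1⟩
  obtain ⟨y, hy⟩ := IsIntegrallyClosed.isIntegral_iff.mp hint
  refine intAt_iff.2 ⟨hgO, ?_⟩
  rw [← hy]
  exact y.2

/-- If every `u ∈ S` is `A`-integral at `P`, so is every element of `A[S]`. -/
theorem intAt_of_mem_adjoin {P : Place Qb (Fb N)} {S : Set (Fb N)} (hS : ∀ u ∈ S, IntAt A P u)
    {b : Fb N} (hb : b ∈ Algebra.adjoin ↥A S) : IntAt A P b := by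
  induction hb using Algebra.adjoin_induction with
  | mem x hx => exact hS x hx
  | algebraMap r => exact intAt_const P r
  | add x y _ _ hx hy => exact hx.add hy
  | mul x y _ _ hx hy => exact hx.mul hy

/-- **M1.** If every `u ∈ S` is `A`-integral at `P`, the whole chart algebra (the integral closure
of `A[S]`) lies in `W_P`. -/
theorem chartAlg_le_wRing {P : Place Qb (Fb N)} {S : Set (Fb N)} (hS : ∀ u ∈ S, IntAt A P u)
    {g : Fb N} (hg : g ∈ chartAlg ↥A (Fb N) S) : IntAt A P g :=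
  intAt_of_isIntegral (Algebra.adjoin ↥A S) (fun _ hb => intAt_of_mem_adjoin hS hb) hg

theorem RtFin_le_wRing {P : Place Qb (Fb N)} (hj : IntAt A P (jb N)) {g : Fb N}
    (hg : g ∈ RtFin A N) : IntAt A P g :=
  chartAlg_le_wRing (fun u hu => by rw [Set.mem_singleton_iff.1 hu]; exact hj) hg

theorem RtInf_le_wRing {P : Place Qb (Fb N)} (hj : IntAt A P (jb N)⁻¹) {g : Fb N}
    (hg : g ∈ RtInf A N) : IntAt A P g :=
  chartAlg_le_wRing (fun u hu => by rw [Set.mem_singleton_iff.1 hu]; exact hj) hg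

/-- `W_P` is "a valuation ring": `f ∈ W_P`, or `f⁻¹ ∈ W_P` with value in `𝔪_A`. -/
theorem intAt_or_inv (P : Place Qb (Fb N)) (f : Fb N) :
    IntAt A P f ∨ ∃ c : ↥A, c ∈ IsLocalRing.maximalIdeal ↥A ∧
      f⁻¹ - algebraMap Qb (Fb N) (c : Qb) ∈ P.toValuationSubring.nonunits := by
  by_cases hf : f ∈ P.toValuationSubring
  · by_cases hc : evP P ⟨f, hf⟩ ∈ A
    · exact Or.inl (intAt_iff.2 ⟨hf, hc⟩)
    · right
      set c := evP P ⟨f, hf⟩ with hcdef
      have hc0 : c ≠ 0 := fun h => hc (h ▸ A.zero_mem)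
      have hcinv : c⁻¹ ∈ A := (A.mem_or_inv_mem c).resolve_left hc
      have hcm : (⟨c⁻¹, hcinv⟩ : ↥A) ∈ IsLocalRing.maximalIdeal ↥A := by
        rw [IsLocalRing.mem_maximalIdeal, mem_nonunits_iff]
        intro hu
        apply hc
        obtain ⟨u, hu⟩ := hu
        have h1 : ((u⁻¹ : (↥A)ˣ) : ↥A) * ⟨c⁻¹, hcinv⟩ = 1 := by
          rw [← hu]; exact u.inv_mul
        have h2 : ((((u⁻¹ : (↥A)ˣ) : ↥A)) : Qb) * c⁻¹ = 1 := congrArg Subtype.val h1
        have h3 : c = ((((u⁻¹ : (↥A)ˣ) : ↥A)) : Qb) := by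
          field_simp at h2
          exact h2.symm
        rw [h3]
        exact Subtype.coe_prop _
      refine ⟨⟨c⁻¹, hcinv⟩, hcm, ?_⟩
      -- `f` is a unit at `P`
      have hfu : IsUnit (⟨f, hf⟩ : P.toValuationSubring) := by
        by_contra hnu
        have : (⟨f, hf⟩ : P.toValuationSubring) ∈
            IsLocalRing.maximalIdeal P.toValuationSubring := hnu
        rw [← EvalAt.evalAt_eq_zero_iff P (rational P)] at this
        exact hc0 this
      have hf0 : f ≠ 0 := by
        rintro rfl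
        apply hc0
        rw [hcdef]
        exact map_zero (evP P)
      have hfinv : f⁻¹ ∈ P.toValuationSubring := by
        obtain ⟨u, hu⟩ := hfu
        have : ((u⁻¹ : (P.toValuationSubring)ˣ) : P.toValuationSubring) * ⟨f, hf⟩ = 1 := by
          rw [← hu]; exact u.inv_mul
        have h2 : (((u⁻¹ : (P.toValuationSubring)ˣ) : P.toValuationSubring) : Fb N) * f = 1 :=
          congrArg Subtype.val this
        rw [show f⁻¹ = (((u⁻¹ : (P.toValuationSubring)ˣ) : P.toValuationSubring) : Fb N) from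
          (eq_inv_of_mul_eq_one_left h2).symm]
        exact Subtype.coe_prop _
      rw [mem_nonunits_iff_evP hfinv]
      have h3 : evP P ⟨f⁻¹, hfinv⟩ * evP P ⟨f, hf⟩ = 1 := by
        rw [← map_mul]
        have : (⟨f⁻¹, hfinv⟩ : P.toValuationSubring) * ⟨f, hf⟩ = 1 :=
          Subtype.ext (inv_mul_cancel₀ hf0)
        rw [this, map_one]
      exact eq_inv_of_mul_eq_one_left h3
  · right
    refine ⟨0, Ideal.zero_mem _, ?_⟩
    have h1 : f⁻¹ ∈ P.toValuationSubring.nonunits := by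
      rw [ValuationSubring.mem_nonunits_iff, map_inv₀]
      have h2 : ¬ P.toValuationSubring.valuation f ≤ 1 := fun h =>
        hf ((ValuationSubring.valuation_le_one_iff _ _).1 h)
      exact inv_lt_one_of_one_lt₀ (not_le.1 h2)
    simpa using h1

/-- `red_P` kills `𝔪_A · W_P`. -/
theorem redAt_smul_eq_zero {P : Place Qb (Fb N)} {g' : Fb N} (hg' : IntAt A P g') {ϖ : ↥A}
    (hϖ : ϖ ∈ IsLocalRing.maximalIdeal ↥A) (h : IntAt A P (ϖ • g')) : redAt h = 0 := by
  have h1 : ϖ • g' = algebraMap Qb (Fb N) (ϖ : Qb) * g' := by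
    rw [Algebra.smul_def]; rfl
  have h2 : valAt h = ϖ * valAt hg' := by
    have hc := intAt_const (A := A) P ϖ
    have := valAt_mul hc hg' (h1 ▸ h)
    rw [valAt_const] at this
    rw [← this]
    congr 1
  rw [redAt, h2, map_mul, (IsLocalRing.residue_eq_zero_iff _).2 hϖ, zero_mul]

end Fermat.Agent.N4F.C.WRing

end
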