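/-
N4-FULL, block C, node C5 (helper22): the CANONICAL PLACE REDUCTION `rCan` and its
characterisation (T1) (moonshots #30, §5b–5c).

`A ⊂ ℚ̄` a valuation subring, `κ` its residue field, `P` a place of `ℚ̄·F_N`.  The composite
valuation ring `W_P` contains the chart `RtFin` (if `j` is `A`-integral at `P`) or `RtInf`
(otherwise), and `red_P` factors through the reduction `thetaFt` of `q`-expansions:
`red_P = χ_P ∘ thetaFt` for a point `χ_P : Σ± → κ` of the special fibre of the chart.  `rCan P` is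
the place of `F_N(κ)/κ` centred at this point.

The facts on the special fibre (output of the finite-level theory, nodes C2/C3) enter through the
hypothesis bundle `ChartFacts A N Rt Sg`:  `thetaFt` is a ring homomorphism of the chart `Rt` ONTO a
Dedekind domain `Sg ⊂ F_N(κ)` with fraction field `F_N(κ)`, with kernel `⊆ 𝔪_A · Rt`.

* `thetaFt_const`, `thetaFt_jb`, `thetaFt_add`, `thetaFt_mul` : basic properties of `thetaFt`;
* `ChartFacts`, `thetaRt H : Rt →+* Sg`, `chi H hW : Sg →+* κ`, `centre H hW : Place κ (Ft A N)`,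
  `centre_spec`, `centre_unique`;
* `rCan Hfin Hinf : Place ℚ̄ (Fb N) → Place κ (Ft A N)`;
  **(T1)** `rCan_fin`, `rCan_inf`, `rCan_inf_of_not`, `rCan_unique_fin`, `rCan_unique_inf`
  (exactly the hypotheses of `Galois.smul_eq_of_T1` / `Galois.exists_frobenius_core_of_T1`);
* `rCan_galois_smul` : (T4) for `rCan`.
-/
import Mathlib
import Fermat.Agent.N4.Setting
import Fermat.Agent.N4F.C.Base
import Fermat.Agent.N4F.C.WRing
import Fermat.Agent.N4F.C.CentreAbstract
import Fermat.Agent.N4F.C.Galois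

set_option autoImplicit false
set_option linter.unusedSectionVars false
set_option linter.style.haveILetI false

open ModularCurve AlgebraicCurve Fermat.Agent.N4.Chart Fermat.Agent.N4.Setting

noncomputable section

namespace Fermat.Agent.N4F.C.Centre

open Fermat.Agent.N4F.C Fermat.Agent.N4F.C.WRing Fermat.Agent.N4F.C.CentreAbstract

/-! ### Shortcut instances

Instance search on the residue field `Kap A` is slow (`Algebra (Kap A) (Ft A N)` takes > 1.5 s each
time it is synthesised).  These scoped shortcuts (the SAME terms that instance search finds) make it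
instantaneous; activate them with `open Fermat.Agent.N4F.C.Centre`. -/

section Shortcuts

variable (A : ValuationSubring Qb) (N : ℕ)

scoped instance (priority := 10000) scAlgebraKapLaurent :
    Algebra (Kap A) (LaurentSeries (Kap A)) :=
  HahnSeries.powerSeriesAlgebra ℤ (Kap A)

scoped instance (priority := 10000) scAlgebraKapFt : Algebra (Kap A) (Ft A N) :=
  SubalgebraClass.toAlgebra (modularFunctionFieldFullC (Kap A) N)

scoped instance (priority := 10000) scModuleKapFt : Module (Kap A) (Ft A N) :=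
  Algebra.toModule

scoped instance (priority := 10000) scAlgebraQbFb : Algebra Qb (Fb N) :=
  SubalgebraClass.toAlgebra (modularFunctionFieldBar N)

end Shortcuts

/-! ### Generic lemmas on the maximal ideal of a place -/

section PlaceLemmas

variable {K F : Type*} [Field K] [Field F] [Algebra K F] (Q : Place K F)

theorem add_mem_nonunits {x y : F} (hx : x ∈ Q.toValuationSubring.nonunits)
    (hy : y ∈ Q.toValuationSubring.nonunits) : x + y ∈ Q.toValuationSubring.nonunits := by
  rw [ValuationSubring.mem_nonunits_iff] at hx hy ⊢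
  exact Valuation.map_add_lt _ hx hy

theorem neg_mem_nonunits {x : F} (hx : x ∈ Q.toValuationSubring.nonunits) :
    -x ∈ Q.toValuationSubring.nonunits := by
  rw [ValuationSubring.mem_nonunits_iff] at hx ⊢
  rwa [Valuation.map_neg]

theorem sub_mem_nonunits {x y : F} (hx : x ∈ Q.toValuationSubring.nonunits)
    (hy : y ∈ Q.toValuationSubring.nonunits) : x - y ∈ Q.toValuationSubring.nonunits := by
  rw [sub_eq_add_neg]
  exact add_mem_nonunits Q hx (neg_mem_nonunits Q hy)

theorem mul_mem_nonunits {x y : F} (hx : x ∈ Q.toValuationSubring)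
    (hy : y ∈ Q.toValuationSubring.nonunits) : x * y ∈ Q.toValuationSubring.nonunits := by
  rw [ValuationSubring.mem_nonunits_iff] at hy ⊢
  have hx' : Q.toValuationSubring.valuation x ≤ 1 :=
    (ValuationSubring.valuation_le_one_iff _ _).mpr hx
  rw [map_mul]
  calc Q.toValuationSubring.valuation x * Q.toValuationSubring.valuation y
      ≤ 1 * Q.toValuationSubring.valuation y := mul_le_mul_left hx' _
    _ < 1 := by rw [one_mul]; exact hy

theorem zero_mem_nonunits' : (0 : F) ∈ Q.toValuationSubring.nonunits := by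
  rw [ValuationSubring.mem_nonunits_iff, map_zero]
  exact zero_lt_one

theorem const_not_mem_nonunits' {c : K} (hc : c ≠ 0) :
    algebraMap K F c ∉ Q.toValuationSubring.nonunits := by
  intro h
  have h1 := mul_mem_nonunits Q (Q.algebraMap_mem' c⁻¹) h
  rw [← map_mul, inv_mul_cancel₀ hc, map_one, ValuationSubring.mem_nonunits_iff, map_one] at h1
  exact lt_irrefl _ h1

theorem mem_of_sub_const_mem_nonunits {x : F} {c : K}
    (h : x - algebraMap K F c ∈ Q.toValuationSubring.nonunits) : x ∈ Q.toValuationSubring := by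
  have h1 := add_mem (Q.toValuationSubring.nonunits_subset h) (Q.algebraMap_mem' c)
  rwa [sub_add_cancel] at h1

/-- Cancel a unit: if `u ∈ O_Q ∖ 𝔪_Q` and `u * x ∈ 𝔪_Q` then `x ∈ 𝔪_Q`. -/
theorem mem_nonunits_of_mul_mem {u x : F} (hu : u ∈ Q.toValuationSubring)
    (hu' : u ∉ Q.toValuationSubring.nonunits)
    (h : u * x ∈ Q.toValuationSubring.nonunits) : x ∈ Q.toValuationSubring.nonunits := by
  have hu1 : Q.toValuationSubring.valuation u = 1 := by
    have huO : Q.toValuationSubring.valuation u ≤ 1 :=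
      (ValuationSubring.valuation_le_one_iff _ _).mpr hu
    exact le_antisymm huO (not_lt.1 fun hlt => hu' ((ValuationSubring.mem_nonunits_iff _).2 hlt))
  rw [ValuationSubring.mem_nonunits_iff] at h ⊢
  rwa [map_mul, hu1, one_mul] at h

end PlaceLemmas

/-! ### Basic properties of `thetaFt` -/

section Theta

variable {A : ValuationSubring Qb} {N : ℕ}

theorem coe_algebraMap_Fb (c : Qb) :
    ((algebraMap Qb (Fb N) c : Fb N) : LaurentSeries Qb) = algebraMap Qb (LaurentSeries Qb) c :=
  rfl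

theorem coe_algebraMap_Ft (c : Kap A) :
    ((algebraMap (Kap A) (Ft A N) c : Ft A N) : LaurentSeries (Kap A)) =
      algebraMap (Kap A) (LaurentSeries (Kap A)) c := rfl

/-- The reduction of a constant. -/
theorem thetaBar_const (c : ↥A) :
    thetaBar A N (algebraMap Qb (Fb N) (c : Qb)) =
      algebraMap (Kap A) (LaurentSeries (Kap A)) (IsLocalRing.residue ↥A c) := by
  have hy : coeffMap A.subtype (HahnSeries.single 0 c : LaurentSeries ↥A) ∈
      modularFunctionFieldBar N := by
    rw [coeffMap_single]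
    have := (algebraMap Qb (Fb N) (c : Qb)).2
    rwa [coe_algebraMap_Fb, algebraMap_laurentSeries_eq_single] at this
  have h := thetaBar_of_coeffs (A := A) (N := N) (HahnSeries.single 0 c) hy
  have h2 : coeffMap (IsLocalRing.residue ↥A) (HahnSeries.single 0 c : LaurentSeries ↥A) =
      algebraMap (Kap A) (LaurentSeries (Kap A)) (IsLocalRing.residue ↥A c) := by
    rw [coeffMap_single, algebraMap_laurentSeries_eq_single]
  rw [← h2, ← h]
  congr 1
  apply Subtype.ext
  rw [coe_algebraMap_Fb, algebraMap_laurentSeries_eq_single]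
  exact (coeffMap_single A.subtype 0 c).symm

theorem thetaFt_const (c : ↥A) :
    thetaFt A N (algebraMap Qb (Fb N) (c : Qb)) =
      algebraMap (Kap A) (Ft A N) (IsLocalRing.residue ↥A c) := by
  have hmem : thetaBar A N (algebraMap Qb (Fb N) (c : Qb)) ∈
      modularFunctionFieldFullC (Kap A) N := by
    rw [thetaBar_const]
    exact (algebraMap (Kap A) (Ft A N) (IsLocalRing.residue ↥A c)).2
  apply Subtype.ext
  rw [coe_thetaFt_of_mem hmem, thetaBar_const]
  rfl

theorem const_mem_gaussSub (c : ↥A) : algebraMap Qb (Fb N) (c : Qb) ∈ gaussSub A N := by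
  refine ⟨HahnSeries.single 0 c, 1, by rw [map_one]; exact one_ne_zero, ?_⟩
  rw [map_one, mul_one]
  show algebraMap Qb (LaurentSeries Qb) (c : Qb) = _
  rw [algebraMap_laurentSeries_eq_single]
  exact (coeffMap_single (algebraMap ↥A Qb) 0 c).symm

/-- `j` as an element of the function field of the special fibre. -/
def jt (A : ValuationSubring Qb) (N : ℕ) : Ft A N := jF (Kap A) N

theorem thetaBar_jb [NeZero N] : thetaBar A N (jb N) = jqModC (Kap A) := by
  have hy : coeffMap A.subtype (jqModC ↥A) ∈ modularFunctionFieldBar N := by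
    rw [coeffMap_jqModC]
    exact (jb N).2
  have h := thetaBar_of_coeffs (A := A) (N := N) (jqModC ↥A) hy
  rw [← coeffMap_jqModC (R := ↥A) (IsLocalRing.residue ↥A), ← h]
  congr 1
  apply Subtype.ext
  exact (coeffMap_jqModC (R := ↥A) A.subtype).symm

theorem thetaFt_jb [NeZero N] : thetaFt A N (jb N) = jt A N := by
  have hmem : thetaBar A N (jb N) ∈ modularFunctionFieldFullC (Kap A) N := by
    rw [thetaBar_jb]
    exact (jt A N).2
  apply Subtype.ext
  rw [coe_thetaFt_of_mem hmem, thetaBar_jb]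
  rfl

theorem thetaFt_add {g h : Fb N} (hg : g ∈ gaussSub A N) (hh : h ∈ gaussSub A N)
    (hg' : thetaBar A N g ∈ modularFunctionFieldFullC (Kap A) N)
    (hh' : thetaBar A N h ∈ modularFunctionFieldFullC (Kap A) N) :
    thetaFt A N (g + h) = thetaFt A N g + thetaFt A N h := by
  have hgh : thetaBar A N (g + h) ∈ modularFunctionFieldFullC (Kap A) N := by
    rw [thetaBar_add hg hh]; exact add_mem hg' hh'
  apply Subtype.ext
  rw [coe_thetaFt_of_mem hgh, thetaBar_add hg hh]
  show _ = ((thetaFt A N g : Ft A N) : LaurentSeries (Kap A)) + (thetaFt A N h : Ft A N)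
  rw [coe_thetaFt_of_mem hg', coe_thetaFt_of_mem hh']

theorem thetaFt_mul {g h : Fb N} (hg : g ∈ gaussSub A N) (hh : h ∈ gaussSub A N)
    (hg' : thetaBar A N g ∈ modularFunctionFieldFullC (Kap A) N)
    (hh' : thetaBar A N h ∈ modularFunctionFieldFullC (Kap A) N) :
    thetaFt A N (g * h) = thetaFt A N g * thetaFt A N h := by
  have hgh : thetaBar A N (g * h) ∈ modularFunctionFieldFullC (Kap A) N := by
    rw [thetaBar_mul hg hh]; exact mul_mem hg' hh'
  apply Subtype.ext
  rw [coe_thetaFt_of_mem hgh, thetaBar_mul hg hh]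
  show _ = ((thetaFt A N g : Ft A N) : LaurentSeries (Kap A)) * (thetaFt A N h : Ft A N)
  rw [coe_thetaFt_of_mem hg', coe_thetaFt_of_mem hh']

theorem thetaFt_one : thetaFt A N (1 : Fb N) = 1 := by
  have hmem : thetaBar A N (1 : Fb N) ∈ modularFunctionFieldFullC (Kap A) N := by
    rw [thetaBar_one]; exact one_mem _
  apply Subtype.ext
  rw [coe_thetaFt_of_mem hmem, thetaBar_one]
  rfl

theorem thetaFt_zero : thetaFt A N (0 : Fb N) = 0 := by
  have hmem : thetaBar A N (0 : Fb N) ∈ modularFunctionFieldFullC (Kap A) N := by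
    rw [thetaBar_zero]; exact zero_mem _
  apply Subtype.ext
  rw [coe_thetaFt_of_mem hmem, thetaBar_zero]
  rfl

end Theta

/-! ### The hypothesis bundle and the point `χ_P` of the special fibre -/

section Chart

variable {A : ValuationSubring Qb} {N : ℕ} [NeZero N]

/-- **The facts on the reduction of a chart** `Rt` (`= RtFin A N` or `RtInf A N`), output of the
finite-level theory (C2 + transport along `ι_K` + the level union (5b)):
`thetaFt` maps `Rt` ONTO a Dedekind domain `Sg ⊂ F_N(κ)` with fraction field `F_N(κ)`, and its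
kernel on `Rt` is contained in `𝔪_A · Rt`. -/
structure ChartFacts (A : ValuationSubring Qb) (N : ℕ) (Rt : Subalgebra ↥A (Fb N))
    (Sg : Subalgebra (Kap A) (Ft A N)) : Prop where
  le_gauss : ∀ g ∈ Rt, g ∈ gaussSub A N
  theta_mem : ∀ g ∈ Rt, thetaBar A N g ∈ modularFunctionFieldFullC (Kap A) N
  theta_mem_Sg : ∀ g ∈ Rt, thetaFt A N g ∈ Sg
  surj : ∀ b ∈ Sg, ∃ g ∈ Rt, thetaFt A N g = b
  ker : ∀ g ∈ Rt, thetaFt A N g = 0 →
    ∃ ϖ : ↥A, ϖ ∈ IsLocalRing.maximalIdeal ↥A ∧ ∃ g' ∈ Rt, g = ϖ • g'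
  dedekind : IsDedekindDomain ↥Sg
  frac : IsFractionRing ↥Sg (Ft A N)
  nonconst : ∃ b ∈ Sg, ∀ c : Kap A, b ≠ algebraMap (Kap A) (Ft A N) c

variable {Rt : Subalgebra ↥A (Fb N)} {Sg : Subalgebra (Kap A) (Ft A N)}

/-- The reduction map of the chart, `Rt →+* Sg`. -/
def thetaRt (H : ChartFacts A N Rt Sg) : ↥Rt →+* ↥Sg where
  toFun g := ⟨thetaFt A N (g : Fb N), H.theta_mem_Sg g g.2⟩
  map_one' := Subtype.ext thetaFt_one
  map_mul' g h := Subtype.ext
    (thetaFt_mul (H.le_gauss g g.2) (H.le_gauss h h.2) (H.theta_mem g g.2) (H.theta_mem h h.2))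
  map_zero' := Subtype.ext thetaFt_zero
  map_add' g h := Subtype.ext
    (thetaFt_add (H.le_gauss g g.2) (H.le_gauss h h.2) (H.theta_mem g g.2) (H.theta_mem h h.2))

@[simp] theorem coe_thetaRt (H : ChartFacts A N Rt Sg) (g : ↥Rt) :
    ((thetaRt H g : ↥Sg) : Ft A N) = thetaFt A N (g : Fb N) := rfl

theorem thetaRt_surjective (H : ChartFacts A N Rt Sg) : Function.Surjective (thetaRt H) := by
  intro b
  obtain ⟨g, hg, hgb⟩ := H.surj b b.2
  exact ⟨⟨g, hg⟩, Subtype.ext hgb⟩

theorem thetaRt_algebraMap (H : ChartFacts A N Rt Sg) (c : ↥A) :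
    thetaRt H (algebraMap ↥A ↥Rt c) = algebraMap (Kap A) ↥Sg (IsLocalRing.residue ↥A c) :=
  Subtype.ext (thetaFt_const c)

variable {P : Place Qb (Fb N)}

/-- `red_P` restricted to the chart. -/
def redRt (hW : ∀ g ∈ Rt, IntAt A P g) : ↥Rt →+* Kap A :=
  (redW A P).comp ((Rt.val.toRingHom).codRestrict (wRing A P) fun g => hW g g.2)

theorem redRt_apply (hW : ∀ g ∈ Rt, IntAt A P g) (g : ↥Rt) :
    redRt hW g = redAt (hW g g.2) := rfl

theorem redRt_eq (hW : ∀ g ∈ Rt, IntAt A P g) (g : ↥Rt) {c : ↥A}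
    (hc : (g : Fb N) - algebraMap Qb (Fb N) (c : Qb) ∈ P.toValuationSubring.nonunits) :
    redRt hW g = IsLocalRing.residue ↥A c := by
  rw [redRt_apply, redAt_eq _ hc]

theorem redRt_algebraMap (hW : ∀ g ∈ Rt, IntAt A P g) (c : ↥A) :
    redRt hW (algebraMap ↥A ↥Rt c) = IsLocalRing.residue ↥A c := by
  apply redRt_eq
  show algebraMap Qb (Fb N) (c : Qb) - algebraMap Qb (Fb N) (c : Qb) ∈ _
  rw [sub_self]
  exact zero_mem_nonunits P

theorem ker_thetaRt_le (H : ChartFacts A N Rt Sg) (hW : ∀ g ∈ Rt, IntAt A P g) :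
    RingHom.ker (thetaRt H) ≤ RingHom.ker (redRt hW) := by
  intro g hg
  rw [RingHom.mem_ker] at hg ⊢
  have h0 : thetaFt A N (g : Fb N) = 0 := congrArg Subtype.val hg
  obtain ⟨ϖ, hϖ, g', hg', hgg'⟩ := H.ker g g.2 h0
  rw [redRt_apply]
  have h1 : IntAt A P (ϖ • g') := hgg' ▸ hW g g.2
  have h2 := redAt_smul_eq_zero (hW g' hg') hϖ h1
  rw [← h2]
  congr 1

/-- **The point `χ_P` of the special fibre**: `red_P = χ_P ∘ thetaFt` on the chart. -/
def chi (H : ChartFacts A N Rt Sg) (hW : ∀ g ∈ Rt, IntAt A P g) : ↥Sg →+* Kap A :=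
  RingHom.liftOfSurjective (thetaRt H) (thetaRt_surjective H) ⟨redRt hW, ker_thetaRt_le H hW⟩

theorem chi_thetaRt (H : ChartFacts A N Rt Sg) (hW : ∀ g ∈ Rt, IntAt A P g) (g : ↥Rt) :
    chi H hW (thetaRt H g) = redRt hW g :=
  RingHom.liftOfRightInverse_comp_apply _ _ _ _ g

theorem chi_algebraMap (H : ChartFacts A N Rt Sg) (hW : ∀ g ∈ Rt, IntAt A P g) (a : Kap A) :
    chi H hW (algebraMap (Kap A) ↥Sg a) = a := by
  obtain ⟨c, rfl⟩ := IsLocalRing.residue_surjective a
  rw [← thetaRt_algebraMap H, chi_thetaRt, redRt_algebraMap]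

theorem ker_chi_ne_bot (H : ChartFacts A N Rt Sg) (hW : ∀ g ∈ Rt, IntAt A P g) :
    RingHom.ker (chi H hW) ≠ ⊥ := by
  obtain ⟨b, hb, hbc⟩ := H.nonconst
  intro hbot
  have h1 : (⟨b, hb⟩ : ↥Sg) - algebraMap (Kap A) ↥Sg (chi H hW ⟨b, hb⟩) ∈
      RingHom.ker (chi H hW) := by
    rw [RingHom.mem_ker, map_sub, chi_algebraMap, sub_self]
  rw [hbot, Ideal.mem_bot, sub_eq_zero] at h1
  exact hbc (chi H hW ⟨b, hb⟩) (congrArg Subtype.val h1)

/-- **The centre** of the composite valuation ring `W_P` on the chart: the place of `F_N(κ)/κ`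
attached to the maximal ideal `ker χ_P` of `Sg`. -/
def centre (H : ChartFacts A N Rt Sg) (hW : ∀ g ∈ Rt, IntAt A P g) : Place (Kap A) (Ft A N) :=
  haveI := H.dedekind
  haveI := H.frac
  centrePlace (F' := Ft A N) (chi H hW) (chi_algebraMap H hW) (ker_chi_ne_bot H hW)

/-- **(T1), existence**: `g ≡ c` at `P` implies `thetaFt g ≡ c̄` at the centre. -/
theorem centre_spec (H : ChartFacts A N Rt Sg) (hW : ∀ g ∈ Rt, IntAt A P g) {g : Fb N}
    (hg : g ∈ Rt) {c : ↥A}
    (hc : g - algebraMap Qb (Fb N) (c : Qb) ∈ P.toValuationSubring.nonunits) :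
    thetaFt A N g - algebraMap (Kap A) (Ft A N) (IsLocalRing.residue ↥A c) ∈
      (centre H hW).toValuationSubring.nonunits := by
  haveI := H.dedekind
  haveI := H.frac
  have h := centrePlace_spec (F' := Ft A N) (chi H hW) (chi_algebraMap H hW) (ker_chi_ne_bot H hW)
    (thetaRt H ⟨g, hg⟩)
  rw [chi_thetaRt, redRt_eq hW ⟨g, hg⟩ hc] at h
  exact h

/-- **(T1), uniqueness.** -/
theorem centre_unique (H : ChartFacts A N Rt Sg) (hW : ∀ g ∈ Rt, IntAt A P g)
    (Q : Place (Kap A) (Ft A N))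
    (hQ : ∀ g ∈ Rt, ∀ c : ↥A,
      g - algebraMap Qb (Fb N) (c : Qb) ∈ P.toValuationSubring.nonunits →
      thetaFt A N g - algebraMap (Kap A) (Ft A N) (IsLocalRing.residue ↥A c) ∈
        Q.toValuationSubring.nonunits) :
    Q = centre H hW := by
  haveI := H.dedekind
  haveI := H.frac
  refine centrePlace_unique (F' := Ft A N) (chi H hW) (chi_algebraMap H hW)
    (ker_chi_ne_bot H hW) Q fun s => ?_
  obtain ⟨g, rfl⟩ := thetaRt_surjective H s
  rw [chi_thetaRt, redRt_apply, redAt]
  exact hQ g g.2 _ (valAt_spec (hW g g.2))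

/-- The chart is regular at the centre. -/
theorem mem_centre (H : ChartFacts A N Rt Sg) (hW : ∀ g ∈ Rt, IntAt A P g) {b : Ft A N}
    (hb : b ∈ Sg) : b ∈ (centre H hW).toValuationSubring := by
  haveI := H.dedekind
  haveI := H.frac
  exact algebraMap_mem_centrePlace (F' := Ft A N) (chi H hW) (chi_algebraMap H hW)
    (ker_chi_ne_bot H hW) ⟨b, hb⟩

theorem mem_nonunits_centre_iff (H : ChartFacts A N Rt Sg) (hW : ∀ g ∈ Rt, IntAt A P g)
    {b : Ft A N} (hb : b ∈ Sg) :
    b ∈ (centre H hW).toValuationSubring.nonunits ↔ chi H hW ⟨b, hb⟩ = 0 := by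
  haveI := H.dedekind
  haveI := H.frac
  exact algebraMap_mem_nonunits_centrePlace_iff (F' := Ft A N) (chi H hW) (chi_algebraMap H hW)
    (ker_chi_ne_bot H hW) ⟨b, hb⟩

end Chart

/-! ### The canonical place reduction `rCan` and (T1) -/

section RCan

variable {A : ValuationSubring Qb} {N : ℕ} [NeZero N]
  {SgFin SgInf : Subalgebra (Kap A) (Ft A N)}

theorem jb_ne_zero : jb N ≠ 0 := fun h =>
  jqModC_ne_zero_of_nontrivial Qb (by simpa using congrArg Subtype.val h)

theorem jb_mem_RtFin : jb N ∈ RtFin A N := subset_chartAlg _ (Set.mem_singleton _)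

theorem jb_inv_mem_RtInf : (jb N)⁻¹ ∈ RtInf A N := subset_chartAlg _ (Set.mem_singleton _)

theorem intAt_inv_of_not {P : Place Qb (Fb N)} (h : ¬ IntAt A P (jb N)) :
    IntAt A P (jb N)⁻¹ := by
  rcases intAt_or_inv (A := A) P (jb N) with h1 | ⟨c, -, hc⟩
  · exact absurd h1 h
  · exact ⟨c, hc⟩

/-- If `j` is not `A`-integral at `P` then `j⁻¹` is, with value in `𝔪_A`. -/
theorem exists_mem_maximalIdeal_of_not {P : Place Qb (Fb N)} (h : ¬ IntAt A P (jb N)) :
    ∃ c : ↥A, c ∈ IsLocalRing.maximalIdeal ↥A ∧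
      (jb N)⁻¹ - algebraMap Qb (Fb N) (c : Qb) ∈ P.toValuationSubring.nonunits := by
  rcases intAt_or_inv (A := A) P (jb N) with h1 | h2
  · exact absurd h1 h
  · exact h2

open Classical in
/-- **The canonical place reduction** `rCan : Place ℚ̄ (ℚ̄·F_N) → Place κ (F_N(κ))`: the centre of the
composite valuation ring `W_P` on the chart `j ≠ ∞` (if `j` is `A`-integral at `P`) resp. on the
chart `j ≠ 0`. -/
def rCan (Hfin : ChartFacts A N (RtFin A N) SgFin) (Hinf : ChartFacts A N (RtInf A N) SgInf)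
    (P : Place Qb (Fb N)) : Place (Kap A) (Ft A N) :=
  if h : IntAt A P (jb N) then centre Hfin (P := P) fun _ hg => RtFin_le_wRing h hg
  else centre Hinf (P := P) fun _ hg => RtInf_le_wRing (intAt_inv_of_not h) hg

variable (Hfin : ChartFacts A N (RtFin A N) SgFin) (Hinf : ChartFacts A N (RtInf A N) SgInf)

theorem rCan_of_intAt {P : Place Qb (Fb N)} (h : IntAt A P (jb N)) :
    rCan Hfin Hinf P = centre Hfin (P := P) fun _ hg => RtFin_le_wRing h hg := dif_pos h

theorem rCan_of_not_intAt {P : Place Qb (Fb N)} (h : ¬ IntAt A P (jb N)) :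
    rCan Hfin Hinf P =
      centre Hinf (P := P) fun _ hg => RtInf_le_wRing (intAt_inv_of_not h) hg := dif_neg h

/-- **(T1) `rCan_fin`.** -/
theorem rCan_fin (P : Place Qb (Fb N)) (hj : IntAt A P (jb N)) (g : Fb N) (hg : g ∈ RtFin A N)
    (c : ↥A) (hc : g - algebraMap Qb (Fb N) (c : Qb) ∈ P.toValuationSubring.nonunits) :
    thetaFt A N g - algebraMap (Kap A) (Ft A N) (IsLocalRing.residue ↥A c) ∈
      (rCan Hfin Hinf P).toValuationSubring.nonunits := by
  rw [rCan_of_intAt Hfin Hinf hj]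
  exact centre_spec Hfin _ hg hc

/-- **(T1) `rCan_inf`**, at the places where `j` is not `A`-integral. -/
theorem rCan_inf_of_not (P : Place Qb (Fb N)) (hj : ¬ IntAt A P (jb N)) (g : Fb N)
    (hg : g ∈ RtInf A N) (c : ↥A)
    (hc : g - algebraMap Qb (Fb N) (c : Qb) ∈ P.toValuationSubring.nonunits) :
    thetaFt A N g - algebraMap (Kap A) (Ft A N) (IsLocalRing.residue ↥A c) ∈
      (rCan Hfin Hinf P).toValuationSubring.nonunits := by
  rw [rCan_of_not_intAt Hfin Hinf hj]
  exact centre_spec Hinf _ hg hc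

/-- **(T1) `rCan_unique`**, finite chart. -/
theorem rCan_unique_fin (P : Place Qb (Fb N)) (Q : Place (Kap A) (Ft A N))
    (hj : IntAt A P (jb N))
    (hQ : ∀ g ∈ RtFin A N, ∀ c : ↥A,
      g - algebraMap Qb (Fb N) (c : Qb) ∈ P.toValuationSubring.nonunits →
      thetaFt A N g - algebraMap (Kap A) (Ft A N) (IsLocalRing.residue ↥A c) ∈
        Q.toValuationSubring.nonunits) :
    Q = rCan Hfin Hinf P := by
  rw [rCan_of_intAt Hfin Hinf hj]
  exact centre_unique Hfin _ Q hQ

/-- **(T1) `rCan_unique`**, chart at infinity. -/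
theorem rCan_unique_inf (P : Place Qb (Fb N)) (Q : Place (Kap A) (Ft A N))
    (hj : ¬ IntAt A P (jb N))
    (hQ : ∀ g ∈ RtInf A N, ∀ c : ↥A,
      g - algebraMap Qb (Fb N) (c : Qb) ∈ P.toValuationSubring.nonunits →
      thetaFt A N g - algebraMap (Kap A) (Ft A N) (IsLocalRing.residue ↥A c) ∈
        Q.toValuationSubring.nonunits) :
    Q = rCan Hfin Hinf P := by
  rw [rCan_of_not_intAt Hfin Hinf hj]
  exact centre_unique Hinf _ Q hQ

/-- The finite chart is regular at `rCan P` when `j` is `A`-integral at `P`. -/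
theorem mem_rCan_of_mem_SgFin {P : Place Qb (Fb N)} (hj : IntAt A P (jb N)) {b : Ft A N}
    (hb : b ∈ SgFin) : b ∈ (rCan Hfin Hinf P).toValuationSubring := by
  rw [rCan_of_intAt Hfin Hinf hj]
  exact mem_centre Hfin _ hb

theorem mem_rCan_of_mem_SgInf {P : Place Qb (Fb N)} (hj : ¬ IntAt A P (jb N)) {b : Ft A N}
    (hb : b ∈ SgInf) : b ∈ (rCan Hfin Hinf P).toValuationSubring := by
  rw [rCan_of_not_intAt Hfin Hinf hj]
  exact mem_centre Hinf _ hb

/-- An element of the chart at infinity becomes an element of the finite chart after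
multiplication by a power of `j`. -/
theorem exists_pow_mul_mem_RtFin {g : Fb N} (hg : g ∈ RtInf A N) :
    ∃ m : ℕ, jb N ^ m * g ∈ RtFin A N := by
  refine exists_pow_mul_mem_chartAlg (O := ↥A) (F := Fb N) (S := {jb N}) (s := jb N)
    (Set.mem_singleton _) jb_ne_zero ?_
  exact chartAlg_mono (O := ↥A) (F := Fb N)
    (Set.singleton_subset_iff.2 (Set.mem_insert _ _)) hg

/-- **(T1) `rCan_inf`** in full: at EVERY place where `j⁻¹` is `A`-integral (including the overlap
of the two charts, where `rCan` is defined through the finite chart). -/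
theorem rCan_inf (P : Place Qb (Fb N)) (hinv : IntAt A P (jb N)⁻¹) (g : Fb N)
    (hg : g ∈ RtInf A N) (c : ↥A)
    (hc : g - algebraMap Qb (Fb N) (c : Qb) ∈ P.toValuationSubring.nonunits) :
    thetaFt A N g - algebraMap (Kap A) (Ft A N) (IsLocalRing.residue ↥A c) ∈
      (rCan Hfin Hinf P).toValuationSubring.nonunits := by
  by_cases hj : IntAt A P (jb N)
  swap
  · exact rCan_inf_of_not Hfin Hinf P hj g hg c hc
  rw [rCan_of_intAt Hfin Hinf hj]
  set hW : ∀ g ∈ RtFin A N, IntAt A P g := fun _ hg => RtFin_le_wRing hj hg with hWdef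
  obtain ⟨m, hm⟩ := exists_pow_mul_mem_RtFin (A := A) hg
  -- the values at `P`
  let wj : wRing A P := ⟨jb N, hj⟩
  let wi : wRing A P := ⟨(jb N)⁻¹, hinv⟩
  let wg : wRing A P := ⟨g, ⟨c, hc⟩⟩
  set u : ↥A := valW A P wj with hu
  have hwg : valW A P wg = c := valAt_eq _ hc
  have hunit : u * valW A P wi = 1 := by
    rw [← map_mul]
    have : wj * wi = 1 := Subtype.ext (mul_inv_cancel₀ jb_ne_zero)
    rw [this, map_one]
  have hres : IsLocalRing.residue ↥A u ≠ 0 := by
    intro h0
    have := congrArg (IsLocalRing.residue ↥A) hunit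
    rw [map_mul, h0, zero_mul, map_one] at this
    exact zero_ne_one this
  -- the elements of the finite chart
  let J : ↥(RtFin A N) := ⟨jb N, jb_mem_RtFin⟩
  let G : ↥(RtFin A N) := ⟨jb N ^ m * g, hm⟩
  have hchiJ : chi Hfin hW (thetaRt Hfin J) = IsLocalRing.residue ↥A u := by
    rw [chi_thetaRt]
    exact redRt_eq hW J (valW_spec P wj)
  have hchiG : chi Hfin hW (thetaRt Hfin G) =
      IsLocalRing.residue ↥A u ^ m * IsLocalRing.residue ↥A c := by
    rw [chi_thetaRt, ← map_pow, ← map_mul]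
    refine redRt_eq hW G ?_
    have h1 := valW_spec P (wj ^ m * wg)
    rw [map_mul, map_pow, hwg] at h1
    exact h1
  have hcoeG : ((thetaRt Hfin G : ↥SgFin) : Ft A N) =
      ((thetaRt Hfin J : ↥SgFin) : Ft A N) ^ m * thetaFt A N g := by
    have h1 : ((thetaRt Hfin (J ^ m) : ↥SgFin) : Ft A N) = thetaFt A N (jb N ^ m) := rfl
    rw [coe_thetaRt]
    show thetaFt A N (jb N ^ m * g) = _
    rw [thetaFt_mul (Hfin.le_gauss _ (pow_mem jb_mem_RtFin m)) (Hinf.le_gauss g hg)
      (Hfin.theta_mem _ (pow_mem jb_mem_RtFin m)) (Hinf.theta_mem g hg), ← h1, map_pow]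
    rfl
  -- the element `s = thetaFt G - jt^m * c̄` of `SgFin` is killed by `χ_P`
  set s : ↥SgFin := thetaRt Hfin G -
    thetaRt Hfin J ^ m * algebraMap (Kap A) ↥SgFin (IsLocalRing.residue ↥A c) with hs
  have hchis : chi Hfin hW s = 0 := by
    rw [hs, map_sub, map_mul, map_pow, hchiG, hchiJ, chi_algebraMap, sub_self]
  have hsm : (s : Ft A N) ∈ (centre Hfin hW).toValuationSubring.nonunits :=
    (mem_nonunits_centre_iff Hfin hW s.2).2 hchis
  have hs_eq : (s : Ft A N) = ((thetaRt Hfin J : ↥SgFin) : Ft A N) ^ m *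
      (thetaFt A N g - algebraMap (Kap A) (Ft A N) (IsLocalRing.residue ↥A c)) := by
    rw [mul_sub, ← hcoeG]
    rfl
  rw [hs_eq] at hsm
  refine mem_nonunits_of_mul_mem _ ?_ ?_ hsm
  · exact mem_centre Hfin hW (thetaRt Hfin J ^ m).2
  · intro hmem
    have h1 := (mem_nonunits_centre_iff Hfin hW (thetaRt Hfin J ^ m).2).1 hmem
    rw [show (⟨((thetaRt Hfin J ^ m : ↥SgFin) : Ft A N), (thetaRt Hfin J ^ m).2⟩ : ↥SgFin) =
      thetaRt Hfin J ^ m from rfl, map_pow, hchiJ] at h1
    exact pow_ne_zero m hres h1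

/-- **(T4) for `rCan`**: equivariance for the decomposition group of `A`. -/
theorem rCan_galois_smul (σ : A.decompositionSubgroup ℚ) (P : Place Qb (Fb N)) :
    rCan Hfin Hinf (Galois.gal N (σ : Qb ≃ₐ[ℚ] Qb) • P) =
      CoeffAut.coeffAut (Kap A) N (Galois.resAut ℚ A σ) • rCan Hfin Hinf P :=
  Galois.smul_eq_of_T1 (rCan Hfin Hinf) (rCan_fin Hfin Hinf) (rCan_inf_of_not Hfin Hinf)
    (rCan_unique_fin Hfin Hinf) (rCan_unique_inf Hfin Hinf) σ P

end RCan

end Fermat.Agent.N4F.C.Centre

end
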