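/-
N4-FULL, block C, node C5 (helper22), part 3 = (5d) of moonshots #30: the LEVEL DESCRIPTION of the
canonical place reduction `rCan`.

`K` a level, `O_K = A ∩ K` its base ring (a DVR), `R₊(K) = Rfin (Lvl K) N O_K` the finite chart at the
level, `ρ : R₊(K) →+* F_N(κ)` its reduction (`ρ x = thetaFt (lev x)`).  For a place `P` of `ℚ̄·F_N`
with `j` `A`-integral at `P` and rational restriction `v = restrictK N K P`:

* `centredAt_restrictK_fin` : `v` is `CentredAt` `rCan P` (helper1's `LocalMult.CentredAt`);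
* `rCan_eq_of_centredAt_fin` : conversely, if `v` is `CentredAt Q` and `P` extends `v`, then
  `j` is `A`-integral at `P` and `rCan P = Q` (needs the level-`K` surjectivity `ρ(R₊(K)) = Σ₊`);
* the same for the chart at infinity (`_inf`);
* `intAt_jb_iff` : `j` is `A`-integral at `P` iff `j̄` is regular at `rCan P`.
-/
import Mathlib
import Fermat.Agent.N4F.C.Centre
import Fermat.Agent.N4F.C.LevelCharts
import Fermat.Agent.N4F.C.LocalMult

set_option autoImplicit false
set_option linter.unusedSectionVars false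
set_option linter.style.haveILetI false

open ModularCurve AlgebraicCurve Fermat.Agent.N4.Chart Fermat.Agent.N4.Setting

noncomputable section

namespace Fermat.Agent.N4F.C.CentreLevel

open Fermat.Agent.N4F.C Fermat.Agent.N4F.C.WRing Fermat.Agent.N4F.C.Centre
open Fermat.Agent.N4F.C.Levels Fermat.Agent.N4F.C.LevelCharts
open Fermat.Agent.S24 Fermat.Agent.S24.PlaceDeriv

/-! ### Maximal ideals along an extension of places -/

section Extends

variable {K L F F' : Type*} [Field K] [Field L] [Field F] [Field F'] [Algebra K F] [Algebra L F']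
  [Algebra K L] [Algebra K F'] [IsScalarTower K L F'] {φ : F →ₐ[K] F'}

theorem mem_nonunits_iff_of_extends {v : Place K F} {v' : Place L F'}
    (h : PlaceExtend.Extends L φ v v') (f : F) :
    φ f ∈ v'.toValuationSubring.nonunits ↔ f ∈ v.toValuationSubring.nonunits := by
  rw [ValuationSubring.mem_nonunits_iff_or, ValuationSubring.mem_nonunits_iff_or, ← map_inv₀,
    h f⁻¹, map_eq_zero]

end Extends

variable {A : ValuationSubring Qb} {N : ℕ} [NeZero N]

theorem mem_nonunits_restrictK_iff (K : IntermediateField ℚ Qb) (P : Place Qb (Fb N))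
    (f : FF (Lvl K) N) :
    f ∈ (restrictK N K P).toValuationSubring.nonunits ↔
      levK N K f ∈ P.toValuationSubring.nonunits :=
  (mem_nonunits_iff_of_extends (extends_restrictK N K P) f).symm

theorem levK_algebraMap_Lvl (K : IntermediateField ℚ Qb) (c : Lvl K) :
    levK N K (algebraMap (Lvl K) (FF (Lvl K) N) c) =
      algebraMap Qb (Fb N) (algebraMap (Lvl K) Qb c) := by
  rw [AlgHom.commutes]
  exact IsScalarTower.algebraMap_apply (Lvl K) Qb (Fb N) c

theorem mem_baseRing_iff (K : IntermediateField ℚ Qb) (x : Lvl K) :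
    x ∈ baseRing A K ↔ algebraMap (Lvl K) Qb x ∈ A := Iff.rfl

theorem isUnit_baseIncl_iff (K : IntermediateField ℚ Qb) (c : ↥(baseRing A K)) :
    IsUnit (baseIncl A K c) ↔ IsUnit c := by
  constructor
  · intro hu
    obtain ⟨d, hd⟩ := isUnit_iff_exists_inv.1 hu
    have h1 : algebraMap (Lvl K) Qb (c : Lvl K) * (d : Qb) = 1 := congrArg Subtype.val hd
    have hc0 : (c : Lvl K) ≠ 0 := by
      intro h0
      rw [h0, map_zero, zero_mul] at h1
      exact zero_ne_one h1
    have h2 : algebraMap (Lvl K) Qb ((c : Lvl K)⁻¹) = (d : Qb) := by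
      rw [map_inv₀]
      exact inv_eq_of_mul_eq_one_right h1
    have h3 : (c : Lvl K)⁻¹ ∈ baseRing A K := by
      rw [mem_baseRing_iff, h2]
      exact d.2
    exact isUnit_iff_exists_inv.2 ⟨⟨(c : Lvl K)⁻¹, h3⟩, Subtype.ext (mul_inv_cancel₀ hc0)⟩
  · intro hu
    exact hu.map (baseIncl A K)

/-- `c ∈ 𝔪_{O_K} ↔ c ∈ 𝔪_A`. -/
theorem baseIncl_mem_maximalIdeal_iff (K : IntermediateField ℚ Qb)
    [IsLocalRing ↥(baseRing A K)] (c : ↥(baseRing A K)) :
    baseIncl A K c ∈ IsLocalRing.maximalIdeal ↥A ↔ c ∈ IsLocalRing.maximalIdeal ↥(baseRing A K) := by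
  rw [IsLocalRing.mem_maximalIdeal, IsLocalRing.mem_maximalIdeal, mem_nonunits_iff,
    mem_nonunits_iff, not_iff_not]
  exact isUnit_baseIncl_iff K c

/-! ### `j` is `A`-integral at `P` iff `j̄` is regular at `rCan P` -/

section IntAtIff

variable {SgFin SgInf : Subalgebra (Kap A) (Ft A N)}
  (Hfin : ChartFacts A N (RtFin A N) SgFin) (Hinf : ChartFacts A N (RtInf A N) SgInf)

include Hfin Hinf in
theorem thetaFt_jb_inv : thetaFt A N (jb N)⁻¹ = (jt A N)⁻¹ := by
  have h1 := thetaFt_mul (Hfin.le_gauss _ jb_mem_RtFin) (Hinf.le_gauss _ jb_inv_mem_RtInf)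
    (Hfin.theta_mem _ jb_mem_RtFin) (Hinf.theta_mem _ jb_inv_mem_RtInf)
  rw [mul_inv_cancel₀ jb_ne_zero, thetaFt_one, thetaFt_jb] at h1
  exact (eq_inv_of_mul_eq_one_right h1.symm)

/-- **`j` is `A`-integral at `P` iff `j̄` is regular at `rCan P`.** -/
theorem intAt_jb_iff (P : Place Qb (Fb N)) :
    IntAt A P (jb N) ↔ jt A N ∈ (rCan Hfin Hinf P).toValuationSubring := by
  constructor
  · intro hj
    have h := rCan_fin Hfin Hinf P hj (jb N) jb_mem_RtFin _ (valAt_spec hj)
    rw [thetaFt_jb] at h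
    exact mem_of_sub_const_mem_nonunits _ h
  · intro hmem
    by_contra hj
    obtain ⟨c, hcm, hc⟩ := exists_mem_maximalIdeal_of_not (A := A) hj
    have h := rCan_inf_of_not Hfin Hinf P hj (jb N)⁻¹ jb_inv_mem_RtInf c hc
    rw [thetaFt_jb_inv Hfin Hinf, (IsLocalRing.residue_eq_zero_iff c).2 hcm, map_zero,
      sub_zero] at h
    have h1 := mul_mem_nonunits _ hmem h
    have hjt : jt A N ≠ 0 := jF_ne_zero (Kap A) N
    rw [mul_inv_cancel₀ hjt, ValuationSubring.mem_nonunits_iff, map_one] at h1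
    exact lt_irrefl _ h1

/-- Uniqueness on the chart at infinity at EVERY place where `j⁻¹` is `A`-integral (including the
overlap of the two charts). -/
theorem rCan_unique_inf' (P : Place Qb (Fb N)) (Q : Place (Kap A) (Ft A N))
    (hinv : IntAt A P (jb N)⁻¹)
    (hQ : ∀ g ∈ RtInf A N, ∀ c : ↥A,
      g - algebraMap Qb (Fb N) (c : Qb) ∈ P.toValuationSubring.nonunits →
      thetaFt A N g - algebraMap (Kap A) (Ft A N) (IsLocalRing.residue ↥A c) ∈
        Q.toValuationSubring.nonunits) :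
    Q = rCan Hfin Hinf P := by
  have hW : ∀ g ∈ RtInf A N, IntAt A P g := fun _ hg => RtInf_le_wRing hinv hg
  rw [centre_unique Hinf hW Q hQ]
  exact (centre_unique Hinf hW _ (rCan_inf Hfin Hinf P hinv)).symm

end IntAtIff

/-! ### (5d): the level description -/

section LevelDescription

variable {SgFin SgInf : Subalgebra (Kap A) (Ft A N)}
  (Hfin : ChartFacts A N (RtFin A N) SgFin) (Hinf : ChartFacts A N (RtInf A N) SgInf)
  (K : IntermediateField ℚ Qb) [IsDiscreteValuationRing ↥(baseRing A K)]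

/-- Generic form of (5d), first half: for a chart `Rt` of `ℚ̄·F_N` contained in `W_P`, a level chart
`RK` mapped into it, and a place `Q` satisfying the conclusion of (T1) on `Rt`, the restriction of
`P` to the level is centred at `Q`. -/
theorem centredAt_restrictK_of_spec {Rt : Subalgebra ↥A (Fb N)}
    (RK : Subalgebra ↥(baseRing A K) (FF (Lvl K) N)) (hlev : ∀ x ∈ RK, levK N K x ∈ Rt)
    (P : Place Qb (Fb N)) (hW : ∀ g ∈ Rt, IntAt A P g) (Q : Place (Kap A) (Ft A N))
    (hQ : ∀ g ∈ Rt, ∀ c : ↥A,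
      g - algebraMap Qb (Fb N) (c : Qb) ∈ P.toValuationSubring.nonunits →
      thetaFt A N g - algebraMap (Kap A) (Ft A N) (IsLocalRing.residue ↥A c) ∈
        Q.toValuationSubring.nonunits)
    (hres : ResidueTrivial (restrictK N K P))
    (ρ : ↥RK →+* Ft A N) (hρ : ∀ x : ↥RK, ρ x = thetaFt A N (levK N K (x : FF (Lvl K) N))) :
    LocalMult.CentredAt ↥(baseRing A K) ρ Q (restrictK N K P) := by
  have hmem : ∀ r : ↥RK, (r : FF (Lvl K) N) ∈ (restrictK N K P).toValuationSubring := fun r =>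
    (mem_restrictK_iff N K P _).2 (hW _ (hlev r r.2)).mem
  -- the value of `r` at `v` is the value of `lev r` at `P`, and lies in `O_K`
  have hconst : ∀ r : ↥RK, ∃ c : ↥(baseRing A K),
      (r : FF (Lvl K) N) - algebraMap ↥(baseRing A K) (FF (Lvl K) N) c ∈
        (restrictK N K P).toValuationSubring.nonunits := by
    intro r
    obtain ⟨c', hc'⟩ := hres ⟨(r : FF (Lvl K) N), hmem r⟩
    have h1 : (r : FF (Lvl K) N) - algebraMap (Lvl K) (FF (Lvl K) N) c' ∈
        (restrictK N K P).toValuationSubring.nonunits :=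
      (ValuationSubring.mem_nonunits_iff_exists_mem_maximalIdeal).2
        ⟨sub_mem (hmem r) ((restrictK N K P).algebraMap_mem' c'), hc'⟩
    have h2 := (mem_nonunits_restrictK_iff K P _).1 h1
    rw [map_sub, levK_algebraMap_Lvl] at h2
    obtain ⟨c, hc⟩ := hW _ (hlev r r.2)
    have h3 := nonunits_sub_mem P hc h2
    have e : levK N K (r : FF (Lvl K) N) - algebraMap Qb (Fb N) (c : Qb) -
        (levK N K (r : FF (Lvl K) N) - algebraMap Qb (Fb N) (algebraMap (Lvl K) Qb c')) =
        algebraMap Qb (Fb N) (algebraMap (Lvl K) Qb c' - (c : Qb)) := by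
      rw [map_sub]; ring
    rw [e] at h3
    have h4 : algebraMap (Lvl K) Qb c' = (c : Qb) :=
      sub_eq_zero.1 (const_eq_zero_of_mem_nonunits P h3)
    have hc'O : c' ∈ baseRing A K := by
      rw [mem_baseRing_iff, h4]; exact c.2
    exact ⟨⟨c', hc'O⟩, h1⟩
  refine ⟨hres, hmem, hconst, fun r c hc => ?_⟩
  -- transport the congruence to `P` and apply (T1)
  have h2 := (mem_nonunits_restrictK_iff K P _).1 hc
  rw [map_sub, levK_algebraMap A N K c] at h2
  have h3 := hQ _ (hlev r r.2) (baseIncl A K c) h2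
  rw [← hρ] at h3
  rw [← baseIncl_mem_maximalIdeal_iff K c, ← IsLocalRing.residue_eq_zero_iff]
  constructor
  · intro h0
    rwa [h0, map_zero, sub_zero] at h3
  · intro hm
    by_contra h0
    have h4 := sub_mem_nonunits Q hm h3
    rw [sub_sub_cancel] at h4
    exact const_not_mem_nonunits' Q h0 h4

/-- **(5d), finite chart.**  If `j` is `A`-integral at `P` and the restriction `v` of `P` to the
level `K` is rational, then `v` is centred at `rCan P`. -/
theorem centredAt_restrictK_fin (P : Place Qb (Fb N)) (hj : IntAt A P (jb N))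
    (hres : ResidueTrivial (restrictK N K P))
    (ρ : ↥(Rfin (Lvl K) N (baseRing A K)) →+* Ft A N)
    (hρ : ∀ x : ↥(Rfin (Lvl K) N (baseRing A K)),
      ρ x = thetaFt A N (levK N K (x : FF (Lvl K) N))) :
    LocalMult.CentredAt ↥(baseRing A K) ρ (rCan Hfin Hinf P) (restrictK N K P) :=
  centredAt_restrictK_of_spec K (Rfin (Lvl K) N (baseRing A K))
    (fun _ hx => lev_mem_RtFin A N K hx) P (fun _ hg => RtFin_le_wRing hj hg) _
    (rCan_fin Hfin Hinf P hj) hres ρ hρ

/-- **(5d), chart at infinity.** -/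
theorem centredAt_restrictK_inf (P : Place Qb (Fb N)) (hinv : IntAt A P (jb N)⁻¹)
    (hres : ResidueTrivial (restrictK N K P))
    (ρ : ↥(Rinf (Lvl K) N (baseRing A K)) →+* Ft A N)
    (hρ : ∀ x : ↥(Rinf (Lvl K) N (baseRing A K)),
      ρ x = thetaFt A N (levK N K (x : FF (Lvl K) N))) :
    LocalMult.CentredAt ↥(baseRing A K) ρ (rCan Hfin Hinf P) (restrictK N K P) :=
  centredAt_restrictK_of_spec K (Rinf (Lvl K) N (baseRing A K))
    (fun _ hx => lev_mem_RtInf A N K hx) P (fun _ hg => RtInf_le_wRing hinv hg) _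
    (rCan_inf Hfin Hinf P hinv) hres ρ hρ

/-- Generic form of (5d), second half: a place `P` extending a place `v` of the level which is
centred at `Q` satisfies the conclusion of (T1) with `Q` — provided the level chart `RK` already
surjects onto `Sg`. -/
theorem spec_of_centredAt {Rt : Subalgebra ↥A (Fb N)} {Sg : Subalgebra (Kap A) (Ft A N)}
    (H : ChartFacts A N Rt Sg)
    (RK : Subalgebra ↥(baseRing A K) (FF (Lvl K) N)) (hlev : ∀ x ∈ RK, levK N K x ∈ Rt)
    (P : Place Qb (Fb N)) (hW : ∀ g ∈ Rt, IntAt A P g) (Q : Place (Kap A) (Ft A N))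
    (ρ : ↥RK →+* Ft A N) (hρ : ∀ x : ↥RK, ρ x = thetaFt A N (levK N K (x : FF (Lvl K) N)))
    (hsurj : ∀ b ∈ Sg, ∃ x : ↥RK, ρ x = b)
    {v : Place (Lvl K) (FF (Lvl K) N)} (hv : LocalMult.CentredAt ↥(baseRing A K) ρ Q v)
    (hP : PlaceExtend.Extends Qb (levK N K) v P)
    (g : Fb N) (hg : g ∈ Rt) (c : ↥A)
    (hc : g - algebraMap Qb (Fb N) (c : Qb) ∈ P.toValuationSubring.nonunits) :
    thetaFt A N g - algebraMap (Kap A) (Ft A N) (IsLocalRing.residue ↥A c) ∈
      Q.toValuationSubring.nonunits := by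
  -- a level element with the same reduction
  obtain ⟨x, hx⟩ := hsurj _ (H.theta_mem_Sg g hg)
  have hg₀ : levK N K (x : FF (Lvl K) N) ∈ Rt := hlev x x.2
  -- `red_P g = red_P g₀`
  have hker : (⟨g, hg⟩ - ⟨_, hg₀⟩ : ↥Rt) ∈ RingHom.ker (thetaRt H) := by
    rw [RingHom.mem_ker, map_sub, sub_eq_zero]
    apply Subtype.ext
    rw [coe_thetaRt, coe_thetaRt, ← hρ, hx]
  have hred := ker_thetaRt_le H hW hker
  rw [RingHom.mem_ker, map_sub, sub_eq_zero, redRt_eq hW ⟨g, hg⟩ hc] at hred
  -- the value of `x` at `v`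
  obtain ⟨c₀, hc₀⟩ := hv.exists_const x
  have h2 := (mem_nonunits_iff_of_extends hP _).2 hc₀
  rw [map_sub, levK_algebraMap A N K c₀] at h2
  have hred₀ : redRt hW ⟨_, hg₀⟩ = IsLocalRing.residue ↥A (baseIncl A K c₀) :=
    redRt_eq hW ⟨_, hg₀⟩ h2
  -- `x - c₀` vanishes at `v`, hence its reduction vanishes at `Q`
  have h3 : algebraMap ↥RK (FF (Lvl K) N) (x - algebraMap ↥(baseRing A K) ↥RK c₀) -
      algebraMap ↥(baseRing A K) (FF (Lvl K) N) 0 ∈ v.toValuationSubring.nonunits := by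
    rw [map_zero, sub_zero]
    exact hc₀
  have h4 := (hv.mem_iff _ 0 h3).1 (Ideal.zero_mem _)
  rw [map_sub, hx] at h4
  have h5 : ρ (algebraMap ↥(baseRing A K) ↥RK c₀) =
      algebraMap (Kap A) (Ft A N) (IsLocalRing.residue ↥A c) := by
    rw [hρ, hred, hred₀]
    show thetaFt A N (levK N K (algebraMap ↥(baseRing A K) (FF (Lvl K) N) c₀)) = _
    rw [levK_algebraMap A N K c₀]
    exact thetaFt_const (baseIncl A K c₀)
  rwa [h5] at h4

/-- **(5d), converse, finite chart.**  If a place `v` of the level `K` is centred at `Q` (on the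
finite chart) and `P` extends `v`, then `j` is `A`-integral at `P` and `rCan P = Q`. -/
theorem rCan_eq_of_centredAt_fin (Q : Place (Kap A) (Ft A N))
    (ρ : ↥(Rfin (Lvl K) N (baseRing A K)) →+* Ft A N)
    (hρ : ∀ x : ↥(Rfin (Lvl K) N (baseRing A K)),
      ρ x = thetaFt A N (levK N K (x : FF (Lvl K) N)))
    (hsurj : ∀ b ∈ SgFin, ∃ x : ↥(Rfin (Lvl K) N (baseRing A K)), ρ x = b)
    {v : Place (Lvl K) (FF (Lvl K) N)} (hv : LocalMult.CentredAt ↥(baseRing A K) ρ Q v)
    {P : Place Qb (Fb N)} (hP : PlaceExtend.Extends Qb (levK N K) v P) :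
    IntAt A P (jb N) ∧ rCan Hfin Hinf P = Q := by
  have hj : IntAt A P (jb N) := by
    obtain ⟨c, hc⟩ := hv.exists_const (jFin (Lvl K) N (baseRing A K))
    have h2 := (mem_nonunits_iff_of_extends hP _).2 hc
    rw [map_sub, levK_algebraMap A N K c] at h2
    refine ⟨baseIncl A K c, ?_⟩
    rw [← levK_jF N K]
    exact h2
  refine ⟨hj, (rCan_unique_fin Hfin Hinf P Q hj ?_).symm⟩
  exact spec_of_centredAt K Hfin (Rfin (Lvl K) N (baseRing A K))
    (fun _ hx => lev_mem_RtFin A N K hx) P (fun _ hg => RtFin_le_wRing hj hg) Q ρ hρ hsurj hv hP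

/-- **(5d), converse, chart at infinity.** -/
theorem rCan_eq_of_centredAt_inf (Q : Place (Kap A) (Ft A N))
    (ρ : ↥(Rinf (Lvl K) N (baseRing A K)) →+* Ft A N)
    (hρ : ∀ x : ↥(Rinf (Lvl K) N (baseRing A K)),
      ρ x = thetaFt A N (levK N K (x : FF (Lvl K) N)))
    (hsurj : ∀ b ∈ SgInf, ∃ x : ↥(Rinf (Lvl K) N (baseRing A K)), ρ x = b)
    {v : Place (Lvl K) (FF (Lvl K) N)} (hv : LocalMult.CentredAt ↥(baseRing A K) ρ Q v)
    {P : Place Qb (Fb N)} (hP : PlaceExtend.Extends Qb (levK N K) v P) :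
    IntAt A P (jb N)⁻¹ ∧ rCan Hfin Hinf P = Q := by
  have hinv : IntAt A P (jb N)⁻¹ := by
    obtain ⟨c, hc⟩ := hv.exists_const (jInvInf (Lvl K) N (baseRing A K))
    have h2 := (mem_nonunits_iff_of_extends hP _).2 hc
    rw [map_sub, levK_algebraMap A N K c] at h2
    refine ⟨baseIncl A K c, ?_⟩
    rw [← levK_jF_inv N K]
    exact h2
  refine ⟨hinv, (rCan_unique_inf' Hfin Hinf P Q hinv ?_).symm⟩
  exact spec_of_centredAt K Hinf (Rinf (Lvl K) N (baseRing A K))
    (fun _ hx => lev_mem_RtInf A N K hx) P (fun _ hg => RtInf_le_wRing hinv hg) Q ρ hρ hsurj hv hP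

end LevelDescription

end Fermat.Agent.N4F.C.CentreLevel

end
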