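/-
N4-FULL, block C, node C5 (helper22), part 4: the BRIDGE from the finite levels to the hypothesis
bundle `Centre.ChartFacts` (moonshots #30, §5b: `Rt± = ⋃_K lev(R±(K))`, `thetaBar(Rt±) = Σ±`,
kernel).

`LevelChartFacts A N K RK Sg` collects what the finite-level theory (C2 + transport along `ι_K`)
says about ONE level chart `RK ⊂ F_K`: `thetaFt ∘ lev` is defined on it, maps it ONTO `Sg`, and its
kernel is `𝔪_{O_K} · RK`.  `chartFacts_of_levels` turns this (for all good levels) into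
`ChartFacts A N Rt Sg` for the `ℚ̄`-level chart `Rt = ⋃_K lev(RK)`.

* `chartFacts_fin_of_levels`, `chartFacts_inf_of_levels` : the two bundles consumed by `Centre.rCan`, for
  `Sg = SigmaFin (Kap A) N`, `SigmaInf (Kap A) N` (helper9's `ChartFibre`);
* `jt_ne_const`, `jt_inv_ne_const` : `j̄^{±1}` is not a constant.
-/
import Mathlib
import Fermat.Agent.N4F.C.Centre
import Fermat.Agent.N4F.C.CentreLevel
import Fermat.Agent.N4F.C.LevelCharts
import Fermat.Agent.N4F.C.ChartFibre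

set_option autoImplicit false
set_option linter.unusedSectionVars false
set_option linter.style.haveILetI false

open ModularCurve AlgebraicCurve Fermat.Agent.N4.Chart Fermat.Agent.N4.Setting

noncomputable section

namespace Fermat.Agent.N4F.C.CentreBridge

open Fermat.Agent.N4F.C Fermat.Agent.N4F.C.WRing Fermat.Agent.N4F.C.Centre
open Fermat.Agent.N4F.C.Levels Fermat.Agent.N4F.C.LevelCharts Fermat.Agent.N4F.C.CentreLevel
open Fermat.Agent.N4F.C.ChartFibre

variable {A : ValuationSubring Qb} {N : ℕ} [NeZero N]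

/-- The facts on the reduction of ONE level chart `RK ⊂ F_K`. -/
structure LevelChartFacts (A : ValuationSubring Qb) (N : ℕ) [NeZero N]
    (K : IntermediateField ℚ Qb) (RK : Subalgebra ↥(baseRing A K) (FF (Lvl K) N))
    (Sg : Subalgebra (Kap A) (Ft A N)) : Prop where
  mem_gauss : ∀ x ∈ RK, levK N K x ∈ gaussSub A N
  theta_mem : ∀ x ∈ RK, thetaBar A N (levK N K x) ∈ modularFunctionFieldFullC (Kap A) N
  theta_mem_Sg : ∀ x ∈ RK, thetaFt A N (levK N K x) ∈ Sg
  surj : ∀ b ∈ Sg, ∃ x ∈ RK, thetaFt A N (levK N K x) = b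
  ker : ∀ x ∈ RK, thetaFt A N (levK N K x) = 0 →
    ∃ ϖ : ↥(baseRing A K), ¬ IsUnit ϖ ∧ ∃ x' ∈ RK, x = ϖ • x'

/-- **The bridge**: level facts at all good levels ⇒ `ChartFacts` for the union chart. -/
theorem chartFacts_of_levels {Rt : Subalgebra ↥A (Fb N)} {Sg : Subalgebra (Kap A) (Ft A N)}
    (RK : ∀ K : IntermediateField ℚ Qb, Subalgebra ↥(baseRing A K) (FF (Lvl K) N))
    (IsLev : IntermediateField ℚ Qb → Prop)
    (hlev : ∀ K, ∀ x ∈ RK K, levK N K x ∈ Rt)
    (hex : ∀ g ∈ Rt, ∃ K, IsLev K ∧ ∃ x ∈ RK K, levK N K x = g)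
    (hex0 : ∃ K, IsLev K)
    (hfacts : ∀ K, IsLev K → LevelChartFacts A N K (RK K) Sg)
    (hded : IsDedekindDomain ↥Sg) (hfrac : IsFractionRing ↥Sg (Ft A N))
    (hnc : ∃ b ∈ Sg, ∀ c : Kap A, b ≠ algebraMap (Kap A) (Ft A N) c) :
    ChartFacts A N Rt Sg where
  le_gauss g hg := by
    obtain ⟨K, hK, x, hx, rfl⟩ := hex g hg
    exact (hfacts K hK).mem_gauss x hx
  theta_mem g hg := by
    obtain ⟨K, hK, x, hx, rfl⟩ := hex g hg
    exact (hfacts K hK).theta_mem x hx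
  theta_mem_Sg g hg := by
    obtain ⟨K, hK, x, hx, rfl⟩ := hex g hg
    exact (hfacts K hK).theta_mem_Sg x hx
  surj b hb := by
    obtain ⟨K, hK⟩ := hex0
    obtain ⟨x, hx, hxb⟩ := (hfacts K hK).surj b hb
    exact ⟨levK N K x, hlev K x hx, hxb⟩
  ker g hg h0 := by
    obtain ⟨K, hK, x, hx, rfl⟩ := hex g hg
    obtain ⟨ϖ, hϖ, x', hx', rfl⟩ := (hfacts K hK).ker x hx h0
    refine ⟨baseIncl A K ϖ, ?_, levK N K x', hlev K x' hx', ?_⟩
    · rw [IsLocalRing.mem_maximalIdeal, mem_nonunits_iff, isUnit_baseIncl_iff]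
      exact hϖ
    · rw [Algebra.smul_def, Algebra.smul_def, map_mul, levK_algebraMap A N K ϖ]
  dedekind := hded
  frac := hfrac
  nonconst := hnc

/-! ### `j̄^{±1}` is not constant -/

theorem jt_ne_const (c : Kap A) : jt A N ≠ algebraMap (Kap A) (Ft A N) c := by
  intro h
  have h1 := congrArg (fun x : Ft A N => (x : LaurentSeries (Kap A)).coeff (-1)) h
  simp only [jt, coe_jF, coe_algebraMap_Ft] at h1
  rw [coeff_jqModC_neg_one, algebraMap_laurentSeries_eq_single,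
    HahnSeries.coeff_single_of_ne (by norm_num)] at h1
  exact one_ne_zero h1

theorem jt_inv_ne_const (c : Kap A) : (jt A N)⁻¹ ≠ algebraMap (Kap A) (Ft A N) c := by
  intro h
  have hjt : jt A N ≠ 0 := jF_ne_zero (Kap A) N
  have hc : c ≠ 0 := by
    rintro rfl
    rw [map_zero] at h
    exact inv_ne_zero hjt h
  apply jt_ne_const (A := A) (N := N) c⁻¹
  rw [map_inv₀, ← h, inv_inv]

theorem nonconst_SigmaFin :
    ∃ b ∈ SigmaFin (Kap A) N, ∀ c : Kap A, b ≠ algebraMap (Kap A) (Ft A N) c :=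
  ⟨jt A N, subset_chartAlg _ (Set.mem_singleton _), jt_ne_const⟩

theorem nonconst_SigmaInf :
    ∃ b ∈ SigmaInf (Kap A) N, ∀ c : Kap A, b ≠ algebraMap (Kap A) (Ft A N) c :=
  ⟨(jt A N)⁻¹, subset_chartAlg _ (Set.mem_singleton _), jt_inv_ne_const⟩

/-! ### The two bundles -/

open Fermat.Agent.N4.BigDVR in
/-- `K` is a good level for `(A, N, ℓ)` (the second clause of
`LevelCharts.exists_level_of_finite`). -/
def IsLevel (A : ValuationSubring Qb) (N ℓ : ℕ) (K : IntermediateField ℚ Qb) : Prop :=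
  ∃ (_ : IsDiscreteValuationRing ↥(baseRing A K))
    (_ : IsAlgClosed (IsLocalRing.ResidueField ↥(baseRing A K))),
    GoodBase (Lvl K) N (baseRing A K) ℓ ∧
    Function.Bijective (IsLocalRing.ResidueField.map (trIncl A K)) ∧
    (∀ ξ ∈ goodRoots A, ξ ∈ K)

variable {ℓ : ℕ}

/-- **`ChartFacts` for the finite chart**, from the level facts. -/
theorem chartFacts_fin_of_levels (hℓ : ℓ.Prime) (hA : A.LiesOverPrime ℓ) (hℓN : ¬ ℓ ∣ N)
    (hfacts : ∀ K, IsLevel A N ℓ K →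
      LevelChartFacts A N K (Rfin (Lvl K) N (baseRing A K)) (SigmaFin (Kap A) N))
    (hded : IsDedekindDomain ↥(SigmaFin (Kap A) N))
    (hfrac : IsFractionRing ↥(SigmaFin (Kap A) N) (Ft A N)) :
    ChartFacts A N (RtFin A N) (SigmaFin (Kap A) N) := by
  refine chartFacts_of_levels (fun K => Rfin (Lvl K) N (baseRing A K)) (IsLevel A N ℓ)
    (fun K _ hx => lev_mem_RtFin A N K hx) (fun g hg => ?_) ?_ hfacts hded hfrac
    nonconst_SigmaFin
  · obtain ⟨K, -, hK, -, -, hfin, -⟩ := exists_level_of_finite A N hℓ hA hℓN ∅ {g} ∅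
    exact ⟨K, hK, hfin g (Finset.mem_singleton_self g) hg⟩
  · obtain ⟨K, -, hK, -⟩ := exists_level_of_finite A N hℓ hA hℓN ∅ ∅ ∅
    exact ⟨K, hK⟩

/-- **`ChartFacts` for the chart at infinity**, from the level facts. -/
theorem chartFacts_inf_of_levels (hℓ : ℓ.Prime) (hA : A.LiesOverPrime ℓ) (hℓN : ¬ ℓ ∣ N)
    (hfacts : ∀ K, IsLevel A N ℓ K →
      LevelChartFacts A N K (Rinf (Lvl K) N (baseRing A K)) (SigmaInf (Kap A) N))
    (hded : IsDedekindDomain ↥(SigmaInf (Kap A) N))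
    (hfrac : IsFractionRing ↥(SigmaInf (Kap A) N) (Ft A N)) :
    ChartFacts A N (RtInf A N) (SigmaInf (Kap A) N) := by
  refine chartFacts_of_levels (fun K => Rinf (Lvl K) N (baseRing A K)) (IsLevel A N ℓ)
    (fun K _ hx => lev_mem_RtInf A N K hx) (fun g hg => ?_) ?_ hfacts hded hfrac
    nonconst_SigmaInf
  · obtain ⟨K, -, hK, -, -, -, hinf⟩ := exists_level_of_finite A N hℓ hA hℓN ∅ {g} ∅
    exact ⟨K, hK, hinf g (Finset.mem_singleton_self g) hg⟩
  · obtain ⟨K, -, hK, -⟩ := exists_level_of_finite A N hℓ hA hℓN ∅ ∅ ∅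
    exact ⟨K, hK⟩

end Fermat.Agent.N4F.C.CentreBridge

end
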