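/-
N4-FULL block C, node C2 (helper9): reduction of the two charts of the `j`-line at a finite level
(moonshots #30, §2).

For a discrete valuation ring `O ⊆ K` (char `0`, `N` invertible in `O`) with residue field `κ`:

* (2a) `theta_mem_full_of_mem_Rfin / _Rinf` : the Gauss reduction of an element of the chart
  `Rfin K N O` (resp. `Rinf K N O`) lies in the function field `FF κ N ⊆ κ((q))` of the special
  fibre.  Proof: the power basis `1, j_N, …` of `FF K N / K(j)` has discriminant `d₁(j)` with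
  `d₁ ∈ O[X]` not divisible by the uniformiser (root form of `Φ_N`), and
  `d₁(j) · g ∈ O[j][j_N]` for every `g` integral over `O[j]`.
* `red_mem_full` : for `y ∈ O((q))` with `y ∈ FF K N` the coefficientwise reduction `ȳ` lies in
  `FF κ N` (given the primality of the special fibre of the finite chart, e.g. from `(∗)`).
-/
import Mathlib
import Fermat.Agent.N4.FibreEmbedding
import Fermat.Agent.N4.RootFormBasis
import Fermat.Agent.N4.ModPolySetting
import Fermat.Agent.N4.IntClosure

set_option autoImplicit false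
set_option linter.unusedSectionVars false
set_option linter.style.haveILetI false

open Polynomial IntermediateField

namespace Fermat.Agent.N4F.C.ChartReduction

/-! ### The power basis of a root form -/

section RootForm

variable {B E L W k : Type*} [CommRing B] [IsDomain B] [IsIntegrallyClosed B]
  [Field E] [Algebra B E] [IsFractionRing B E]
  [Field L] [Algebra E L] [Algebra B L] [IsScalarTower B E L] [FiniteDimensional E L]
  [Algebra.IsSeparable E L] [CommRing W] [IsDomain W] [CommRing k] [IsDomain k]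

omit [IsDomain B] in
/-- `EtaleInputs.exists_basis_of_roots`, exposing the power basis: `θ` integral over `B` generating
`L/E`, killed by a monic `Φ : B[X]` whose image under an injective `ι : B → W` splits as
`∏ (X - r i)` with roots of pairwise distinct reductions under `red : W → k`, `red (ι π) = 0`.
Then the discriminant of the power basis of `θ` is an element of `B` prime to `π`. -/
theorem exists_powerBasis_of_roots (π : B) (θ : L) (hθ : IsIntegral B θ) (hgen : E⟮θ⟯ = ⊤)
    (Φ : B[X]) (hroot : aeval θ Φ = 0) (ι : B →+* W) (hι : Function.Injective ι)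
    (red : W →+* k) (hπ : red (ι π) = 0) {I : Type*} [Fintype I] (r : I → W)
    (hfac : Φ.map ι = ∏ i, (X - C (r i)))
    (hdist : ∀ i j, i ≠ j → red (r i - r j) ≠ 0) :
    ∃ pb : PowerBasis E L, pb.gen = θ ∧
      ∃ d₁ : B, algebraMap B E d₁ = Algebra.discr E pb.basis ∧ ¬ π ∣ d₁ := by
  classical
  have hθE : IsIntegral E θ := hθ.tower_top
  have hadj : Algebra.adjoin E {θ} = ⊤ := by
    rw [← IntermediateField.adjoin_simple_toSubalgebra_of_isAlgebraic hθE.isAlgebraic, hgen,
      IntermediateField.top_toSubalgebra]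
  let pb : PowerBasis E L := PowerBasis.ofAdjoinEqTop hθE hadj
  have hpbgen : pb.gen = θ := PowerBasis.ofAdjoinEqTop_gen hθE hadj
  have hint : ∀ i, IsIntegral B (pb.basis i) := by
    intro i
    rw [pb.basis_eq_pow, hpbgen]
    exact hθ.pow _
  obtain ⟨d₁, hd₁⟩ := IsIntegrallyClosed.isIntegral_iff.mp
    (Algebra.discr_isIntegral (R := B) E hint)
  refine ⟨pb, hpbgen, d₁, hd₁, ?_⟩
  -- the algebraically closed field `M ⊇ W`
  let M := AlgebraicClosure (FractionRing W)
  have hWM : Function.Injective (algebraMap W M) := by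
    rw [IsScalarTower.algebraMap_eq W (FractionRing W) M]
    exact (algebraMap (FractionRing W) M).injective.comp (IsFractionRing.injective W _)
  let g : B →+* M := (algebraMap W M).comp ι
  have hg : Function.Injective g := hWM.comp hι
  let algEM : Algebra E M := (IsFractionRing.lift hg).toAlgebra
  have hEM : ∀ b : B, algebraMap E M (algebraMap B E b) = g b := fun b =>
    IsFractionRing.lift_algebraMap hg b
  -- every embedding sends `θ` to a root
  have hrootM : ∀ σ : L →ₐ[E] M, ∃ i, σ θ = algebraMap W M (r i) := by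
    intro σ
    have h1 : aeval θ (Φ.map (algebraMap B E)) = 0 := by
      rw [aeval_map_algebraMap, hroot]
    have h2 : aeval (σ θ) (Φ.map (algebraMap B E)) = 0 := by
      rw [aeval_algHom_apply, h1, map_zero]
    have h3 : (Φ.map (algebraMap B E)).map (algebraMap E M) =
        ∏ i, (X - C (algebraMap W M (r i))) := by
      rw [Polynomial.map_map]
      have : (algebraMap E M).comp (algebraMap B E) = (algebraMap W M).comp ι := by
        ext b
        exact hEM b
      rw [this, ← Polynomial.map_map, hfac, Polynomial.map_prod]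
      simp
    rw [aeval_def, ← eval_map, h3, eval_prod] at h2
    obtain ⟨i, -, hi⟩ := Finset.prod_eq_zero_iff.mp h2
    refine ⟨i, ?_⟩
    rw [eval_sub, eval_X, eval_C, sub_eq_zero] at hi
    exact hi
  choose idx hidx using hrootM
  have hidx_inj : Function.Injective idx := by
    intro σ σ' h
    apply pb.algHom_ext
    rw [hpbgen, hidx σ, hidx σ', h]
  -- the discriminant formula
  have hcard : Fintype.card (L →ₐ[E] M) = pb.dim := by
    rw [AlgHom.card E L M, pb.finrank]
  let e : Fin pb.dim ≃ (L →ₐ[E] M) := (Fintype.equivFinOfCardEq hcard).symm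
  have hprod := Algebra.discr_powerBasis_eq_prod E M pb e
  rw [← hd₁, hEM] at hprod
  have hιd : ι d₁ = ∏ i : Fin pb.dim, ∏ j ∈ Finset.Ioi i,
      (r (idx (e j)) - r (idx (e i))) ^ 2 := by
    apply hWM
    rw [map_prod]
    refine hprod.trans (Finset.prod_congr rfl fun i _ => ?_)
    rw [map_prod]
    refine Finset.prod_congr rfl fun j _ => ?_
    rw [map_pow, map_sub, hpbgen, hidx, hidx]
  intro hdvd
  obtain ⟨c, rfl⟩ := hdvd
  have h0 : red (ι (π * c)) = 0 := by rw [map_mul, map_mul, hπ, zero_mul]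
  rw [hιd, map_prod] at h0
  obtain ⟨i, -, hi⟩ := Finset.prod_eq_zero_iff.mp h0
  rw [map_prod] at hi
  obtain ⟨j, hj, hij⟩ := Finset.prod_eq_zero_iff.mp hi
  rw [map_pow] at hij
  have hne : idx (e j) ≠ idx (e i) := by
    intro h
    have := e.injective (hidx_inj h)
    rw [Finset.mem_Ioi] at hj
    exact (ne_of_gt hj) this
  exact hdist _ _ hne (pow_eq_zero_iff two_ne_zero |>.mp hij)

end RootForm

section Series

universe u

open ModularCurve MatrixGroups CongruenceSubgroup
open Fermat.Agent.N4.ModPolyDescent Fermat.Agent.N4.PrimitiveDisc Fermat.Agent.N4.Kronecker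
open Fermat.Agent.N4.RootFormBasis
open scoped Fermat.Agent.N4.HeckeRoots

variable {O : Type u} [CommRing O] [IsDomain O]
  {B E L : Type*} [CommRing B] [IsDomain B] [IsIntegrallyClosed B] [Algebra O B]
  [Field E] [Algebra B E] [IsFractionRing B E]
  [Field L] [Algebra E L] [Algebra B L] [IsScalarTower B E L] [FiniteDimensional E L]
  [Algebra.IsSeparable E L]
  (N : ℕ) [NeZero N] (d : ℕ) [NeZero d]

/-- `RootFormBasis.exists_basis_of_series`, exposing the power basis. -/
theorem exists_powerBasis_of_series (hN : IsUnit ((N : ℕ) : O)) {π : O} (hπ : ¬ IsUnit π)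
    (jB : B) (θ : L) (hroot : evZ (algebraMap B L jB) θ (modPoly N) = 0) (hgen : E⟮θ⟯ = ⊤)
    (ι₀ : B →+* LaurentSeries O) (hι₀ : Function.Injective ι₀)
    (hC : ι₀ (algebraMap O B π) = HahnSeries.C π)
    (hj : ι₀ jB = qExpand O (d * N) (jqModC O)) :
    ∃ pb : PowerBasis E L, pb.gen = θ ∧ IsIntegral B θ ∧
      ∃ d₁ : B, algebraMap B E d₁ = Algebra.discr E pb.basis ∧ ¬ algebraMap O B π ∣ d₁ := by
  obtain ⟨u, hu⟩ := exists_cyclotomic_unit O N
  obtain ⟨Q, hQ, hπQ⟩ := exists_reduction O hπ
  haveI := hQ.isPrime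
  haveI hdom : IsDomain (BigInt O ⧸ Q) := Ideal.Quotient.isDomain Q
  haveI hnt : Nontrivial (BigInt O ⧸ Q) := hdom.toNontrivial
  set f : O →+* BigInt O := algebraMap O (BigInt O) with hf
  set ρ : BigInt O →+* BigInt O ⧸ Q := Ideal.Quotient.mk Q with hρ
  have hNk : IsUnit ((N : ℕ) : BigInt O ⧸ Q) := by
    have := hN.map (ρ.comp f)
    rwa [map_natCast] at this
  set ι : B →+* LaurentSeries (BigInt O) := (coeffMap f).comp ι₀ with hι
  have hιinj : Function.Injective ι :=
    (coeffMap_injective f (algebraMap_bigInt_injective O)).comp hι₀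
  have hj' : ι jB = qExpand (BigInt O) (d * N) (jqModC (BigInt O)) := by
    rw [hι, RingHom.comp_apply, hj, coeffMap_qExpand, coeffMap_jqModC]
  have hπ' : coeffMap ρ (ι (algebraMap O B π)) = 0 := by
    rw [hι, RingHom.comp_apply, hC, coeffMap_C, coeffMap_C, hρ,
      Ideal.Quotient.eq_zero_iff_mem.mpr hπQ, map_zero]
  set Φ : B[X] := (modPoly N).map (evY jB) with hΦ
  have hΦm : Φ.Monic := (modPoly_monic N).map _
  have hr : aeval θ Φ = 0 := by
    rw [aeval_def, hΦ, eval₂_map, comp_evY]
    exact hroot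
  have hθ : IsIntegral B θ := ⟨Φ, hΦm, hr⟩
  have hfac : Φ.map ι = ∏ c : SL(2, ℤ) ⧸ Gamma0 N,
      (X - C (qExpand (BigInt O) d (rootOf N u c))) := by
    rw [hΦ, Polynomial.map_map, comp_evY, hj']
    exact map_modPoly_eq_prod N d u hu
  obtain ⟨pb, hpb, d₁, hd₁, hnd⟩ := exists_powerBasis_of_roots (algebraMap O B π) θ hθ hgen Φ hr ι
    hιinj (coeffMap ρ) hπ' _ hfac
    (fun c c' hcc => coeffMap_root_sub_ne_zero N d ρ u hu hNk hcc)
  exact ⟨pb, hpb, hθ, d₁, hd₁, hnd⟩

end Series

/-! ### (2a): the reduction of the charts lies in the function field of the special fibre -/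

section Charts

open ModularCurve Fermat.Agent.S28.Gauss Fermat.Agent.N4.Chart Fermat.Agent.N4.Setting
  Fermat.Agent.N4.FibreEmbedding Fermat.Agent.N4.IntClosure Fermat.Agent.N4.ModPolySetting
  Fermat.Agent.N4.ModPolyDescent Fermat.Agent.N4.Kronecker

variable (K : Type) [Field K] [CharZero K] (N : ℕ) [NeZero N] (O : Subring K)
  [IsDiscreteValuationRing ↥O] [IsFractionRing ↥O K]

set_option quotPrecheck false in
local notation "κ" => IsLocalRing.ResidueField ↥O

/-- `j(q^d)`, `d ∣ N`, lies in the Gauss ring. -/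
theorem jdF_mem_gaussSubalgebra {d : ℕ} [NeZero d] (hd : d ∣ N) :
    jdF K N hd ∈ gaussSubalgebra K N O := by
  rw [mem_gaussSubalgebra_iff, coe_jdF, ← emb_jd K O d]
  exact emb_mem_gaussRing _

theorem theta_jdF {d : ℕ} [NeZero d] (hd : d ∣ N) :
    theta K N O ⟨jdF K N hd, jdF_mem_gaussSubalgebra K N O hd⟩ = qExpand κ d (jqModC κ) := by
  rw [theta_of_emb K N O _ (qExpand ↥O d (jqModC ↥O)) (by rw [emb_jd]; rfl), red_eq,
    coeffMap_qExpand, coeffMap_jqModC]

/-- The `q`-expansion homomorphism `O[X] → O((q))`, `X ↦ j(q^N)`. -/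
noncomputable def qHom : (↥O)[X] →+* LaurentSeries ↥O :=
  eval₂RingHom (HahnSeries.C : ↥O →+* LaurentSeries ↥O) (qExpand ↥O (1 * N) (jqModC ↥O))

theorem transcendental_qExpand_jqModC (d : ℕ) [NeZero d] :
    Transcendental K (qExpand K d (jqModC K)) := by
  intro halg
  have h : IsAlgebraic K (qExpandAlgHomC K d (jqModC K)) := halg
  rw [isAlgebraic_algHom_iff _ (qExpandAlgHomC K d).toRingHom.injective] at h
  exact Fermat.Agent.S24.FFBasics.transcendental_jqModC K h

theorem qHom_injective : Function.Injective (qHom K N O) := by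
  rw [injective_iff_map_eq_zero]
  intro P hP
  have h1 : Polynomial.aeval (qExpand K (1 * N) (jqModC K)) (P.map O.subtype) = 0 := by
    have h2 := congrArg (coeffMap O.subtype) hP
    rw [map_zero, qHom, coe_eval₂RingHom, Polynomial.hom_eval₂, coeffMap_qExpand,
      coeffMap_jqModC] at h2
    rw [aeval_def, eval₂_map]
    rw [← h2]
    congr 1
    ext a : 1
    rw [RingHom.comp_apply, RingHom.comp_apply, algebraMap_laurentSeries_eq_single]
    exact (coeffMap_single O.subtype 0 a).symm
  have h3 := (transcendental_iff.mp (transcendental_qExpand_jqModC K (1 * N))) _ h1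
  exact (Polynomial.map_eq_zero_iff O.subtype_injective).mp h3

set_option synthInstance.maxHeartbeats 400000 in
set_option maxHeartbeats 1600000 in
/-- **The discriminant of the power basis of `j_N`**: there is `d₁ ∈ O[X]`, not divisible by the
uniformiser, with `d₁(j) · g ∈ O[j, j_N]` for every `g` of the finite chart. -/
theorem exists_discr (hN : IsUnit ((N : ℕ) : ↥O)) {ϖ : ↥O} (hϖ : Irreducible ϖ) :
    ∃ d₁ : (↥O)[X], ¬ C ϖ ∣ d₁ ∧ ∀ g : FF K N, g ∈ Rfin K N O →
      Polynomial.aeval (jF K N) d₁ * g ∈ Algebra.adjoin ↥O {jF K N, jNF K N} := by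
  have hj : Transcendental K (jF K N) := Fermat.Agent.N4.FFAlgebraic.transcendental_jF K N
  haveI := finiteDimensional_FF K N
  haveI : CharZero ↥K⟮jF K N⟯ := charZero_of_injective_algebraMap (algebraMap K _).injective
  haveI : Algebra.IsSeparable ↥K⟮jF K N⟯ (FF K N) :=
    Algebra.IsAlgebraic.isSeparable_of_perfectField
  letI := algPolyTop (O := ↥O) (jF K N)
  letI := algPolyMid (O := ↥O) (K := K) (jF K N)
  haveI := isScalarTower_poly (O := ↥O) (K := K) (jF K N)
  haveI := isFractionRing_poly (O := ↥O) (K := K) (jF K N) hj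
  haveI : IsIntegrallyClosed (↥O)[X] := isIntegrallyClosed_polynomial
  have hroot : evZ (algebraMap (↥O)[X] (FF K N) (X : (↥O)[X]))
      (jNF K N) (modPoly N) = 0 := by
    have h1 : algebraMap (↥O)[X] (FF K N) (X : (↥O)[X]) = jF K N := by
      rw [RingHom.algebraMap_toAlgebra]
      exact Polynomial.aeval_X _
    rw [h1]
    exact evZ_modPoly_FF K N
  obtain ⟨pb, hpb, hθint, d₁, hd₁, hnd⟩ := exists_powerBasis_of_series (O := ↥O) (B := (↥O)[X])
    (E := K⟮jF K N⟯) (L := FF K N) N 1 hN hϖ.not_isUnit (X : (↥O)[X]) (jNF K N) hroot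
    (adjoin_simple_jNF_eq_top K N) (qHom K N O) (qHom_injective K N O)
    (by rw [qHom, coe_eval₂RingHom, Polynomial.algebraMap_apply, Algebra.algebraMap_self_apply,
      eval₂_C])
    (by rw [qHom, coe_eval₂RingHom, eval₂_X])
  refine ⟨d₁, hnd, fun g hg => ?_⟩
  have hgint : IsIntegral (↥O)[X] g := (mem_chartAlg_singleton_iff (jF K N)).mp hg
  have h := Algebra.discr_mul_isIntegral_mem_adjoin (K := K⟮jF K N⟯) (R := (↥O)[X]) (B := pb)
    (hpb ▸ hθint) hgint
  rw [← hd₁, hpb] at h
  have h2 : algebraMap (↥O)[X] K⟮jF K N⟯ d₁ • g = Polynomial.aeval (jF K N) d₁ * g := by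
    rw [Algebra.smul_def, ← IsScalarTower.algebraMap_apply, RingHom.algebraMap_toAlgebra]
    rfl
  rw [h2] at h
  -- from `O[X][j_N]` to `O[j, j_N]`
  have key : ∀ x : FF K N, x ∈ Algebra.adjoin (↥O)[X] ({jNF K N} : Set (FF K N)) →
      x ∈ Algebra.adjoin ↥O ({jF K N, jNF K N} : Set (FF K N)) := by
    intro x hx
    induction hx using Algebra.adjoin_induction with
    | mem y hy =>
      rw [Set.mem_singleton_iff] at hy
      rw [hy]
      exact Algebra.subset_adjoin (Set.mem_insert_of_mem _ rfl)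
    | algebraMap p =>
      have h1 : algebraMap (↥O)[X] (FF K N) p = Polynomial.aeval (jF K N) p := by
        rw [RingHom.algebraMap_toAlgebra]
        rfl
      rw [h1]
      have h3 : Polynomial.aeval (jF K N) p ∈ Algebra.adjoin ↥O ({jF K N} : Set (FF K N)) :=
        aeval_mem_adjoin_singleton ↥O (jF K N)
      exact Algebra.adjoin_mono (Set.singleton_subset_iff.mpr (Set.mem_insert _ _)) h3
    | add y z _ _ hy hz => exact add_mem hy hz
    | mul y z _ _ hy hz => exact mul_mem hy hz
  exact key _ h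

/-- The reduction of an element of `O[j, j_N]` lies in `FF κ N`. -/
theorem theta_mem_full_of_mem_adjoin {z : FF K N}
    (hz : z ∈ Algebra.adjoin ↥O ({jF K N, jNF K N} : Set (FF K N))) :
    ∃ h : z ∈ gaussSubalgebra K N O, theta K N O ⟨z, h⟩ ∈ modularFunctionFieldFullC κ N := by
  induction hz using Algebra.adjoin_induction with
  | mem y hy =>
    rcases hy with rfl | hy
    · exact ⟨jF_mem_gaussSubalgebra K N O, by rw [theta_jF]; exact jqModC_mem_full κ N⟩
    · rw [Set.mem_singleton_iff] at hy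
      subst hy
      exact ⟨jdF_mem_gaussSubalgebra K N O _, by
        rw [theta_jdF]; exact jqModCd_mem_full κ N (dvd_refl N)⟩
  | algebraMap a =>
    refine ⟨(gaussSubalgebra K N O).algebraMap_mem a, ?_⟩
    have h1 : (⟨algebraMap ↥O (FF K N) a, (gaussSubalgebra K N O).algebraMap_mem a⟩ :
        gaussSubalgebra K N O) = algebraMap ↥O (gaussSubalgebra K N O) a := rfl
    rw [h1, theta_algebraMap]
    have h2 : (HahnSeries.C (IsLocalRing.residue ↥O a) : LaurentSeries κ) =
        algebraMap κ (LaurentSeries κ) (IsLocalRing.residue ↥O a) := by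
      rw [algebraMap_laurentSeries_eq_single]
      rfl
    rw [h2]
    exact (modularFunctionFieldFullC κ N).algebraMap_mem _
  | add y z _ _ hy hz =>
    obtain ⟨h1, h1'⟩ := hy
    obtain ⟨h2, h2'⟩ := hz
    refine ⟨add_mem h1 h2, ?_⟩
    have h3 : (⟨y + z, add_mem h1 h2⟩ : gaussSubalgebra K N O) = ⟨y, h1⟩ + ⟨z, h2⟩ := rfl
    rw [h3, map_add]
    exact add_mem h1' h2'
  | mul y z _ _ hy hz =>
    obtain ⟨h1, h1'⟩ := hy
    obtain ⟨h2, h2'⟩ := hz
    refine ⟨mul_mem h1 h2, ?_⟩
    have h3 : (⟨y * z, mul_mem h1 h2⟩ : gaussSubalgebra K N O) = ⟨y, h1⟩ * ⟨z, h2⟩ := rfl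
    rw [h3, map_mul]
    exact mul_mem h1' h2'

theorem transcendental_theta_jF :
    Transcendental κ (theta K N O ⟨jF K N, jF_mem_gaussSubalgebra K N O⟩) := by
  rw [theta_jF]
  exact Fermat.Agent.S24.FFBasics.transcendental_jqModC _

/-- **(2a), finite chart**: the reduction of an element of `Rfin K N O` lies in the function
field `FF κ N` of the special fibre. -/
theorem theta_mem_full_of_mem_Rfin (hN : IsUnit ((N : ℕ) : ↥O)) {g : FF K N}
    (hg : g ∈ Rfin K N O) (hgG : g ∈ gaussSubalgebra K N O) :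
    theta K N O ⟨g, hgG⟩ ∈ modularFunctionFieldFullC κ N := by
  obtain ⟨ϖ, hϖ⟩ := IsDiscreteValuationRing.exists_irreducible ↥O
  obtain ⟨d₁, hnd, hd⟩ := exists_discr K N O hN hϖ
  obtain ⟨h, hmem⟩ := theta_mem_full_of_mem_adjoin K N O (hd g hg)
  set s : gaussSubalgebra K N O := ⟨jF K N, jF_mem_gaussSubalgebra K N O⟩ with hs
  have hDcoe : ((Polynomial.aeval s d₁ : gaussSubalgebra K N O) : FF K N) =
      Polynomial.aeval (jF K N) d₁ := by
    rw [Polynomial.aeval_subalgebra_coe]
  have hDne : theta K N O (Polynomial.aeval s d₁) ≠ 0 := by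
    intro h0
    obtain ⟨P', hP'⟩ := exists_eq_C_mul_of_theta_eq_zero K N O hϖ s
      (transcendental_theta_jF K N O) d₁ h0
    exact hnd ⟨P', hP'⟩
  have hDmem : theta K N O (Polynomial.aeval s d₁) ∈ modularFunctionFieldFullC κ N := by
    rw [theta_aeval, theta_jF]
    have h1 : Polynomial.aeval (jqModC κ) (d₁.map (IsLocalRing.residue ↥O)) ∈
        Algebra.adjoin κ ({jqModC κ} : Set (LaurentSeries κ)) :=
      aeval_mem_adjoin_singleton κ (jqModC κ)
    have h2 : Algebra.adjoin κ ({jqModC κ} : Set (LaurentSeries κ)) ≤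
        (modularFunctionFieldFullC κ N).toSubalgebra :=
      Algebra.adjoin_le (Set.singleton_subset_iff.mpr (jqModC_mem_full κ N))
    exact h2 h1
  have hprod : (⟨Polynomial.aeval (jF K N) d₁ * g, h⟩ : gaussSubalgebra K N O) =
      Polynomial.aeval s d₁ * ⟨g, hgG⟩ := Subtype.ext (by
    show _ = ((Polynomial.aeval s d₁ : gaussSubalgebra K N O) : FF K N) * g
    rw [hDcoe])
  rw [hprod, map_mul] at hmem
  have h2 : theta K N O ⟨g, hgG⟩ =
      (theta K N O (Polynomial.aeval s d₁))⁻¹ *
        (theta K N O (Polynomial.aeval s d₁) * theta K N O ⟨g, hgG⟩) := by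
    rw [inv_mul_cancel_left₀ hDne]
  rw [h2]
  exact mul_mem (inv_mem hDmem) hmem

/-- **(2a), chart at infinity**: the reduction of an element of `Rinf K N O` lies in `FF κ N`. -/
theorem theta_mem_full_of_mem_Rinf (hN : IsUnit ((N : ℕ) : ↥O)) {g : FF K N}
    (hg : g ∈ Rinf K N O) (hgG : g ∈ gaussSubalgebra K N O) :
    theta K N O ⟨g, hgG⟩ ∈ modularFunctionFieldFullC κ N := by
  have hg' : g ∈ chartAlg ↥O (FF K N) (insert (jF K N)⁻¹ {jF K N}) :=
    chartAlg_mono (Set.singleton_subset_iff.mpr (Set.mem_insert _ _)) hg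
  obtain ⟨n, hn⟩ := exists_pow_mul_mem_chartAlg (S := {jF K N}) (s := jF K N)
    (Set.mem_singleton _) (jF_ne_zero K N) hg'
  set s : gaussSubalgebra K N O := ⟨jF K N, jF_mem_gaussSubalgebra K N O⟩ with hs
  have hG : (jF K N) ^ n * g ∈ gaussSubalgebra K N O :=
    mul_mem (pow_mem (jF_mem_gaussSubalgebra K N O) n) hgG
  have h1 := theta_mem_full_of_mem_Rfin K N O hN hn hG
  have hprod : (⟨(jF K N) ^ n * g, hG⟩ : gaussSubalgebra K N O) = s ^ n * ⟨g, hgG⟩ := rfl
  rw [hprod, map_mul, map_pow, theta_jF] at h1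
  have hne : (jqModC κ) ^ n ≠ 0 := pow_ne_zero _ (jqModC_ne_zero_of_nontrivial _)
  have h2 : theta K N O ⟨g, hgG⟩ =
      ((jqModC κ) ^ n)⁻¹ * ((jqModC κ) ^ n * theta K N O ⟨g, hgG⟩) := by
    rw [inv_mul_cancel_left₀ hne]
  rw [h2]
  exact mul_mem (inv_mem (pow_mem (jqModC_mem_full κ N) n)) h1

/-- **By-product of (2a)**: for `y ∈ O((q))` lying in `FF K N`, the coefficientwise reduction `ȳ`
lies in `FF κ N` (given the primality of the special fibre of the finite chart). -/
theorem red_mem_full_of_isPrime (hN : IsUnit ((N : ℕ) : ↥O))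
    (hprime : (fibreIdeal K N O (Rfin K N O)).IsPrime)
    (y : LaurentSeries ↥O) (hy : coeffMap O.subtype y ∈ modularFunctionFieldFullC K N) :
    coeffMap (IsLocalRing.residue ↥O) y ∈ modularFunctionFieldFullC κ N := by
  have hs := jF_mem_gaussSubalgebra K N O
  have htr := transcendental_theta_jF K N O
  have hfrac := Fermat.Agent.N4.FFAlgebraic.exists_mul_mem_chartAlg K N O _
    (Fermat.Agent.N4.FFAlgebraic.transcendental_jF K N)
    (Fermat.Agent.N4.FFAlgebraic.isAlgebraic_jF K N)
  obtain ⟨a, b, hb, -, hab⟩ := compat K N O hs htr hprime hfrac y hy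
  have hker := ker_rho_eq K N O hs htr hprime
  have hbne : rho K N O (S := {jF K N}) (Set.singleton_subset_iff.mpr hs) b ≠ 0 := by
    intro h0
    apply hb
    rw [← hker]
    exact h0
  rw [thetaBar_mk, thetaBar_mk] at hab
  have ha' : rho K N O (S := {jF K N}) (Set.singleton_subset_iff.mpr hs) a ∈
      modularFunctionFieldFullC κ N := by
    rw [rho_eq_theta]
    exact theta_mem_full_of_mem_Rfin K N O hN a.2 _
  have hb' : rho K N O (S := {jF K N}) (Set.singleton_subset_iff.mpr hs) b ∈
      modularFunctionFieldFullC κ N := by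
    rw [rho_eq_theta]
    exact theta_mem_full_of_mem_Rfin K N O hN b.2 _
  have h2 : coeffMap (IsLocalRing.residue ↥O) y =
      rho K N O (S := {jF K N}) (Set.singleton_subset_iff.mpr hs) a *
        (rho K N O (S := {jF K N}) (Set.singleton_subset_iff.mpr hs) b)⁻¹ := by
    rw [hab, mul_assoc, mul_inv_cancel₀ hbne, mul_one]
  rw [h2]
  exact mul_mem ha' (inv_mem hb')

end Charts

section GoodBase

open ModularCurve Fermat.Agent.N4.Setting

variable (K : Type) [Field K] [CharZero K] (N : ℕ) [NeZero N] (O : Subring K)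
  [IsDiscreteValuationRing ↥O]

/-- In a good base `N` is invertible. -/
theorem isUnit_natCast_of_goodBase {ℓ : ℕ} (hG : GoodBase K N O ℓ) : IsUnit ((N : ℕ) : ↥O) := by
  by_contra hN
  have hcop : Nat.Coprime ℓ N := (Nat.Prime.coprime_iff_not_dvd hG.prime).mpr hG.not_dvd
  have h1 : ((ℓ : ℕ) : ↥O) ∈ IsLocalRing.maximalIdeal ↥O := hG.not_isUnit
  have h2 : ((N : ℕ) : ↥O) ∈ IsLocalRing.maximalIdeal ↥O := hN
  have h3 : ((Nat.gcd ℓ N : ℕ) : ↥O) ∈ IsLocalRing.maximalIdeal ↥O := by
    have hb := Nat.gcd_eq_gcd_ab ℓ N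
    have h4 : ((Nat.gcd ℓ N : ℕ) : ↥O) =
        ((ℓ : ℕ) : ↥O) * ((Nat.gcdA ℓ N : ℤ) : ↥O) + ((N : ℕ) : ↥O) * ((Nat.gcdB ℓ N : ℤ) : ↥O) := by
      have := congrArg (fun z : ℤ => (z : ↥O)) hb
      simpa using this
    rw [h4]
    exact add_mem (Ideal.mul_mem_right _ _ h1) (Ideal.mul_mem_right _ _ h2)
  rw [hcop.gcd_eq_one, Nat.cast_one] at h3
  exact (IsLocalRing.maximalIdeal ↥O).ne_top_iff_one.mp (IsLocalRing.maximalIdeal.isMaximal ↥O).ne_top
    h3

/-- **By-product of (2a)**, in the language of `Setting`: for a good base with `(∗)`, the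
coefficientwise reduction of `y ∈ O((q)) ∩ FF K N` lies in `FF κ N`. -/
theorem red_mem_full {ℓ : ℕ} (hG : GoodBase K N O ℓ) (hstar : StarStatement K N O)
    (y : LaurentSeries ↥O) (hy : coeffMap O.subtype y ∈ modularFunctionFieldFullC K N) :
    coeffMap (IsLocalRing.residue ↥O) y ∈
      modularFunctionFieldFullC (IsLocalRing.ResidueField ↥O) N := by
  haveI := hG.frac
  exact red_mem_full_of_isPrime K N O (isUnit_natCast_of_goodBase K N O hG) hstar.1.isPrime y hy

end GoodBase

end Fermat.Agent.N4F.C.ChartReduction
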