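import Mathlib
import Fermat.Agent.N4F.C.LocalMult
import Fermat.Agent.N4F.C.ChartReduction
import Fermat.Agent.N4.Cover.Main
import Fermat.Agent.N4.ModPolySetting

/-!
# N4-FULL, block C: the chart data of §4 at a finite level (C4 → C6 plug)

For a discrete valuation ring `O ⊆ K` (char `0`, `N` invertible in `O`, residue field `κ`):

* `redFin : Rfin K N O →+* FF κ N`, `redInf : Rinf K N O →+* FF κ N` : the Gauss reduction of the two
  charts of the `j`-line, with values in the function field of the special fibre ((2a) of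
  `ChartReduction`);
* `chartData_fin`, `chartData_inf` : given `(∗)` and `(S)`, a place `Q` of `FF κ N` at which `j̄`
  (resp. `j̄⁻¹`) is integral, the chart, its reduction and `Q` form a `LocalMult.ChartData`;
* `ord_redFin_eq_sum`, `ord_redInf_eq_sum` : the local multiplicity formula (4c) for the two charts;
* `exists_redFin_compat`, `exists_redInf_compat` : compatibility with coefficientwise reduction.
-/

set_option autoImplicit false
set_option linter.unusedSectionVars false
set_option linter.style.haveILetI false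

open Polynomial IntermediateField

namespace Fermat.Agent.N4F.C.ChartDataLevel

open ModularCurve AlgebraicCurve Fermat.Agent.S28.Gauss Fermat.Agent.N4.Chart
  Fermat.Agent.N4.Setting Fermat.Agent.N4.FibreEmbedding Fermat.Agent.N4.IntClosure
  Fermat.Agent.N4.ModPolySetting Fermat.Agent.N4.ModPolyDescent Fermat.Agent.N4.Kronecker
  Fermat.Agent.N4F.C.ChartReduction Fermat.Agent.N4F.C.LocalMult

variable (K : Type) [Field K] [CharZero K] (N : ℕ) [NeZero N] (O : Subring K)
  [IsDiscreteValuationRing ↥O] [IsFractionRing ↥O K]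

set_option quotPrecheck false in
local notation "κ" => IsLocalRing.ResidueField ↥O

section Generic

/-- The Gauss reduction maps the chart `chartAlg O (FF K N) {s}` into `FF κ N`. -/
def RedMem (s : FF K N) : Prop :=
  ∀ g : FF K N, g ∈ chartAlg ↥O (FF K N) {s} → ∀ hgG : g ∈ gaussSubalgebra K N O,
    theta K N O ⟨g, hgG⟩ ∈ modularFunctionFieldFullC (IsLocalRing.ResidueField ↥O) N

variable {s : FF K N} (hs : s ∈ gaussSubalgebra K N O) (hmem : RedMem K N O s)

/-- The reduction map of a chart, with values in the function field of the special fibre. -/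
noncomputable def redChart : ↥(chartAlg ↥O (FF K N) {s}) →+* FF κ N :=
  (rho K N O (S := {s}) (Set.singleton_subset_iff.mpr hs)).codRestrict
    (modularFunctionFieldFullC κ N) (fun x => hmem x x.2 _)

theorem coe_redChart (x : ↥(chartAlg ↥O (FF K N) {s})) :
    ((redChart K N O hs hmem x : FF κ N) : LaurentSeries κ) =
      rho K N O (S := {s}) (Set.singleton_subset_iff.mpr hs) x := rfl

theorem redChart_eq_zero_iff (x : ↥(chartAlg ↥O (FF K N) {s})) :
    redChart K N O hs hmem x = 0 ↔
      rho K N O (S := {s}) (Set.singleton_subset_iff.mpr hs) x = 0 := by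
  rw [← coe_redChart K N O hs hmem]
  exact ⟨fun h => by rw [h]; rfl, fun h => Subtype.ext h⟩

theorem ker_redChart :
    RingHom.ker (redChart K N O hs hmem) =
      RingHom.ker (rho K N O (S := {s}) (Set.singleton_subset_iff.mpr hs)) := by
  ext x
  rw [RingHom.mem_ker, RingHom.mem_ker, redChart_eq_zero_iff]

theorem redChart_algebraMap (a : ↥O) :
    redChart K N O hs hmem (algebraMap ↥O ↥(chartAlg ↥O (FF K N) {s}) a) =
      algebraMap κ (FF κ N) (IsLocalRing.residue ↥O a) := by
  apply Subtype.ext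
  rw [coe_redChart, rho_algebraMap]
  show _ = algebraMap κ (LaurentSeries κ) _
  rw [algebraMap_laurentSeries_eq_single]
  rfl

theorem redChart_chartGen :
    ((redChart K N O hs hmem (chartGen (Set.mem_singleton s)) : FF κ N) : LaurentSeries κ) =
      theta K N O ⟨s, hs⟩ := rfl

/-- **The reduction of a chart lands in every valuation ring containing the reduction of the
coordinate.** -/
theorem redChart_mem_place (Q : Place (IsLocalRing.ResidueField ↥O) (FF κ N))
    (hQ : redChart K N O hs hmem (chartGen (Set.mem_singleton s)) ∈ Q.toValuationSubring)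
    (r : ↥(chartAlg ↥O (FF K N) {s})) : redChart K N O hs hmem r ∈ Q.toValuationSubring := by
  set sR : ↥(chartAlg ↥O (FF K N) {s}) := chartGen (Set.mem_singleton s) with hsR
  let f : (↥O)[X] →+* ↥(chartAlg ↥O (FF K N) {s}) :=
    ((aeval sR : (↥O)[X] →ₐ[↥O] ↥(chartAlg ↥O (FF K N) {s})) : (↥O)[X] →+* _)
  let g : (↥O)[X] →+* FF κ N := (redChart K N O hs hmem).comp f
  letI : Algebra (↥O)[X] (FF κ N) := g.toAlgebra
  apply Fermat.Agent.S24.mem_of_isIntegral_of_forall_mem (A := (↥O)[X]) Q
  · intro a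
    show g a ∈ Q.toValuationSubring
    induction a using Polynomial.induction_on' with
    | add p q hp hq => rw [map_add]; exact add_mem hp hq
    | monomial n c =>
      rw [← C_mul_X_pow_eq_monomial, map_mul, map_pow]
      refine mul_mem ?_ (pow_mem ?_ n)
      · have h1 : g (C c) = algebraMap κ (FF κ N) (IsLocalRing.residue ↥O c) := by
          show redChart K N O hs hmem (aeval sR (C c)) = _
          rw [aeval_C, redChart_algebraMap]
        rw [h1]
        exact Q.algebraMap_mem' _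
      · have h1 : g X = redChart K N O hs hmem sR := by
          show redChart K N O hs hmem (aeval sR X) = _
          rw [aeval_X]
        rw [h1]
        exact hQ
  · obtain ⟨q, hqm, hqx⟩ := (mem_chartAlg_singleton_iff s).mp r.2
    refine ⟨q, hqm, ?_⟩
    show eval₂ g (redChart K N O hs hmem r) q = 0
    have hcomp : ((chartAlg ↥O (FF K N) {s}).val : ↥(chartAlg ↥O (FF K N) {s}) →+* FF K N).comp f =
        ((aeval s : (↥O)[X] →ₐ[↥O] FF K N) : (↥O)[X] →+* FF K N) := by
      refine Polynomial.ringHom_ext (fun a => ?_) ?_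
      · show ((aeval sR (C a) : ↥(chartAlg ↥O (FF K N) {s})) : FF K N) = aeval s (C a)
        rw [aeval_C, aeval_C]
        rfl
      · show ((aeval sR X : ↥(chartAlg ↥O (FF K N) {s})) : FF K N) = aeval s X
        rw [aeval_X, aeval_X]
        rfl
    have h1 : eval₂ f r q = 0 := by
      apply Subtype.val_injective
      have h2 := Polynomial.hom_eval₂ q f
        ((chartAlg ↥O (FF K N) {s}).val : ↥(chartAlg ↥O (FF K N) {s}) →+* FF K N) r
      rw [hcomp] at h2
      exact h2.trans hqx
    have h3 := Polynomial.hom_eval₂ q f (redChart K N O hs hmem) r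
    rw [h1, map_zero] at h3
    exact h3.symm

theorem ker_redChart_eq_span (htr : Transcendental κ (theta K N O ⟨s, hs⟩))
    (hprime : (fibreIdeal K N O (chartAlg ↥O (FF K N) {s})).IsPrime) {ϖ : ↥O}
    (hϖ : Irreducible ϖ) :
    RingHom.ker (redChart K N O hs hmem) =
      Ideal.span {algebraMap ↥O ↥(chartAlg ↥O (FF K N) {s}) ϖ} := by
  rw [ker_redChart, ker_rho_eq K N O hs htr hprime, fibreIdeal_eq_span K N O hϖ]

/-- **The chart data of §4 for a chart of the `j`-line at a finite level.** -/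
theorem chartData_chart (htr : Transcendental κ (theta K N O ⟨s, hs⟩))
    (hprime : (fibreIdeal K N O (chartAlg ↥O (FF K N) {s})).IsPrime)
    (hded : IsDedekindDomain
      (↥(chartAlg ↥O (FF K N) {s}) ⧸ fibreIdeal K N O (chartAlg ↥O (FF K N) {s})))
    {ϖ : ↥O} (hϖ : Irreducible ϖ)
    (hfrac : ∀ z : FF κ N, ∃ a b : ↥(chartAlg ↥O (FF K N) {s}),
      redChart K N O hs hmem b ≠ 0 ∧ z * redChart K N O hs hmem b = redChart K N O hs hmem a)
    (Q : Place (IsLocalRing.ResidueField ↥O) (FF κ N))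
    (hQ : redChart K N O hs hmem (chartGen (Set.mem_singleton s)) ∈ Q.toValuationSubring) :
    ChartData ϖ (redChart K N O hs hmem) Q where
  irreducible := hϖ
  dedekind := by
    rw [← fibreIdeal_eq_span K N O hϖ]
    exact hded
  ker_eq := ker_redChart_eq_span K N O hs hmem htr hprime hϖ
  frac := hfrac
  mem := redChart_mem_place K N O hs hmem Q hQ

/-- **Compatibility of the reduction of a chart with coefficientwise reduction** (the `compat`
clause of `(∗)`, for the concrete reduction map). -/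
theorem exists_redChart_compat (htr : Transcendental κ (theta K N O ⟨s, hs⟩))
    (hprime : (fibreIdeal K N O (chartAlg ↥O (FF K N) {s})).IsPrime)
    (hfrac : ∀ z : FF K N, ∃ b : ↥(Algebra.adjoin ↥O ({s} : Set (FF K N))), b ≠ 0 ∧
      (b : FF K N) * z ∈ chartAlg ↥O (FF K N) {s})
    (y : LaurentSeries ↥O) (hy : coeffMap O.subtype y ∈ modularFunctionFieldFullC K N) :
    ∃ a b : ↥(chartAlg ↥O (FF K N) {s}), redChart K N O hs hmem b ≠ 0 ∧
      (⟨coeffMap O.subtype y, hy⟩ : FF K N) * (b : FF K N) = (a : FF K N) ∧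
      ((redChart K N O hs hmem a : FF κ N) : LaurentSeries κ) =
        coeffMap (IsLocalRing.residue ↥O) y *
          ((redChart K N O hs hmem b : FF κ N) : LaurentSeries κ) := by
  obtain ⟨a, b, hb, hyb, hab⟩ := compat K N O hs htr hprime hfrac y hy
  rw [thetaBar_mk, thetaBar_mk] at hab
  refine ⟨a, b, ?_, hyb, hab⟩
  intro h0
  apply hb
  rw [← ker_rho_eq K N O hs htr hprime, ← ker_redChart K N O hs hmem]
  exact h0

end Generic

/-! ### The finite chart -/

section Fin

theorem redMem_fin (hN : IsUnit ((N : ℕ) : ↥O)) : RedMem K N O (jF K N) :=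
  fun _ hg hgG => theta_mem_full_of_mem_Rfin K N O hN hg hgG

/-- The reduction map of the finite chart `Rfin → FF κ N`. -/
noncomputable def redFin (hN : IsUnit ((N : ℕ) : ↥O)) : ↥(Rfin K N O) →+* FF κ N :=
  redChart K N O (jF_mem_gaussSubalgebra K N O) (redMem_fin K N O hN)

theorem coe_redFin (hN : IsUnit ((N : ℕ) : ↥O)) (x : ↥(Rfin K N O)) :
    ((redFin K N O hN x : FF κ N) : LaurentSeries κ) =
      rho K N O (S := {jF K N}) (Set.singleton_subset_iff.mpr (jF_mem_gaussSubalgebra K N O)) x :=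
  rfl

theorem redFin_jFin (hN : IsUnit ((N : ℕ) : ↥O)) : redFin K N O hN (jFin K N O) = jF κ N := by
  apply Subtype.ext
  exact theta_jF K N O

/-- `j(q^d)` is integral over `O[j]`. -/
theorem jdF_mem_Rfin {d : ℕ} [NeZero d] (hd : d ∣ N) : jdF K N hd ∈ Rfin K N O := by
  rw [mem_chartAlg_iff]
  have hroot : evZ (jF K N) (jdF K N hd) (modPoly d) = 0 := by
    apply Subtype.val_injective
    have h := map_evZ ((modularFunctionFieldFullC K N).val : FF K N →+* LaurentSeries K)
      (jF K N) (jdF K N hd) (modPoly d)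
    have h0 := evZ_modPoly d K 1
    rw [qExpand_one_apply, qExpand_one_apply] at h0
    exact h.trans h0
  set A := Algebra.adjoin ↥O ({jF K N} : Set (FF K N)) with hA
  let jA : A := ⟨jF K N, Algebra.subset_adjoin (Set.mem_singleton _)⟩
  let φ : ℤ[X] →+* A := eval₂RingHom (Int.castRingHom A) jA
  refine ⟨(modPoly d).map φ, (modPoly_monic d).map φ, ?_⟩
  rw [eval₂_map]
  have hcomp : (algebraMap A (FF K N)).comp φ =
      eval₂RingHom (Int.castRingHom (FF K N)) (jF K N) := by
    refine Polynomial.ringHom_ext' (RingHom.ext_int _ _) ?_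
    simp only [RingHom.comp_apply, coe_eval₂RingHom, eval₂_X, φ]
    rfl
  rw [hcomp]
  exact hroot

/-- Every element of `κ[j̄_d : d ∣ N]` is the reduction of an element of the finite chart. -/
theorem exists_redFin_eq_of_mem_adjoin (hN : IsUnit ((N : ℕ) : ↥O)) {r : LaurentSeries κ}
    (hr : r ∈ Algebra.adjoin κ (divisorExpansionsC κ N)) :
    ∃ a : ↥(Rfin K N O), ((redFin K N O hN a : FF κ N) : LaurentSeries κ) = r := by
  induction hr using Algebra.adjoin_induction with
  | mem y hy =>
    obtain ⟨d, hd0, hd, rfl⟩ := hy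
    haveI := hd0
    refine ⟨⟨jdF K N hd, jdF_mem_Rfin K N O hd⟩, ?_⟩
    rw [coe_redFin, rho_eq_theta]
    exact theta_jdF K N O hd
  | algebraMap c =>
    obtain ⟨a, rfl⟩ := IsLocalRing.residue_surjective c
    refine ⟨algebraMap ↥O _ a, ?_⟩
    rw [redFin, redChart_algebraMap]
    rfl
  | add y z _ _ hy hz =>
    obtain ⟨a, rfl⟩ := hy
    obtain ⟨b, rfl⟩ := hz
    exact ⟨a + b, by rw [map_add]; rfl⟩
  | mul y z _ _ hy hz =>
    obtain ⟨a, rfl⟩ := hy
    obtain ⟨b, rfl⟩ := hz
    exact ⟨a * b, by rw [map_mul]; rfl⟩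

/-- **The reduction of the finite chart generates the function field of the special fibre.** -/
theorem frac_fin (hN : IsUnit ((N : ℕ) : ↥O)) (z : FF κ N) :
    ∃ a b : ↥(Rfin K N O), redFin K N O hN b ≠ 0 ∧
      z * redFin K N O hN b = redFin K N O hN a := by
  have hz : (z : LaurentSeries κ) ∈ IntermediateField.adjoin κ (divisorExpansionsC κ N) := z.2
  rw [IntermediateField.mem_adjoin_iff_div] at hz
  obtain ⟨r, hr, t, ht, hzrt⟩ := hz
  obtain ⟨a, ha⟩ := exists_redFin_eq_of_mem_adjoin K N O hN hr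
  obtain ⟨b, hb⟩ := exists_redFin_eq_of_mem_adjoin K N O hN ht
  by_cases ht0 : t = 0
  · refine ⟨0, 1, by rw [map_one]; exact one_ne_zero, ?_⟩
    rw [map_one, mul_one, map_zero]
    apply Subtype.ext
    rw [hzrt, ht0, div_zero]
    rfl
  · refine ⟨a, b, ?_, ?_⟩
    · intro h0
      apply ht0
      rw [← hb, h0]
      rfl
    · apply Subtype.ext
      show (z : LaurentSeries κ) * _ = _
      rw [hb, ha, hzrt, div_mul_cancel₀ _ ht0]

/-- **Compatibility of `redFin` with coefficientwise reduction**: every `y ∈ O((q)) ∩ FF K N` is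
`a / b` with `a, b ∈ Rfin`, `redFin b ≠ 0` and `redFin a = ȳ · redFin b`. -/
theorem exists_redFin_compat (hN : IsUnit ((N : ℕ) : ↥O))
    (hprime : (fibreIdeal K N O (Rfin K N O)).IsPrime)
    (y : LaurentSeries ↥O) (hy : coeffMap O.subtype y ∈ modularFunctionFieldFullC K N) :
    ∃ a b : ↥(Rfin K N O), redFin K N O hN b ≠ 0 ∧
      (⟨coeffMap O.subtype y, hy⟩ : FF K N) * (b : FF K N) = (a : FF K N) ∧
      ((redFin K N O hN a : FF κ N) : LaurentSeries κ) =
        coeffMap (IsLocalRing.residue ↥O) y * ((redFin K N O hN b : FF κ N) : LaurentSeries κ) :=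
  exists_redChart_compat K N O (jF_mem_gaussSubalgebra K N O) (redMem_fin K N O hN)
    (transcendental_theta_jF K N O) hprime
    (Fermat.Agent.N4.FFAlgebraic.exists_mul_mem_chartAlg K N O _
      (Fermat.Agent.N4.FFAlgebraic.transcendental_jF K N)
      (Fermat.Agent.N4.FFAlgebraic.isAlgebraic_jF K N)) y hy

theorem isNoetherianRing_Rfin : IsNoetherianRing ↥(Rfin K N O) := by
  haveI := finiteDimensional_FF K N
  exact isNoetherianRing_chartAlg (O := ↥O) (K := K) (jF K N)
    (Fermat.Agent.N4.FFAlgebraic.transcendental_jF K N)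

theorem isFractionRing_Rfin : IsFractionRing ↥(Rfin K N O) (FF K N) := by
  haveI := finiteDimensional_FF K N
  exact Fermat.Agent.N4.Cover.Main.isFractionRing_chartAlg (O := ↥O) (K₀ := K) (jF K N)
    (Fermat.Agent.N4.FFAlgebraic.transcendental_jF K N)

/-- **(C4 → C6 plug, finite chart).**  At a finite level with `(∗)` and `(S)`, the finite chart
`Rfin`, its reduction `redFin : Rfin → FF κ N` and a place `Q` of the special fibre at which `j̄`
is integral form a `ChartData`. -/
theorem chartData_fin (hN : IsUnit ((N : ℕ) : ↥O)) (hstar : StarStatement K N O)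
    (hsm : SmoothStatement K N O) {ϖ : ↥O} (hϖ : Irreducible ϖ)
    (Q : Place (IsLocalRing.ResidueField ↥O) (FF κ N)) (hQ : jF κ N ∈ Q.toValuationSubring) :
    ChartData ϖ (redFin K N O hN) Q :=
  chartData_chart K N O (jF_mem_gaussSubalgebra K N O) (redMem_fin K N O hN)
    (transcendental_theta_jF K N O) hstar.1.isPrime hsm.1 hϖ (frac_fin K N O hN) Q (by
      have h := redFin_jFin K N O hN
      rw [redFin, jFin] at h
      rw [h]
      exact hQ)

/-- **(4c) for the finite chart.** -/
theorem ord_redFin_eq_sum (hN : IsUnit ((N : ℕ) : ↥O)) (hstar : StarStatement K N O)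
    (hsm : SmoothStatement K N O) {ϖ : ↥O} (hϖ : Irreducible ϖ)
    (Q : Place (IsLocalRing.ResidueField ↥O) (FF κ N)) (hQ : jF κ N ∈ Q.toValuationSubring)
    (a b : ↥(Rfin K N O)) (ha : redFin K N O hN a ≠ 0) (hb : redFin K N O hN b ≠ 0)
    (hrat : ∀ v : Place K (FF K N),
      (∀ r : ↥(Rfin K N O), algebraMap ↥(Rfin K N O) (FF K N) r ∈ v.toValuationSubring) →
      v.ord (algebraMap ↥(Rfin K N O) (FF K N) a / algebraMap ↥(Rfin K N O) (FF K N) b) ≠ 0 →
        Fermat.Agent.S24.PlaceDeriv.ResidueTrivial v) :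
    ∃ T : Finset (Place K (FF K N)),
      (∀ v, v ∈ T ↔ CentredAt ↥O (redFin K N O hN) Q v ∧
        v.ord (algebraMap ↥(Rfin K N O) (FF K N) a / algebraMap ↥(Rfin K N O) (FF K N) b) ≠ 0) ∧
      Q.ord (redFin K N O hN a / redFin K N O hN b) =
        ∑ v ∈ T, v.ord (algebraMap ↥(Rfin K N O) (FF K N) a /
          algebraMap ↥(Rfin K N O) (FF K N) b) := by
  haveI := isNoetherianRing_Rfin K N O
  haveI := isFractionRing_Rfin K N O
  exact (chartData_fin K N O hN hstar hsm hϖ Q hQ).ord_reduction_eq_sum a b ha hb hrat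

end Fin

/-! ### The chart at infinity -/

section Inf

theorem redMem_inf (hN : IsUnit ((N : ℕ) : ↥O)) : RedMem K N O (jF K N)⁻¹ :=
  fun _ hg hgG => theta_mem_full_of_mem_Rinf K N O hN hg hgG

/-- The reduction map of the chart at infinity `Rinf → FF κ N`. -/
noncomputable def redInf (hN : IsUnit ((N : ℕ) : ↥O)) : ↥(Rinf K N O) →+* FF κ N :=
  redChart K N O (jF_inv_mem_gaussSubalgebra K N O) (redMem_inf K N O hN)

theorem coe_redInf (hN : IsUnit ((N : ℕ) : ↥O)) (x : ↥(Rinf K N O)) :
    ((redInf K N O hN x : FF κ N) : LaurentSeries κ) =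
      rho K N O (S := {(jF K N)⁻¹})
        (Set.singleton_subset_iff.mpr (jF_inv_mem_gaussSubalgebra K N O)) x :=
  rfl

theorem redInf_jInvInf (hN : IsUnit ((N : ℕ) : ↥O)) :
    redInf K N O hN (jInvInf K N O) = (jF κ N)⁻¹ := by
  apply Subtype.ext
  rw [IntermediateField.coe_inv]
  exact theta_jF_inv K N O

theorem transcendental_theta_jF_inv :
    Transcendental κ (theta K N O ⟨(jF K N)⁻¹, jF_inv_mem_gaussSubalgebra K N O⟩) := by
  rw [theta_jF_inv]
  intro halg
  exact Fermat.Agent.S24.FFBasics.transcendental_jqModC _ (by simpa using halg.inv)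

/-- `j⁻ᵐ a`, for `a` in the finite chart and `M` large, lies in the chart at infinity, and its
reduction is `j̄⁻ᵐ ā`. -/
theorem redInf_pow_mul (hN : IsUnit ((N : ℕ) : ↥O)) (a : ↥(Rfin K N O)) (M : ℕ)
    (h : ((jF K N)⁻¹) ^ M * (a : FF K N) ∈ Rinf K N O) :
    redInf K N O hN ⟨_, h⟩ = ((jF κ N)⁻¹) ^ M * redFin K N O hN a := by
  apply Subtype.ext
  rw [coe_redInf, rho_eq_theta]
  show _ = (((jF κ N)⁻¹ ^ M : FF κ N) : LaurentSeries κ) * ((redFin K N O hN a : FF κ N) :
    LaurentSeries κ)
  rw [coe_redFin, rho_eq_theta, IntermediateField.coe_pow, IntermediateField.coe_inv, coe_jF,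
    ← theta_jF_inv K N O, ← map_pow, ← map_mul]
  rfl

theorem exists_pow_mul_mem_Rinf (a : ↥(Rfin K N O)) :
    ∃ n : ℕ, ∀ M, n ≤ M → ((jF K N)⁻¹) ^ M * (a : FF K N) ∈ Rinf K N O := by
  have ha : (a : FF K N) ∈ chartAlg ↥O (FF K N) (insert ((jF K N)⁻¹)⁻¹ {(jF K N)⁻¹}) := by
    refine chartAlg_mono ?_ a.2
    rw [inv_inv]
    exact Set.singleton_subset_iff.mpr (Set.mem_insert _ _)
  obtain ⟨n, hn⟩ := exists_pow_mul_mem_chartAlg (S := {(jF K N)⁻¹}) (s := (jF K N)⁻¹)
    (Set.mem_singleton _) (inv_ne_zero (jF_ne_zero K N)) ha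
  refine ⟨n, fun M hM => ?_⟩
  obtain ⟨k, rfl⟩ := Nat.exists_eq_add_of_le hM
  have h1 : ((jF K N)⁻¹) ^ (n + k) * (a : FF K N) =
      ((jF K N)⁻¹) ^ k * (((jF K N)⁻¹) ^ n * (a : FF K N)) := by
    rw [pow_add]; ring
  rw [h1]
  exact mul_mem (pow_mem (subset_chartAlg _ (Set.mem_singleton _)) k) hn

/-- **The reduction of the chart at infinity generates the function field of the special
fibre.** -/
theorem frac_inf (hN : IsUnit ((N : ℕ) : ↥O)) (z : FF κ N) :
    ∃ a b : ↥(Rinf K N O), redInf K N O hN b ≠ 0 ∧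
      z * redInf K N O hN b = redInf K N O hN a := by
  obtain ⟨a, b, hb, hab⟩ := frac_fin K N O hN z
  obtain ⟨n, hn⟩ := exists_pow_mul_mem_Rinf K N O a
  obtain ⟨m, hm⟩ := exists_pow_mul_mem_Rinf K N O b
  have ha' := hn (n + m) (Nat.le_add_right _ _)
  have hb' := hm (n + m) (Nat.le_add_left _ _)
  have hj : ((jF κ N)⁻¹) ^ (n + m) ≠ 0 := pow_ne_zero _ (inv_ne_zero (jF_ne_zero κ N))
  refine ⟨⟨_, ha'⟩, ⟨_, hb'⟩, ?_, ?_⟩
  · rw [redInf_pow_mul K N O hN b (n + m) hb']
    exact mul_ne_zero hj hb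
  · rw [redInf_pow_mul K N O hN b (n + m) hb', redInf_pow_mul K N O hN a (n + m) ha', ← hab]
    ring

/-- **Compatibility of `redInf` with coefficientwise reduction.** -/
theorem exists_redInf_compat (hN : IsUnit ((N : ℕ) : ↥O))
    (hprime : (fibreIdeal K N O (Rinf K N O)).IsPrime)
    (y : LaurentSeries ↥O) (hy : coeffMap O.subtype y ∈ modularFunctionFieldFullC K N) :
    ∃ a b : ↥(Rinf K N O), redInf K N O hN b ≠ 0 ∧
      (⟨coeffMap O.subtype y, hy⟩ : FF K N) * (b : FF K N) = (a : FF K N) ∧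
      ((redInf K N O hN a : FF κ N) : LaurentSeries κ) =
        coeffMap (IsLocalRing.residue ↥O) y * ((redInf K N O hN b : FF κ N) : LaurentSeries κ) :=
  exists_redChart_compat K N O (jF_inv_mem_gaussSubalgebra K N O) (redMem_inf K N O hN)
    (transcendental_theta_jF_inv K N O) hprime
    (Fermat.Agent.N4.FFAlgebraic.exists_mul_mem_chartAlg K N O _
      (Fermat.Agent.N4.FFAlgebraic.transcendental_jF_inv K N)
      (Fermat.Agent.N4.FFAlgebraic.isAlgebraic_jF_inv K N)) y hy

theorem finiteDimensional_FF_inv : FiniteDimensional K⟮(jF K N)⁻¹⟯ (FF K N) := by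
  rw [Fermat.Agent.N4.FFAlgebraic.adjoin_jF_inv]
  exact finiteDimensional_FF K N

theorem isNoetherianRing_Rinf : IsNoetherianRing ↥(Rinf K N O) := by
  haveI := finiteDimensional_FF_inv K N
  exact isNoetherianRing_chartAlg (O := ↥O) (K := K) (jF K N)⁻¹
    (Fermat.Agent.N4.FFAlgebraic.transcendental_jF_inv K N)

theorem isFractionRing_Rinf : IsFractionRing ↥(Rinf K N O) (FF K N) := by
  haveI := finiteDimensional_FF_inv K N
  exact Fermat.Agent.N4.Cover.Main.isFractionRing_chartAlg (O := ↥O) (K₀ := K) (jF K N)⁻¹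
    (Fermat.Agent.N4.FFAlgebraic.transcendental_jF_inv K N)

/-- **(C4 → C6 plug, chart at infinity).** -/
theorem chartData_inf (hN : IsUnit ((N : ℕ) : ↥O)) (hstar : StarStatement K N O)
    (hsm : SmoothStatement K N O) {ϖ : ↥O} (hϖ : Irreducible ϖ)
    (Q : Place (IsLocalRing.ResidueField ↥O) (FF κ N))
    (hQ : (jF κ N)⁻¹ ∈ Q.toValuationSubring) :
    ChartData ϖ (redInf K N O hN) Q :=
  chartData_chart K N O (jF_inv_mem_gaussSubalgebra K N O) (redMem_inf K N O hN)
    (transcendental_theta_jF_inv K N O) hstar.2.isPrime hsm.2 hϖ (frac_inf K N O hN) Q (by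
      have h := redInf_jInvInf K N O hN
      rw [redInf, jInvInf] at h
      rw [h]
      exact hQ)

/-- **(4c) for the chart at infinity.** -/
theorem ord_redInf_eq_sum (hN : IsUnit ((N : ℕ) : ↥O)) (hstar : StarStatement K N O)
    (hsm : SmoothStatement K N O) {ϖ : ↥O} (hϖ : Irreducible ϖ)
    (Q : Place (IsLocalRing.ResidueField ↥O) (FF κ N))
    (hQ : (jF κ N)⁻¹ ∈ Q.toValuationSubring)
    (a b : ↥(Rinf K N O)) (ha : redInf K N O hN a ≠ 0) (hb : redInf K N O hN b ≠ 0)
    (hrat : ∀ v : Place K (FF K N),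
      (∀ r : ↥(Rinf K N O), algebraMap ↥(Rinf K N O) (FF K N) r ∈ v.toValuationSubring) →
      v.ord (algebraMap ↥(Rinf K N O) (FF K N) a / algebraMap ↥(Rinf K N O) (FF K N) b) ≠ 0 →
        Fermat.Agent.S24.PlaceDeriv.ResidueTrivial v) :
    ∃ T : Finset (Place K (FF K N)),
      (∀ v, v ∈ T ↔ CentredAt ↥O (redInf K N O hN) Q v ∧
        v.ord (algebraMap ↥(Rinf K N O) (FF K N) a / algebraMap ↥(Rinf K N O) (FF K N) b) ≠ 0) ∧
      Q.ord (redInf K N O hN a / redInf K N O hN b) =
        ∑ v ∈ T, v.ord (algebraMap ↥(Rinf K N O) (FF K N) a /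
          algebraMap ↥(Rinf K N O) (FF K N) b) := by
  haveI := isNoetherianRing_Rinf K N O
  haveI := isFractionRing_Rinf K N O
  exact (chartData_inf K N O hN hstar hsm hϖ Q hQ).ord_reduction_eq_sum a b ha hb hrat

end Inf

end Fermat.Agent.N4F.C.ChartDataLevel
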