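/-
N4-FULL block C (helper9): the two geometric inputs `(∗)` (Star) and `(S)` (Smooth) at every good
level `K` containing the good roots of unity, unconditionally (from `N4/SmoothModel`).
-/
import Mathlib
import Fermat.Agent.N4.S18Glue.FinalRoots
import Fermat.Agent.N4.SmoothModel
import Fermat.Agent.N4F.C.LevelCharts

set_option autoImplicit false
set_option linter.unusedSectionVars false
set_option linter.style.haveILetI false

open ModularCurve AlgebraicCurve

namespace Fermat.Agent.N4F.C.LevelStatements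

open Fermat.Agent.N4.Setting Fermat.Agent.N4.BigDVR Fermat.Agent.N4F.C Fermat.Agent.N4F.C.Levels

variable {A : ValuationSubring Qb} {N : ℕ} [NeZero N] {ℓ : ℕ}

/-- A level containing the good roots of unity contains a primitive `N`-th root of unity. -/
theorem exists_primitiveRoot_lvl (hℓ : ℓ.Prime) (hA : A.LiesOverPrime ℓ) (hℓN : ¬ ℓ ∣ N)
    (K : IntermediateField ℚ Qb) (hroots : ∀ ξ ∈ goodRoots A, ξ ∈ K) :
    ∃ ζ : Lvl K, IsPrimitiveRoot ζ N := by
  have hℓA : ((ℓ : ℕ) : Qb) ∈ A.nonunits := hA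
  have hNA : ((N : ℕ) : Qb) ∉ A.nonunits :=
    Fermat.Agent.N4.S18Glue.natCast_not_mem_nonunits_of_coprime A hℓA
      ((Nat.coprime_comm.mp ((Nat.Prime.coprime_iff_not_dvd hℓ).mpr hℓN)))
  have hroots' : ∀ ξ ∈ goodRoots A, ξ ∈ (algebraMap (Lvl K) Qb).range :=
    fun ξ hξ => (Lvl.mem_range_iff K).mpr (hroots ξ hξ)
  obtain ⟨ζ, hζ⟩ := Fermat.Agent.N4.S18Glue.exists_primitiveRoot_trS A (Lvl K) hroots'
    (Nat.pos_of_ne_zero (NeZero.ne N)) hNA
  exact ⟨(Fermat.Agent.N4.S18Glue.trS A (Lvl K)).subtype ζ,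
    hζ.map_of_injective Subtype.val_injective⟩

/-- For `ℓ = 2`, a level containing the good roots of unity contains a primitive cube root of
unity. -/
theorem exists_omega_lvl (hℓ : ℓ.Prime) (hA : A.LiesOverPrime ℓ)
    (K : IntermediateField ℚ Qb) (hroots : ∀ ξ ∈ goodRoots A, ξ ∈ K) (h2 : ℓ = 2) :
    ∃ z : Lvl K, z ^ 2 + z + 1 = 0 := by
  have hℓA : ((ℓ : ℕ) : Qb) ∈ A.nonunits := hA
  have hroots' : ∀ ξ ∈ goodRoots A, ξ ∈ (algebraMap (Lvl K) Qb).range :=
    fun ξ hξ => (Lvl.mem_range_iff K).mpr (hroots ξ hξ)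
  refine Fermat.Agent.N4.S18Glue.exists_omega A (Lvl K) hroots' ?_
  exact Fermat.Agent.N4.S18Glue.natCast_not_mem_nonunits_of_coprime A hℓA (by subst h2; decide)

/-- **`(∗)` at every good level.** -/
theorem starStatement_lvl (hℓ : ℓ.Prime) (hA : A.LiesOverPrime ℓ)
    (K : IntermediateField ℚ Qb) [IsDiscreteValuationRing ↥(baseRing A K)]
    (hG : GoodBase (Lvl K) N (baseRing A K) ℓ) (hroots : ∀ ξ ∈ goodRoots A, ξ ∈ K) :
    StarStatement (Lvl K) N (baseRing A K) :=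
  Fermat.Agent.N4.SmoothModel.starTargetOmega (Lvl K) N (baseRing A K) ℓ hG
    (exists_omega_lvl hℓ hA K hroots)

/-- **`(S)` at every good level.** -/
theorem smoothStatement_lvl (hℓ : ℓ.Prime) (hA : A.LiesOverPrime ℓ) (hℓN : ¬ ℓ ∣ N)
    (K : IntermediateField ℚ Qb) [IsDiscreteValuationRing ↥(baseRing A K)]
    [IsAlgClosed (IsLocalRing.ResidueField ↥(baseRing A K))]
    (hG : GoodBase (Lvl K) N (baseRing A K) ℓ) (hroots : ∀ ξ ∈ goodRoots A, ξ ∈ K) :
    SmoothStatement (Lvl K) N (baseRing A K) :=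
  Fermat.Agent.N4.SmoothModel.smoothTargetRoots (Lvl K) N (baseRing A K) ℓ hG
    (exists_primitiveRoot_lvl hℓ hA hℓN K hroots) (exists_omega_lvl hℓ hA K hroots)

end Fermat.Agent.N4F.C.LevelStatements
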