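/-
N4-FULL block C, node C2 part 2 (helper9): the RANGE of the reduction of a chart (moonshots #30, §2b).

For a good base `(K, O)` with residue field `κ` and a chart `R = chartAlg O (FF K N) {s}`
(`s = j` or `s = j⁻¹`) whose special fibre `R / 𝔪_O R` is a Dedekind domain (`(∗)` + `(S)`):

* `redChart : R →+* FF κ N`, the Gauss reduction (values in `FF κ N` by (2a));
* `ker_redChart`     : its kernel is `𝔪_O R`;
* `range_redChart`   : its range is EXACTLY `Σ = chartAlg κ (FF κ N) {s̄}`, the integral closure of
  `κ[s̄]` in the function field of the special fibre;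
* hence `Σ` is a Dedekind domain with fraction field `FF κ N`, `R / 𝔪_O R ≃+* Σ`.

Instantiated for both charts in `ChartFibre.lean`: `redFin`, `redInf`, `SigmaFin`, `SigmaInf`.
-/
import Mathlib
import Fermat.Agent.N4F.C.ChartReduction

set_option autoImplicit false
set_option linter.unusedSectionVars false
set_option linter.style.haveILetI false
set_option synthInstance.maxHeartbeats 400000
set_option maxHeartbeats 800000

open Polynomial

namespace Fermat.Agent.N4F.C.ChartRange

open ModularCurve Fermat.Agent.S28.Gauss Fermat.Agent.N4.Chart Fermat.Agent.N4.Setting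
  Fermat.Agent.N4.FibreEmbedding Fermat.Agent.N4.IntClosure Fermat.Agent.N4F.C.ChartReduction

/-- Dedekind domains are preserved by ring isomorphisms. -/
theorem isDedekindDomain_of_ringEquiv {A B : Type*} [CommRing A] [CommRing B]
    [IsDedekindDomain A] (e : A ≃+* B) : IsDedekindDomain B := by
  haveI : IsDomain B := e.symm.toMulEquiv.isDomain
  haveI : IsNoetherianRing B := isNoetherianRing_of_ringEquiv A e
  haveI : Ring.DimensionLEOne B := Ring.DimensionLEOne.of_ringEquiv e.symm
  haveI : IsIntegrallyClosed B := IsIntegrallyClosed.of_equiv e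
  exact { }

section Generic

variable (K : Type) [Field K] [CharZero K] (N : ℕ) [NeZero N] (O : Subring K)
  [IsDiscreteValuationRing ↥O] [IsFractionRing ↥O K]

set_option quotPrecheck false in
local notation "κ" => IsLocalRing.ResidueField ↥O

variable {s : FF K N} (hs : s ∈ gaussSubalgebra K N O)
  (h2a : ∀ g : FF K N, g ∈ chartAlg ↥O (FF K N) {s} → ∀ hg : g ∈ gaussSubalgebra K N O,
    theta K N O ⟨g, hg⟩ ∈ modularFunctionFieldFullC (IsLocalRing.ResidueField ↥O) N)

/-- The reduction of the chart, with values in the function field of the special fibre. -/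
noncomputable def redChart : chartAlg ↥O (FF K N) {s} →+* FF κ N where
  toFun x := ⟨rho K N O (S := {s}) (Set.singleton_subset_iff.mpr hs) x, h2a x x.2 _⟩
  map_one' := Subtype.ext (map_one _)
  map_mul' x y := Subtype.ext (map_mul _ x y)
  map_zero' := Subtype.ext (map_zero _)
  map_add' x y := Subtype.ext (map_add _ x y)

theorem coe_redChart (x : chartAlg ↥O (FF K N) {s}) :
    ((redChart K N O hs h2a x : FF κ N) : LaurentSeries κ) =
      rho K N O (S := {s}) (Set.singleton_subset_iff.mpr hs) x := rfl

theorem redChart_algebraMap (a : ↥O) :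
    redChart K N O hs h2a (algebraMap ↥O (chartAlg ↥O (FF K N) {s}) a) =
      algebraMap κ (FF κ N) (IsLocalRing.residue ↥O a) := by
  apply Subtype.ext
  rw [coe_redChart, rho_algebraMap]
  show _ = algebraMap κ (LaurentSeries κ) (IsLocalRing.residue ↥O a)
  rw [algebraMap_laurentSeries_eq_single]
  rfl

/-- The reduction of the generator of the chart. -/
noncomputable def sBar : FF κ N := redChart K N O hs h2a (chartGen (Set.mem_singleton s))

theorem coe_sBar : ((sBar K N O hs h2a : FF κ N) : LaurentSeries κ) = theta K N O ⟨s, hs⟩ := rfl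

/-- `O[X] → R`, `X ↦ s`. -/
noncomputable def toChart : (↥O)[X] →+* chartAlg ↥O (FF K N) {s} :=
  ((aeval (chartGen (O := ↥O) (S := {s}) (Set.mem_singleton s)) :
    (↥O)[X] →ₐ[↥O] chartAlg ↥O (FF K N) {s}) : (↥O)[X] →+* chartAlg ↥O (FF K N) {s})

theorem coe_toChart (P : (↥O)[X]) : ((toChart K N O (s := s) P : chartAlg ↥O (FF K N) {s}) : FF K N) =
    aeval s P := by
  have := Polynomial.aeval_algHom_apply (chartAlg ↥O (FF K N) {s}).val
    (chartGen (O := ↥O) (S := {s}) (Set.mem_singleton s)) P
  simpa [toChart] using this.symm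

/-- The reduction of polynomials in the generator. -/
theorem redChart_comp_toChart :
    (redChart K N O hs h2a).comp (toChart K N O) =
      ((aeval (sBar K N O hs h2a) : κ[X] →ₐ[κ] FF κ N) : κ[X] →+* FF κ N).comp
        (mapRingHom (IsLocalRing.residue ↥O)) := by
  refine Polynomial.ringHom_ext (fun a => ?_) ?_
  · rw [RingHom.comp_apply, RingHom.comp_apply, coe_mapRingHom, Polynomial.map_C]
    have h1 : toChart K N O (s := s) (C a) = algebraMap ↥O (chartAlg ↥O (FF K N) {s}) a :=
      aeval_C _ a
    rw [h1, redChart_algebraMap]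
    exact (aeval_C _ _).symm
  · rw [RingHom.comp_apply, RingHom.comp_apply, coe_mapRingHom, Polynomial.map_X]
    have h1 : toChart K N O (s := s) X = chartGen (Set.mem_singleton s) := aeval_X _
    rw [h1]
    exact (aeval_X _).symm

/-- The reduction of the chart lies in the integral closure of `κ[s̄]`. -/
theorem redChart_mem_chartAlg (x : chartAlg ↥O (FF K N) {s}) :
    redChart K N O hs h2a x ∈ chartAlg κ (FF κ N) {sBar K N O hs h2a} := by
  rw [mem_chartAlg_singleton_iff]
  obtain ⟨p, hp, hpx⟩ := (mem_chartAlg_singleton_iff s).mp x.2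
  refine ⟨p.map (mapRingHom (IsLocalRing.residue ↥O)), hp.map _, ?_⟩
  rw [eval₂_map, ← redChart_comp_toChart, ← hom_eval₂]
  have h0 : p.eval₂ (toChart K N O (s := s)) x = 0 := by
    apply Subtype.ext
    have h1 := hom_eval₂ p (toChart K N O (s := s))
      (SubringClass.subtype (chartAlg ↥O (FF K N) {s})) x
    refine h1.trans ?_
    rw [ZeroMemClass.coe_zero, ← hpx]
    congr 1
    exact RingHom.ext fun P => coe_toChart K N O P
  rw [h0, map_zero]

variable (htr : Transcendental (IsLocalRing.ResidueField ↥O) (theta K N O ⟨s, hs⟩))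
  (hprime : (fibreIdeal K N O (chartAlg ↥O (FF K N) {s})).IsPrime)

include htr hprime in
/-- **The kernel of the reduction of the chart is `𝔪_O R`.** -/
theorem ker_redChart :
    RingHom.ker (redChart K N O hs h2a) = fibreIdeal K N O (chartAlg ↥O (FF K N) {s}) := by
  rw [← ker_rho_eq K N O hs htr hprime]
  ext x
  rw [RingHom.mem_ker, RingHom.mem_ker]
  constructor
  · intro h
    have := congrArg Subtype.val h
    exact this
  · intro h
    exact Subtype.ext h

variable (hgen : ∀ (d : ℕ) [NeZero d], d ∣ N → ∃ a b : chartAlg ↥O (FF K N) {s},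
    redChart K N O hs h2a b ≠ 0 ∧
    ((redChart K N O hs h2a a : FF (IsLocalRing.ResidueField ↥O) N) :
        LaurentSeries (IsLocalRing.ResidueField ↥O)) =
      qExpand (IsLocalRing.ResidueField ↥O) d (jqModC (IsLocalRing.ResidueField ↥O)) *
        ((redChart K N O hs h2a b : FF (IsLocalRing.ResidueField ↥O) N) :
          LaurentSeries (IsLocalRing.ResidueField ↥O)))

include hgen in
/-- Every element of `FF κ N` is a quotient of reductions of elements of the chart. -/
theorem exists_frac (z : FF κ N) : ∃ a b : chartAlg ↥O (FF K N) {s},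
    redChart K N O hs h2a b ≠ 0 ∧ z * redChart K N O hs h2a b = redChart K N O hs h2a a := by
  set ρ := rho K N O (S := {s}) (Set.singleton_subset_iff.mpr hs) with hρ
  have hM : ∀ c : κ, algebraMap κ (LaurentSeries κ) c ∈
      Subfield.closure (ρ.range : Set (LaurentSeries κ)) := by
    intro c
    obtain ⟨a, rfl⟩ := IsLocalRing.residue_surjective c
    apply Subfield.subset_closure
    refine ⟨algebraMap ↥O _ a, ?_⟩
    rw [hρ, rho_algebraMap, algebraMap_laurentSeries_eq_single]
    rfl
  let M : IntermediateField κ (LaurentSeries κ) := Subfield.toIntermediateField _ hM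
  have hle : modularFunctionFieldFullC κ N ≤ M := by
    rw [modularFunctionFieldFullC, IntermediateField.adjoin_le_iff]
    rintro x ⟨d, hdne, hdN, rfl⟩
    obtain ⟨a, b, hb, hab⟩ := hgen d hdN
    have hb' : ρ b ≠ 0 := fun h0 => hb (Subtype.ext h0)
    show _ ∈ Subfield.closure (ρ.range : Set (LaurentSeries κ))
    have h1 : qExpand κ d (jqModC κ) = ρ a / ρ b := by
      rw [eq_div_iff hb']
      exact hab.symm
    rw [h1]
    exact div_mem (Subfield.subset_closure ⟨a, rfl⟩) (Subfield.subset_closure ⟨b, rfl⟩)
  have hz : (z : LaurentSeries κ) ∈ Subfield.closure (ρ.range : Set (LaurentSeries κ)) := hle z.2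
  rw [Subfield.mem_closure_iff, Subring.closure_eq] at hz
  obtain ⟨y, ⟨a, rfl⟩, w, ⟨b, rfl⟩, hyw⟩ := hz
  by_cases hb0 : ρ b = 0
  · refine ⟨0, 1, ?_, ?_⟩
    · rw [map_one]
      exact one_ne_zero
    · rw [map_one, mul_one, map_zero]
      apply Subtype.ext
      rw [← hyw, hb0, div_zero]
      rfl
  · refine ⟨a, b, fun h0 => hb0 (congrArg Subtype.val h0), Subtype.ext ?_⟩
    show (z : LaurentSeries κ) * ρ b = ρ a
    rw [← hyw, div_mul_cancel₀ _ hb0]

include htr hprime hgen in
/-- **The range of the reduction of the chart is the integral closure of `κ[s̄]`** (given that the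
special fibre of the chart is a Dedekind domain). -/
theorem exists_redChart_eq
    (hDed : IsDedekindDomain
      (chartAlg ↥O (FF K N) {s} ⧸ fibreIdeal K N O (chartAlg ↥O (FF K N) {s})))
    {z : FF κ N} (hz : z ∈ chartAlg κ (FF κ N) {sBar K N O hs h2a}) :
    ∃ x : chartAlg ↥O (FF K N) {s}, redChart K N O hs h2a x = z := by
  set f := redChart K N O hs h2a with hf
  have hker := ker_redChart K N O hs h2a htr hprime
  let e : (chartAlg ↥O (FF K N) {s} ⧸ fibreIdeal K N O (chartAlg ↥O (FF K N) {s})) ≃+* f.range :=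
    (Ideal.quotEquivOfEq hker.symm).trans (RingHom.quotientKerEquivRange f)
  haveI : IsIntegrallyClosed f.range :=
    @IsIntegrallyClosed.of_equiv
      (chartAlg ↥O (FF K N) {s} ⧸ fibreIdeal K N O (chartAlg ↥O (FF K N) {s})) f.range
      (Ideal.Quotient.commRing _) _ e inferInstance
  haveI : FaithfulSMul f.range (FF κ N) :=
    (faithfulSMul_iff_algebraMap_injective _ _).mpr Subtype.val_injective
  haveI : IsFractionRing f.range (FF κ N) := IsFractionRing.of_field _ _ (fun z => by
    obtain ⟨a, b, hb, hab⟩ := exists_frac K N O hs h2a hgen z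
    exact ⟨⟨f a, a, rfl⟩, ⟨f b, b, rfl⟩, (eq_div_iff hb).mpr hab⟩)
  have hmem : ∀ P : κ[X], aeval (sBar K N O hs h2a) P ∈ f.range := by
    intro P
    obtain ⟨P', rfl⟩ := Polynomial.map_surjective _ IsLocalRing.residue_surjective P
    refine ⟨toChart K N O P', ?_⟩
    have := congrArg (fun φ : (↥O)[X] →+* FF κ N => φ P') (redChart_comp_toChart K N O hs h2a)
    exact this
  have hint : IsIntegral f.range z := by
    obtain ⟨p, hp, hpz⟩ := (mem_chartAlg_singleton_iff _).mp hz
    let g : κ[X] →+* f.range :=
      ((aeval (sBar K N O hs h2a) : κ[X] →ₐ[κ] FF κ N) : κ[X] →+* FF κ N).codRestrict f.range hmem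
    refine ⟨p.map g, hp.map g, ?_⟩
    rw [eval₂_map]
    exact hpz
  obtain ⟨y, hy⟩ := IsIntegrallyClosed.algebraMap_eq_of_integral hint
  obtain ⟨x, hx⟩ := y.2
  exact ⟨x, hx.trans hy⟩

include hgen in
/-- `FF κ N` is the fraction field of the integral closure of `κ[s̄]`. -/
theorem isFractionRing_chartAlg :
    IsFractionRing (chartAlg κ (FF κ N) {sBar K N O hs h2a}) (FF κ N) := by
  haveI : FaithfulSMul (chartAlg κ (FF κ N) {sBar K N O hs h2a}) (FF κ N) :=
    (faithfulSMul_iff_algebraMap_injective _ _).mpr Subtype.val_injective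
  refine IsFractionRing.of_field _ _ (fun z => ?_)
  obtain ⟨a, b, hb, hab⟩ := exists_frac K N O hs h2a hgen z
  exact ⟨⟨_, redChart_mem_chartAlg K N O hs h2a a⟩, ⟨_, redChart_mem_chartAlg K N O hs h2a b⟩,
    (eq_div_iff hb).mpr hab⟩

/-- The reduction of the chart, as a map to the integral closure of `κ[s̄]`. -/
noncomputable def redChartSigma :
    chartAlg ↥O (FF K N) {s} →+* chartAlg κ (FF κ N) {sBar K N O hs h2a} :=
  (redChart K N O hs h2a).codRestrict (chartAlg κ (FF κ N) {sBar K N O hs h2a}).toSubring
    (redChart_mem_chartAlg K N O hs h2a)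

theorem coe_redChartSigma (x : chartAlg ↥O (FF K N) {s}) :
    ((redChartSigma K N O hs h2a x : chartAlg κ (FF κ N) {sBar K N O hs h2a}) : FF κ N) =
      redChart K N O hs h2a x := rfl

include htr hprime in
theorem ker_redChartSigma :
    RingHom.ker (redChartSigma K N O hs h2a) = fibreIdeal K N O (chartAlg ↥O (FF K N) {s}) := by
  rw [← ker_redChart K N O hs h2a htr hprime]
  ext x
  rw [RingHom.mem_ker, RingHom.mem_ker]
  constructor
  · intro h
    have := congrArg Subtype.val h
    exact this
  · intro h
    exact Subtype.ext h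

include htr hprime hgen in
theorem redChartSigma_surjective
    (hDed : IsDedekindDomain
      (chartAlg ↥O (FF K N) {s} ⧸ fibreIdeal K N O (chartAlg ↥O (FF K N) {s}))) :
    Function.Surjective (redChartSigma K N O hs h2a) := by
  rintro ⟨z, hz⟩
  obtain ⟨x, hx⟩ := exists_redChart_eq K N O hs h2a htr hprime hgen hDed hz
  exact ⟨x, Subtype.ext hx⟩

/-- **The special fibre of the chart is the integral closure of `κ[s̄]` in `FF κ N`.** -/
noncomputable def quotEquivSigma
    (hDed : IsDedekindDomain
      (chartAlg ↥O (FF K N) {s} ⧸ fibreIdeal K N O (chartAlg ↥O (FF K N) {s}))) :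
    (chartAlg ↥O (FF K N) {s} ⧸ fibreIdeal K N O (chartAlg ↥O (FF K N) {s})) ≃+*
      chartAlg κ (FF κ N) {sBar K N O hs h2a} :=
  (Ideal.quotEquivOfEq (ker_redChartSigma K N O hs h2a htr hprime).symm).trans
    (RingHom.quotientKerEquivOfSurjective
      (redChartSigma_surjective K N O hs h2a htr hprime hgen hDed))

include htr hprime hgen in
/-- The integral closure of `κ[s̄]` in `FF κ N` is a Dedekind domain. -/
theorem isDedekindDomain_chartAlg
    (hDed : IsDedekindDomain
      (chartAlg ↥O (FF K N) {s} ⧸ fibreIdeal K N O (chartAlg ↥O (FF K N) {s}))) :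
    IsDedekindDomain (chartAlg κ (FF κ N) {sBar K N O hs h2a}) :=
  @isDedekindDomain_of_ringEquiv
    (chartAlg ↥O (FF K N) {s} ⧸ fibreIdeal K N O (chartAlg ↥O (FF K N) {s})) _
    (Ideal.Quotient.commRing _) _ hDed (quotEquivSigma K N O hs h2a htr hprime hgen hDed)

end Generic

end Fermat.Agent.N4F.C.ChartRange
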