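/-
N4-FULL block C, node C2 part 3 (helper9): the two charts of the special fibre (moonshots #30, §2b).

For a discrete valuation ring `O ⊆ K` (char `0`, `N` invertible in `O`) with residue field `κ`:
`redFin : Rfin K N O →+* FF κ N`, `redInf : Rinf K N O →+* FF κ N` (Gauss reduction of the charts),
their kernels (`𝔪_O R`, given primality of the fibre), their ranges
(`SigmaFin κ N`, `SigmaInf κ N` = integral closures of `κ[j̄]`, `κ[j̄⁻¹]` in `FF κ N`, given that the
fibres are Dedekind), and: `SigmaFin κ N`, `SigmaInf κ N` are Dedekind domains with fraction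
field `FF κ N`.
-/
import Mathlib
import Fermat.Agent.N4F.C.ChartRange

set_option autoImplicit false
set_option linter.unusedSectionVars false
set_option linter.style.haveILetI false
set_option synthInstance.maxHeartbeats 400000
set_option maxHeartbeats 800000

open Polynomial

namespace Fermat.Agent.N4F.C.ChartFibre

open ModularCurve Fermat.Agent.S28.Gauss Fermat.Agent.N4.Chart Fermat.Agent.N4.Setting
  Fermat.Agent.N4.FibreEmbedding Fermat.Agent.N4.IntClosure Fermat.Agent.N4F.C.ChartReduction
  Fermat.Agent.N4F.C.ChartRange Fermat.Agent.N4.Kronecker Fermat.Agent.N4.ModPolyDescent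

/-- The chart `j ≠ ∞` of the special fibre: the integral closure of `k[j]` in `FF k N`. -/
noncomputable abbrev SigmaFin (k : Type) [Field k] (N : ℕ) : Subalgebra k (FF k N) :=
  chartAlg k (FF k N) {jF k N}

/-- The chart `j ≠ 0` of the special fibre: the integral closure of `k[j⁻¹]` in `FF k N`. -/
noncomputable abbrev SigmaInf (k : Type) [Field k] (N : ℕ) : Subalgebra k (FF k N) :=
  chartAlg k (FF k N) {(jF k N)⁻¹}

section Integral

variable (K : Type) [Field K] (N : ℕ) [NeZero N] (O : Subring K)

/-- `j(q^d)`, `d ∣ N`, is integral over `O[j]`. -/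
theorem jdF_mem_Rfin {d : ℕ} [NeZero d] (hd : d ∣ N) : jdF K N hd ∈ Rfin K N O := by
  rw [mem_chartAlg_singleton_iff]
  refine ⟨(modPoly d).map (mapRingHom (Int.castRingHom ↥O)), (modPoly_monic d).map _, ?_⟩
  rw [eval₂_map]
  have hcomp : ((aeval (jF K N) : (↥O)[X] →ₐ[↥O] FF K N) : (↥O)[X] →+* FF K N).comp
      (mapRingHom (Int.castRingHom ↥O)) = eval₂RingHom (Int.castRingHom (FF K N)) (jF K N) := by
    refine Polynomial.ringHom_ext' (RingHom.ext_int _ _) ?_
    simp
  rw [hcomp, ← evZ_apply]
  apply Subtype.val_injective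
  have h := map_evZ ((modularFunctionFieldFullC K N).val : FF K N →+* LaurentSeries K)
    (jF K N) (jdF K N hd) (modPoly d)
  have h0 := evZ_modPoly d K 1
  rw [qExpand_one_apply, qExpand_one_apply] at h0
  exact h.trans h0

end Integral

variable (K : Type) [Field K] [CharZero K] (N : ℕ) [NeZero N] (O : Subring K)
  [IsDiscreteValuationRing ↥O] [IsFractionRing ↥O K]

set_option quotPrecheck false in
local notation "κ" => IsLocalRing.ResidueField ↥O

variable (hN : IsUnit ((N : ℕ) : ↥O))

/-! ### The finite chart -/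

section Fin

include hN in
theorem h2aFin : ∀ g : FF K N, g ∈ Rfin K N O → ∀ hg : g ∈ gaussSubalgebra K N O,
    theta K N O ⟨g, hg⟩ ∈ modularFunctionFieldFullC (IsLocalRing.ResidueField ↥O) N :=
  fun _ hg hgG => theta_mem_full_of_mem_Rfin K N O hN hg hgG

/-- The reduction of the finite chart, with values in `FF κ N`. -/
noncomputable def redFin : Rfin K N O →+* FF (IsLocalRing.ResidueField ↥O) N :=
  redChart K N O (jF_mem_gaussSubalgebra K N O) (h2aFin K N O hN)

theorem coe_redFin (x : Rfin K N O) :
    ((redFin K N O hN x : FF κ N) : LaurentSeries κ) =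
      theta K N O ⟨x, chartAlg_le_gaussSubalgebra K N O
        (Set.singleton_subset_iff.mpr (jF_mem_gaussSubalgebra K N O)) x.2⟩ := rfl

theorem sBar_fin :
    sBar K N O (jF_mem_gaussSubalgebra K N O) (h2aFin K N O hN) = jF κ N :=
  Subtype.ext (theta_jF K N O)

theorem redFin_jFin : redFin K N O hN (jFin K N O) = jF κ N := sBar_fin K N O hN

theorem redFin_algebraMap (a : ↥O) :
    redFin K N O hN (algebraMap ↥O (Rfin K N O) a) =
      algebraMap κ (FF κ N) (IsLocalRing.residue ↥O a) :=
  redChart_algebraMap K N O _ _ a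

theorem redFin_jdF {d : ℕ} [NeZero d] (hd : d ∣ N) :
    redFin K N O hN ⟨jdF K N hd, jdF_mem_Rfin K N O hd⟩ = jdF κ N hd :=
  Subtype.ext (theta_jdF K N O hd)

theorem redFin_mem_SigmaFin (x : Rfin K N O) : redFin K N O hN x ∈ SigmaFin κ N := by
  have h := redChart_mem_chartAlg K N O (jF_mem_gaussSubalgebra K N O) (h2aFin K N O hN) x
  rw [sBar_fin K N O hN] at h
  exact h

theorem hgenFin : ∀ (d : ℕ) [NeZero d], d ∣ N → ∃ a b : Rfin K N O,
    redFin K N O hN b ≠ 0 ∧
    ((redFin K N O hN a : FF (IsLocalRing.ResidueField ↥O) N) :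
        LaurentSeries (IsLocalRing.ResidueField ↥O)) =
      qExpand (IsLocalRing.ResidueField ↥O) d (jqModC (IsLocalRing.ResidueField ↥O)) *
        ((redFin K N O hN b : FF (IsLocalRing.ResidueField ↥O) N) :
          LaurentSeries (IsLocalRing.ResidueField ↥O)) := by
  intro d _ hd
  refine ⟨⟨jdF K N hd, jdF_mem_Rfin K N O hd⟩, 1, ?_, ?_⟩
  · rw [map_one]
    exact one_ne_zero
  · rw [redFin_jdF, map_one]
    show qExpand κ d (jqModC κ) = qExpand κ d (jqModC κ) * 1
    rw [mul_one]

/-- Every element of `FF κ N` is a quotient of reductions of elements of the finite chart. -/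
theorem exists_frac_fin (z : FF κ N) : ∃ a b : Rfin K N O,
    redFin K N O hN b ≠ 0 ∧ z * redFin K N O hN b = redFin K N O hN a :=
  exists_frac K N O _ _ (hgenFin K N O hN) z

include hN in
/-- `FF κ N` is the fraction field of `SigmaFin κ N`. -/
theorem isFractionRing_SigmaFin : IsFractionRing (SigmaFin κ N) (FF κ N) := by
  have h := isFractionRing_chartAlg K N O (jF_mem_gaussSubalgebra K N O) (h2aFin K N O hN)
    (hgenFin K N O hN)
  rw [sBar_fin K N O hN] at h
  exact h

variable (hprime : (fibreIdeal K N O (Rfin K N O)).IsPrime)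

include hprime in
/-- The kernel of the reduction of the finite chart is `𝔪_O R`. -/
theorem ker_redFin : RingHom.ker (redFin K N O hN) = fibreIdeal K N O (Rfin K N O) :=
  ker_redChart K N O _ _ (transcendental_theta_jF K N O) hprime

variable (hDed : IsDedekindDomain (Rfin K N O ⧸ fibreIdeal K N O (Rfin K N O)))

include hprime hDed in
/-- **The range of the reduction of the finite chart is `SigmaFin κ N`.** -/
theorem exists_redFin_eq {z : FF κ N} (hz : z ∈ SigmaFin κ N) :
    ∃ x : Rfin K N O, redFin K N O hN x = z := by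
  have hz' : z ∈ chartAlg κ (FF κ N)
      {sBar K N O (jF_mem_gaussSubalgebra K N O) (h2aFin K N O hN)} := by
    rw [sBar_fin K N O hN]
    exact hz
  replace hz := hz'
  exact exists_redChart_eq K N O _ _ (transcendental_theta_jF K N O) hprime (hgenFin K N O hN)
    hDed hz

include hN hprime hDed in
/-- `SigmaFin κ N` is a Dedekind domain. -/
theorem isDedekindDomain_SigmaFin : IsDedekindDomain (SigmaFin κ N) := by
  have h := isDedekindDomain_chartAlg K N O _ _ (transcendental_theta_jF K N O) hprime
    (hgenFin K N O hN) hDed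
  rw [sBar_fin K N O hN] at h
  exact h

include hprime in
/-- Compatibility with coefficientwise reduction: `y ∈ O((q)) ∩ FF K N` is a quotient `a / b` of
elements of the finite chart with `b ∉ 𝔪_O R` and `ā = ȳ · b̄`. -/
theorem redFin_compat (y : LaurentSeries ↥O)
    (hy : coeffMap O.subtype y ∈ modularFunctionFieldFullC K N) :
    ∃ a b : Rfin K N O, b ∉ fibreIdeal K N O (Rfin K N O) ∧
      (⟨coeffMap O.subtype y, hy⟩ : FF K N) * (b : FF K N) = (a : FF K N) ∧
      ((redFin K N O hN a : FF κ N) : LaurentSeries κ) =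
        coeffMap (IsLocalRing.residue ↥O) y * ((redFin K N O hN b : FF κ N) : LaurentSeries κ) := by
  have hfrac := Fermat.Agent.N4.FFAlgebraic.exists_mul_mem_chartAlg K N O _
    (Fermat.Agent.N4.FFAlgebraic.transcendental_jF K N)
    (Fermat.Agent.N4.FFAlgebraic.isAlgebraic_jF K N)
  obtain ⟨a, b, hb, hab, h⟩ := compat K N O (jF_mem_gaussSubalgebra K N O)
    (transcendental_theta_jF K N O) hprime hfrac y hy
  exact ⟨a, b, hb, hab, h⟩

end Fin

/-! ### The chart at infinity -/

section Inf

theorem transcendental_theta_jF_inv :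
    Transcendental κ (theta K N O ⟨(jF K N)⁻¹, jF_inv_mem_gaussSubalgebra K N O⟩) := by
  rw [theta_jF_inv]
  intro halg
  exact Fermat.Agent.S24.FFBasics.transcendental_jqModC _ (by simpa using halg.inv)

include hN in
theorem h2aInf : ∀ g : FF K N, g ∈ Rinf K N O → ∀ hg : g ∈ gaussSubalgebra K N O,
    theta K N O ⟨g, hg⟩ ∈ modularFunctionFieldFullC (IsLocalRing.ResidueField ↥O) N :=
  fun _ hg hgG => theta_mem_full_of_mem_Rinf K N O hN hg hgG

/-- The reduction of the chart at infinity, with values in `FF κ N`. -/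
noncomputable def redInf : Rinf K N O →+* FF (IsLocalRing.ResidueField ↥O) N :=
  redChart K N O (jF_inv_mem_gaussSubalgebra K N O) (h2aInf K N O hN)

theorem coe_redInf (x : Rinf K N O) :
    ((redInf K N O hN x : FF κ N) : LaurentSeries κ) =
      theta K N O ⟨x, chartAlg_le_gaussSubalgebra K N O
        (Set.singleton_subset_iff.mpr (jF_inv_mem_gaussSubalgebra K N O)) x.2⟩ := rfl

theorem sBar_inf :
    sBar K N O (jF_inv_mem_gaussSubalgebra K N O) (h2aInf K N O hN) = (jF κ N)⁻¹ := by
  apply Subtype.ext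
  rw [coe_sBar, theta_jF_inv, IntermediateField.coe_inv]
  rfl

theorem redInf_jInvInf : redInf K N O hN (jInvInf K N O) = (jF κ N)⁻¹ := sBar_inf K N O hN

theorem redInf_algebraMap (a : ↥O) :
    redInf K N O hN (algebraMap ↥O (Rinf K N O) a) =
      algebraMap κ (FF κ N) (IsLocalRing.residue ↥O a) :=
  redChart_algebraMap K N O _ _ a

theorem redInf_mem_SigmaInf (x : Rinf K N O) : redInf K N O hN x ∈ SigmaInf κ N := by
  have h := redChart_mem_chartAlg K N O (jF_inv_mem_gaussSubalgebra K N O) (h2aInf K N O hN) x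
  rw [sBar_inf K N O hN] at h
  exact h

theorem hgenInf : ∀ (d : ℕ) [NeZero d], d ∣ N → ∃ a b : Rinf K N O,
    redInf K N O hN b ≠ 0 ∧
    ((redInf K N O hN a : FF (IsLocalRing.ResidueField ↥O) N) :
        LaurentSeries (IsLocalRing.ResidueField ↥O)) =
      qExpand (IsLocalRing.ResidueField ↥O) d (jqModC (IsLocalRing.ResidueField ↥O)) *
        ((redInf K N O hN b : FF (IsLocalRing.ResidueField ↥O) N) :
          LaurentSeries (IsLocalRing.ResidueField ↥O)) := by
  intro d _ hd
  have hjd : jdF K N hd ∈ chartAlg ↥O (FF K N) (insert ((jF K N)⁻¹)⁻¹ {(jF K N)⁻¹}) := by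
    refine chartAlg_mono ?_ (jdF_mem_Rfin K N O hd)
    rw [inv_inv]
    exact Set.singleton_subset_iff.mpr (Set.mem_insert _ _)
  obtain ⟨n, hn⟩ := exists_pow_mul_mem_chartAlg (S := {(jF K N)⁻¹}) (s := (jF K N)⁻¹)
    (Set.mem_singleton _) (inv_ne_zero (jF_ne_zero K N)) hjd
  set t : gaussSubalgebra K N O := ⟨(jF K N)⁻¹, jF_inv_mem_gaussSubalgebra K N O⟩ with ht
  have htne : theta K N O t ≠ 0 := by
    rw [ht, theta_jF_inv]
    exact inv_ne_zero (jqModC_ne_zero_of_nontrivial _)
  refine ⟨⟨_, hn⟩, (jInvInf K N O) ^ n, ?_, ?_⟩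
  · intro h0
    have h1 := congrArg Subtype.val h0
    rw [map_pow] at h1
    have h2 : ((redInf K N O hN (jInvInf K N O) ^ n : FF κ N) : LaurentSeries κ) =
        (theta K N O t) ^ n := rfl
    rw [h2] at h1
    exact pow_ne_zero n htne h1
  · have h1 : ((redInf K N O hN ⟨_, hn⟩ : FF κ N) : LaurentSeries κ) =
        theta K N O (t ^ n * ⟨jdF K N hd, jdF_mem_gaussSubalgebra K N O hd⟩) := rfl
    have h2 : ((redInf K N O hN ((jInvInf K N O) ^ n) : FF κ N) : LaurentSeries κ) =
        theta K N O (t ^ n) := rfl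
    rw [h1, h2, map_mul, theta_jdF, mul_comm]

/-- Every element of `FF κ N` is a quotient of reductions of elements of the chart at infinity. -/
theorem exists_frac_inf (z : FF κ N) : ∃ a b : Rinf K N O,
    redInf K N O hN b ≠ 0 ∧ z * redInf K N O hN b = redInf K N O hN a :=
  exists_frac K N O _ _ (hgenInf K N O hN) z

include hN in
/-- `FF κ N` is the fraction field of `SigmaInf κ N`. -/
theorem isFractionRing_SigmaInf : IsFractionRing (SigmaInf κ N) (FF κ N) := by
  have h := isFractionRing_chartAlg K N O (jF_inv_mem_gaussSubalgebra K N O) (h2aInf K N O hN)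
    (hgenInf K N O hN)
  rw [sBar_inf K N O hN] at h
  exact h

variable (hprime : (fibreIdeal K N O (Rinf K N O)).IsPrime)

include hprime in
/-- The kernel of the reduction of the chart at infinity is `𝔪_O R`. -/
theorem ker_redInf : RingHom.ker (redInf K N O hN) = fibreIdeal K N O (Rinf K N O) :=
  ker_redChart K N O _ _ (transcendental_theta_jF_inv K N O) hprime

variable (hDed : IsDedekindDomain (Rinf K N O ⧸ fibreIdeal K N O (Rinf K N O)))

include hprime hDed in
/-- **The range of the reduction of the chart at infinity is `SigmaInf κ N`.** -/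
theorem exists_redInf_eq {z : FF κ N} (hz : z ∈ SigmaInf κ N) :
    ∃ x : Rinf K N O, redInf K N O hN x = z := by
  have hz' : z ∈ chartAlg κ (FF κ N)
      {sBar K N O (jF_inv_mem_gaussSubalgebra K N O) (h2aInf K N O hN)} := by
    rw [sBar_inf K N O hN]
    exact hz
  exact exists_redChart_eq K N O _ _ (transcendental_theta_jF_inv K N O) hprime
    (hgenInf K N O hN) hDed hz'

include hN hprime hDed in
/-- `SigmaInf κ N` is a Dedekind domain. -/
theorem isDedekindDomain_SigmaInf : IsDedekindDomain (SigmaInf κ N) := by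
  have h := isDedekindDomain_chartAlg K N O _ _ (transcendental_theta_jF_inv K N O) hprime
    (hgenInf K N O hN) hDed
  rw [sBar_inf K N O hN] at h
  exact h

include hprime in
/-- Compatibility with coefficientwise reduction, chart at infinity. -/
theorem redInf_compat (y : LaurentSeries ↥O)
    (hy : coeffMap O.subtype y ∈ modularFunctionFieldFullC K N) :
    ∃ a b : Rinf K N O, b ∉ fibreIdeal K N O (Rinf K N O) ∧
      (⟨coeffMap O.subtype y, hy⟩ : FF K N) * (b : FF K N) = (a : FF K N) ∧
      ((redInf K N O hN a : FF κ N) : LaurentSeries κ) =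
        coeffMap (IsLocalRing.residue ↥O) y * ((redInf K N O hN b : FF κ N) : LaurentSeries κ) := by
  have hfrac := Fermat.Agent.N4.FFAlgebraic.exists_mul_mem_chartAlg K N O _
    (Fermat.Agent.N4.FFAlgebraic.transcendental_jF_inv K N)
    (Fermat.Agent.N4.FFAlgebraic.isAlgebraic_jF_inv K N)
  obtain ⟨a, b, hb, hab, h⟩ := compat K N O (jF_inv_mem_gaussSubalgebra K N O)
    (transcendental_theta_jF_inv K N O) hprime hfrac y hy
  exact ⟨a, b, hb, hab, h⟩

end Inf

end Fermat.Agent.N4F.C.ChartFibre
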