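/-
N4-FULL block C, node C2 part 4 (helper9): transport of the charts of the special fibre along an
isomorphism of the field of constants.

For a ring isomorphism `e : k ≃+* k'` of fields: `ffEquiv e N : FF k N ≃+* FF k' N` (coefficientwise),
it maps `SigmaFin k N` onto `SigmaFin k' N` and `SigmaInf k N` onto `SigmaInf k' N`; hence the Dedekind
property and "fraction field = `FF · N`" transfer from `k` to `k'`.
-/
import Mathlib
import Fermat.Agent.N4.BaseDescent
import Fermat.Agent.N4F.C.ChartFibre

set_option autoImplicit false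
set_option linter.unusedSectionVars false
set_option linter.style.haveILetI false
set_option synthInstance.maxHeartbeats 400000
set_option maxHeartbeats 800000

open Polynomial

namespace Fermat.Agent.N4F.C.SigmaTransport

open ModularCurve Fermat.Agent.N4.Chart Fermat.Agent.N4.Setting Fermat.Agent.N4.BaseDescent
  Fermat.Agent.N4F.C.ChartFibre Fermat.Agent.N4F.C.ChartRange

variable {k k' : Type} [Field k] [Field k'] (N : ℕ)

section Hom

variable (f : k →+* k')

/-- A homomorphism of the fields of constants maps charts into charts. -/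
theorem ffMap_mem_chartAlg_field {s x : FF k N} (hx : x ∈ chartAlg k (FF k N) {s}) :
    ffMap f N x ∈ chartAlg k' (FF k' N) {ffMap f N s} := by
  rw [mem_chartAlg_iff] at hx ⊢
  have hmem' : ∀ a : FF k N, a ∈ Algebra.adjoin k ({s} : Set (FF k N)) →
      ffMap f N a ∈ Algebra.adjoin k' ({ffMap f N s} : Set (FF k' N)) := by
    intro a ha
    induction ha using Algebra.adjoin_induction with
    | mem y hy =>
      rw [Set.mem_singleton_iff] at hy
      rw [hy]
      exact Algebra.subset_adjoin rfl
    | algebraMap c =>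
      rw [ffMap_algebraMap]
      exact Subalgebra.algebraMap_mem _ _
    | add y z _ _ hy hz => rw [map_add]; exact add_mem hy hz
    | mul y z _ _ hy hz => rw [map_mul]; exact mul_mem hy hz
  have hmem : ∀ a : ↥(Algebra.adjoin k ({s} : Set (FF k N))),
      ffMap f N (a : FF k N) ∈ Algebra.adjoin k' ({ffMap f N s} : Set (FF k' N)) :=
    fun a => hmem' a a.2
  let g : ↥(Algebra.adjoin k ({s} : Set (FF k N))) →+*
      ↥(Algebra.adjoin k' ({ffMap f N s} : Set (FF k' N))) :=
    ((ffMap f N).comp (algebraMap ↥(Algebra.adjoin k ({s} : Set (FF k N))) (FF k N))).codRestrict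
      (Algebra.adjoin k' ({ffMap f N s} : Set (FF k' N))) hmem
  exact hx.map_of_comp_eq g (ffMap f N) (by ext; rfl)

theorem ffMap_mem_SigmaFin {x : FF k N} (hx : x ∈ SigmaFin k N) :
    ffMap f N x ∈ SigmaFin k' N := by
  have h := ffMap_mem_chartAlg_field N f hx
  rwa [ffMap_jF] at h

theorem ffMap_mem_SigmaInf {x : FF k N} (hx : x ∈ SigmaInf k N) :
    ffMap f N x ∈ SigmaInf k' N := by
  have h := ffMap_mem_chartAlg_field N f hx
  rwa [map_inv₀, ffMap_jF] at h

end Hom

section Equiv

variable (e : k ≃+* k')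

theorem ffMap_symm_ffMap (x : FF k N) :
    ffMap (e.symm : k' →+* k) N (ffMap (e : k →+* k') N x) = x := by
  apply Subtype.ext
  rw [coe_ffMap, coe_ffMap, coeffMap_coeffMap]
  have h : (e.symm : k' →+* k).comp (e : k →+* k') = RingHom.id k := by
    ext a
    simp
  rw [coeffMap_congr h, coeffMap_id]

theorem ffMap_ffMap_symm (x : FF k' N) :
    ffMap (e : k →+* k') N (ffMap (e.symm : k' →+* k) N x) = x := by
  apply Subtype.ext
  rw [coe_ffMap, coe_ffMap, coeffMap_coeffMap]
  have h : (e : k →+* k').comp (e.symm : k' →+* k) = RingHom.id k' := by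
    ext a
    simp
  rw [coeffMap_congr h, coeffMap_id]

/-- Coefficientwise transport of the function field along an isomorphism of the constants. -/
noncomputable def ffEquiv : FF k N ≃+* FF k' N :=
  RingEquiv.ofRingHom (ffMap (e : k →+* k') N) (ffMap (e.symm : k' →+* k) N)
    (RingHom.ext (ffMap_ffMap_symm N e)) (RingHom.ext (ffMap_symm_ffMap N e))

@[simp] theorem ffEquiv_apply (x : FF k N) : ffEquiv N e x = ffMap (e : k →+* k') N x := rfl

theorem mem_SigmaFin_iff {x : FF k N} :
    ffMap (e : k →+* k') N x ∈ SigmaFin k' N ↔ x ∈ SigmaFin k N := by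
  constructor
  · intro h
    have := ffMap_mem_SigmaFin N (e.symm : k' →+* k) h
    rwa [ffMap_symm_ffMap] at this
  · exact ffMap_mem_SigmaFin N _

theorem mem_SigmaInf_iff {x : FF k N} :
    ffMap (e : k →+* k') N x ∈ SigmaInf k' N ↔ x ∈ SigmaInf k N := by
  constructor
  · intro h
    have := ffMap_mem_SigmaInf N (e.symm : k' →+* k) h
    rwa [ffMap_symm_ffMap] at this
  · exact ffMap_mem_SigmaInf N _

/-- Transport of a chart of the special fibre. -/
noncomputable def chartEquiv (S : Subalgebra k (FF k N)) (S' : Subalgebra k' (FF k' N))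
    (h : ∀ x : FF k N, ffMap (e : k →+* k') N x ∈ S' ↔ x ∈ S) : ↥S ≃+* ↥S' where
  toFun x := ⟨ffMap (e : k →+* k') N x, (h x).mpr x.2⟩
  invFun y := ⟨ffMap (e.symm : k' →+* k) N y, (h _).mp (by rw [ffMap_ffMap_symm]; exact y.2)⟩
  left_inv x := Subtype.ext (ffMap_symm_ffMap N e x)
  right_inv y := Subtype.ext (ffMap_ffMap_symm N e y)
  map_mul' x y := Subtype.ext (map_mul _ _ _)
  map_add' x y := Subtype.ext (map_add _ _ _)

theorem isDedekindDomain_transport (S : Subalgebra k (FF k N)) (S' : Subalgebra k' (FF k' N))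
    (h : ∀ x : FF k N, ffMap (e : k →+* k') N x ∈ S' ↔ x ∈ S) [IsDedekindDomain ↥S] :
    IsDedekindDomain ↥S' :=
  isDedekindDomain_of_ringEquiv (chartEquiv N e S S' h)

theorem isFractionRing_transport (S : Subalgebra k (FF k N)) (S' : Subalgebra k' (FF k' N))
    (h : ∀ x : FF k N, ffMap (e : k →+* k') N x ∈ S' ↔ x ∈ S) [IsFractionRing ↥S (FF k N)] :
    IsFractionRing ↥S' (FF k' N) := by
  haveI : FaithfulSMul ↥S' (FF k' N) :=
    (faithfulSMul_iff_algebraMap_injective _ _).mpr Subtype.val_injective
  refine IsFractionRing.of_field _ _ (fun z => ?_)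
  obtain ⟨a, b, hb, hab⟩ := IsFractionRing.div_surjective (A := ↥S)
    (ffMap (e.symm : k' →+* k) N z)
  refine ⟨⟨ffMap (e : k →+* k') N a, (h _).mpr a.2⟩, ⟨ffMap (e : k →+* k') N b, (h _).mpr b.2⟩, ?_⟩
  have h1 := congrArg (ffMap (e : k →+* k') N) hab
  rw [ffMap_ffMap_symm, map_div₀] at h1
  exact h1.symm

end Equiv

end Fermat.Agent.N4F.C.SigmaTransport
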