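/-
N4-FULL block C (helper9): the reduction maps at a finite level versus the `Q̄`-level reduction
`thetaBar / thetaFt` (moonshots #30, §5a, §5b).

Generic level: `K` a field with `K → Q̄`, `O ⊆ K` a discrete valuation ring with fraction field `K`,
`φ : O →+* A` a local homomorphism compatible with `K → Q̄`, `ι := ResidueField.map φ`.
* `lev_mem_gaussSub`, `thetaBar_lev : thetaBar A N (lev x) = coeffMap ι (theta x)`;
* `thetaFt_lev_fin / _inf : thetaFt A N (lev x) = ffMap ι N (redFin x)` for `x` in the charts.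
-/
import Mathlib
import Fermat.Agent.N4F.C.Base
import Fermat.Agent.N4F.C.ChartFibre
import Fermat.Agent.N4F.C.SigmaTransport
import Fermat.Agent.N4F.C.LevelCharts

set_option autoImplicit false
set_option linter.unusedSectionVars false
set_option linter.style.haveILetI false
set_option synthInstance.maxHeartbeats 400000
set_option maxHeartbeats 800000

open ModularCurve AlgebraicCurve

noncomputable section

namespace Fermat.Agent.N4F.C.ThetaLevel

open Fermat.Agent.N4.Chart Fermat.Agent.N4.Setting Fermat.Agent.N4.FibreEmbedding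
  Fermat.Agent.N4.BaseDescent Fermat.Agent.N4F.C Fermat.Agent.N4F.C.Levels
  Fermat.Agent.N4F.C.ChartReduction Fermat.Agent.N4F.C.ChartFibre

section Generic

variable (A : ValuationSubring Qb) (N : ℕ) [NeZero N]
  (K : Type) [Field K] [CharZero K] [Algebra K Qb]
  [Algebra K (Fb N)] [IsScalarTower K Qb (Fb N)]
  (O : Subring K) [IsDiscreteValuationRing ↥O] [IsFractionRing ↥O K]
  (φ : ↥O →+* ↥A) [IsLocalHom φ]

theorem hcomp (hφ : ∀ a : ↥O, ((φ a : ↥A) : Qb) = algebraMap K Qb (a : K)) :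
    (algebraMap K Qb).comp (algebraMap ↥O K) = (algebraMap ↥A Qb).comp φ :=
  RingHom.ext fun a => (hφ a).symm

/-- The Gauss reductions of `S28/GaussRing` and of `C/GaussBar` agree. -/
theorem gaussRed_eq_thetaBar (x : LaurentSeries K)
    (h : x ∈ Fermat.Agent.S28.Gauss.gaussRing ↥O K) (h' : x ∈ GaussBar.gaussBar ↥O K) :
    Fermat.Agent.S28.Gauss.gaussRed (⟨x, h⟩ : Fermat.Agent.S28.Gauss.gaussRing ↥O K) =
      GaussBar.thetaBar (⟨x, h'⟩ : GaussBar.gaussBar ↥O K) := by
  obtain ⟨a, b, hb, hab⟩ : ∃ a b : LaurentSeries ↥O, GaussBar.redBar ↥O b ≠ 0 ∧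
    x * GaussBar.embBar ↥O K b = GaussBar.embBar ↥O K a := id h'
  have h1 := Fermat.Agent.S28.Gauss.gaussRed_eq (⟨x, h⟩ : Fermat.Agent.S28.Gauss.gaussRing ↥O K)
    (a := a) (b := b) hb hab
  have h2 := GaussBar.thetaBar_eq (⟨x, h'⟩ : GaussBar.gaussBar ↥O K) hb hab
  rw [h1, h2]; rfl

theorem theta_eq_thetaBar {x : FF K N} (hx : x ∈ gaussSubalgebra K N O) :
    theta K N O ⟨x, hx⟩ =
      GaussBar.thetaBar (⟨(x : LaurentSeries K), hx⟩ : GaussBar.gaussBar ↥O K) :=
  gaussRed_eq_thetaBar K O (x : LaurentSeries K) hx hx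

theorem lev_mem_gaussSub (hφ : ∀ a : ↥O, ((φ a : ↥A) : Qb) = algebraMap K Qb (a : K))
    {x : FF K N} (hx : x ∈ gaussSubalgebra K N O) :
    lev K N x ∈ gaussSub A N := by
  rw [mem_gaussSub_iff, coe_lev]
  exact GaussBar.coeffMap_mem_gaussBar φ (algebraMap K Qb) (hcomp A K O φ hφ) hx

/-- **The `Q̄`-level reduction restricted to a level is the level reduction** (transported along
`ι = ResidueField.map φ`). -/
theorem thetaBar_lev (hφ : ∀ a : ↥O, ((φ a : ↥A) : Qb) = algebraMap K Qb (a : K))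
    {x : FF K N} (hx : x ∈ gaussSubalgebra K N O) :
    thetaBar A N (lev K N x) =
      coeffMap (IsLocalRing.ResidueField.map φ) (theta K N O ⟨x, hx⟩) := by
  rw [thetaBar_of_mem (lev_mem_gaussSub A N K O φ hφ hx), theta_eq_thetaBar N K O hx]
  exact GaussBar.thetaBar_coeffMap φ (algebraMap K Qb) (hcomp A K O φ hφ)
    (⟨(x : LaurentSeries K), hx⟩ : GaussBar.gaussBar ↥O K)


/-- **`thetaFt` on the finite chart of a level.** -/
theorem thetaFt_lev_fin (hφ : ∀ a : ↥O, ((φ a : ↥A) : Qb) = algebraMap K Qb (a : K))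
    (hN : IsUnit ((N : ℕ) : ↥O)) (x : Rfin K N O) :
    thetaFt A N (lev K N (x : FF K N)) =
      ffMap (IsLocalRing.ResidueField.map φ) N (redFin K N O hN x) := by
  have hx : (x : FF K N) ∈ gaussSubalgebra K N O := chartAlg_le_gaussSubalgebra K N O
    (Set.singleton_subset_iff.mpr (jF_mem_gaussSubalgebra K N O)) x.2
  have h1 : thetaBar A N (lev K N (x : FF K N)) =
      ((ffMap (IsLocalRing.ResidueField.map φ) N (redFin K N O hN x) : FF (Kap A) N) :
        LaurentSeries (Kap A)) := by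
    rw [thetaBar_lev A N K O φ hφ hx, coe_ffMap, coe_redFin]
  have hmem : thetaBar A N (lev K N (x : FF K N)) ∈ modularFunctionFieldFullC (Kap A) N := by
    rw [h1]; exact SetLike.coe_mem _
  apply Subtype.ext
  rw [coe_thetaFt_of_mem hmem, h1]

/-- **`thetaFt` on the chart at infinity of a level.** -/
theorem thetaFt_lev_inf (hφ : ∀ a : ↥O, ((φ a : ↥A) : Qb) = algebraMap K Qb (a : K))
    (hN : IsUnit ((N : ℕ) : ↥O)) (x : Rinf K N O) :
    thetaFt A N (lev K N (x : FF K N)) =
      ffMap (IsLocalRing.ResidueField.map φ) N (redInf K N O hN x) := by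
  have hx : (x : FF K N) ∈ gaussSubalgebra K N O := chartAlg_le_gaussSubalgebra K N O
    (Set.singleton_subset_iff.mpr (jF_inv_mem_gaussSubalgebra K N O)) x.2
  have h1 : thetaBar A N (lev K N (x : FF K N)) =
      ((ffMap (IsLocalRing.ResidueField.map φ) N (redInf K N O hN x) : FF (Kap A) N) :
        LaurentSeries (Kap A)) := by
    rw [thetaBar_lev A N K O φ hφ hx, coe_ffMap, coe_redInf]
  have hmem : thetaBar A N (lev K N (x : FF K N)) ∈ modularFunctionFieldFullC (Kap A) N := by
    rw [h1]; exact SetLike.coe_mem _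
  apply Subtype.ext
  rw [coe_thetaFt_of_mem hmem, h1]

/-- `thetaBar` of a level chart element lies in the function field of the special fibre. -/
theorem thetaBar_lev_mem_fin (hφ : ∀ a : ↥O, ((φ a : ↥A) : Qb) = algebraMap K Qb (a : K))
    (hN : IsUnit ((N : ℕ) : ↥O)) (x : Rfin K N O) :
    thetaBar A N (lev K N (x : FF K N)) ∈ modularFunctionFieldFullC (Kap A) N := by
  have hx : (x : FF K N) ∈ gaussSubalgebra K N O := chartAlg_le_gaussSubalgebra K N O
    (Set.singleton_subset_iff.mpr (jF_mem_gaussSubalgebra K N O)) x.2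
  rw [thetaBar_lev A N K O φ hφ hx]
  exact coeffMap_mem_full _ N (theta_mem_full_of_mem_Rfin K N O hN x.2 hx)

theorem thetaBar_lev_mem_inf (hφ : ∀ a : ↥O, ((φ a : ↥A) : Qb) = algebraMap K Qb (a : K))
    (hN : IsUnit ((N : ℕ) : ↥O)) (x : Rinf K N O) :
    thetaBar A N (lev K N (x : FF K N)) ∈ modularFunctionFieldFullC (Kap A) N := by
  have hx : (x : FF K N) ∈ gaussSubalgebra K N O := chartAlg_le_gaussSubalgebra K N O
    (Set.singleton_subset_iff.mpr (jF_inv_mem_gaussSubalgebra K N O)) x.2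
  rw [thetaBar_lev A N K O φ hφ hx]
  exact coeffMap_mem_full _ N (theta_mem_full_of_mem_Rinf K N O hN x.2 hx)

end Generic

end Fermat.Agent.N4F.C.ThetaLevel
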