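/-
N4-FULL block C (helper9): the two `ChartFacts` bundles of `C/Centre.lean` (helper22), i.e. the
reduction map `thetaFt` maps the `Q̄`-level charts `RtFin A N`, `RtInf A N` ONTO the Dedekind domains
`SigmaFin κ N`, `SigmaInf κ N` (`κ = Kap A`) with kernel `⊆ 𝔪_A · R̃` (moonshots #30, §5a–§5c).

Everything is read off at a good level `K` (`C/LevelCharts.exists_level_of_finite`), where
`C/ChartFibre` gives the statements for the reduction `redFin / redInf` of the level charts, and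
transported along `ι_K : k_K ≃ κ` (`C/ThetaLevel`, `C/SigmaTransport`).
-/
import Mathlib
import Fermat.Agent.N4F.C.ThetaLevel
import Fermat.Agent.N4F.C.LevelStatements
import Fermat.Agent.N4F.C.Centre

set_option autoImplicit false
set_option linter.unusedSectionVars false
set_option linter.style.haveILetI false
set_option synthInstance.maxHeartbeats 400000
set_option maxHeartbeats 800000

open ModularCurve AlgebraicCurve

noncomputable section

namespace Fermat.Agent.N4F.C.ChartFactsProof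

open Fermat.Agent.N4.Chart Fermat.Agent.N4.Setting Fermat.Agent.N4.FibreEmbedding
  Fermat.Agent.N4.BaseDescent Fermat.Agent.N4F.C Fermat.Agent.N4F.C.Levels
  Fermat.Agent.N4F.C.ChartReduction Fermat.Agent.N4F.C.ChartFibre
  Fermat.Agent.N4F.C.SigmaTransport Fermat.Agent.N4F.C.ThetaLevel

/-! ### A generic level -/

section Generic

variable (A : ValuationSubring Qb) (N : ℕ) [NeZero N]
  (K : Type) [Field K] [CharZero K] [Algebra K Qb]
  [Algebra K (Fb N)] [IsScalarTower K Qb (Fb N)]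
  (O : Subring K) [IsDiscreteValuationRing ↥O] [IsFractionRing ↥O K]
  (φ : ↥O →+* ↥A) [IsLocalHom φ]

/-- `ι_K` as a ring isomorphism. -/
def iotaEquiv (hbij : Function.Bijective (IsLocalRing.ResidueField.map φ)) :
    IsLocalRing.ResidueField ↥O ≃+* Kap A :=
  RingEquiv.ofBijective (IsLocalRing.ResidueField.map φ) hbij

theorem coe_iotaEquiv (hbij : Function.Bijective (IsLocalRing.ResidueField.map φ)) :
    ((iotaEquiv A K O φ hbij : IsLocalRing.ResidueField ↥O ≃+* Kap A) :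
      IsLocalRing.ResidueField ↥O →+* Kap A) = IsLocalRing.ResidueField.map φ :=
  RingHom.ext fun _ => rfl

/-! #### the finite chart -/

theorem thetaFt_lev_mem_SigmaFin
    (hφ : ∀ a : ↥O, ((φ a : ↥A) : Qb) = algebraMap K Qb (a : K))
    (hN : IsUnit ((N : ℕ) : ↥O)) (x : Rfin K N O) :
    thetaFt A N (lev K N (x : FF K N)) ∈ SigmaFin (Kap A) N := by
  rw [thetaFt_lev_fin A N K O φ hφ hN x]
  exact ffMap_mem_SigmaFin N _ (redFin_mem_SigmaFin K N O hN x)

theorem exists_thetaFt_lev_eq_fin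
    (hφ : ∀ a : ↥O, ((φ a : ↥A) : Qb) = algebraMap K Qb (a : K))
    (hN : IsUnit ((N : ℕ) : ↥O))
    (hbij : Function.Bijective (IsLocalRing.ResidueField.map φ))
    (hprime : (fibreIdeal K N O (Rfin K N O)).IsPrime)
    (hDed : IsDedekindDomain (Rfin K N O ⧸ fibreIdeal K N O (Rfin K N O)))
    {b : Ft A N} (hb : b ∈ SigmaFin (Kap A) N) :
    ∃ x : Rfin K N O, thetaFt A N (lev K N (x : FF K N)) = b := by
  set e := iotaEquiv A K O φ hbij with he
  have hb' : ffMap (e.symm : Kap A →+* IsLocalRing.ResidueField ↥O) N b ∈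
      SigmaFin (IsLocalRing.ResidueField ↥O) N := by
    rw [← mem_SigmaFin_iff N e, ffMap_ffMap_symm]
    exact hb
  obtain ⟨x, hx⟩ := exists_redFin_eq K N O hN hprime hDed hb'
  refine ⟨x, ?_⟩
  rw [thetaFt_lev_fin A N K O φ hφ hN x, hx, ← coe_iotaEquiv A K O φ hbij]
  exact ffMap_ffMap_symm N e b

theorem mem_fibreIdeal_of_thetaFt_lev_eq_zero_fin
    (hφ : ∀ a : ↥O, ((φ a : ↥A) : Qb) = algebraMap K Qb (a : K))
    (hN : IsUnit ((N : ℕ) : ↥O))
    (hprime : (fibreIdeal K N O (Rfin K N O)).IsPrime)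
    (x : Rfin K N O) (hx : thetaFt A N (lev K N (x : FF K N)) = 0) :
    x ∈ fibreIdeal K N O (Rfin K N O) := by
  rw [thetaFt_lev_fin A N K O φ hφ hN x] at hx
  have h0 : redFin K N O hN x = 0 :=
    ffMap_injective (IsLocalRing.ResidueField.map φ) N (hx.trans (map_zero _).symm)
  rw [← ker_redFin K N O hN hprime]
  exact h0

theorem isDedekindDomain_SigmaFin_of_level
    (hN : IsUnit ((N : ℕ) : ↥O))
    (hbij : Function.Bijective (IsLocalRing.ResidueField.map φ))
    (hprime : (fibreIdeal K N O (Rfin K N O)).IsPrime)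
    (hDed : IsDedekindDomain (Rfin K N O ⧸ fibreIdeal K N O (Rfin K N O))) :
    IsDedekindDomain ↥(SigmaFin (Kap A) N) := by
  haveI := isDedekindDomain_SigmaFin K N O hN hprime hDed
  exact isDedekindDomain_transport N (iotaEquiv A K O φ hbij)
    (SigmaFin (IsLocalRing.ResidueField ↥O) N) (SigmaFin (Kap A) N)
    (fun x => mem_SigmaFin_iff N (iotaEquiv A K O φ hbij))

theorem isFractionRing_SigmaFin_of_level
    (hN : IsUnit ((N : ℕ) : ↥O))
    (hbij : Function.Bijective (IsLocalRing.ResidueField.map φ)) :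
    IsFractionRing ↥(SigmaFin (Kap A) N) (Ft A N) := by
  haveI := isFractionRing_SigmaFin K N O hN
  exact isFractionRing_transport N (iotaEquiv A K O φ hbij)
    (SigmaFin (IsLocalRing.ResidueField ↥O) N) (SigmaFin (Kap A) N)
    (fun x => mem_SigmaFin_iff N (iotaEquiv A K O φ hbij))

/-! #### the chart at infinity -/

theorem thetaFt_lev_mem_SigmaInf
    (hφ : ∀ a : ↥O, ((φ a : ↥A) : Qb) = algebraMap K Qb (a : K))
    (hN : IsUnit ((N : ℕ) : ↥O)) (x : Rinf K N O) :
    thetaFt A N (lev K N (x : FF K N)) ∈ SigmaInf (Kap A) N := by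
  rw [thetaFt_lev_inf A N K O φ hφ hN x]
  exact ffMap_mem_SigmaInf N _ (redInf_mem_SigmaInf K N O hN x)

theorem exists_thetaFt_lev_eq_inf
    (hφ : ∀ a : ↥O, ((φ a : ↥A) : Qb) = algebraMap K Qb (a : K))
    (hN : IsUnit ((N : ℕ) : ↥O))
    (hbij : Function.Bijective (IsLocalRing.ResidueField.map φ))
    (hprime : (fibreIdeal K N O (Rinf K N O)).IsPrime)
    (hDed : IsDedekindDomain (Rinf K N O ⧸ fibreIdeal K N O (Rinf K N O)))
    {b : Ft A N} (hb : b ∈ SigmaInf (Kap A) N) :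
    ∃ x : Rinf K N O, thetaFt A N (lev K N (x : FF K N)) = b := by
  set e := iotaEquiv A K O φ hbij with he
  have hb' : ffMap (e.symm : Kap A →+* IsLocalRing.ResidueField ↥O) N b ∈
      SigmaInf (IsLocalRing.ResidueField ↥O) N := by
    rw [← mem_SigmaInf_iff N e, ffMap_ffMap_symm]
    exact hb
  obtain ⟨x, hx⟩ := exists_redInf_eq K N O hN hprime hDed hb'
  refine ⟨x, ?_⟩
  rw [thetaFt_lev_inf A N K O φ hφ hN x, hx, ← coe_iotaEquiv A K O φ hbij]
  exact ffMap_ffMap_symm N e b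

theorem mem_fibreIdeal_of_thetaFt_lev_eq_zero_inf
    (hφ : ∀ a : ↥O, ((φ a : ↥A) : Qb) = algebraMap K Qb (a : K))
    (hN : IsUnit ((N : ℕ) : ↥O))
    (hprime : (fibreIdeal K N O (Rinf K N O)).IsPrime)
    (x : Rinf K N O) (hx : thetaFt A N (lev K N (x : FF K N)) = 0) :
    x ∈ fibreIdeal K N O (Rinf K N O) := by
  rw [thetaFt_lev_inf A N K O φ hφ hN x] at hx
  have h0 : redInf K N O hN x = 0 :=
    ffMap_injective (IsLocalRing.ResidueField.map φ) N (hx.trans (map_zero _).symm)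
  rw [← ker_redInf K N O hN hprime]
  exact h0

theorem isDedekindDomain_SigmaInf_of_level
    (hN : IsUnit ((N : ℕ) : ↥O))
    (hbij : Function.Bijective (IsLocalRing.ResidueField.map φ))
    (hprime : (fibreIdeal K N O (Rinf K N O)).IsPrime)
    (hDed : IsDedekindDomain (Rinf K N O ⧸ fibreIdeal K N O (Rinf K N O))) :
    IsDedekindDomain ↥(SigmaInf (Kap A) N) := by
  haveI := isDedekindDomain_SigmaInf K N O hN hprime hDed
  exact isDedekindDomain_transport N (iotaEquiv A K O φ hbij)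
    (SigmaInf (IsLocalRing.ResidueField ↥O) N) (SigmaInf (Kap A) N)
    (fun x => mem_SigmaInf_iff N (iotaEquiv A K O φ hbij))

theorem isFractionRing_SigmaInf_of_level
    (hN : IsUnit ((N : ℕ) : ↥O))
    (hbij : Function.Bijective (IsLocalRing.ResidueField.map φ)) :
    IsFractionRing ↥(SigmaInf (Kap A) N) (Ft A N) := by
  haveI := isFractionRing_SigmaInf K N O hN
  exact isFractionRing_transport N (iotaEquiv A K O φ hbij)
    (SigmaInf (IsLocalRing.ResidueField ↥O) N) (SigmaInf (Kap A) N)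
    (fun x => mem_SigmaInf_iff N (iotaEquiv A K O φ hbij))

end Generic


/-! ### The `Q̄`-level -/

section Top

open Fermat.Agent.N4.BigDVR Fermat.Agent.N4F.C.LevelCharts Fermat.Agent.N4F.C.LevelStatements
  Fermat.Agent.N4F.C.Centre

variable {A : ValuationSubring Qb} {N : ℕ} [NeZero N] {ℓ : ℕ}

instance isLocalHom_baseIncl_lvl (K : IntermediateField ℚ Qb) : IsLocalHom (baseIncl A K) :=
  isLocalHom_trIncl A K

/-- Everything the finite-level theory says about one good level `K`. -/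
structure LevelPack (A : ValuationSubring Qb) (N : ℕ) [NeZero N] (K : IntermediateField ℚ Qb)
    [IsDiscreteValuationRing ↥(baseRing A K)] : Prop where
  frac : IsFractionRing ↥(baseRing A K) (Lvl K)
  hN : IsUnit ((N : ℕ) : ↥(baseRing A K))
  hbij : Function.Bijective (IsLocalRing.ResidueField.map (baseIncl A K))
  primeFin : (fibreIdeal (Lvl K) N (baseRing A K) (Rfin (Lvl K) N (baseRing A K))).IsPrime
  primeInf : (fibreIdeal (Lvl K) N (baseRing A K) (Rinf (Lvl K) N (baseRing A K))).IsPrime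
  dedFin : IsDedekindDomain (Rfin (Lvl K) N (baseRing A K) ⧸
    fibreIdeal (Lvl K) N (baseRing A K) (Rfin (Lvl K) N (baseRing A K)))
  dedInf : IsDedekindDomain (Rinf (Lvl K) N (baseRing A K) ⧸
    fibreIdeal (Lvl K) N (baseRing A K) (Rinf (Lvl K) N (baseRing A K)))

theorem levelPack (hℓ : ℓ.Prime) (hA : A.LiesOverPrime ℓ) (hℓN : ¬ ℓ ∣ N)
    (K : IntermediateField ℚ Qb) [IsDiscreteValuationRing ↥(baseRing A K)]
    [IsAlgClosed (IsLocalRing.ResidueField ↥(baseRing A K))]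
    (hG : GoodBase (Lvl K) N (baseRing A K) ℓ)
    (hbij : Function.Bijective (IsLocalRing.ResidueField.map (trIncl A K)))
    (hroots : ∀ ξ ∈ goodRoots A, ξ ∈ K) : LevelPack A N K := by
  have hstar := starStatement_lvl hℓ hA K hG hroots
  have hsm := smoothStatement_lvl hℓ hA hℓN K hG hroots
  exact ⟨hG.frac, isUnit_natCast_of_goodBase (Lvl K) N (baseRing A K) hG, hbij,
    hstar.1.isPrime, hstar.2.isPrime, hsm.1, hsm.2⟩

/-- A good level over which finitely many functions are defined. -/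
theorem exists_levelPack (hℓ : ℓ.Prime) (hA : A.LiesOverPrime ℓ) (hℓN : ¬ ℓ ∣ N)
    (T : Finset (Fb N)) :
    ∃ (K : IntermediateField ℚ Qb) (_ : IsDiscreteValuationRing ↥(baseRing A K)),
      LevelPack A N K ∧
      (∀ t ∈ T, t ∈ RtFin A N → ∃ x ∈ Rfin (Lvl K) N (baseRing A K), levK N K x = t) ∧
      (∀ t ∈ T, t ∈ RtInf A N → ∃ x ∈ Rinf (Lvl K) N (baseRing A K), levK N K x = t) := by
  obtain ⟨K, -, ⟨hDVR, hAC, hG, hbij, hroots⟩, -, -, hfin, hinf⟩ :=
    exists_level_of_finite A N hℓ hA hℓN ∅ T ∅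
  exact ⟨K, hDVR, levelPack hℓ hA hℓN K hG hbij hroots, hfin, hinf⟩

variable (hℓ : ℓ.Prime) (hA : A.LiesOverPrime ℓ) (hℓN : ¬ ℓ ∣ N)

include hℓ hA hℓN

/-- **The facts on the reduction of the finite chart.** -/
theorem chartFacts_fin : ChartFacts A N (RtFin A N) (SigmaFin (Kap A) N) := by
  have key : ∀ g ∈ RtFin A N, ∃ (K : IntermediateField ℚ Qb)
      (_ : IsDiscreteValuationRing ↥(baseRing A K)), LevelPack A N K ∧
      ∃ x : Rfin (Lvl K) N (baseRing A K), levK N K (x : FF (Lvl K) N) = g := by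
    intro g hg
    obtain ⟨K, hDVR, hP, hfin, -⟩ := exists_levelPack hℓ hA hℓN {g}
    obtain ⟨x, hx, hxg⟩ := hfin g (Finset.mem_singleton_self g) hg
    exact ⟨K, hDVR, hP, ⟨x, hx⟩, hxg⟩
  obtain ⟨K₀, hDVR₀, hP₀, -, -⟩ := exists_levelPack hℓ hA hℓN (∅ : Finset (Fb N))
  refine ⟨?_, ?_, ?_, ?_, ?_, ?_, ?_, ?_⟩
  · intro g hg
    obtain ⟨K, hDVR, hP, x, rfl⟩ := key g hg
    haveI := hP.frac
    exact lev_mem_gaussSub A N (Lvl K) (baseRing A K) (baseIncl A K) (coe_baseIncl A K)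
      (chartAlg_le_gaussSubalgebra (Lvl K) N (baseRing A K)
        (Set.singleton_subset_iff.mpr (jF_mem_gaussSubalgebra (Lvl K) N (baseRing A K))) x.2)
  · intro g hg
    obtain ⟨K, hDVR, hP, x, rfl⟩ := key g hg
    haveI := hP.frac
    exact thetaBar_lev_mem_fin A N (Lvl K) (baseRing A K) (baseIncl A K) (coe_baseIncl A K) hP.hN x
  · intro g hg
    obtain ⟨K, hDVR, hP, x, rfl⟩ := key g hg
    haveI := hP.frac
    exact thetaFt_lev_mem_SigmaFin A N (Lvl K) (baseRing A K) (baseIncl A K) (coe_baseIncl A K)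
      hP.hN x
  · intro b hb
    haveI := hP₀.frac
    obtain ⟨x, hx⟩ := exists_thetaFt_lev_eq_fin A N (Lvl K₀) (baseRing A K₀) (baseIncl A K₀)
      (coe_baseIncl A K₀) hP₀.hN hP₀.hbij hP₀.primeFin hP₀.dedFin hb
    exact ⟨levK N K₀ (x : FF (Lvl K₀) N), lev_mem_RtFin A N K₀ x.2, hx⟩
  · intro g hg h0
    obtain ⟨K, hDVR, hP, x, rfl⟩ := key g hg
    haveI := hP.frac
    have hx := mem_fibreIdeal_of_thetaFt_lev_eq_zero_fin A N (Lvl K) (baseRing A K) (baseIncl A K)
      (coe_baseIncl A K) hP.hN hP.primeFin x h0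
    obtain ⟨ϖ, hϖ⟩ := IsDiscreteValuationRing.exists_irreducible ↥(baseRing A K)
    rw [fibreIdeal_eq_span (Lvl K) N (baseRing A K) hϖ, Ideal.mem_span_singleton'] at hx
    obtain ⟨x', hx'⟩ := hx
    refine ⟨baseIncl A K ϖ, ?_, levK N K (x' : FF (Lvl K) N), lev_mem_RtFin A N K x'.2, ?_⟩
    · rw [IsLocalRing.mem_maximalIdeal, mem_nonunits_iff]
      exact fun h => hϖ.not_isUnit (isUnit_of_map_unit (baseIncl A K) ϖ h)
    · rw [Algebra.smul_def, ← levK_algebraMap A N K ϖ, ← map_mul, ← hx']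
      congr 1
      show ((x' * algebraMap _ _ ϖ : Rfin (Lvl K) N (baseRing A K)) : FF (Lvl K) N) = _
      rw [mul_comm]
      rfl
  · haveI := hP₀.frac
    exact isDedekindDomain_SigmaFin_of_level A N (Lvl K₀) (baseRing A K₀) (baseIncl A K₀)
      hP₀.hN hP₀.hbij hP₀.primeFin hP₀.dedFin
  · haveI := hP₀.frac
    exact isFractionRing_SigmaFin_of_level A N (Lvl K₀) (baseRing A K₀) (baseIncl A K₀)
      hP₀.hN hP₀.hbij
  · refine ⟨jF (Kap A) N, subset_chartAlg _ (Set.mem_singleton _), fun c hc => ?_⟩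
    have h1 : Transcendental (Kap A) (jqModC (Kap A)) :=
      Fermat.Agent.S24.FFBasics.transcendental_jqModC _
    apply h1
    have h2 : jqModC (Kap A) = algebraMap (Kap A) (LaurentSeries (Kap A)) c := by
      have := congrArg (fun z : Ft A N => (z : LaurentSeries (Kap A))) hc
      simpa [coe_jF] using this
    rw [h2]
    exact isAlgebraic_algebraMap c

/-- **The facts on the reduction of the chart at infinity.** -/
theorem chartFacts_inf : ChartFacts A N (RtInf A N) (SigmaInf (Kap A) N) := by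
  have key : ∀ g ∈ RtInf A N, ∃ (K : IntermediateField ℚ Qb)
      (_ : IsDiscreteValuationRing ↥(baseRing A K)), LevelPack A N K ∧
      ∃ x : Rinf (Lvl K) N (baseRing A K), levK N K (x : FF (Lvl K) N) = g := by
    intro g hg
    obtain ⟨K, hDVR, hP, -, hfin⟩ := exists_levelPack hℓ hA hℓN {g}
    obtain ⟨x, hx, hxg⟩ := hfin g (Finset.mem_singleton_self g) hg
    exact ⟨K, hDVR, hP, ⟨x, hx⟩, hxg⟩
  obtain ⟨K₀, hDVR₀, hP₀, -, -⟩ := exists_levelPack hℓ hA hℓN (∅ : Finset (Fb N))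
  refine ⟨?_, ?_, ?_, ?_, ?_, ?_, ?_, ?_⟩
  · intro g hg
    obtain ⟨K, hDVR, hP, x, rfl⟩ := key g hg
    haveI := hP.frac
    exact lev_mem_gaussSub A N (Lvl K) (baseRing A K) (baseIncl A K) (coe_baseIncl A K)
      (chartAlg_le_gaussSubalgebra (Lvl K) N (baseRing A K)
        (Set.singleton_subset_iff.mpr (jF_inv_mem_gaussSubalgebra (Lvl K) N (baseRing A K))) x.2)
  · intro g hg
    obtain ⟨K, hDVR, hP, x, rfl⟩ := key g hg
    haveI := hP.frac
    exact thetaBar_lev_mem_inf A N (Lvl K) (baseRing A K) (baseIncl A K) (coe_baseIncl A K) hP.hN x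
  · intro g hg
    obtain ⟨K, hDVR, hP, x, rfl⟩ := key g hg
    haveI := hP.frac
    exact thetaFt_lev_mem_SigmaInf A N (Lvl K) (baseRing A K) (baseIncl A K) (coe_baseIncl A K)
      hP.hN x
  · intro b hb
    haveI := hP₀.frac
    obtain ⟨x, hx⟩ := exists_thetaFt_lev_eq_inf A N (Lvl K₀) (baseRing A K₀) (baseIncl A K₀)
      (coe_baseIncl A K₀) hP₀.hN hP₀.hbij hP₀.primeInf hP₀.dedInf hb
    exact ⟨levK N K₀ (x : FF (Lvl K₀) N), lev_mem_RtInf A N K₀ x.2, hx⟩
  · intro g hg h0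
    obtain ⟨K, hDVR, hP, x, rfl⟩ := key g hg
    haveI := hP.frac
    have hx := mem_fibreIdeal_of_thetaFt_lev_eq_zero_inf A N (Lvl K) (baseRing A K) (baseIncl A K)
      (coe_baseIncl A K) hP.hN hP.primeInf x h0
    obtain ⟨ϖ, hϖ⟩ := IsDiscreteValuationRing.exists_irreducible ↥(baseRing A K)
    rw [fibreIdeal_eq_span (Lvl K) N (baseRing A K) hϖ, Ideal.mem_span_singleton'] at hx
    obtain ⟨x', hx'⟩ := hx
    refine ⟨baseIncl A K ϖ, ?_, levK N K (x' : FF (Lvl K) N), lev_mem_RtInf A N K x'.2, ?_⟩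
    · rw [IsLocalRing.mem_maximalIdeal, mem_nonunits_iff]
      exact fun h => hϖ.not_isUnit (isUnit_of_map_unit (baseIncl A K) ϖ h)
    · rw [Algebra.smul_def, ← levK_algebraMap A N K ϖ, ← map_mul, ← hx']
      congr 1
      show ((x' * algebraMap _ _ ϖ : Rinf (Lvl K) N (baseRing A K)) : FF (Lvl K) N) = _
      rw [mul_comm]
      rfl
  · haveI := hP₀.frac
    exact isDedekindDomain_SigmaInf_of_level A N (Lvl K₀) (baseRing A K₀) (baseIncl A K₀)
      hP₀.hN hP₀.hbij hP₀.primeInf hP₀.dedInf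
  · haveI := hP₀.frac
    exact isFractionRing_SigmaInf_of_level A N (Lvl K₀) (baseRing A K₀) (baseIncl A K₀)
      hP₀.hN hP₀.hbij
  · refine ⟨(jF (Kap A) N)⁻¹, subset_chartAlg _ (Set.mem_singleton _), fun c hc => ?_⟩
    have h1 : Transcendental (Kap A) (jqModC (Kap A)) :=
      Fermat.Agent.S24.FFBasics.transcendental_jqModC _
    apply h1
    have hc' : jF (Kap A) N = algebraMap (Kap A) (Ft A N) c⁻¹ := by
      rw [map_inv₀, ← hc, inv_inv]
    have h2 : jqModC (Kap A) = algebraMap (Kap A) (LaurentSeries (Kap A)) c⁻¹ := by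
      have := congrArg (fun z : Ft A N => (z : LaurentSeries (Kap A))) hc'
      simpa [coe_jF] using this
    rw [h2]
    exact isAlgebraic_algebraMap c⁻¹

end Top

end Fermat.Agent.N4F.C.ChartFactsProof
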