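/-
N4-FULL block C, node C6 (helper16) = **(5e) / (T2)** of moonshots #30 (helper9's paper C): a place map
`r : Place Q̄ (Q̄·F_N) → Place κ (F_κ)` satisfying the congruences (T1) on the two charts is a *place
reduction* in the sense of the prelude (`IsPlaceReductionModL A N r`):
`ord_Q ȳ = ∑_{r P = Q} ord_P y` for every integral `q`-expansion `y` with nonzero reduction.

Inputs (all as hypotheses, to be plugged in C9):
* (T1) for `r` in the shapes of `C/Galois.smul_eq_of_T1` (`hfin`, `hinf`), and `Rt± ⊆ W_P`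
  (`hWfin`, `hWinf`): node C5;
* the level-wise chart data `ChartLevel` (C2 + `(∗)` + `(S)` transported to `κ`): for a level `K`
  and the chart `R = Rfin/Rinf`: a ring hom `ρ : R → F_κ` which is `thetaBar ∘ lev`, with kernel
  `(ϖ)`, Dedekind quotient, `Frac ρ(R) = F_κ`, `ρ(R) ⊆ O_Q` when the generator is regular at `Q`, and
  the fraction representation `y = a / b`, `ρ b ≠ 0` of `(∗)`;
* landed: C3 (`Levels`, `Rationality`, `LevelCharts`: levels, rationality, (3c), (3e)) and
  C4 (`LocalMult.ChartData.ord_reduction_eq_sum`, `CentredAt`).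

Main results: `mapDomain_apply_eq_sum`, `intAt_or_inv`, `place_eq_of_forall_mem_nonunits`
(a place of the special fibre is determined by its closed point on a chart), `centredAt_restrictK`
((5d), direct half), `eq_of_centredAt`, `chart_formula`, `ChartLevel`, `formula_at_level`,
`thetaFt_jb`, `thetaFt_jb_inv`, `not_intAt_jb_of_inv`, **`isPlaceReduction_of_T1`**.
-/
import Mathlib
import Fermat.Prelude.Def_ModularCurve_ReductionModL
import Fermat.Agent.N4F.C.Base
import Fermat.Agent.N4F.C.Rationality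
import Fermat.Agent.N4F.C.LevelCharts
import Fermat.Agent.N4F.C.LocalMult
import Fermat.Agent.N4.BigDVR
import Fermat.Agent.S24.Hurwitz
import Fermat.Agent.N4F.A.LevelMaps

set_option autoImplicit false
set_option linter.style.haveILetI false
set_option linter.unusedSectionVars false

open AlgebraicCurve ModularCurve
open Fermat.Agent.N4.Setting Fermat.Agent.S24
open Fermat.Agent.S24.PlaceDeriv (ResidueTrivial)
open Fermat.Agent.N4F.C.Levels Fermat.Agent.N4F.C.LevelCharts Fermat.Agent.N4F.C.LocalMult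

noncomputable section

namespace Fermat.Agent.N4F.C.Formula

/-! ### Instance shortcuts

The search for `Algebra κ (Ft A N)` (`κ` the residue field of `A`) is slow; we record the result once.
-/

set_option synthInstance.maxHeartbeats 400000 in
instance algebraKapFt (A : ValuationSubring Qb) (N : ℕ) : Algebra (Kap A) (Ft A N) := inferInstance

instance algebraLvlFF (N : ℕ) (K : IntermediateField ℚ Qb) : Algebra (Lvl K) (FF (Lvl K) N) :=
  inferInstance

set_option synthInstance.maxHeartbeats 400000 in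
instance algebraBaseFF (A : ValuationSubring Qb) (N : ℕ) (K : IntermediateField ℚ Qb) :
    Algebra ↥(baseRing A K) (FF (Lvl K) N) := inferInstance

set_option synthInstance.maxHeartbeats 400000 in
instance isScalarTowerBaseFF (A : ValuationSubring Qb) (N : ℕ) (K : IntermediateField ℚ Qb) :
    IsScalarTower ↥(baseRing A K) (Lvl K) (FF (Lvl K) N) := inferInstance

/-! ### Generalities -/

section Generalities

/-- The value of a push-forward divisor at a point: sum over the fibre. -/
theorem mapDomain_apply_eq_sum {α β : Type*} (r : α → β) (D : α →₀ ℤ) (Q : β)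
    [DecidablePred fun P => r P = Q] :
    Finsupp.mapDomain r D Q = ∑ P ∈ D.support.filter (fun P => r P = Q), D P := by
  classical
  rw [Finsupp.mapDomain, Finsupp.sum_apply, Finsupp.sum, Finset.sum_filter]
  refine Finset.sum_congr rfl fun P _ => ?_
  rw [Finsupp.single_apply]

/-- A Laurent series whose coefficients lie in the range of an injective ring homomorphism is a
coefficientwise image. -/
theorem exists_coeffMap_eq_of_coeff_mem {R S : Type*} [CommRing R] [CommRing S] (f : R →+* S)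
    (hf : Function.Injective f) (x : LaurentSeries S) (h : ∀ n, x.coeff n ∈ f.range) :
    ∃ y : LaurentSeries R, coeffMap f y = x := by
  choose g hg using h
  have hsupp : Function.support g ⊆ x.support := by
    intro n hn
    rw [Function.mem_support] at hn
    rw [HahnSeries.mem_support, ← hg n]
    exact fun h0 => hn (hf (h0.trans (map_zero f).symm))
  refine ⟨⟨g, x.isPWO_support.mono hsupp⟩, ?_⟩
  ext n
  rw [coeffMap_coeff]
  exact hg n

variable (A : ValuationSubring Qb) {N : ℕ} [NeZero N]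

/-- A function is regular at `P` with value in `A`, or its inverse is regular at `P` with value in
the maximal ideal of `A`. -/
theorem intAt_or_inv (P : Place Qb (Fb N)) (f : Fb N) :
    IntAt A P f ∨ ∃ c : ↥A, c ∈ IsLocalRing.maximalIdeal ↥A ∧
      f⁻¹ - algebraMap Qb (Fb N) (c : Qb) ∈ P.toValuationSubring.nonunits := by
  by_cases hf : f ∈ P.toValuationSubring
  · obtain ⟨c₀, hc₀⟩ := residueTrivial_bar N P ⟨f, hf⟩
    have h1 : f - algebraMap Qb (Fb N) c₀ ∈ P.toValuationSubring.nonunits :=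
      (ValuationSubring.coe_mem_nonunits_iff
        (a := (⟨f, hf⟩ : P.toValuationSubring) - algebraMap Qb P.toValuationSubring c₀)).mpr hc₀
    by_cases hcA : c₀ ∈ A
    · exact Or.inl ⟨⟨c₀, hcA⟩, h1⟩
    · right
      have hc0 : c₀ ≠ 0 := fun h => hcA (h ▸ A.zero_mem)
      have hinv : c₀⁻¹ ∈ A.nonunits := (A.inv_mem_nonunits_iff).mpr (Or.inr hcA)
      have hinvA : c₀⁻¹ ∈ A := A.nonunits_le hinv
      refine ⟨⟨c₀⁻¹, hinvA⟩, (ValuationSubring.coe_mem_nonunits_iff (a := ⟨c₀⁻¹, hinvA⟩)).mp hinv, ?_⟩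
      -- `f` is a unit at `P`
      have hfn : f ∉ P.toValuationSubring.nonunits := by
        intro hfn
        have h2 := nonunits_sub_mem P hfn h1
        rw [sub_sub_cancel] at h2
        exact const_not_mem_nonunits P hc0 h2
      have hf0 : f ≠ 0 := fun h => hfn (h ▸ C.zero_mem_nonunits P)
      have hfinv : f⁻¹ ∈ P.toValuationSubring := by
        by_contra h
        exact hfn ((P.toValuationSubring.mem_nonunits_iff_or).mpr (Or.inr h))
      have hcinv : algebraMap Qb (Fb N) c₀⁻¹ ∈ P.toValuationSubring := P.algebraMap_mem' _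
      have e : f⁻¹ - algebraMap Qb (Fb N) c₀⁻¹ =
          (-(f⁻¹ * algebraMap Qb (Fb N) c₀⁻¹)) * (f - algebraMap Qb (Fb N) c₀) := by
        have hc0' : algebraMap Qb (Fb N) c₀ ≠ 0 := (map_ne_zero _).mpr hc0
        rw [map_inv₀]
        field_simp
        ring
      show f⁻¹ - algebraMap Qb (Fb N) c₀⁻¹ ∈ _
      rw [e]
      exact mul_mem_nonunits_of_mem P (neg_mem (mul_mem hfinv hcinv)) h1
  · right
    refine ⟨0, Ideal.zero_mem _, ?_⟩
    have : f⁻¹ ∈ P.toValuationSubring.nonunits :=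
      (P.toValuationSubring.inv_mem_nonunits_iff).mpr (Or.inr hf)
    simpa using this

end Generalities

/-! ### Uniqueness of the place with a given closed point on a chart -/

section Unique

variable {O R k' F' : Type*} (K F : Type*)
  [CommRing O] [IsDomain O] [IsDiscreteValuationRing O]
  [Field K] [Algebra O K] [IsFractionRing O K]
  [Field F] [Algebra K F] [Algebra O F] [IsScalarTower O K F]
  [CommRing R] [IsDomain R] [IsNoetherianRing R] [Algebra R F] [IsFractionRing R F]
  [Algebra O R] [IsScalarTower O R F]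
  [Field k'] [Field F'] [Algebra k' F']
  {ϖ : O} {ρ : R →+* F'}

include K F in
theorem valuationSubring_le_of_pt_eq {Q Q' : Place k' F'} (h : ChartData ϖ ρ Q)
    (h' : ChartData ϖ ρ Q') (hpt : h.pt = h'.pt) :
    Q.toValuationSubring ≤ Q'.toValuationSubring := by
  intro z hz
  obtain ⟨y, hy⟩ := h.rhoS_surjective K (F := F) ⟨z, hz⟩
  obtain ⟨a, s, rfl⟩ := IsLocalization.exists_mk'_eq h.pt.primeCompl y
  have h1 := congrArg (h.rhoS F) (IsLocalization.mk'_spec (h.locRing F) a s)
  rw [map_mul, hy, ChartData.rhoS_algebraMap, ChartData.rhoS_algebraMap] at h1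
  have h2 : z * ρ s = ρ a := congrArg Subtype.val h1
  have hs : (s : R) ∉ h'.pt := hpt ▸ s.2
  have hs' : ρ s ∉ Q'.toValuationSubring.nonunits := fun hh =>
    hs ((mem_closedPoint_iff ρ Q' h'.mem).mpr hh)
  have hsinv : (ρ s)⁻¹ ∈ Q'.toValuationSubring := inv_mem_of_not_mem_nonunits Q' (h'.mem s) hs'
  have hs0 : ρ s ≠ 0 := fun h0 => hs' (h0 ▸ LocalMult.zero_mem_nonunits Q')
  have e : z = ρ a * (ρ s)⁻¹ := by rw [← h2, mul_assoc, mul_inv_cancel₀ hs0, mul_one]
  rw [e]
  exact mul_mem (h'.mem a) hsinv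

include K F in
/-- A place of the special fibre is determined by its closed point on a chart. -/
theorem place_eq_of_forall_mem_nonunits {Q Q' : Place k' F'} (h : ChartData ϖ ρ Q)
    (h' : ChartData ϖ ρ Q')
    (hle : ∀ r : R, ρ r ∈ Q.toValuationSubring.nonunits → ρ r ∈ Q'.toValuationSubring.nonunits) :
    Q = Q' := by
  have hle' : h.pt ≤ h'.pt := fun r hr =>
    (mem_closedPoint_iff ρ Q' h'.mem).mpr (hle r ((mem_closedPoint_iff ρ Q h.mem).mp hr))
  have hpt : h.pt = h'.pt :=
    h.pt_isMaximal.eq_of_le (closedPoint_isPrime ρ Q' h'.mem).ne_top hle'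
  exact Place.ext (le_antisymm (valuationSubring_le_of_pt_eq K F h h' hpt)
    (valuationSubring_le_of_pt_eq K F h' h hpt.symm))

end Unique

/-! ### One chart at one level -/

section Chart

open Fermat.Agent.N4.BigDVR

variable {A : ValuationSubring Qb} {N : ℕ} [NeZero N]
  {K : IntermediateField ℚ Qb} [IsDiscreteValuationRing ↥(baseRing A K)]
  {R : Subalgebra ↥(baseRing A K) (FF (Lvl K) N)}
  {ρ : ↥R →+* Ft A N}

theorem baseIncl_mem_maximalIdeal_iff (c : ↥(baseRing A K)) :
    baseIncl A K c ∈ IsLocalRing.maximalIdeal ↥A ↔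
      c ∈ IsLocalRing.maximalIdeal ↥(baseRing A K) := by
  have e : baseIncl A K c = trIncl A K c := Subtype.ext rfl
  rw [e, IsLocalRing.mem_maximalIdeal, IsLocalRing.mem_maximalIdeal, mem_nonunits_iff,
    mem_nonunits_iff, not_iff_not]
  exact isUnit_trIncl_iff A K c

/-- A congruence at the level `K` gives a congruence over `Q̄`. -/
theorem sub_mem_nonunits_of_restrictK {P : Place Qb (Fb N)} {x : FF (Lvl K) N}
    {c : ↥(baseRing A K)}
    (h : x - algebraMap ↥(baseRing A K) (FF (Lvl K) N) c ∈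
      (restrictK N K P).toValuationSubring.nonunits) :
    levK N K x - algebraMap Qb (Fb N) ((baseIncl A K c : ↥A) : Qb) ∈
      P.toValuationSubring.nonunits := by
  have h1 := ((extends_restrictK N K P).mem_nonunits_iff _).mpr h
  rwa [map_sub, levK_algebraMap] at h1

/-- **(5d), direct half.**  If `Q'` satisfies the congruences (T1) at `P` on a chart `Rt ⊇ lev R`
all of whose elements are integral at `P`, then the restriction of `P` to a level where it is
rational is centred at `Q'`. -/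
theorem centredAt_restrictK (Rt : Subalgebra ↥A (Fb N))
    (hlev : ∀ x : R, levK N K (x : FF (Lvl K) N) ∈ Rt)
    (hρ : ∀ x : R, ρ x = thetaFt A N (levK N K (x : FF (Lvl K) N)))
    (P : Place Qb (Fb N)) (Q' : Place (Kap A) (Ft A N))
    (hW : ∀ g ∈ Rt, IntAt A P g)
    (hspec : ∀ g ∈ Rt, ∀ c : ↥A,
      g - algebraMap Qb (Fb N) (c : Qb) ∈ P.toValuationSubring.nonunits →
      thetaFt A N g - algebraMap (Kap A) (Ft A N) (IsLocalRing.residue ↥A c) ∈
        Q'.toValuationSubring.nonunits)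
    (hres : ResidueTrivial (restrictK N K P)) :
    CentredAt ↥(baseRing A K) ρ Q' (restrictK N K P) := by
  have hmem : ∀ x : R, (x : FF (Lvl K) N) ∈ (restrictK N K P).toValuationSubring := fun x =>
    (mem_restrictK_iff N K P _).mpr (hW _ (hlev x)).mem
  refine ⟨hres, hmem, fun x => ?_, fun x c hc => ?_⟩
  · obtain ⟨c, hc⟩ := hW _ (hlev x)
    obtain ⟨c', hc'⟩ := hres ⟨x, hmem x⟩
    have h1 : (x : FF (Lvl K) N) - algebraMap (Lvl K) (FF (Lvl K) N) c' ∈
        (restrictK N K P).toValuationSubring.nonunits :=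
      (ValuationSubring.coe_mem_nonunits_iff
        (a := (⟨x, hmem x⟩ : (restrictK N K P).toValuationSubring) -
          algebraMap (Lvl K) (restrictK N K P).toValuationSubring c')).mpr hc'
    have h2 := ((extends_restrictK N K P).mem_nonunits_iff _).mpr h1
    rw [map_sub, AlgHom.commutes, IsScalarTower.algebraMap_apply (Lvl K) Qb (Fb N)] at h2
    have h3 := nonunits_sub_mem P h2 hc
    have e : levK N K (x : FF (Lvl K) N) - algebraMap Qb (Fb N) (algebraMap (Lvl K) Qb c') -
        (levK N K (x : FF (Lvl K) N) - algebraMap Qb (Fb N) (c : Qb)) =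
        algebraMap Qb (Fb N) ((c : Qb) - algebraMap (Lvl K) Qb c') := by
      rw [map_sub]; ring
    rw [e] at h3
    have h4 : (c : Qb) = algebraMap (Lvl K) Qb c' :=
      sub_eq_zero.mp (const_eq_zero_of_mem_nonunits P h3)
    have hc'mem : c' ∈ baseRing A K := by
      have h5 : algebraMap (Lvl K) Qb c' ∈ A := h4 ▸ c.2
      exact (mem_tr_iff A ↥K (x := (Lvl.toSub K c' : ↥K))).mpr h5
    exact ⟨⟨c', hc'mem⟩, h1⟩
  · have h1 := sub_mem_nonunits_of_restrictK hc
    have h2 := hspec _ (hlev x) (baseIncl A K c) h1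
    rw [← hρ x] at h2
    constructor
    · intro hcm
      have h3 : IsLocalRing.residue ↥A (baseIncl A K c) = 0 :=
        (IsLocalRing.residue_eq_zero_iff _).mpr ((baseIncl_mem_maximalIdeal_iff c).mpr hcm)
      rwa [h3, map_zero, sub_zero] at h2
    · intro hx
      have h3 : algebraMap (Kap A) (Ft A N) (IsLocalRing.residue ↥A (baseIncl A K c)) ∈
          Q'.toValuationSubring.nonunits := by
        have h4 := Q'.toValuationSubring.nonunits.sub_mem hx h2
        rwa [sub_sub_cancel] at h4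
      have h5 := eq_zero_of_algebraMap_mem_nonunits Q' h3
      exact (baseIncl_mem_maximalIdeal_iff c).mp ((IsLocalRing.residue_eq_zero_iff _).mp h5)

/-- Under the congruences (T1) the image of the chart is regular at `Q'`. -/
theorem rho_mem_of_spec (Rt : Subalgebra ↥A (Fb N))
    (hlev : ∀ x : R, levK N K (x : FF (Lvl K) N) ∈ Rt)
    (hρ : ∀ x : R, ρ x = thetaFt A N (levK N K (x : FF (Lvl K) N)))
    (P : Place Qb (Fb N)) (Q' : Place (Kap A) (Ft A N))
    (hW : ∀ g ∈ Rt, IntAt A P g)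
    (hspec : ∀ g ∈ Rt, ∀ c : ↥A,
      g - algebraMap Qb (Fb N) (c : Qb) ∈ P.toValuationSubring.nonunits →
      thetaFt A N g - algebraMap (Kap A) (Ft A N) (IsLocalRing.residue ↥A c) ∈
        Q'.toValuationSubring.nonunits) (x : R) :
    ρ x ∈ Q'.toValuationSubring := by
  obtain ⟨c, hc⟩ := hW _ (hlev x)
  have h := Q'.toValuationSubring.nonunits_subset (hspec _ (hlev x) c hc)
  rw [← hρ x] at h
  have h2 := Q'.toValuationSubring.add_mem _ _ h (Q'.algebraMap_mem' (IsLocalRing.residue ↥A c))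
  rwa [sub_add_cancel] at h2

variable [IsNoetherianRing ↥R] [IsFractionRing ↥R (FF (Lvl K) N)]
  [IsFractionRing ↥(baseRing A K) (Lvl K)]

/-- Two places at which the same `v` is centred coincide. -/
theorem eq_of_centredAt {ϖ : ↥(baseRing A K)} {Q Q' : Place (Kap A) (Ft A N)}
    {v : Place (Lvl K) (FF (Lvl K) N)} (hcd : ChartData ϖ ρ Q) (hcd' : ChartData ϖ ρ Q')
    (h : CentredAt ↥(baseRing A K) ρ Q v) (h' : CentredAt ↥(baseRing A K) ρ Q' v) : Q = Q' := by
  refine place_eq_of_forall_mem_nonunits (Lvl K) (FF (Lvl K) N) hcd hcd' fun x hx => ?_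
  obtain ⟨c, hc⟩ := h.exists_const x
  exact (h'.mem_iff x c hc).mp ((h.mem_iff x c hc).mpr hx)

/-- **The formula (T2) on one chart at one level.** -/
theorem chart_formula (r : Place Qb (Fb N) → Place (Kap A) (Ft A N))
    (Rt : Subalgebra ↥A (Fb N)) (InCh : Place Qb (Fb N) → Prop)
    (hlev : ∀ x : R, levK N K (x : FF (Lvl K) N) ∈ Rt)
    (hρ : ∀ x : R, ρ x = thetaFt A N (levK N K (x : FF (Lvl K) N)))
    (hW : ∀ P, InCh P → ∀ g ∈ Rt, IntAt A P g)
    (hspec : ∀ P, InCh P → ∀ g ∈ Rt, ∀ c : ↥A,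
      g - algebraMap Qb (Fb N) (c : Qb) ∈ P.toValuationSubring.nonunits →
      thetaFt A N g - algebraMap (Kap A) (Ft A N) (IsLocalRing.residue ↥A c) ∈
        (r P).toValuationSubring.nonunits)
    {ϖ : ↥(baseRing A K)} (hϖ : Irreducible ϖ)
    (hded : IsDedekindDomain (↥R ⧸ Ideal.span {algebraMap ↥(baseRing A K) ↥R ϖ}))
    (hker : RingHom.ker ρ = Ideal.span {algebraMap ↥(baseRing A K) ↥R ϖ})
    (hfrac : ∀ z : Ft A N, ∃ a b : R, ρ b ≠ 0 ∧ z * ρ b = ρ a)
    (Q : Place (Kap A) (Ft A N)) (hQ : ∀ x : R, ρ x ∈ Q.toValuationSubring)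
    (hin : ∀ P, r P = Q → InCh P)
    (hin' : ∀ (v : Place (Lvl K) (FF (Lvl K) N)) (P : Place Qb (Fb N)),
      CentredAt ↥(baseRing A K) ρ Q v → v = restrictK N K P → InCh P)
    (yK : FF (Lvl K) N) (a b : R) (hb : ρ b ≠ 0)
    (hab : yK * (b : FF (Lvl K) N) = (a : FF (Lvl K) N))
    (ybar : Ft A N) (hybar : ybar ≠ 0) (hρab : ρ a = ybar * ρ b)
    (D : Divisor Qb (Fb N)) (hD : ∀ P, D P = P.ord (levK N K yK))
    (hrat : ∀ P ∈ D.support, ResidueTrivial (restrictK N K P)) :
    Finsupp.mapDomain r D Q = Q.ord ybar := by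
  classical
  have hcd : ∀ Q' : Place (Kap A) (Ft A N), (∀ x : R, ρ x ∈ Q'.toValuationSubring) →
      ChartData ϖ ρ Q' := fun Q' hQ' => ⟨hϖ, hded, hker, hfrac, hQ'⟩
  have ha : ρ a ≠ 0 := by rw [hρab]; exact mul_ne_zero hybar hb
  have hb0 : (b : FF (Lvl K) N) ≠ 0 := by
    intro h
    apply hb
    have : b = 0 := Subtype.ext h
    rw [this, map_zero]
  have hyab : algebraMap ↥R (FF (Lvl K) N) a / algebraMap ↥R (FF (Lvl K) N) b = yK := by
    show (a : FF (Lvl K) N) / (b : FF (Lvl K) N) = yK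
    rw [← hab, mul_div_cancel_right₀ _ hb0]
  have hratP : ∀ P : Place Qb (Fb N), P.ord (levK N K yK) ≠ 0 →
      ResidueTrivial (restrictK N K P) := fun P hP =>
    hrat P (Finsupp.mem_support_iff.mpr (by rw [hD]; exact hP))
  have hcdQ := hcd Q hQ
  obtain ⟨T, hT, hsum⟩ := ChartData.ord_reduction_eq_sum (O := ↥(baseRing A K)) (K := Lvl K)
    (F := FF (Lvl K) N) (R := ↥R) hcdQ a b ha hb (fun v _ hv =>
      (residueTrivial_of_ord_ne_zeroK N K yK hratP v (by rwa [hyab] at hv)).1)
  have hquot : ρ a / ρ b = ybar := by rw [hρab, mul_div_cancel_right₀ _ hb]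
  rw [hquot] at hsum
  rw [hsum, mapDomain_apply_eq_sum]
  simp only [hyab] at hT ⊢
  refine Finset.sum_nbij (restrictK N K) ?_ ?_ ?_ ?_
  · -- maps into `T`
    intro P hP
    rw [Finset.mem_filter] at hP
    obtain ⟨hPs, hPQ⟩ := hP
    have hPin := hin P hPQ
    refine (hT _).mpr ⟨?_, ?_⟩
    · have h := centredAt_restrictK (R := R) (ρ := ρ) Rt hlev hρ P (r P) (hW P hPin) (hspec P hPin)
        (hrat P hPs)
      rwa [hPQ] at h
    · rw [← ord_levK_restrictK N K P (hrat P hPs), ← hD]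
      exact Finsupp.mem_support_iff.mp hPs
  · -- injective
    intro P hP P' hP' h
    rw [Finset.coe_filter, Set.mem_ofPred_eq] at hP hP'
    exact (existsUnique_extendsK N K (hrat P hP.1)).unique (extends_restrictK N K P)
      (by rw [h]; exact extends_restrictK N K P')
  · -- surjective
    intro v hv
    obtain ⟨hcen, hord⟩ := (hT v).mp (Finset.mem_coe.mp hv)
    obtain ⟨-, P, hPord, hvP⟩ := residueTrivial_of_ord_ne_zeroK N K yK hratP v hord
    have hPs : P ∈ D.support := Finsupp.mem_support_iff.mpr (by rw [hD]; exact hPord)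
    have hPin := hin' v P hcen hvP
    have hcen' := centredAt_restrictK (R := R) (ρ := ρ) Rt hlev hρ P (r P) (hW P hPin)
      (hspec P hPin) (hrat P hPs)
    rw [← hvP] at hcen'
    have hrQ : r P = Q := eq_of_centredAt
      (hcd (r P) (rho_mem_of_spec Rt hlev hρ P (r P) (hW P hPin) (hspec P hPin))) (hcd Q hQ)
      hcen' hcen
    exact ⟨P, by rw [Finset.coe_filter, Set.mem_ofPred_eq]; exact ⟨hPs, hrQ⟩, hvP.symm⟩
  · -- the values agree
    intro P hP
    rw [Finset.mem_filter] at hP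
    rw [hD, ord_levK_restrictK N K P (hrat P hP.1)]

end Chart

/-! ### The reduction of `j` -/

section J

variable (A : ValuationSubring Qb) (N : ℕ) [NeZero N]

theorem thetaBar_jb : thetaBar A N (jb N) = jqModC (Kap A) := by
  have h := thetaBar_mul_eq (A := A) (N := N) (g := jb N) (a := jqModC ↥A) (b := 1)
    (by rw [map_one]; exact one_ne_zero)
    (by rw [map_one, mul_one, coeffMap_jqModC]; rfl)
  rwa [map_one, mul_one, coeffMap_jqModC] at h

theorem thetaFt_jb : thetaFt A N (jb N) = jF (Kap A) N := by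
  apply Subtype.ext
  rw [coe_thetaFt_of_mem (by rw [thetaBar_jb]; exact jqModC_mem_full (Kap A) N), thetaBar_jb]
  rfl

theorem thetaBar_jb_inv : thetaBar A N (jb N)⁻¹ = (jqModC (Kap A))⁻¹ := by
  have hjb0 : (jb N : Fb N) ≠ 0 := fun h =>
    jqModC_ne_zero_of_nontrivial Qb (by simpa using congrArg Subtype.val h)
  have h := thetaBar_mul_eq (A := A) (N := N) (g := (jb N)⁻¹) (a := 1) (b := jqModC ↥A)
    (by rw [coeffMap_jqModC]; exact jqModC_ne_zero_of_nontrivial _)
    (by
      rw [coeffMap_jqModC, map_one]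
      have : ((jb N)⁻¹ * jb N : Fb N) = 1 := inv_mul_cancel₀ hjb0
      exact congrArg Subtype.val this)
  rw [coeffMap_jqModC, map_one] at h
  exact eq_inv_of_mul_eq_one_left h

theorem thetaFt_jb_inv : thetaFt A N (jb N)⁻¹ = (jF (Kap A) N)⁻¹ := by
  have hmem : thetaBar A N (jb N)⁻¹ ∈ modularFunctionFieldFullC (Kap A) N := by
    rw [thetaBar_jb_inv]
    exact inv_mem (jqModC_mem_full (Kap A) N)
  apply eq_inv_of_mul_eq_one_left
  apply Subtype.ext
  show ((thetaFt A N (jb N)⁻¹ : Ft A N) : LaurentSeries (Kap A)) * jqModC (Kap A) = 1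
  rw [coe_thetaFt_of_mem hmem, thetaBar_jb_inv,
    inv_mul_cancel₀ (jqModC_ne_zero_of_nontrivial (Kap A))]

theorem thetaFt_jb_inv_mul : thetaFt A N (jb N)⁻¹ * thetaFt A N (jb N) = 1 := by
  rw [thetaFt_jb_inv, thetaFt_jb, inv_mul_cancel₀ (jF_ne_zero (Kap A) N)]

end J

/-! ### The formula at a level -/

section Level

open Fermat.Agent.N4.BigDVR

variable (A : ValuationSubring Qb) (N : ℕ) [NeZero N]

/-- **The level-`K` input of (5e) for one chart** `R` (`= Rfin` or `Rinf` of the level), mapping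
into the chart `Rt` over `A` (`= RtFin` or `RtInf`), with generator `gen` (`= j` or `j⁻¹`):
outputs of C2 (`ChartReduction`, with `(∗)` and `(S)`) transported to `κ`. -/
structure ChartLevel (K : IntermediateField ℚ Qb) [IsDiscreteValuationRing ↥(baseRing A K)]
    (R : Subalgebra ↥(baseRing A K) (FF (Lvl K) N)) (Rt : Subalgebra ↥A (Fb N)) (gen : Fb N) :
    Prop where
  noeth : IsNoetherianRing ↥R
  frac : IsFractionRing ↥R (FF (Lvl K) N)
  lev_mem : ∀ x : R, levK N K (x : FF (Lvl K) N) ∈ Rt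
  lev_gauss : ∀ x : R, levK N K (x : FF (Lvl K) N) ∈ gaussSub A N
  exists_rho : ∃ (ϖ : ↥(baseRing A K)) (ρ : ↥R →+* Ft A N), Irreducible ϖ ∧
    (∀ x : R, ((ρ x : Ft A N) : LaurentSeries (Kap A)) =
      thetaBar A N (levK N K (x : FF (Lvl K) N))) ∧
    IsDedekindDomain (↥R ⧸ Ideal.span {algebraMap ↥(baseRing A K) ↥R ϖ}) ∧
    RingHom.ker ρ = Ideal.span {algebraMap ↥(baseRing A K) ↥R ϖ} ∧
    (∀ z : Ft A N, ∃ a b : R, ρ b ≠ 0 ∧ z * ρ b = ρ a) ∧
    (∀ Q : Place (Kap A) (Ft A N), thetaFt A N gen ∈ Q.toValuationSubring →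
      ∀ x : R, ρ x ∈ Q.toValuationSubring) ∧
    (∀ (y' : LaurentSeries ↥(baseRing A K))
      (hy' : coeffMap (baseRing A K).subtype y' ∈ modularFunctionFieldFullC (Lvl K) N),
      coeffMap (IsLocalRing.residue ↥(baseRing A K)) y' ≠ 0 →
      ∃ a b : R, ρ b ≠ 0 ∧
        (⟨_, hy'⟩ : FF (Lvl K) N) * (b : FF (Lvl K) N) = (a : FF (Lvl K) N))

variable {A N}

/-- **(5e) at a level**, for one chart. -/
theorem formula_at_level (r : Place Qb (Fb N) → Place (Kap A) (Ft A N))
    (Rt : Subalgebra ↥A (Fb N)) (InCh : Place Qb (Fb N) → Prop)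
    (hW : ∀ P, InCh P → ∀ g ∈ Rt, IntAt A P g)
    (hspec : ∀ P, InCh P → ∀ g ∈ Rt, ∀ c : ↥A,
      g - algebraMap Qb (Fb N) (c : Qb) ∈ P.toValuationSubring.nonunits →
      thetaFt A N g - algebraMap (Kap A) (Ft A N) (IsLocalRing.residue ↥A c) ∈
        (r P).toValuationSubring.nonunits)
    (K : IntermediateField ℚ Qb) [IsDiscreteValuationRing ↥(baseRing A K)]
    [IsFractionRing ↥(baseRing A K) (Lvl K)]
    (R : Subalgebra ↥(baseRing A K) (FF (Lvl K) N)) (gen : Fb N)
    (hcl : ChartLevel A N K R Rt gen)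
    (Q : Place (Kap A) (Ft A N)) (hQgen : thetaFt A N gen ∈ Q.toValuationSubring)
    (hin : ∀ P, r P = Q → InCh P)
    (hin' : ∀ ρ : ↥R →+* Ft A N,
      (∀ x : R, ρ x = thetaFt A N (levK N K (x : FF (Lvl K) N))) →
      ∀ (v : Place (Lvl K) (FF (Lvl K) N)) (P : Place Qb (Fb N)),
      CentredAt ↥(baseRing A K) ρ Q v → v = restrictK N K P → InCh P)
    (y : LaurentSeries ↥A) (hy : coeffMap A.subtype y ∈ modularFunctionFieldBar N)
    (hyk : coeffMap (IsLocalRing.residue ↥A) y ∈ modularFunctionFieldFullC (Kap A) N)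
    (hne : coeffMap (IsLocalRing.residue ↥A) y ≠ 0)
    (D : Divisor Qb (Fb N)) (hD : ∀ P, D P = P.ord (⟨coeffMap A.subtype y, hy⟩ : Fb N))
    (yK : FF (Lvl K) N) (hyK : levK N K yK = ⟨coeffMap A.subtype y, hy⟩)
    (hrat : ∀ P ∈ D.support, ResidueTrivial (restrictK N K P)) :
    Finsupp.mapDomain r D Q = Q.ord (⟨coeffMap (IsLocalRing.residue ↥A) y, hyk⟩ : Ft A N) := by
  haveI := hcl.noeth
  haveI := hcl.frac
  obtain ⟨ϖ, ρ, hϖ, hρc, hded, hker, hfrac, hmemQ, hcompat⟩ := hcl.exists_rho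
  have hρ : ∀ x : R, ρ x = thetaFt A N (levK N K (x : FF (Lvl K) N)) := by
    intro x
    apply Subtype.ext
    rw [coe_thetaFt_of_mem (by rw [← hρc x]; exact (ρ x).2), hρc x]
  -- the coefficients of `yK` lie in `A ∩ K`
  have hcoeff : ∀ n, algebraMap (Lvl K) Qb ((yK : LaurentSeries (Lvl K)).coeff n) =
      ((y.coeff n : ↥A) : Qb) := by
    intro n
    have h1 := congrArg (fun z : Fb N => (z : LaurentSeries Qb).coeff n) hyK
    exact h1
  obtain ⟨y', hy'⟩ := exists_coeffMap_eq_of_coeff_mem (baseRing A K).subtype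
    Subtype.val_injective (yK : LaurentSeries (Lvl K)) (fun n => by
      refine ⟨⟨(yK : LaurentSeries (Lvl K)).coeff n, ?_⟩, rfl⟩
      have h5 : algebraMap (Lvl K) Qb ((yK : LaurentSeries (Lvl K)).coeff n) ∈ A := by
        rw [hcoeff n]; exact (y.coeff n).2
      exact (mem_tr_iff A ↥K
        (x := (Lvl.toSub K ((yK : LaurentSeries (Lvl K)).coeff n) : ↥K))).mpr h5)
  have hy'mem : coeffMap (baseRing A K).subtype y' ∈ modularFunctionFieldFullC (Lvl K) N := by
    rw [hy']; exact yK.2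
  have hy'K : (⟨_, hy'mem⟩ : FF (Lvl K) N) = yK := Subtype.ext hy'
  have hyy' : ∀ n, y.coeff n = baseIncl A K (y'.coeff n) := by
    intro n
    apply Subtype.ext
    rw [← hcoeff n, coe_baseIncl]
    have h1 := congrArg (fun z : LaurentSeries (Lvl K) => z.coeff n) hy'
    simp only [coeffMap_coeff] at h1
    rw [← h1]
    rfl
  have hy'ne : coeffMap (IsLocalRing.residue ↥(baseRing A K)) y' ≠ 0 := by
    intro h0
    apply hne
    ext n
    rw [coeffMap_coeff, HahnSeries.coeff_zero, hyy' n, IsLocalRing.residue_eq_zero_iff,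
      baseIncl_mem_maximalIdeal_iff, ← IsLocalRing.residue_eq_zero_iff]
    have h1 := congrArg (fun z : LaurentSeries (IsLocalRing.ResidueField ↥(baseRing A K)) =>
      z.coeff n) h0
    simpa using h1
  obtain ⟨a, b, hb, hab⟩ := hcompat y' hy'mem hy'ne
  rw [hy'K] at hab
  -- the reduction of `a` is `ȳ` times the reduction of `b`
  have hfg : (⟨coeffMap A.subtype y, hy⟩ : Fb N) ∈ gaussSub A N := by
    rw [mem_gaussSub_iff]
    exact GaussBar.embBar_mem_gaussBar (A := ↥A) (Q := Qb) y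
  have hρab : ρ a = (⟨coeffMap (IsLocalRing.residue ↥A) y, hyk⟩ : Ft A N) * ρ b := by
    apply Subtype.ext
    show ((ρ a : Ft A N) : LaurentSeries (Kap A)) =
      coeffMap (IsLocalRing.residue ↥A) y * ((ρ b : Ft A N) : LaurentSeries (Kap A))
    rw [hρc a, hρc b, ← hab, map_mul, hyK, thetaBar_mul hfg (hcl.lev_gauss b),
      thetaBar_of_coeffs y hy]
  have hybar : (⟨coeffMap (IsLocalRing.residue ↥A) y, hyk⟩ : Ft A N) ≠ 0 := fun h =>
    hne (congrArg Subtype.val h)
  exact chart_formula r Rt InCh hcl.lev_mem hρ hW hspec hϖ hded hker hfrac Q (hmemQ Q hQgen) hin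
    (hin' ρ hρ) yK a b hb hab _ hybar hρab D (by intro P; rw [hD P, hyK]) hrat

end Level

/-! ### (T2): the place map is a place reduction -/

section Main

open Fermat.Agent.N4.BigDVR Fermat.Agent.N4.Chart

variable {A : ValuationSubring Qb} {N : ℕ} [NeZero N]

theorem jb_mem_RtFin : jb N ∈ RtFin A N := subset_chartAlg _ (Set.mem_singleton _)

theorem jb_inv_mem_RtInf : (jb N)⁻¹ ∈ RtInf A N := subset_chartAlg _ (Set.mem_singleton _)

/-- If `j⁻¹` has a value in the maximal ideal of `A` at `P`, then `j` is not integral at `P`. -/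
theorem not_intAt_jb_of_inv {P : Place Qb (Fb N)} {c : ↥A}
    (hc : c ∈ IsLocalRing.maximalIdeal ↥A)
    (h : (jb N)⁻¹ - algebraMap Qb (Fb N) (c : Qb) ∈ P.toValuationSubring.nonunits) :
    ¬ IntAt A P (jb N) := by
  intro hI
  have hI' : IntAt A P (jb N)⁻¹ := ⟨c, h⟩
  have hjb0 : (jb N : Fb N) ≠ 0 := fun h0 =>
    jqModC_ne_zero_of_nontrivial Qb (by simpa using congrArg Subtype.val h0)
  have hmul : jb N * (jb N)⁻¹ = algebraMap Qb (Fb N) ((1 : ↥A) : Qb) := by
    rw [mul_inv_cancel₀ hjb0]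
    exact (map_one _).symm
  have hI1 : IntAt A P (jb N * (jb N)⁻¹) := hmul ▸ intAt_const P 1
  have h1 := valAt_mul hI hI' hI1
  have h2 : valAt hI1 = 1 := valAt_eq hI1 (by
    rw [hmul, sub_self]; exact C.zero_mem_nonunits P)
  have h3 : valAt hI' = c := valAt_eq hI' h
  rw [h2, h3] at h1
  have h4 : (1 : ↥A) ∈ IsLocalRing.maximalIdeal ↥A := by
    rw [h1]; exact Ideal.mul_mem_left _ _ hc
  exact (Ideal.ne_top_iff_one _).mp (IsLocalRing.maximalIdeal.isMaximal ↥A).ne_top h4

/-- **(T2)**: a place map `r` satisfying the congruences (T1) on the two charts is a place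
reduction in the sense of the prelude, given the level-wise chart data `ChartLevel`. -/
theorem isPlaceReduction_of_T1 {ℓ : ℕ} (hℓ : ℓ.Prime) (hA : A.LiesOverPrime ℓ) (hℓN : ¬ ℓ ∣ N)
    (r : Place Qb (Fb N) → Place (Kap A) (Ft A N))
    (hdegt : ∀ Q : Place (Kap A) (Ft A N), Q.deg = 1)
    (hfin : ∀ P, IntAt A P (jb N) → ∀ g ∈ RtFin A N, ∀ c : ↥A,
      g - algebraMap Qb (Fb N) (c : Qb) ∈ P.toValuationSubring.nonunits →
      thetaFt A N g - algebraMap (Kap A) (Ft A N) (IsLocalRing.residue ↥A c) ∈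
        (r P).toValuationSubring.nonunits)
    (hinf : ∀ P, ¬ IntAt A P (jb N) → ∀ g ∈ RtInf A N, ∀ c : ↥A,
      g - algebraMap Qb (Fb N) (c : Qb) ∈ P.toValuationSubring.nonunits →
      thetaFt A N g - algebraMap (Kap A) (Ft A N) (IsLocalRing.residue ↥A c) ∈
        (r P).toValuationSubring.nonunits)
    (hWfin : ∀ P, IntAt A P (jb N) → ∀ g ∈ RtFin A N, IntAt A P g)
    (hWinf : ∀ P, ¬ IntAt A P (jb N) → ∀ g ∈ RtInf A N, IntAt A P g)
    (hlevel : ∀ (K : IntermediateField ℚ Qb) [IsDiscreteValuationRing ↥(baseRing A K)]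
      [IsAlgClosed (IsLocalRing.ResidueField ↥(baseRing A K))],
      GoodBase (Lvl K) N (baseRing A K) ℓ → (∀ ξ ∈ goodRoots A, ξ ∈ K) →
      ChartLevel A N K (Rfin (Lvl K) N (baseRing A K)) (RtFin A N) (jb N) ∧
      ChartLevel A N K (Rinf (Lvl K) N (baseRing A K)) (RtInf A N) (jb N)⁻¹) :
    IsPlaceReductionModL A N r := by
  classical
  refine ⟨fun P => ?_, fun y hy hyk hne D hD Q => ?_⟩
  · haveI : P.FiniteResidue := ⟨Fermat.Agent.N4F.A.LevelMaps.finite_residueField_bar N P⟩
    rw [hdegt, Hurwitz.deg_eq_one P]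
  -- a level containing `y` at which the support of `D` is rational
  obtain ⟨K, -, ⟨hDVR, hAC, hGB, -, hroots⟩, hT, hS, -, -⟩ :=
    exists_level_of_finite A N hℓ hA hℓN ∅ {(⟨coeffMap A.subtype y, hy⟩ : Fb N)} D.support
  obtain ⟨yK, hyK⟩ := hT _ (Finset.mem_singleton_self _)
  haveI := hGB.frac
  obtain ⟨hfinK, hinfK⟩ := hlevel K hGB hroots
  by_cases hQ : thetaFt A N (jb N) ∈ Q.toValuationSubring
  · -- the finite chart
    refine formula_at_level r (RtFin A N) (fun P => IntAt A P (jb N)) hWfin hfin K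
      (Rfin (Lvl K) N (baseRing A K)) (jb N) hfinK Q hQ ?_ ?_ y hy hyk hne D hD yK hyK hS
    · intro P hPQ
      by_contra hI
      obtain ⟨c, hcm, hc⟩ := (intAt_or_inv A P (jb N)).resolve_left hI
      have h2 := hinf P hI _ jb_inv_mem_RtInf c hc
      rw [(IsLocalRing.residue_eq_zero_iff _).mpr hcm, map_zero, sub_zero, hPQ] at h2
      have h3 := LocalMult.mul_mem_nonunits Q hQ h2
      rw [mul_comm, thetaFt_jb_inv_mul] at h3
      exact LocalMult.one_not_mem_nonunits Q h3
    · intro ρ hρ v P hcen hvP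
      obtain ⟨c, hc⟩ := hcen.exists_const (jFin (Lvl K) N (baseRing A K))
      rw [hvP] at hc
      have h1 : levK N K (jF (Lvl K) N) - algebraMap Qb (Fb N) ((baseIncl A K c : ↥A) : Qb) ∈
          P.toValuationSubring.nonunits := sub_mem_nonunits_of_restrictK hc
      rw [levK_jF] at h1
      exact ⟨baseIncl A K c, h1⟩
  · -- the chart at infinity
    have hQ' : thetaFt A N (jb N)⁻¹ ∈ Q.toValuationSubring.nonunits := by
      rw [thetaFt_jb_inv, ← thetaFt_jb A N]
      exact (Q.toValuationSubring.inv_mem_nonunits_iff).mpr (Or.inr hQ)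
    refine formula_at_level r (RtInf A N) (fun P => ¬ IntAt A P (jb N)) hWinf hinf K
      (Rinf (Lvl K) N (baseRing A K)) (jb N)⁻¹ hinfK Q
      (Q.toValuationSubring.nonunits_subset hQ') ?_ ?_ y hy hyk hne D hD yK hyK hS
    · intro P hPQ hI
      obtain ⟨c, hc⟩ := hI
      have h2 := Q.toValuationSubring.nonunits_subset
        (hPQ ▸ hfin P ⟨c, hc⟩ _ jb_mem_RtFin c hc)
      have h3 := Q.toValuationSubring.add_mem _ _ h2
        (Q.algebraMap_mem' (IsLocalRing.residue ↥A c))
      rw [sub_add_cancel] at h3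
      exact hQ h3
    · intro ρ hρ v P hcen hvP
      obtain ⟨c, hc⟩ := hcen.exists_const (jInvInf (Lvl K) N (baseRing A K))
      have hcm : c ∈ IsLocalRing.maximalIdeal ↥(baseRing A K) := by
        refine (hcen.mem_iff _ c hc).mpr ?_
        have e : ρ (jInvInf (Lvl K) N (baseRing A K)) = thetaFt A N (levK N K (jF (Lvl K) N)⁻¹) :=
          hρ _
        rw [e, levK_jF_inv]
        exact hQ'
      rw [hvP] at hc
      have h1 : levK N K (jF (Lvl K) N)⁻¹ - algebraMap Qb (Fb N) ((baseIncl A K c : ↥A) : Qb) ∈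
          P.toValuationSubring.nonunits := sub_mem_nonunits_of_restrictK hc
      rw [levK_jF_inv] at h1
      exact not_intAt_jb_of_inv ((baseIncl_mem_maximalIdeal_iff c).mpr hcm) h1

end Main

end Fermat.Agent.N4F.C.Formula
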