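/-
N4-FULL block C, step C7 = **(T3) `PrincipalGeneratedByIntegral`** (helper16; blueprint: moonshots #30
by helper9, paper C section 6).

Every principal divisor of `Q̄ · F_N` is a difference of two *integral* principal divisors
(`integralPrincipalDivisors A (residue A) N` of the prelude): `f = g / h` with `g, h` polynomials in
the `j(q^d)` (`d ∣ N`) with coefficients in `Q̄`; such a `g` has its finitely many coefficients in a
good level `K` (`BigDVR.exists_goodBase`), bounded denominators over `O = A ∩ K`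
(`exists_C_mul_eq_emb`), so `c · g = emb a'` with `c ∈ K^×` and `a'` a primitive `O`-series
(`S28/GaussRing.exists_pow_smul_eq`); `y := a'` viewed over `A` is the witness, and its reduction
lies in the function field of the special fibre by the by-product of (2a) (hypothesis `RedMem`,
exported by `N4F/C/ChartReduction.red_mem_full`) and `N4/BaseDescent.coeffMap_mem_full`.

Main results:
* `exists_C_mul_eq_emb`   : bounded denominators for `Algebra.adjoin Q (genSet Q N)`;
* `exists_finset_levK`    : descent of a polynomial in the `j(q^d)` to every level containing a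
                            finite set of coefficients;
* `mem_integralPrincipalDivisors` : the divisor of a nonzero polynomial in the `j(q^d)` is integral
                            principal;
* `principalGeneratedByIntegral`  : (T3), with the level-`K` reduction statement as hypothesis;
* `exists_omega_of_goodRoots`, `principalGeneratedByIntegral_of_targets` : (T3) from
  `StarTargetOmega` and the `red_mem_full` shape.
-/
import Mathlib
import Fermat.Prelude.Def_ModularCurve_ReductionModL
import Fermat.Prelude.Thm_ModularCurve_coeffMap_qExpand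
import Fermat.Agent.N4.BigDVR
import Fermat.Agent.S28.GaussRing
import Fermat.Agent.S24.FFBasics
import Fermat.Agent.S24.Hurwitz
import Fermat.Agent.N4.BaseDescent
import Fermat.Agent.N4F.A.LevelMaps

set_option autoImplicit false

open ModularCurve HahnSeries

namespace Fermat.Agent.N4F.C.PGI

open Fermat.Agent.S24.FFBasics Fermat.Agent.S28.Gauss

section Denominators

variable (A : Type*) [CommRing A] [IsDomain A] [IsDiscreteValuationRing A]
  (Q : Type*) [Field Q] [Algebra A Q] [IsFractionRing A Q] (N : ℕ)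

omit [IsDomain A] [IsDiscreteValuationRing A] [IsFractionRing A Q] in
theorem emb_C (x : A) : emb A Q (HahnSeries.C x) = HahnSeries.C (algebraMap A Q x) :=
  coeffMap_single _ _ _

omit [IsDomain A] [IsDiscreteValuationRing A] [IsFractionRing A Q] in
theorem emb_C_mul (c : A) (a : LaurentSeries A) :
    emb A Q (HahnSeries.C c * a) = HahnSeries.C (algebraMap A Q c) * emb A Q a := by
  rw [map_mul, emb_C]

/-- **Bounded denominators**: a polynomial in the `j(q^d)` with coefficients in `Q = Frac A` is, up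
to a nonzero constant of `A`, a Laurent series with coefficients in `A`. -/
theorem exists_C_mul_eq_emb {g : LaurentSeries Q} (hg : g ∈ Algebra.adjoin Q (genSet Q N)) :
    ∃ (b : A) (a : LaurentSeries A), b ≠ 0 ∧
      emb A Q a = HahnSeries.C (algebraMap A Q b) * g := by
  induction hg using Algebra.adjoin_induction with
  | mem x hx =>
    obtain ⟨d, hd, -, rfl⟩ := hx
    refine ⟨1, qExpand A d (jqModC A), one_ne_zero, ?_⟩
    rw [map_one, map_one, one_mul, emb, coeffMap_qExpand]
    congr 1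
    exact map_jqModC (algebraMap A Q)
  | algebraMap c =>
    obtain ⟨x, b, hb, rfl⟩ := IsFractionRing.div_surjective (A := A) c
    have hb0 : b ≠ 0 := nonZeroDivisors.ne_zero hb
    have hbQ : algebraMap A Q b ≠ 0 := by
      rw [Ne, map_eq_zero_iff _ (IsFractionRing.injective A Q)]
      exact hb0
    refine ⟨b, HahnSeries.C x, hb0, ?_⟩
    rw [emb_C, algebraMap_laurentSeries_eq_single]
    show HahnSeries.single 0 _ = HahnSeries.single 0 _ * HahnSeries.single 0 _
    rw [HahnSeries.single_mul_single, add_zero, mul_div_cancel₀ _ hbQ]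
  | add x y _ _ hx hy =>
    obtain ⟨b₁, a₁, hb₁, h₁⟩ := hx
    obtain ⟨b₂, a₂, hb₂, h₂⟩ := hy
    refine ⟨b₁ * b₂, HahnSeries.C b₂ * a₁ + HahnSeries.C b₁ * a₂, mul_ne_zero hb₁ hb₂, ?_⟩
    rw [map_add, emb_C_mul, emb_C_mul, h₁, h₂, map_mul, map_mul]
    ring
  | mul x y _ _ hx hy =>
    obtain ⟨b₁, a₁, hb₁, h₁⟩ := hx
    obtain ⟨b₂, a₂, hb₂, h₂⟩ := hy
    refine ⟨b₁ * b₂, a₁ * a₂, mul_ne_zero hb₁ hb₂, ?_⟩
    rw [map_mul, h₁, h₂, map_mul, map_mul]
    ring

end Denominators

section Descent

local notation "Qb" => AlgebraicClosure ℚ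

/-- coefficientwise inclusion `K((q)) → Q̄((q))` -/
noncomputable abbrev levK (K : IntermediateField ℚ Qb) : LaurentSeries ↥K →+* LaurentSeries Qb :=
  coeffMap (algebraMap ↥K Qb)

theorem levK_injective (K : IntermediateField ℚ Qb) : Function.Injective (levK K) := by
  intro a b h
  refine HahnSeries.ext (funext fun n => ?_)
  have := congrArg (fun x : LaurentSeries Qb => x.coeff n) h
  exact (algebraMap ↥K Qb).injective this

theorem levK_C (K : IntermediateField ℚ Qb) (c : ↥K) :
    levK K (HahnSeries.C c) = HahnSeries.C (c : Qb) :=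
  coeffMap_single _ _ _

/-- **Finitely many coefficients**: a polynomial in the `j(q^d)` with coefficients in `Q̄` has
coefficients in every subfield containing a suitable finite set. -/
theorem exists_finset_levK (N : ℕ) {g : LaurentSeries Qb}
    (hg : g ∈ Algebra.adjoin Qb (genSet Qb N)) :
    ∃ T : Finset Qb, ∀ K : IntermediateField ℚ Qb, (∀ t ∈ T, t ∈ K) →
      ∃ gK : LaurentSeries ↥K, gK ∈ Algebra.adjoin ↥K (genSet ↥K N) ∧ levK K gK = g := by
  classical
  induction hg using Algebra.adjoin_induction with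
  | mem x hx =>
    obtain ⟨d, hd, hdN, rfl⟩ := hx
    refine ⟨∅, fun K _ => ⟨qExpand ↥K d (jqModC ↥K),
      Algebra.subset_adjoin ⟨d, hd, hdN, rfl⟩, ?_⟩⟩
    rw [levK, coeffMap_qExpand]
    congr 1
    exact map_jqModC (algebraMap ↥K Qb)
  | algebraMap c =>
    refine ⟨{c}, fun K hK => ⟨algebraMap ↥K (LaurentSeries ↥K) ⟨c, hK c (Finset.mem_singleton_self c)⟩,
      Subalgebra.algebraMap_mem _ _, ?_⟩⟩
    rw [algebraMap_laurentSeries_eq_single, algebraMap_laurentSeries_eq_single]
    exact coeffMap_single _ _ _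
  | add x y _ _ hx hy =>
    obtain ⟨T₁, h₁⟩ := hx
    obtain ⟨T₂, h₂⟩ := hy
    refine ⟨T₁ ∪ T₂, fun K hK => ?_⟩
    obtain ⟨g₁, hg₁, e₁⟩ := h₁ K fun t ht => hK t (Finset.mem_union_left _ ht)
    obtain ⟨g₂, hg₂, e₂⟩ := h₂ K fun t ht => hK t (Finset.mem_union_right _ ht)
    exact ⟨g₁ + g₂, Subalgebra.add_mem _ hg₁ hg₂, by rw [map_add, e₁, e₂]⟩
  | mul x y _ _ hx hy =>
    obtain ⟨T₁, h₁⟩ := hx
    obtain ⟨T₂, h₂⟩ := hy
    refine ⟨T₁ ∪ T₂, fun K hK => ?_⟩
    obtain ⟨g₁, hg₁, e₁⟩ := h₁ K fun t ht => hK t (Finset.mem_union_left _ ht)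
    obtain ⟨g₂, hg₂, e₂⟩ := h₂ K fun t ht => hK t (Finset.mem_union_right _ ht)
    exact ⟨g₁ * g₂, Subalgebra.mul_mem _ hg₁ hg₂, by rw [map_mul, e₁, e₂]⟩

end Descent

section Main

local notation "Qb" => AlgebraicClosure ℚ

open Fermat.Agent.N4.BigDVR Fermat.Agent.N4.Setting AlgebraicCurve

/-- **(2a), by-product** (helper9, `N4F/C/ChartReduction`), as a hypothesis: the coefficientwise
reduction of an integral `q`-expansion of the function field lies in the function field of the
special fibre. -/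
def RedMem (K : Type) [Field K] (N : ℕ) (O : Subring K) [IsLocalRing ↥O] : Prop :=
  ∀ y : LaurentSeries ↥O, coeffMap O.subtype y ∈ modularFunctionFieldFullC K N →
    coeffMap (IsLocalRing.residue ↥O) y ∈
      modularFunctionFieldFullC (IsLocalRing.ResidueField ↥O) N

variable (A : ValuationSubring Qb) (N : ℕ)

/-- the function field `Q̄ · F_N` (prelude type) -/
local notation "Fb" => laurentBaseChange Qb (modularFunctionFieldFull N)

theorem adjoin_le_Fb : (Algebra.adjoin Qb (genSet Qb N) : Set (LaurentSeries Qb)) ⊆ Fb := by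
  intro x hx
  rw [SetLike.mem_coe, laurentBaseChange_full]
  exact IntermediateField.algebra_adjoin_le_adjoin Qb _ hx

theorem C_mem_Fb (c : Qb) : (HahnSeries.C c : LaurentSeries Qb) ∈ Fb := by
  have h := (Fb).algebraMap_mem c
  rwa [algebraMap_laurentSeries_eq_single] at h

/-- the inclusion `A ∩ K → A` on the subring form of the base ring -/
noncomputable abbrev inclO (K : IntermediateField ℚ Qb) : ↥(trSubring A K) →+* ↥A := trIncl A K

instance isLocalHom_inclO (K : IntermediateField ℚ Qb) : IsLocalHom (inclO A K) :=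
  isLocalHom_trIncl A K

theorem subtype_comp_inclO (K : IntermediateField ℚ Qb) :
    A.subtype.comp (inclO A K) = (algebraMap ↥K Qb).comp (trSubring A K).subtype :=
  RingHom.ext fun _ => rfl

variable {A N}

/-- **Key step**: the divisor of a nonzero polynomial in the `j(q^d)` is an integral principal
divisor. -/
theorem mem_integralPrincipalDivisors {ℓ : ℕ} (hℓ : ℓ.Prime) (hA : A.LiesOverPrime ℓ)
    (hℓN : ¬ ℓ ∣ N)
    (hred : ∀ (K : IntermediateField ℚ Qb) [IsDiscreteValuationRing ↥(trSubring A K)]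
      [IsAlgClosed (IsLocalRing.ResidueField ↥(trSubring A K))],
      GoodBase ↥K N (trSubring A K) ℓ → (∀ ξ ∈ goodRoots A, ξ ∈ K) →
        RedMem ↥K N (trSubring A K))
    {g : LaurentSeries Qb} (hg : g ∈ Algebra.adjoin Qb (genSet Qb N)) (hg0 : g ≠ 0)
    (D : Divisor Qb Fb) (hD : ∀ P, D P = P.ord (⟨g, adjoin_le_Fb N hg⟩ : Fb)) :
    D ∈ integralPrincipalDivisors A (IsLocalRing.residue ↥A) N := by
  obtain ⟨T, hT⟩ := exists_finset_levK N hg
  obtain ⟨K, hKT, hDVR, hAC, hGB, -, hroots⟩ := exists_goodBase A hℓ hA T N hℓN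
  obtain ⟨gK, hgK, rfl⟩ := hT K hKT
  have hfrac := hGB.frac
  have hgK0 : gK ≠ 0 := fun h => hg0 (by rw [h, map_zero])
  obtain ⟨b, a, hb, hab⟩ := exists_C_mul_eq_emb ↥(trSubring A K) ↥K N hgK
  have hbK : algebraMap ↥(trSubring A K) ↥K b ≠ 0 := by
    rw [Ne, map_eq_zero_iff _ (IsFractionRing.injective ↥(trSubring A K) ↥K)]
    exact hb
  have ha : a ≠ 0 := by
    rintro rfl
    rw [map_zero] at hab
    rcases mul_eq_zero.mp hab.symm with h | h
    · exact hbK (HahnSeries.C_injective (h.trans (map_zero _).symm))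
    · exact hgK0 h
  obtain ⟨ϖ, hϖ⟩ := IsDiscreteValuationRing.exists_irreducible ↥(trSubring A K)
  obtain ⟨m, a', rfl, ha'⟩ := exists_pow_smul_eq hϖ ha
  have hϖK : algebraMap ↥(trSubring A K) ↥K ϖ ≠ 0 := by
    rw [Ne, map_eq_zero_iff _ (IsFractionRing.injective ↥(trSubring A K) ↥K)]
    exact hϖ.ne_zero
  -- the constant `c = b / ϖ ^ m`
  set cK : ↥K := algebraMap ↥(trSubring A K) ↥K b / algebraMap ↥(trSubring A K) ↥K ϖ ^ m with hcK
  have hcK0 : cK ≠ 0 := div_ne_zero hbK (pow_ne_zero _ hϖK)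
  have hemb : emb ↥(trSubring A K) ↥K a' = HahnSeries.C cK * gK := by
    have h1 : HahnSeries.C (algebraMap ↥(trSubring A K) ↥K ϖ ^ m) * emb ↥(trSubring A K) ↥K a' =
        HahnSeries.C (algebraMap ↥(trSubring A K) ↥K b) * gK := by
      rw [← hab, emb_smul, ← HahnSeries.C_mul_eq_smul]
      simp only [map_pow]
    have h2 : (HahnSeries.C (algebraMap ↥(trSubring A K) ↥K ϖ ^ m) : LaurentSeries ↥K) ≠ 0 := by
      intro h
      exact pow_ne_zero m hϖK (HahnSeries.C_injective (h.trans (map_zero _).symm))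
    apply mul_left_cancel₀ h2
    rw [h1, ← mul_assoc, ← map_mul, hcK, mul_div_cancel₀ _ (pow_ne_zero m hϖK)]
  -- the integral series
  set y : LaurentSeries ↥A := coeffMap (inclO A K) a' with hy
  have hy1 : coeffMap A.subtype y = HahnSeries.C ((cK : ↥K) : Qb) * levK K gK := by
    rw [hy, coeffMap_coeffMap, subtype_comp_inclO, ← coeffMap_coeffMap]
    show levK K (emb ↥(trSubring A K) ↥K a') = _
    rw [hemb, map_mul, levK_C]
  have hyF : coeffMap A.subtype y ∈ Fb := by
    rw [hy1]
    exact mul_mem (C_mem_Fb N _) (adjoin_le_Fb N hg)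
  -- its reduction
  have hy2 : coeffMap (IsLocalRing.residue ↥A) y =
      coeffMap (IsLocalRing.ResidueField.map (inclO A K)) (red ↥(trSubring A K) a') := by
    rw [hy, coeffMap_coeffMap]
    show _ = coeffMap _ (coeffMap _ a')
    rw [coeffMap_coeffMap]
    rfl
  have hmemK : coeffMap (trSubring A K).subtype a' ∈ modularFunctionFieldFullC ↥K N := by
    show emb ↥(trSubring A K) ↥K a' ∈ _
    rw [hemb]
    refine mul_mem ?_ ?_
    · have h := (modularFunctionFieldFullC ↥K N).algebraMap_mem cK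
      rwa [algebraMap_laurentSeries_eq_single] at h
    · exact IntermediateField.algebra_adjoin_le_adjoin ↥K _ hgK
  have hyk : coeffMap (IsLocalRing.residue ↥A) y ∈
      modularFunctionFieldFullC (IsLocalRing.ResidueField ↥A) N := by
    rw [hy2]
    exact Fermat.Agent.N4.BaseDescent.coeffMap_mem_full _ N (hred K hGB hroots a' hmemK)
  have hne : coeffMap (IsLocalRing.residue ↥A) y ≠ 0 := by
    rw [hy2]
    intro h0
    apply ha'
    refine HahnSeries.ext (funext fun n => ?_)
    have h1 := congrArg (fun x : LaurentSeries (IsLocalRing.ResidueField ↥A) => x.coeff n) h0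
    exact (IsLocalRing.ResidueField.map (inclO A K)).injective h1
  refine ⟨y, hyF, hyk, hne, fun P => ?_⟩
  rw [hD P]
  have hmul : (⟨coeffMap A.subtype y, hyF⟩ : Fb) =
      algebraMap Qb Fb ((cK : ↥K) : Qb) * ⟨levK K gK, adjoin_le_Fb N hg⟩ := by
    apply Subtype.ext
    show coeffMap A.subtype y = algebraMap Qb (LaurentSeries Qb) _ * levK K gK
    rw [hy1, algebraMap_laurentSeries_eq_single]
    rfl
  have hc0 : ((cK : ↥K) : Qb) ≠ 0 := fun h => hcK0 (Subtype.ext h)
  have hg0' : (⟨levK K gK, adjoin_le_Fb N hg⟩ : Fb) ≠ 0 := fun h => hg0 (congrArg Subtype.val h)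
  rw [hmul, P.ord_mul ((map_ne_zero _).2 hc0) hg0', Fermat.Agent.S24.Hurwitz.ord_algebraMap P hc0,
    zero_add]

/-- **(T3)** `PrincipalGeneratedByIntegral`: every principal divisor of `Q̄ · F_N` is a difference of
two integral principal divisors.  The only input beyond the landed level machinery is the
by-product `RedMem` of (2a) at the good levels `K` produced by `BigDVR.exists_goodBase`. -/
theorem principalGeneratedByIntegral [NeZero N] {ℓ : ℕ} (hℓ : ℓ.Prime) (hA : A.LiesOverPrime ℓ)
    (hℓN : ¬ ℓ ∣ N)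
    (hred : ∀ (K : IntermediateField ℚ Qb) [IsDiscreteValuationRing ↥(trSubring A K)]
      [IsAlgClosed (IsLocalRing.ResidueField ↥(trSubring A K))],
      GoodBase ↥K N (trSubring A K) ℓ → (∀ ξ ∈ goodRoots A, ξ ∈ K) →
        RedMem ↥K N (trSubring A K)) :
    PrincipalGeneratedByIntegral A (IsLocalRing.residue ↥A) N := by
  classical
  have hPD : HasPrincipalDivisors Qb Fb := Fermat.Agent.N4F.A.LevelMaps.hasPrincipalDivisors_bar N
  intro D hD
  obtain ⟨f, hf0, hDf⟩ := hD
  have hf : (f : LaurentSeries Qb) ∈ IntermediateField.adjoin Qb (genSet Qb N) := by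
    have h : ∀ x : LaurentSeries Qb, x ∈ Fb → x ∈ IntermediateField.adjoin Qb (genSet Qb N) := by
      intro x hx
      rwa [laurentBaseChange_full] at hx
    exact h _ f.2
  obtain ⟨r, hr, s, hs, hfrs⟩ := IntermediateField.mem_adjoin_iff_div.mp hf
  have hf0' : (f : LaurentSeries Qb) ≠ 0 := fun h => hf0 (Subtype.ext h)
  have hs0 : s ≠ 0 := by
    rintro rfl
    exact hf0' (by rw [hfrs, div_zero])
  have hr0 : r ≠ 0 := by
    rintro rfl
    exact hf0' (by rw [hfrs, zero_div])
  set r' : Fb := ⟨r, adjoin_le_Fb N hr⟩ with hr'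
  set s' : Fb := ⟨s, adjoin_le_Fb N hs⟩ with hs'
  have hr'0 : r' ≠ 0 := fun h => hr0 (congrArg Subtype.val h)
  have hs'0 : s' ≠ 0 := fun h => hs0 (congrArg Subtype.val h)
  obtain ⟨Dr, hDr, -⟩ := hPD.exists_divisor r' hr'0
  obtain ⟨Ds, hDs, -⟩ := hPD.exists_divisor s' hs'0
  have hmul : f * s' = r' := by
    apply Subtype.ext
    show (f : LaurentSeries Qb) * s = r
    rw [hfrs, div_mul_cancel₀ _ hs0]
  have hDeq : D = Dr - Ds := by
    refine Finsupp.ext fun P => ?_
    rw [Finsupp.sub_apply, hDf P, hDr P, hDs P, ← hmul, P.ord_mul hf0 hs'0, add_sub_cancel_right]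
  rw [hDeq]
  exact AddSubgroup.sub_mem _
    (AddSubgroup.subset_closure (mem_integralPrincipalDivisors hℓ hA hℓN hred hr hr0 Dr hDr))
    (AddSubgroup.subset_closure (mem_integralPrincipalDivisors hℓ hA hℓN hred hs hs0 Ds hDs))

/-- For `ℓ = 2` a level containing the good roots of unity contains a primitive cube root of unity:
the hypothesis of `N4/Irreducible.StarTargetOmega`. -/
theorem exists_omega_of_goodRoots {ℓ : ℕ} (hA : A.LiesOverPrime ℓ) (K : IntermediateField ℚ Qb)
    (hroots : ∀ ξ ∈ goodRoots A, ξ ∈ K) (h2 : ℓ = 2) : ∃ z : ↥K, z ^ 2 + z + 1 = 0 := by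
  subst h2
  have h2A : ((2 : ℕ) : Qb) ∈ A.nonunits := hA
  have h3A : ((3 : ℕ) : Qb) ∉ A.nonunits := by
    intro h3
    have hm2 : ((2 : ℕ) : Qb) ∈ A := A.nonunits_le h2A
    have hm3 : ((3 : ℕ) : Qb) ∈ A := A.nonunits_le h3
    have e2 : (⟨((2 : ℕ) : Qb), hm2⟩ : ↥A) ∈ IsLocalRing.maximalIdeal ↥A :=
      (ValuationSubring.coe_mem_nonunits_iff (A := A)).mp h2A
    have e3 : (⟨((3 : ℕ) : Qb), hm3⟩ : ↥A) ∈ IsLocalRing.maximalIdeal ↥A :=
      (ValuationSubring.coe_mem_nonunits_iff (A := A)).mp h3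
    have e1 : (1 : ↥A) ∈ IsLocalRing.maximalIdeal ↥A := by
      have h := Ideal.sub_mem _ e3 e2
      have h1 : (⟨((3 : ℕ) : Qb), hm3⟩ : ↥A) - ⟨((2 : ℕ) : Qb), hm2⟩ = 1 := by
        apply Subtype.ext
        show ((3 : ℕ) : Qb) - ((2 : ℕ) : Qb) = 1
        push_cast
        norm_num
      rwa [h1] at h
    exact (Ideal.ne_top_iff_one _).mp (IsLocalRing.maximalIdeal.isMaximal ↥A).ne_top e1
  obtain ⟨z, hz⟩ := IsAlgClosed.exists_root (k := Qb)
    (Polynomial.X ^ 2 + Polynomial.X + 1 : Polynomial Qb) (by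
      have h : (Polynomial.X ^ 2 + Polynomial.X + 1 : Polynomial Qb).degree = 2 := by
        compute_degree!
      rw [h]
      norm_num)
  have hz' : z ^ 2 + z + 1 = 0 := by
    simpa [Polynomial.IsRoot.def] using hz
  have hz3 : z ^ 3 = 1 := by
    have : z ^ 3 - 1 = (z - 1) * (z ^ 2 + z + 1) := by ring
    rw [hz', mul_zero, sub_eq_zero] at this
    exact this
  have hzK : z ∈ K := hroots z ⟨3, h3A, hz3⟩
  exact ⟨⟨z, hzK⟩, Subtype.ext hz'⟩

/-- Verbatim copy of `N4/Irreducible.StarTargetOmega` (restated here only to keep the import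
closure of this file light; the two are definitionally equal, so `starTargetOmega hFF` can be
passed directly). -/
def StarOmegaHyp : Prop :=
  ∀ (K : Type) [Field K] [CharZero K] [Algebra.IsAlgebraic ℚ K] (N : ℕ) [NeZero N] (O : Subring K)
    [IsDiscreteValuationRing ↥O] (ℓ : ℕ), GoodBase K N O ℓ →
    (ℓ = 2 → ∃ z : K, z ^ 2 + z + 1 = 0) → StarStatement K N O

/-- helper9's exported shape of the by-product of (2a) (`N4F/C/ChartReduction.red_mem_full`). -/
def RedMemFullTarget : Prop :=
  ∀ (K : Type) [Field K] [CharZero K] (N : ℕ) [NeZero N] (O : Subring K)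
    [IsDiscreteValuationRing ↥O] {ℓ : ℕ}, GoodBase K N O ℓ → StarStatement K N O →
    ∀ y : LaurentSeries ↥O, coeffMap O.subtype y ∈ modularFunctionFieldFullC K N →
      coeffMap (IsLocalRing.residue ↥O) y ∈
        modularFunctionFieldFullC (IsLocalRing.ResidueField ↥O) N

/-- **(T3) from the two level-`K` inputs**: `(∗)` in the `ω`-form of `N4/Irreducible` and the
by-product of (2a). -/
theorem principalGeneratedByIntegral_of_targets [NeZero N] {ℓ : ℕ} (hℓ : ℓ.Prime)
    (hA : A.LiesOverPrime ℓ) (hℓN : ¬ ℓ ∣ N)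
    (hStar : StarOmegaHyp) (hRed : RedMemFullTarget) :
    PrincipalGeneratedByIntegral A (IsLocalRing.residue ↥A) N := by
  refine principalGeneratedByIntegral hℓ hA hℓN fun K _ _ hGB hroots y hy => ?_
  have hQK := isAlgebraic_rat K
  exact hRed ↥K N (trSubring A K) hGB
    (hStar ↥K N (trSubring A K) ℓ hGB (exists_omega_of_goodRoots hA K hroots)) y hy

end Main

end Fermat.Agent.N4F.C.PGI
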