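/-
N4-FULL block C (helper16): the level-wise chart data `Formula.ChartLevel` for both charts of a good
level `K` (= the hypothesis `hlevel` of `Formula.isPlaceReduction_of_T1`, `Main.LevelHyp`).

For a level `K ⊆ Q̄` with `O_K = A ∩ K` a discrete valuation ring with algebraically closed residue
field, `GoodBase`, and containing the good roots of unity:
`ρ := ffMap ι_K ∘ redFin` (resp. `redInf`), `ι_K : κ_K ≃ κ` the identification of residue fields;
the fields of `ChartLevel` are C2 (`ChartFibre`: kernel, fractions, range inside `Σ±`, compatibility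
with `(∗)`), Sreg (`SmoothModel.smoothTargetRoots`: Dedekind fibres), S28a
(`SmoothModel.starTargetOmega`: prime fibres), `ThetaLevel.thetaBar_lev`, and the charts of N4.
-/
import Mathlib
import Fermat.Agent.N4F.C.Formula
import Fermat.Agent.N4F.C.ThetaLevel
import Fermat.Agent.N4F.C.PGI
import Fermat.Agent.N4.SmoothModel
import Fermat.Agent.N4.SmoothDescent
import Fermat.Agent.S24.PlaceDict

set_option autoImplicit false
set_option linter.style.haveILetI false
set_option linter.unusedSectionVars false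
set_option synthInstance.maxHeartbeats 400000
set_option maxHeartbeats 800000

open AlgebraicCurve ModularCurve
open Fermat.Agent.N4.Setting Fermat.Agent.N4.Chart Fermat.Agent.S24
open Fermat.Agent.N4F.C.Levels Fermat.Agent.N4F.C.LevelCharts Fermat.Agent.N4F.C.LocalMult
open Fermat.Agent.N4.BigDVR Fermat.Agent.N4.BaseDescent

noncomputable section

namespace Fermat.Agent.N4F.C.ChartLevelInst

open Fermat.Agent.N4F.C.Formula Fermat.Agent.N4F.C.ChartFibre Fermat.Agent.N4F.C.ChartReduction
  Fermat.Agent.N4F.C.SigmaTransport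

variable (A : ValuationSubring Qb) (N : ℕ) [NeZero N] (K : IntermediateField ℚ Qb)

/-- `A ∩ K → A` is a local homomorphism. -/
theorem isLocalHom_baseIncl : IsLocalHom (baseIncl A K) :=
  isLocalHom_trIncl A ↥K

variable {A K} [IsDiscreteValuationRing ↥(baseRing A K)]

/-- The residue fields of `A ∩ K` and `A` coincide when `K` contains the good roots of unity. -/
theorem bijective_residueMap {ℓ : ℕ} (hℓ : ℓ.Prime) (hA : A.LiesOverPrime ℓ)
    (hroots : ∀ ξ ∈ goodRoots A, ξ ∈ K) :
    haveI := isLocalHom_baseIncl A K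
    Function.Bijective (IsLocalRing.ResidueField.map (baseIncl A K)) := by
  haveI : Algebra.IsAlgebraic ℚ Qb := AlgebraicClosure.isAlgebraic ℚ
  exact bijective_residueField_map A ↥K hℓ hA (fun ξ hξ => ⟨⟨ξ, hroots ξ hξ⟩, rfl⟩)

/-! ### The standing statements at a level -/

section Statements

variable {N} {ℓ : ℕ} (hA : A.LiesOverPrime ℓ)
  (hGB : GoodBase (Lvl K) N (baseRing A K) ℓ) (hroots : ∀ ξ ∈ goodRoots A, ξ ∈ K)

include hA hroots in
theorem exists_omega_lvl (h2 : ℓ = 2) : ∃ z : Lvl K, z ^ 2 + z + 1 = 0 :=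
  PGI.exists_omega_of_goodRoots hA K hroots h2

include hGB hroots in
theorem exists_primitiveRoot_lvl : ∃ ζ : Lvl K, IsPrimitiveRoot ζ N := by
  have hN : IsUnit ((N : ℕ) : ↥(baseRing A K)) :=
    isUnit_natCast_of_goodBase (Lvl K) N (baseRing A K) hGB
  have hNA : ((N : ℕ) : Qb) ∉ A.nonunits := by
    intro h
    have h1 : IsUnit (baseIncl A K ((N : ℕ) : ↥(baseRing A K))) := hN.map _
    rw [map_natCast] at h1
    have h2 : ((N : ℕ) : ↥A) ∈ IsLocalRing.maximalIdeal ↥A := by
      rw [← ValuationSubring.coe_mem_nonunits_iff]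
      simpa using h
    exact ((IsLocalRing.mem_maximalIdeal _).mp h2) h1
  haveI : NeZero ((N : ℕ) : ℚ) := ⟨Nat.cast_ne_zero.mpr (NeZero.ne N)⟩
  obtain ⟨ζ, hζ⟩ := HasEnoughRootsOfUnity.exists_primitiveRoot Qb N
  have hζK : ζ ∈ K := hroots ζ ⟨N, hNA, hζ.pow_eq_one⟩
  refine ⟨(Lvl.toSub K).symm ⟨ζ, hζK⟩, ?_⟩
  refine IsPrimitiveRoot.of_map_of_injective (f := algebraMap (Lvl K) Qb) ?_
    (algebraMap (Lvl K) Qb).injective
  exact hζ

variable [IsAlgClosed (IsLocalRing.ResidueField ↥(baseRing A K))]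

include hA hGB hroots in
/-- `(∗)` at a good level. -/
theorem starStatement_lvl : StarStatement (Lvl K) N (baseRing A K) :=
  Fermat.Agent.N4.SmoothModel.starTargetOmega (Lvl K) N (baseRing A K) ℓ hGB
    (exists_omega_lvl hA hroots)

include hA hGB hroots in
/-- `(S)` at a good level. -/
theorem smoothStatement_lvl : SmoothStatement (Lvl K) N (baseRing A K) :=
  Fermat.Agent.N4.SmoothModel.smoothTargetRoots (Lvl K) N (baseRing A K) ℓ hGB
    (exists_primitiveRoot_lvl hGB hroots) (exists_omega_lvl hA hroots)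

end Statements

/-! ### Charts of the special fibre lie in the valuation rings of the places where the generator is
regular -/

section Sigma

variable {k F : Type*} [Field k] [Field F] [Algebra k F]

/-- A place whose valuation ring contains `s` contains the integral closure of `k[s]`. -/
theorem mem_of_mem_chartAlg (Q : Place k F) {s x : F} (hs : s ∈ Q.toValuationSubring)
    (hx : x ∈ chartAlg k F {s}) : x ∈ Q.toValuationSubring := by
  rw [mem_chartAlg_iff] at hx
  refine mem_of_isIntegral_of_forall_mem Q (A := ↥(Algebra.adjoin k ({s} : Set F))) ?_ hx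
  intro a
  have hle : Algebra.adjoin k ({s} : Set F) ≤ placeSubalgebra Q :=
    Algebra.adjoin_le (Set.singleton_subset_iff.mpr ((mem_placeSubalgebra Q s).mpr hs))
  exact (mem_placeSubalgebra Q _).mp (hle a.2)

end Sigma

/-! ### The chart data at a level -/

section Level

variable {N} {ℓ : ℕ} (hℓ : ℓ.Prime) (hA : A.LiesOverPrime ℓ)
  [IsAlgClosed (IsLocalRing.ResidueField ↥(baseRing A K))]
  (hGB : GoodBase (Lvl K) N (baseRing A K) ℓ) (hroots : ∀ ξ ∈ goodRoots A, ξ ∈ K)

include hℓ hA hGB hroots in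
/-- **The chart data of the finite chart at a good level.** -/
theorem chartLevel_fin :
    ChartLevel A N K (Rfin (Lvl K) N (baseRing A K)) (RtFin A N) (jb N) := by
  haveI := hGB.frac
  haveI := isLocalHom_baseIncl A K
  have hN : IsUnit ((N : ℕ) : ↥(baseRing A K)) :=
    isUnit_natCast_of_goodBase (Lvl K) N (baseRing A K) hGB
  have hstar := starStatement_lvl hA hGB hroots
  have hsm := smoothStatement_lvl hA hGB hroots
  have hprime := hstar.1.isPrime
  obtain ⟨ϖ, hϖ⟩ := IsDiscreteValuationRing.exists_irreducible ↥(baseRing A K)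
  have hbij := bijective_residueMap hℓ hA hroots
  have hφ : ∀ a : ↥(baseRing A K), ((baseIncl A K a : ↥A) : Qb) = algebraMap (Lvl K) Qb (a : Lvl K) :=
    coe_baseIncl A K
  have hj : Transcendental (Lvl K) (jF (Lvl K) N) :=
    Fermat.Agent.N4.FFAlgebraic.transcendental_jF (Lvl K) N
  haveI : FiniteDimensional (IntermediateField.adjoin (Lvl K) {jF (Lvl K) N}) (FF (Lvl K) N) :=
    Fermat.Agent.N4.ModPolySetting.finiteDimensional_FF (Lvl K) N
  have hgauss : ∀ x : Rfin (Lvl K) N (baseRing A K),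
      (x : FF (Lvl K) N) ∈ Fermat.Agent.N4.FibreEmbedding.gaussSubalgebra (Lvl K) N (baseRing A K) :=
    fun x => Fermat.Agent.N4.FibreEmbedding.chartAlg_le_gaussSubalgebra (Lvl K) N (baseRing A K)
      (Set.singleton_subset_iff.mpr
        (Fermat.Agent.N4.FibreEmbedding.jF_mem_gaussSubalgebra (Lvl K) N (baseRing A K))) x.2
  set ι := IsLocalRing.ResidueField.map (baseIncl A K) with hι
  set red := redFin (Lvl K) N (baseRing A K) hN with hred
  have hinj : Function.Injective (ffMap ι N) := ffMap_injective ι N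
  have hker : RingHom.ker red = Ideal.span {algebraMap ↥(baseRing A K)
      ↥(Rfin (Lvl K) N (baseRing A K)) ϖ} := by
    rw [hred, ker_redFin (Lvl K) N (baseRing A K) hN hprime,
      Fermat.Agent.N4.FibreEmbedding.fibreIdeal_eq_span (Lvl K) N (baseRing A K) hϖ]
  refine ⟨Fermat.Agent.N4.IntClosure.isNoetherianRing_chartAlg (K := Lvl K) (jF (Lvl K) N) hj,
    Fermat.Agent.N4.SmoothDescent.isFractionRing_chartAlg_singleton (K := Lvl K) (jF (Lvl K) N) hj,
    fun x => lev_mem_RtFin A N K x.2,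
    fun x => ThetaLevel.lev_mem_gaussSub A N (Lvl K) (baseRing A K) (baseIncl A K) hφ (hgauss x),
    ϖ, (ffMap ι N).comp red, hϖ, ?_, ?_, ?_, ?_, ?_, ?_⟩
  · -- `ρ = thetaBar ∘ lev`
    intro x
    exact (ThetaLevel.thetaBar_lev A N (Lvl K) (baseRing A K) (baseIncl A K) hφ (hgauss x)).symm
  · -- Dedekind fibre
    have h := hsm.1
    rw [Fermat.Agent.N4.FibreEmbedding.fibreIdeal_eq_span (Lvl K) N (baseRing A K) hϖ] at h
    exact h
  · -- kernel
    rw [← hker]
    ext x
    rw [RingHom.mem_ker, RingHom.mem_ker, RingHom.comp_apply, map_eq_zero_iff _ hinj]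
  · -- fractions
    intro z
    let e : IsLocalRing.ResidueField ↥(baseRing A K) ≃+* Kap A := RingEquiv.ofBijective ι hbij
    obtain ⟨a, b, hb, hab⟩ := exists_frac_fin (Lvl K) N (baseRing A K) hN
      (ffMap (e.symm : Kap A →+* IsLocalRing.ResidueField ↥(baseRing A K)) N z)
    refine ⟨a, b, ?_, ?_⟩
    · rw [RingHom.comp_apply]
      exact (map_ne_zero_iff _ hinj).mpr hb
    · have h1 := congrArg (ffMap (e : IsLocalRing.ResidueField ↥(baseRing A K) →+* Kap A) N) hab
      rw [map_mul, ffMap_ffMap_symm] at h1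
      exact h1
  · -- regularity
    intro Q hQ x
    rw [thetaFt_jb] at hQ
    refine mem_of_mem_chartAlg Q hQ ?_
    exact ffMap_mem_SigmaFin N ι (redFin_mem_SigmaFin (Lvl K) N (baseRing A K) hN x)
  · -- compatibility with `(∗)`
    intro y' hy' _
    obtain ⟨a, b, hb, hab, -⟩ := redFin_compat (Lvl K) N (baseRing A K) hN hprime y' hy'
    refine ⟨a, b, ?_, hab⟩
    rw [RingHom.comp_apply]
    refine (map_ne_zero_iff _ hinj).mpr ?_
    intro h0
    apply hb
    rw [← ker_redFin (Lvl K) N (baseRing A K) hN hprime, RingHom.mem_ker]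
    exact h0

include hℓ hA hGB hroots in
/-- **The chart data of the chart at infinity at a good level.** -/
theorem chartLevel_inf :
    ChartLevel A N K (Rinf (Lvl K) N (baseRing A K)) (RtInf A N) (jb N)⁻¹ := by
  haveI := hGB.frac
  haveI := isLocalHom_baseIncl A K
  have hN : IsUnit ((N : ℕ) : ↥(baseRing A K)) :=
    isUnit_natCast_of_goodBase (Lvl K) N (baseRing A K) hGB
  have hstar := starStatement_lvl hA hGB hroots
  have hsm := smoothStatement_lvl hA hGB hroots
  have hprime := hstar.2.isPrime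
  obtain ⟨ϖ, hϖ⟩ := IsDiscreteValuationRing.exists_irreducible ↥(baseRing A K)
  have hbij := bijective_residueMap hℓ hA hroots
  have hφ : ∀ a : ↥(baseRing A K), ((baseIncl A K a : ↥A) : Qb) = algebraMap (Lvl K) Qb (a : Lvl K) :=
    coe_baseIncl A K
  have hj : Transcendental (Lvl K) (jF (Lvl K) N)⁻¹ :=
    Fermat.Agent.N4.FFAlgebraic.transcendental_jF_inv (Lvl K) N
  haveI : FiniteDimensional (IntermediateField.adjoin (Lvl K) {(jF (Lvl K) N)⁻¹})
      (FF (Lvl K) N) := by
    rw [Fermat.Agent.N4.FFAlgebraic.adjoin_jF_inv (Lvl K) N]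
    exact Fermat.Agent.N4.ModPolySetting.finiteDimensional_FF (Lvl K) N
  have hgauss : ∀ x : Rinf (Lvl K) N (baseRing A K),
      (x : FF (Lvl K) N) ∈ Fermat.Agent.N4.FibreEmbedding.gaussSubalgebra (Lvl K) N (baseRing A K) :=
    fun x => Fermat.Agent.N4.FibreEmbedding.chartAlg_le_gaussSubalgebra (Lvl K) N (baseRing A K)
      (Set.singleton_subset_iff.mpr
        (Fermat.Agent.N4.FibreEmbedding.jF_inv_mem_gaussSubalgebra (Lvl K) N (baseRing A K))) x.2
  set ι := IsLocalRing.ResidueField.map (baseIncl A K) with hι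
  set red := redInf (Lvl K) N (baseRing A K) hN with hred
  have hinj : Function.Injective (ffMap ι N) := ffMap_injective ι N
  have hker : RingHom.ker red = Ideal.span {algebraMap ↥(baseRing A K)
      ↥(Rinf (Lvl K) N (baseRing A K)) ϖ} := by
    rw [hred, ker_redInf (Lvl K) N (baseRing A K) hN hprime,
      Fermat.Agent.N4.FibreEmbedding.fibreIdeal_eq_span (Lvl K) N (baseRing A K) hϖ]
  refine ⟨Fermat.Agent.N4.IntClosure.isNoetherianRing_chartAlg (K := Lvl K) (jF (Lvl K) N)⁻¹ hj,
    Fermat.Agent.N4.SmoothDescent.isFractionRing_chartAlg_singleton (K := Lvl K) (jF (Lvl K) N)⁻¹ hj,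
    fun x => lev_mem_RtInf A N K x.2,
    fun x => ThetaLevel.lev_mem_gaussSub A N (Lvl K) (baseRing A K) (baseIncl A K) hφ (hgauss x),
    ϖ, (ffMap ι N).comp red, hϖ, ?_, ?_, ?_, ?_, ?_, ?_⟩
  · -- `ρ = thetaBar ∘ lev`
    intro x
    exact (ThetaLevel.thetaBar_lev A N (Lvl K) (baseRing A K) (baseIncl A K) hφ (hgauss x)).symm
  · -- Dedekind fibre
    have h := hsm.2
    rw [Fermat.Agent.N4.FibreEmbedding.fibreIdeal_eq_span (Lvl K) N (baseRing A K) hϖ] at h
    exact h
  · -- kernel
    rw [← hker]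
    ext x
    rw [RingHom.mem_ker, RingHom.mem_ker, RingHom.comp_apply, map_eq_zero_iff _ hinj]
  · -- fractions
    intro z
    let e : IsLocalRing.ResidueField ↥(baseRing A K) ≃+* Kap A := RingEquiv.ofBijective ι hbij
    obtain ⟨a, b, hb, hab⟩ := exists_frac_inf (Lvl K) N (baseRing A K) hN
      (ffMap (e.symm : Kap A →+* IsLocalRing.ResidueField ↥(baseRing A K)) N z)
    refine ⟨a, b, ?_, ?_⟩
    · rw [RingHom.comp_apply]
      exact (map_ne_zero_iff _ hinj).mpr hb
    · have h1 := congrArg (ffMap (e : IsLocalRing.ResidueField ↥(baseRing A K) →+* Kap A) N) hab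
      rw [map_mul, ffMap_ffMap_symm] at h1
      exact h1
  · -- regularity
    intro Q hQ x
    rw [thetaFt_jb_inv] at hQ
    refine mem_of_mem_chartAlg Q hQ ?_
    exact ffMap_mem_SigmaInf N ι (redInf_mem_SigmaInf (Lvl K) N (baseRing A K) hN x)
  · -- compatibility with `(∗)`
    intro y' hy' _
    obtain ⟨a, b, hb, hab, -⟩ := redInf_compat (Lvl K) N (baseRing A K) hN hprime y' hy'
    refine ⟨a, b, ?_, hab⟩
    rw [RingHom.comp_apply]
    refine (map_ne_zero_iff _ hinj).mpr ?_
    intro h0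
    apply hb
    rw [← ker_redInf (Lvl K) N (baseRing A K) hN hprime, RingHom.mem_ker]
    exact h0

include hℓ hA hGB hroots in
/-- **The hypothesis `hlevel` of `Formula.isPlaceReduction_of_T1` at one good level.** -/
theorem chartLevel_both :
    ChartLevel A N K (Rfin (Lvl K) N (baseRing A K)) (RtFin A N) (jb N) ∧
      ChartLevel A N K (Rinf (Lvl K) N (baseRing A K)) (RtInf A N) (jb N)⁻¹ :=
  ⟨chartLevel_fin hℓ hA hGB hroots, chartLevel_inf hℓ hA hGB hroots⟩

end Level

/-- **The level-wise chart data for all good levels**: the hypothesis `hlevel` of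
`Formula.isPlaceReduction_of_T1` (`= Main.LevelHyp A N ℓ`). -/
theorem levelHyp (A : ValuationSubring Qb) (N : ℕ) [NeZero N] {ℓ : ℕ} (hℓ : ℓ.Prime)
    (hA : A.LiesOverPrime ℓ) :
    ∀ (K : IntermediateField ℚ Qb) [IsDiscreteValuationRing ↥(baseRing A K)]
      [IsAlgClosed (IsLocalRing.ResidueField ↥(baseRing A K))],
      GoodBase (Lvl K) N (baseRing A K) ℓ → (∀ ξ ∈ goodRoots A, ξ ∈ K) →
      ChartLevel A N K (Rfin (Lvl K) N (baseRing A K)) (RtFin A N) (jb N) ∧
      ChartLevel A N K (Rinf (Lvl K) N (baseRing A K)) (RtInf A N) (jb N)⁻¹ :=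
  fun _ _ _ hGB hroots => chartLevel_both hℓ hA hGB hroots

end Fermat.Agent.N4F.C.ChartLevelInst
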