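/-
N4-FULL block C (helper16): **all places of the special fibre have degree one.**

Generic: in a function field `F` of one variable over an algebraically closed field `k`
(`F` algebraic over `k(x)`, `x` transcendental — no separability or characteristic assumption) the
residue field of every place is `k`: `isAlgebraic_residue`, `bijective_algebraMap_residueField`,
`deg_eq_one_of_isAlgClosed`.

For the modular function field: `isIntegral_jdF` (`j(q^d)` is integral over `k(j)`, any field `k`),
`isAlgebraic_FF` (`FF k N` is algebraic over `k(j)`, any field `k`), and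
**`deg_eq_one_Ft : ∀ Q : Place (Kap A) (Ft A N), Q.deg = 1`**.
-/
import Mathlib
import Fermat.Agent.N4F.C.Base
import Fermat.Agent.N4.BigDVR
import Fermat.Agent.N4.FFAlgebraic
import Fermat.Agent.N4.Kronecker
import Fermat.Agent.S24.KaehlerFF
import Fermat.Agent.S24.PlaceDict

set_option autoImplicit false
set_option linter.style.haveILetI false
set_option linter.unusedSectionVars false
set_option synthInstance.maxHeartbeats 400000
set_option maxHeartbeats 800000

open AlgebraicCurve ModularCurve Polynomial IntermediateField

noncomputable section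

namespace Fermat.Agent.N4F.C.DegOne

/-! ### Generic: residue fields of places are algebraic over the constants -/

section Generic

universe u v

variable {k : Type u} {F : Type v} [Field k] [Field F] [Algebra k F]

/-- The residue class of an element of the valuation ring of a place is algebraic over the constant
field, in a function field of one variable. -/
theorem isAlgebraic_residue (x : F) (hx : Transcendental k x) [Algebra.IsAlgebraic k⟮x⟯ F]
    (Q : Place k F) (u : Q.toValuationSubring) :
    IsAlgebraic k (IsLocalRing.residue Q.toValuationSubring u : Q.ResidueField) := by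
  by_contra htr
  -- `u` is transcendental
  have hu : Transcendental k (u : F) := by
    intro halg
    have h1 : IsAlgebraic k u :=
      (isAlgebraic_algebraMap_iff (R := k) (S := Q.toValuationSubring) (A := F)
        Subtype.val_injective).mp halg
    exact htr (h1.algHom (IsScalarTower.toAlgHom k Q.toValuationSubring Q.ResidueField))
  haveI : Algebra.IsAlgebraic k⟮(u : F)⟯ F :=
    Fermat.Agent.S24.KaehlerFF.isAlgebraic_adjoin_of_transcendental x hx hu
  -- polynomials in `u` lie in `O_Q`, and are units there when nonzero
  have hpol : ∀ p : k[X], aeval (u : F) p ∈ Q.toValuationSubring := fun p => by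
    have h : aeval (u : F) p = ((aeval u p : Q.toValuationSubring) : F) :=
      aeval_algebraMap_apply F u p
    rw [h]
    exact SetLike.coe_mem _
  have hunit : ∀ p : k[X], p ≠ 0 → (aeval (u : F) p)⁻¹ ∈ Q.toValuationSubring := fun p hp => by
    have h : aeval (u : F) p = ((aeval u p : Q.toValuationSubring) : F) :=
      (aeval_algebraMap_apply F u p)
    have hres : IsLocalRing.residue Q.toValuationSubring (aeval u p) ≠ 0 := by
      have h1 : IsLocalRing.residue Q.toValuationSubring (aeval u p) =
          aeval (IsLocalRing.residue Q.toValuationSubring u : Q.ResidueField) p :=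
        (aeval_algHom_apply (IsScalarTower.toAlgHom k Q.toValuationSubring Q.ResidueField)
          u p).symm
      rw [h1]
      intro h0
      exact htr ⟨p, hp, h0⟩
    have hu' : IsUnit (aeval u p : Q.toValuationSubring) := by
      by_contra hnu
      exact hres ((IsLocalRing.residue_eq_zero_iff _).mpr ((IsLocalRing.mem_maximalIdeal _).mpr hnu))
    obtain ⟨w, hw⟩ := hu'
    rw [h, ← hw]
    have hmul : ((w : Q.toValuationSubring) : F) *
        (((w⁻¹ : (Q.toValuationSubring)ˣ) : Q.toValuationSubring) : F) = 1 := by
      have h1 : (w : Q.toValuationSubring) * ((w⁻¹ : (Q.toValuationSubring)ˣ) :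
          Q.toValuationSubring) = 1 := w.mul_inv
      exact congrArg (fun z : Q.toValuationSubring => (z : F)) h1
    rw [inv_eq_of_mul_eq_one_right hmul]
    exact SetLike.coe_mem _
  -- `k(u) ⊆ O_Q`
  have hsub : ∀ a : k⟮(u : F)⟯, algebraMap k⟮(u : F)⟯ F a ∈ Q.toValuationSubring := by
    intro a
    obtain ⟨r, s, hrs⟩ := (mem_adjoin_simple_iff k (a : F)).mp a.2
    show (a : F) ∈ Q.toValuationSubring
    rw [hrs, div_eq_mul_inv]
    by_cases hs : s = 0
    · rw [hs, map_zero, inv_zero, mul_zero]
      exact zero_mem _
    · exact mul_mem (hpol r) (hunit s hs)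
  -- hence `O_Q = F`
  apply Q.ne_top'
  refine SetLike.ext fun y => ⟨fun _ => ValuationSubring.mem_top y, fun _ => ?_⟩
  exact Fermat.Agent.S24.mem_of_isIntegral_of_forall_mem Q hsub
    (Algebra.IsAlgebraic.isAlgebraic (R := k⟮(u : F)⟯) y).isIntegral

/-- Over an algebraically closed constant field, the residue field of every place is the constant
field. -/
theorem bijective_algebraMap_residueField [IsAlgClosed k] (x : F) (hx : Transcendental k x)
    [Algebra.IsAlgebraic k⟮x⟯ F] (Q : Place k F) :
    Function.Bijective (algebraMap k Q.ResidueField) := by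
  haveI : Algebra.IsIntegral k Q.ResidueField := ⟨fun z => by
    obtain ⟨u, rfl⟩ := IsLocalRing.residue_surjective z
    exact (isAlgebraic_residue x hx Q u).isIntegral⟩
  exact IsAlgClosed.algebraMap_bijective_of_isIntegral

/-- Over an algebraically closed constant field every place has degree one. -/
theorem deg_eq_one_of_isAlgClosed [IsAlgClosed k] (x : F) (hx : Transcendental k x)
    [Algebra.IsAlgebraic k⟮x⟯ F] (Q : Place k F) : Q.deg = 1 := by
  have e : k ≃ₗ[k] Q.ResidueField :=
    LinearEquiv.ofBijective (Algebra.linearMap k Q.ResidueField)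
      (bijective_algebraMap_residueField x hx Q)
  rw [Place.deg, ← e.finrank_eq, Module.finrank_self]

end Generic

/-! ### The modular function field over an arbitrary field -/

section FF

open Fermat.Agent.N4.Setting Fermat.Agent.N4.Kronecker Fermat.Agent.N4.ModPolyDescent

variable (k : Type) [Field k] (N : ℕ) [NeZero N]

/-- `j(q^d)`, `d ∣ N`, is integral over `k(j)` (modular equation), for every field `k`. -/
theorem isIntegral_jdF {d : ℕ} [NeZero d] (hd : d ∣ N) :
    IsIntegral k⟮jF k N⟯ (jdF k N hd) := by
  refine ⟨(modPoly d).map (eval₂RingHom (Int.castRingHom k⟮jF k N⟯) (AdjoinSimple.gen k (jF k N))),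
    (modPoly_monic d).map _, ?_⟩
  have hcomp : (algebraMap k⟮jF k N⟯ (FF k N)).comp
      (eval₂RingHom (Int.castRingHom k⟮jF k N⟯) (AdjoinSimple.gen k (jF k N))) =
      eval₂RingHom (Int.castRingHom (FF k N)) (jF k N) := by
    refine Polynomial.ringHom_ext' (RingHom.ext_int _ _) ?_
    simp only [RingHom.comp_apply, coe_eval₂RingHom, eval₂_X]
    rfl
  rw [eval₂_map, hcomp, ← evZ_apply]
  apply Subtype.val_injective
  have h := map_evZ ((modularFunctionFieldFullC k N).val : FF k N →+* LaurentSeries k)
    (jF k N) (jdF k N hd) (modPoly d)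
  have h0 := evZ_modPoly d k 1
  rw [qExpand_one_apply, qExpand_one_apply] at h0
  exact h.trans h0

theorem isAlgebraic_const (c : k)
    (h : algebraMap k (LaurentSeries k) c ∈ modularFunctionFieldFullC k N) :
    IsAlgebraic k⟮jF k N⟯ (⟨algebraMap k (LaurentSeries k) c, h⟩ : FF k N) := by
  have h1 : (⟨algebraMap k (LaurentSeries k) c, h⟩ : FF k N) = algebraMap k (FF k N) c :=
    Subtype.ext rfl
  rw [h1, IsScalarTower.algebraMap_apply k k⟮jF k N⟯ (FF k N) c]
  exact isAlgebraic_algebraMap _

/-- `FF k N` is algebraic over `k(j)`, for every field `k`. -/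
theorem isAlgebraic_FF : Algebra.IsAlgebraic k⟮jF k N⟯ (FF k N) := by
  refine ⟨fun z => ?_⟩
  obtain ⟨y, hy⟩ := z
  induction hy using IntermediateField.adjoin_induction with
  | mem y hy =>
    obtain ⟨d, hd0, hd, rfl⟩ := hy
    exact (isIntegral_jdF k N hd).isAlgebraic
  | algebraMap c =>
    exact isAlgebraic_const k N c _
  | add y z hy hz ihy ihz =>
    have h : (⟨y + z, add_mem hy hz⟩ : FF k N) = ⟨y, hy⟩ + ⟨z, hz⟩ := Subtype.ext rfl
    rw [h]
    exact ihy.add ihz
  | inv y hy ihy =>
    have h : (⟨y⁻¹, inv_mem hy⟩ : FF k N) = (⟨y, hy⟩ : FF k N)⁻¹ := Subtype.ext rfl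
    rw [h]
    exact ihy.inv
  | mul y z hy hz ihy ihz =>
    have h : (⟨y * z, mul_mem hy hz⟩ : FF k N) = ⟨y, hy⟩ * ⟨z, hz⟩ := Subtype.ext rfl
    rw [h]
    exact ihy.mul ihz

end FF

/-! ### The special fibre -/

section Ft

variable (A : ValuationSubring Qb) (N : ℕ) [NeZero N]

/-- **Every place of the special fibre `F_κ = FF κ N` has degree one** (`κ`, the residue field of
`A ⊆ Q̄`, is algebraically closed). -/
theorem deg_eq_one_Ft (Q : Place (Kap A) (Ft A N)) : Q.deg = 1 := by
  haveI : IsAlgClosed (Kap A) := Fermat.Agent.N4.BigDVR.isAlgClosed_residueField A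
  haveI := isAlgebraic_FF (Kap A) N
  exact deg_eq_one_of_isAlgClosed (Fermat.Agent.N4.Setting.jF (Kap A) N)
    (Fermat.Agent.N4.FFAlgebraic.transcendental_jF (Kap A) N) Q

/-- Every place of the special fibre is rational. -/
theorem bijective_algebraMap_residueField_Ft (Q : Place (Kap A) (Ft A N)) :
    Function.Bijective (algebraMap (Kap A) Q.ResidueField) := by
  haveI : IsAlgClosed (Kap A) := Fermat.Agent.N4.BigDVR.isAlgClosed_residueField A
  haveI := isAlgebraic_FF (Kap A) N
  exact bijective_algebraMap_residueField (Fermat.Agent.N4.Setting.jF (Kap A) N)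
    (Fermat.Agent.N4.FFAlgebraic.transcendental_jF (Kap A) N) Q

end Ft

end Fermat.Agent.N4F.C.DegOne
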