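/-
N4-FULL, blocks C/E: **the two targets (∗) and (S) at every good level `(Lvl K, baseRing A K)`**, in
the form delivered by blocks S28a / Sreg (`SmoothModel.starTargetOmega`,
`SmoothModel.smoothTargetRoots`): the root-of-unity hypotheses are discharged from the `goodRoots`
clause of `LevelCharts.exists_level_ge` / `exists_level_of_finite` / `BigDVR.exists_goodBase`.

* `exists_omega_level`, `exists_primitiveRoot_level` : `ω ∈ K` (when `ℓ = 2`) and `ζ_N ∈ K`;
* `starStatement_level` : `StarStatement (Lvl K) N (baseRing A K)`;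
* `smoothStatement_level` : `SmoothStatement (Lvl K) N (baseRing A K)` (residue field of the level
  algebraically closed);
* `statements_level` : both.
-/
import Mathlib
import Fermat.Agent.N4F.C.LevelCharts
import Fermat.Agent.N4.SmoothModel

set_option autoImplicit false
set_option linter.style.haveILetI false
set_option linter.unusedSectionVars false

open AlgebraicCurve ModularCurve IntermediateField Polynomial
open Fermat.Agent.N4.Setting Fermat.Agent.N4.BigDVR
open Fermat.Agent.N4F.C Fermat.Agent.N4F.C.Levels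

namespace Fermat.Agent.N4F.C.LevelTargets

local notation "Qb" => AlgebraicClosure ℚ

variable (A : ValuationSubring Qb) (N : ℕ) [NeZero N] (K : IntermediateField ℚ Qb) {ℓ : ℕ}

/-- A natural number prime to the residue characteristic is a unit of `A`. -/
theorem natCast_not_mem_nonunits {n : ℕ} (hA : A.LiesOverPrime ℓ) (hn : Nat.Coprime n ℓ) :
    ((n : ℕ) : Qb) ∉ A.nonunits := by
  intro hpA
  have hℓA : ((ℓ : ℕ) : Qb) ∈ A.nonunits := hA
  have hcop : IsCoprime (n : ℤ) (ℓ : ℤ) := Nat.isCoprime_iff_coprime.mpr hn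
  obtain ⟨u, v, huv⟩ := hcop
  have h1 : ((n : ℕ) : ↥A) ∈ IsLocalRing.maximalIdeal ↥A := by
    rw [← ValuationSubring.coe_mem_nonunits_iff]
    simpa using hpA
  have h2 : ((ℓ : ℕ) : ↥A) ∈ IsLocalRing.maximalIdeal ↥A := by
    rw [← ValuationSubring.coe_mem_nonunits_iff]
    simpa using hℓA
  have h3 : (1 : ↥A) ∈ IsLocalRing.maximalIdeal ↥A := by
    have : (1 : ↥A) = (u : ↥A) * ((n : ℕ) : ↥A) + (v : ↥A) * ((ℓ : ℕ) : ↥A) := by
      have := congrArg (Int.cast : ℤ → ↥A) huv
      push_cast at this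
      exact this.symm
    rw [this]
    exact Ideal.add_mem _ (Ideal.mul_mem_left _ _ h1) (Ideal.mul_mem_left _ _ h2)
  exact (Ideal.ne_top_iff_one _).mp (IsLocalRing.maximalIdeal.isMaximal ↥A).ne_top h3

/-- A level containing the good roots of unity contains a primitive `n`-th root of unity for every
`n` prime to the residue characteristic. -/
theorem exists_primitiveRoot_level (hA : A.LiesOverPrime ℓ)
    (hroots : ∀ ξ ∈ goodRoots A, ξ ∈ K) {n : ℕ} (hn0 : n ≠ 0) (hn : Nat.Coprime n ℓ) :
    ∃ ζ : Lvl K, IsPrimitiveRoot ζ n := by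
  haveI : NeZero ((n : ℕ) : ℚ) := ⟨Nat.cast_ne_zero.mpr hn0⟩
  obtain ⟨ζ, hζ⟩ := HasEnoughRootsOfUnity.exists_primitiveRoot Qb n
  have hζK : ζ ∈ K := hroots ζ ⟨n, natCast_not_mem_nonunits A hA hn, hζ.pow_eq_one⟩
  refine ⟨(Lvl.toSub K).symm ⟨ζ, hζK⟩, ?_⟩
  refine IsPrimitiveRoot.of_map_of_injective (f := algebraMap (Lvl K) Qb) ?_
    (algebraMap (Lvl K) Qb).injective
  exact hζ

/-- For `ℓ = 2` a level containing the good roots of unity contains a primitive cube root of
unity. -/
theorem exists_omega_level (hA : A.LiesOverPrime ℓ)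
    (hroots : ∀ ξ ∈ goodRoots A, ξ ∈ K) (h2 : ℓ = 2) : ∃ z : Lvl K, z ^ 2 + z + 1 = 0 := by
  obtain ⟨ω, hω⟩ := exists_primitiveRoot_level A K hA hroots (n := 3) (by norm_num)
    (by rw [h2]; norm_num)
  refine ⟨ω, ?_⟩
  have h1 : ω ^ 3 = 1 := hω.pow_eq_one
  have hne : ω ≠ 1 := hω.ne_one (by norm_num)
  have h4 : (ω - 1) * (ω ^ 2 + ω + 1) = 0 := by ring_nf; rw [h1]; ring
  rcases mul_eq_zero.mp h4 with h | h
  · exact absurd (sub_eq_zero.mp h) hne
  · exact h

/-- **(∗) at a good level.** -/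
theorem starStatement_level [IsDiscreteValuationRing ↥(baseRing A K)] (hA : A.LiesOverPrime ℓ)
    (hGB : GoodBase (Lvl K) N (baseRing A K) ℓ) (hroots : ∀ ξ ∈ goodRoots A, ξ ∈ K) :
    StarStatement (Lvl K) N (baseRing A K) :=
  Fermat.Agent.N4.SmoothModel.starTargetOmega (Lvl K) N (baseRing A K) ℓ hGB
    (exists_omega_level A K hA hroots)

/-- **(S) at a good level** (algebraically closed residue field). -/
theorem smoothStatement_level [IsDiscreteValuationRing ↥(baseRing A K)]
    [IsAlgClosed (IsLocalRing.ResidueField ↥(baseRing A K))] (hA : A.LiesOverPrime ℓ)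
    (hGB : GoodBase (Lvl K) N (baseRing A K) ℓ) (hroots : ∀ ξ ∈ goodRoots A, ξ ∈ K) :
    SmoothStatement (Lvl K) N (baseRing A K) :=
  Fermat.Agent.N4.SmoothModel.smoothStatement (Lvl K) N (baseRing A K) hGB
    (exists_primitiveRoot_level A K hA hroots (NeZero.ne N)
      (Nat.coprime_comm.mp ((Nat.Prime.coprime_iff_not_dvd hGB.prime).mpr hGB.not_dvd)))
    (exists_omega_level A K hA hroots)

/-- Both targets at a good level. -/
theorem statements_level [IsDiscreteValuationRing ↥(baseRing A K)]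
    [IsAlgClosed (IsLocalRing.ResidueField ↥(baseRing A K))] (hA : A.LiesOverPrime ℓ)
    (hGB : GoodBase (Lvl K) N (baseRing A K) ℓ) (hroots : ∀ ξ ∈ goodRoots A, ξ ∈ K) :
    StarStatement (Lvl K) N (baseRing A K) ∧ SmoothStatement (Lvl K) N (baseRing A K) :=
  ⟨starStatement_level A N K hA hGB hroots, smoothStatement_level A N K hA hGB hroots⟩

end Fermat.Agent.N4F.C.LevelTargets
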