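/-
N4-FULL block C (helper8): the `Q̄`-level reduction `thetaBar / thetaFt` on the two charts
`R̃^fin = RtFin A N`, `R̃^inf = RtInf A N` via the good finite levels of `C/LevelCharts`
(moonshots #30, §5a/§5b; helper9's split #1142 (b)).

Level `K ⊆ Q̄` (an `IntermediateField ℚ Q̄`, base field `Lvl K`, base ring `baseRing A K = A ∩ K`
a DVR), `k_K` its residue field, `κ = Kap A`:
* `isLocalHom_baseIncl`, `iotaK A K : k_K →+* κ` (`= ResidueField.map (baseIncl A K)`),
  `iotaK_residue`, `iotaK_injective`, `iotaK_bijective`;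
* `levK_mem_gaussSub`, `thetaBar_levK : thetaBar A N (levK x) = coeffMap ι_K (theta x)`;
* `ffK A N K : FF k_K N →+* Ft A N` (coefficientwise `ι_K`), `ffK_jF`, `ffK_algebraMap`,
  `ffK_bijective`;
* generic chart `chartAlg O_K (FF K N) {s}`: `thetaChart`, `thetaFt_levK`, `thetaChart_eq_zero_iff`,
  `exists_eq_mul_of_thetaChart_eq_zero` (kernel `= ϖ·chart`, given the fibre ideal is prime),
  `thetaChart_mem_chartAlg` (image in `chartAlg κ (Ft A N) {θ s}`);
* the two charts of a level: `thetaKFin`, `thetaKInf`, `thetaFt_levK_fin/_inf`, `thetaKFin_mem`,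
  `thetaKInf_mem`, `exists_eq_mul_of_thetaKFin/Inf_eq_zero`;
* `Q̄`-level = the fields 1, 2, 3, 5 of `Centre.ChartFacts` for both charts, in the exact shapes of
  the structure fields: `le_gauss_fin/_inf`, `theta_mem_fin/_inf`, `theta_mem_Sg_fin/_inf`,
  `ker_fin/_inf` (the latter given `(∗)` at the good levels; `starStatement_of_starOmega` produces
  that hypothesis from `PGI.StarOmegaHyp = Irreducible.StarTargetOmega`).
-/
import Mathlib
import Fermat.Agent.N4F.C.Base
import Fermat.Agent.N4F.C.LevelCharts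
import Fermat.Agent.N4F.C.ChartReduction
import Fermat.Agent.N4.FibreEmbedding
import Fermat.Agent.N4.BaseDescent
import Fermat.Agent.N4F.C.PGI

set_option autoImplicit false
set_option linter.style.haveILetI false
set_option linter.unusedSectionVars false

open AlgebraicCurve ModularCurve IntermediateField Polynomial
open Fermat.Agent.N4.Setting Fermat.Agent.N4.Chart Fermat.Agent.S24
open Fermat.Agent.N4F.C Fermat.Agent.N4F.C.Levels Fermat.Agent.N4F.C.LevelCharts
open Fermat.Agent.N4.FibreEmbedding Fermat.Agent.S28.Gauss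

noncomputable section

namespace Fermat.Agent.N4F.C.LevelTheta

variable (A : ValuationSubring Qb) (N : ℕ) [NeZero N] (K : IntermediateField ℚ Qb)

instance isFractionRing_baseRing : IsFractionRing ↥(baseRing A K) (Lvl K) :=
  Fermat.Agent.N4.BigDVR.isFractionRing_trSubring A K

theorem mem_baseRing_iff {a : Lvl K} : a ∈ baseRing A K ↔ algebraMap (Lvl K) Qb a ∈ A := Iff.rfl

instance isLocalHom_baseIncl : IsLocalHom (baseIncl A K) := ⟨fun z hz => by
  obtain ⟨u, hu⟩ := hz.exists_right_inv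
  have hz0 : (z : Lvl K) ≠ 0 := by
    intro h0
    have h1 : baseIncl A K z = 0 := by
      rw [show z = 0 from Subtype.ext h0, map_zero]
    rw [h1, zero_mul] at hu
    exact zero_ne_one hu
  have h1 : algebraMap (Lvl K) Qb (z : Lvl K) * (u : Qb) = 1 := congrArg Subtype.val hu
  have hu' : algebraMap (Lvl K) Qb ((z : Lvl K)⁻¹) = (u : Qb) := by
    rw [map_inv₀]
    exact inv_eq_of_mul_eq_one_right h1
  have hmem : (z : Lvl K)⁻¹ ∈ baseRing A K := by
    rw [mem_baseRing_iff, hu']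
    exact u.2
  exact isUnit_iff_exists_inv.mpr ⟨⟨_, hmem⟩, Subtype.ext (mul_inv_cancel₀ hz0)⟩⟩

variable [IsDiscreteValuationRing ↥(baseRing A K)]

/-- The comparison of residue fields `κ(A ∩ K) → κ(A)`. -/
def iotaK : IsLocalRing.ResidueField ↥(baseRing A K) →+* Kap A :=
  IsLocalRing.ResidueField.map (baseIncl A K)

theorem iotaK_residue (a : ↥(baseRing A K)) :
    iotaK A K (IsLocalRing.residue _ a) = IsLocalRing.residue ↥A (baseIncl A K a) :=
  IsLocalRing.ResidueField.map_residue _ _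

theorem iotaK_comp_residue :
    (iotaK A K).comp (IsLocalRing.residue ↥(baseRing A K)) =
      (IsLocalRing.residue ↥A).comp (baseIncl A K) :=
  RingHom.ext fun a => iotaK_residue A K a

theorem iotaK_injective : Function.Injective (iotaK A K) := (iotaK A K).injective

/-- Bijectivity of `iotaK`, from the corresponding clause of `BigDVR.exists_goodBase`
(`LevelCharts.exists_level_ge`, `exists_level_of_finite`). -/
theorem iotaK_bijective
    (h : Function.Bijective (IsLocalRing.ResidueField.map (Fermat.Agent.N4.BigDVR.trIncl A K))) :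
    Function.Bijective (iotaK A K) := h

/-! ### Reduction of `q`-expansions commutes with `lev` -/

theorem coeffMap_subtype_baseIncl (y : LaurentSeries ↥(baseRing A K)) :
    coeffMap A.subtype (coeffMap (baseIncl A K) y) =
      coeffMap (algebraMap (Lvl K) Qb) (coeffMap (baseRing A K).subtype y) := by
  rw [coeffMap_coeffMap, coeffMap_coeffMap]
  exact coeffMap_congr (RingHom.ext fun a => rfl) y

theorem coeffMap_residue_baseIncl (y : LaurentSeries ↥(baseRing A K)) :
    coeffMap (IsLocalRing.residue ↥A) (coeffMap (baseIncl A K) y) =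
      coeffMap (iotaK A K) (coeffMap (IsLocalRing.residue ↥(baseRing A K)) y) := by
  rw [coeffMap_coeffMap, coeffMap_coeffMap, iotaK_comp_residue]

theorem coeffMap_iotaK_injective : Function.Injective (coeffMap (iotaK A K)) :=
  GaussBar.coeffMap_injective_of_injective _ (iotaK_injective A K)

/-- `lev` maps the Gauss ring of a level into the Gauss ring over `A`, and the reduction maps
correspond under `iotaK`. -/
theorem levK_mem_gaussSub_and_thetaBar {x : FF (Lvl K) N}
    (hx : x ∈ gaussSubalgebra (Lvl K) N (baseRing A K)) :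
    levK N K x ∈ gaussSub A N ∧
      thetaBar A N (levK N K x) =
        coeffMap (iotaK A K) (theta (Lvl K) N (baseRing A K) ⟨x, hx⟩) := by
  have hx' := hx
  obtain ⟨a, b, hb, hab⟩ := hx'
  have hT : theta (Lvl K) N (baseRing A K) ⟨x, hx⟩ *
      coeffMap (IsLocalRing.residue ↥(baseRing A K)) b =
      coeffMap (IsLocalRing.residue ↥(baseRing A K)) a := by
    rw [theta_apply, gaussRed_eq (⟨((x : FF (Lvl K) N) : LaurentSeries (Lvl K)), hx⟩ :
      gaussRing ↥(baseRing A K) (Lvl K)) hb hab]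
    exact div_mul_cancel₀ _ hb
  generalize theta (Lvl K) N (baseRing A K) ⟨x, hx⟩ = T at hT ⊢
  have hne : coeffMap (iotaK A K) (coeffMap (IsLocalRing.residue ↥(baseRing A K)) b) ≠ 0 := by
    intro h0
    exact hb (coeffMap_iotaK_injective A K (h0.trans (map_zero _).symm))
  have hb' : coeffMap (IsLocalRing.residue ↥A) (coeffMap (baseIncl A K) b) ≠ 0 := by
    rw [coeffMap_residue_baseIncl]
    exact hne
  have hmul : ((levK N K x : Fb N) : LaurentSeries Qb) *
      coeffMap A.subtype (coeffMap (baseIncl A K) b) =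
      coeffMap A.subtype (coeffMap (baseIncl A K) a) := by
    rw [coeffMap_subtype_baseIncl, coeffMap_subtype_baseIncl, coe_lev, ← map_mul]
    exact congrArg _ hab
  refine ⟨⟨_, _, hb', hmul⟩, ?_⟩
  have h1 := thetaBar_mul_eq (A := A) (N := N) (g := levK N K x) hb' hmul
  rw [coeffMap_residue_baseIncl, coeffMap_residue_baseIncl] at h1
  have h3 : coeffMap (iotaK A K) T *
      coeffMap (iotaK A K) (coeffMap (IsLocalRing.residue ↥(baseRing A K)) b) =
      coeffMap (iotaK A K) (coeffMap (IsLocalRing.residue ↥(baseRing A K)) a) := by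
    rw [← map_mul, hT]
  exact mul_right_cancel₀ hne (h1.trans h3.symm)

theorem levK_mem_gaussSub {x : FF (Lvl K) N}
    (hx : x ∈ gaussSubalgebra (Lvl K) N (baseRing A K)) : levK N K x ∈ gaussSub A N :=
  (levK_mem_gaussSub_and_thetaBar A N K hx).1

/-- **`thetaBar ∘ lev = coeffMap ι_K ∘ theta`.** -/
theorem thetaBar_levK {x : FF (Lvl K) N}
    (hx : x ∈ gaussSubalgebra (Lvl K) N (baseRing A K)) :
    thetaBar A N (levK N K x) =
      coeffMap (iotaK A K) (theta (Lvl K) N (baseRing A K) ⟨x, hx⟩) :=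
  (levK_mem_gaussSub_and_thetaBar A N K hx).2

/-! ### The comparison of special-fibre function fields -/

/-- `F_N(κ(A ∩ K)) → F_N(κ(A))`, coefficientwise `iotaK`. -/
def ffK : FF (IsLocalRing.ResidueField ↥(baseRing A K)) N →+* Ft A N :=
  Fermat.Agent.N4.BaseDescent.ffMap (iotaK A K) N

@[simp] theorem coe_ffK (x : FF (IsLocalRing.ResidueField ↥(baseRing A K)) N) :
    ((ffK A N K x : Ft A N) : LaurentSeries (Kap A)) =
      coeffMap (iotaK A K) (x : LaurentSeries (IsLocalRing.ResidueField ↥(baseRing A K))) := rfl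

theorem ffK_injective : Function.Injective (ffK A N K) := (ffK A N K).injective

theorem ffK_jF : ffK A N K (jF _ N) = jF (Kap A) N :=
  Fermat.Agent.N4.BaseDescent.ffMap_jF _ N

set_option synthInstance.maxHeartbeats 400000 in
set_option maxHeartbeats 1600000 in
theorem ffK_algebraMap (c : IsLocalRing.ResidueField ↥(baseRing A K)) :
    ffK A N K (algebraMap _ (FF _ N) c) = algebraMap (Kap A) (Ft A N) (iotaK A K c) :=
  Fermat.Agent.N4.BaseDescent.ffMap_algebraMap _ N c

theorem ffK_bijective (h : Function.Bijective (iotaK A K)) : Function.Bijective (ffK A N K) := by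
  refine ⟨ffK_injective A N K, fun y => ?_⟩
  let e : IsLocalRing.ResidueField ↥(baseRing A K) ≃+* Kap A := RingEquiv.ofBijective _ h
  refine ⟨Fermat.Agent.N4.BaseDescent.ffMap (e.symm : Kap A →+* _) N y, Subtype.ext ?_⟩
  show coeffMap (iotaK A K) (coeffMap (e.symm : Kap A →+* _) (y : LaurentSeries (Kap A))) = _
  rw [coeffMap_coeffMap]
  have : (iotaK A K).comp (e.symm : Kap A →+* _) = RingHom.id _ :=
    RingHom.ext fun c => e.apply_symm_apply c
  rw [this, coeffMap_id]

/-! ### The reduction map of a chart of a level, with values in the special fibre over `κ(A)` -/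

section Chart

variable {s : FF (Lvl K) N} (hs : s ∈ gaussSubalgebra (Lvl K) N (baseRing A K))
  (hfull : ∀ x : ↥(chartAlg ↥(baseRing A K) (FF (Lvl K) N) {s}),
    rho (Lvl K) N (baseRing A K) (S := {s}) (Set.singleton_subset_iff.mpr hs) x ∈
      modularFunctionFieldFullC (IsLocalRing.ResidueField ↥(baseRing A K)) N)

/-- The reduction map `θ_K : (A ∩ K)[s]~ → F_N(κ(A))` of a chart of a level. -/
def thetaChart : ↥(chartAlg ↥(baseRing A K) (FF (Lvl K) N) {s}) →+* Ft A N :=
  ((coeffMap (iotaK A K)).comp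
    (rho (Lvl K) N (baseRing A K) (S := {s}) (Set.singleton_subset_iff.mpr hs))).codRestrict
    (modularFunctionFieldFullC (Kap A) N)
    (fun x => Fermat.Agent.N4.BaseDescent.coeffMap_mem_full _ N (hfull x))

theorem coe_thetaChart (x : ↥(chartAlg ↥(baseRing A K) (FF (Lvl K) N) {s})) :
    ((thetaChart A N K hs hfull x : Ft A N) : LaurentSeries (Kap A)) =
      coeffMap (iotaK A K)
        (rho (Lvl K) N (baseRing A K) (S := {s}) (Set.singleton_subset_iff.mpr hs) x) := rfl

theorem thetaChart_eq_ffK (x : ↥(chartAlg ↥(baseRing A K) (FF (Lvl K) N) {s})) :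
    thetaChart A N K hs hfull x = ffK A N K ⟨_, hfull x⟩ := rfl

/-- **`thetaFt ∘ lev = θ_K`** on a chart of a level. -/
theorem thetaFt_levK (x : ↥(chartAlg ↥(baseRing A K) (FF (Lvl K) N) {s})) :
    thetaFt A N (levK N K (x : FF (Lvl K) N)) = thetaChart A N K hs hfull x := by
  have hxG : (x : FF (Lvl K) N) ∈ gaussSubalgebra (Lvl K) N (baseRing A K) :=
    chartAlg_le_gaussSubalgebra (Lvl K) N (baseRing A K) (Set.singleton_subset_iff.mpr hs) x.2
  have h1 : thetaBar A N (levK N K (x : FF (Lvl K) N)) =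
      ((thetaChart A N K hs hfull x : Ft A N) : LaurentSeries (Kap A)) := by
    rw [thetaBar_levK A N K hxG, coe_thetaChart, rho_eq_theta]
  have hmem : thetaBar A N (levK N K (x : FF (Lvl K) N)) ∈
      modularFunctionFieldFullC (Kap A) N := by
    rw [h1]; exact (thetaChart A N K hs hfull x).2
  exact Subtype.ext ((coe_thetaFt_of_mem hmem).trans h1)

set_option synthInstance.maxHeartbeats 400000 in
set_option maxHeartbeats 1600000 in
theorem thetaChart_algebraMap (a : ↥(baseRing A K)) :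
    thetaChart A N K hs hfull (algebraMap _ _ a) =
      algebraMap (Kap A) (Ft A N) (IsLocalRing.residue ↥A (baseIncl A K a)) := by
  apply Subtype.ext
  rw [coe_thetaChart, rho_algebraMap]
  show coeffMap (iotaK A K) (HahnSeries.single 0 _) = algebraMap (Kap A) (LaurentSeries (Kap A)) _
  rw [coeffMap_single, iotaK_residue, algebraMap_laurentSeries_eq_single]

theorem thetaChart_gen :
    ((thetaChart A N K hs hfull ⟨s, subset_chartAlg {s} (Set.mem_singleton s)⟩ : Ft A N) :
      LaurentSeries (Kap A)) =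
      coeffMap (iotaK A K) (theta (Lvl K) N (baseRing A K) ⟨s, hs⟩) := rfl

/-- **Kernel of `θ_K`**: the ideal of the special fibre, when the latter is prime. -/
theorem thetaChart_eq_zero_iff
    (htr : Transcendental (IsLocalRing.ResidueField ↥(baseRing A K))
      (theta (Lvl K) N (baseRing A K) ⟨s, hs⟩))
    (hprime : (fibreIdeal (Lvl K) N (baseRing A K)
      (chartAlg ↥(baseRing A K) (FF (Lvl K) N) {s})).IsPrime)
    (x : ↥(chartAlg ↥(baseRing A K) (FF (Lvl K) N) {s})) :
    thetaChart A N K hs hfull x = 0 ↔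
      x ∈ fibreIdeal (Lvl K) N (baseRing A K) (chartAlg ↥(baseRing A K) (FF (Lvl K) N) {s}) := by
  rw [← ker_rho_eq (Lvl K) N (baseRing A K) hs htr hprime, RingHom.mem_ker]
  constructor
  · intro h
    have h1 := congrArg (fun z : Ft A N => (z : LaurentSeries (Kap A))) h
    simp only [coe_thetaChart] at h1
    exact coeffMap_iotaK_injective A K (h1.trans (map_zero _).symm)
  · intro h
    apply Subtype.ext
    rw [coe_thetaChart, h, map_zero]
    rfl

/-- Kernel of `θ_K`, elementwise: divisibility by a uniformiser. -/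
theorem exists_eq_mul_of_thetaChart_eq_zero
    (htr : Transcendental (IsLocalRing.ResidueField ↥(baseRing A K))
      (theta (Lvl K) N (baseRing A K) ⟨s, hs⟩))
    (hprime : (fibreIdeal (Lvl K) N (baseRing A K)
      (chartAlg ↥(baseRing A K) (FF (Lvl K) N) {s})).IsPrime)
    {ϖ : ↥(baseRing A K)} (hϖ : Irreducible ϖ)
    (x : ↥(chartAlg ↥(baseRing A K) (FF (Lvl K) N) {s}))
    (hx : thetaChart A N K hs hfull x = 0) :
    ∃ x' : ↥(chartAlg ↥(baseRing A K) (FF (Lvl K) N) {s}), x = algebraMap _ _ ϖ * x' := by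
  have h1 := (thetaChart_eq_zero_iff A N K hs hfull htr hprime x).mp hx
  rw [fibreIdeal_eq_span (Lvl K) N (baseRing A K) hϖ, Ideal.mem_span_singleton'] at h1
  obtain ⟨x', hx'⟩ := h1
  exact ⟨x', by rw [← hx', mul_comm]⟩

set_option synthInstance.maxHeartbeats 400000 in
set_option maxHeartbeats 1600000 in
/-- The image of `O[s]` under `θ_K` lies in `κ[s̄]`. -/
theorem thetaChart_mem_adjoin {y : FF (Lvl K) N}
    (hy : y ∈ Algebra.adjoin ↥(baseRing A K) ({s} : Set (FF (Lvl K) N))) :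
    thetaChart A N K hs hfull ⟨y, adjoin_le_chartAlg {s} hy⟩ ∈
      Algebra.adjoin (Kap A) ({thetaChart A N K hs hfull
        ⟨s, subset_chartAlg {s} (Set.mem_singleton s)⟩} : Set (Ft A N)) := by
  induction hy using Algebra.adjoin_induction with
  | mem z hz =>
    rw [Set.mem_singleton_iff] at hz
    subst hz
    exact Algebra.subset_adjoin rfl
  | algebraMap a =>
    have h1 : (⟨algebraMap ↥(baseRing A K) (FF (Lvl K) N) a, adjoin_le_chartAlg {s}
        (Subalgebra.algebraMap_mem _ a)⟩ : ↥(chartAlg ↥(baseRing A K) (FF (Lvl K) N) {s})) =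
        algebraMap _ _ a := rfl
    rw [h1, thetaChart_algebraMap]
    exact Subalgebra.algebraMap_mem _ _
  | add z w hz hw ihz ihw =>
    have h1 : (⟨z + w, adjoin_le_chartAlg {s} (add_mem hz hw)⟩ :
        ↥(chartAlg ↥(baseRing A K) (FF (Lvl K) N) {s})) =
        ⟨z, adjoin_le_chartAlg {s} hz⟩ + ⟨w, adjoin_le_chartAlg {s} hw⟩ := rfl
    rw [h1, map_add]
    exact add_mem ihz ihw
  | mul z w hz hw ihz ihw =>
    have h1 : (⟨z * w, adjoin_le_chartAlg {s} (mul_mem hz hw)⟩ :
        ↥(chartAlg ↥(baseRing A K) (FF (Lvl K) N) {s})) =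
        ⟨z, adjoin_le_chartAlg {s} hz⟩ * ⟨w, adjoin_le_chartAlg {s} hw⟩ := rfl
    rw [h1, map_mul]
    exact mul_mem ihz ihw

set_option synthInstance.maxHeartbeats 400000 in
set_option maxHeartbeats 1600000 in
/-- **`θ_K` maps the chart `(A ∩ K)[s]~` into the chart `κ[s̄]~` of the special fibre.** -/
theorem thetaChart_mem_chartAlg (x : ↥(chartAlg ↥(baseRing A K) (FF (Lvl K) N) {s})) :
    thetaChart A N K hs hfull x ∈ chartAlg (Kap A) (Ft A N)
      {thetaChart A N K hs hfull ⟨s, subset_chartAlg {s} (Set.mem_singleton s)⟩} := by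
  rw [mem_chartAlg_iff]
  obtain ⟨p, hp, hpx⟩ := mem_chartAlg_iff.mp x.2
  let incl : ↥(Algebra.adjoin ↥(baseRing A K) ({s} : Set (FF (Lvl K) N))) →+*
      ↥(chartAlg ↥(baseRing A K) (FF (Lvl K) N) {s}) :=
    (Subalgebra.inclusion (adjoin_le_chartAlg {s})).toRingHom
  have hpx' : p.eval₂ incl x = 0 := by
    apply Subtype.ext
    have h1 := Polynomial.hom_eval₂ p incl
      (SubringClass.subtype (chartAlg ↥(baseRing A K) (FF (Lvl K) N) {s})) x
    exact h1.trans hpx
  let g' : ↥(Algebra.adjoin ↥(baseRing A K) ({s} : Set (FF (Lvl K) N))) →+*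
      ↥(Algebra.adjoin (Kap A) ({thetaChart A N K hs hfull
        ⟨s, subset_chartAlg {s} (Set.mem_singleton s)⟩} : Set (Ft A N))) :=
    ((thetaChart A N K hs hfull).comp incl).codRestrict _
      (fun b => thetaChart_mem_adjoin A N K hs hfull b.2)
  refine ⟨p.map g', hp.map g', ?_⟩
  rw [Polynomial.eval₂_map]
  have h2 : (algebraMap ↥(Algebra.adjoin (Kap A) ({thetaChart A N K hs hfull
      ⟨s, subset_chartAlg {s} (Set.mem_singleton s)⟩} : Set (Ft A N))) (Ft A N)).comp g' =
      (thetaChart A N K hs hfull).comp incl := RingHom.ext fun b => rfl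
  rw [h2, ← Polynomial.hom_eval₂, hpx', map_zero]

end Chart

/-! ### The two charts of a level -/

section TwoCharts

open Fermat.Agent.N4F.C.ChartReduction

variable (hN : IsUnit ((N : ℕ) : ↥(baseRing A K)))

include hN in
theorem hfull_fin (x : ↥(Rfin (Lvl K) N (baseRing A K))) :
    rho (Lvl K) N (baseRing A K) (S := {jF (Lvl K) N})
      (Set.singleton_subset_iff.mpr (jF_mem_gaussSubalgebra (Lvl K) N (baseRing A K))) x ∈
      modularFunctionFieldFullC (IsLocalRing.ResidueField ↥(baseRing A K)) N := by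
  rw [rho_eq_theta]
  exact theta_mem_full_of_mem_Rfin (Lvl K) N (baseRing A K) hN x.2 _

include hN in
theorem hfull_inf (x : ↥(Rinf (Lvl K) N (baseRing A K))) :
    rho (Lvl K) N (baseRing A K) (S := {(jF (Lvl K) N)⁻¹})
      (Set.singleton_subset_iff.mpr (jF_inv_mem_gaussSubalgebra (Lvl K) N (baseRing A K))) x ∈
      modularFunctionFieldFullC (IsLocalRing.ResidueField ↥(baseRing A K)) N := by
  rw [rho_eq_theta]
  exact theta_mem_full_of_mem_Rinf (Lvl K) N (baseRing A K) hN x.2 _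

/-- `θ_K` on the finite chart `R_K^fin`. -/
def thetaKFin : ↥(Rfin (Lvl K) N (baseRing A K)) →+* Ft A N :=
  thetaChart A N K (jF_mem_gaussSubalgebra (Lvl K) N (baseRing A K)) (hfull_fin A N K hN)

/-- `θ_K` on the chart at infinity `R_K^inf`. -/
def thetaKInf : ↥(Rinf (Lvl K) N (baseRing A K)) →+* Ft A N :=
  thetaChart A N K (jF_inv_mem_gaussSubalgebra (Lvl K) N (baseRing A K)) (hfull_inf A N K hN)

theorem thetaFt_levK_fin (x : ↥(Rfin (Lvl K) N (baseRing A K))) :
    thetaFt A N (levK N K (x : FF (Lvl K) N)) = thetaKFin A N K hN x :=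
  thetaFt_levK A N K _ _ x

theorem thetaFt_levK_inf (x : ↥(Rinf (Lvl K) N (baseRing A K))) :
    thetaFt A N (levK N K (x : FF (Lvl K) N)) = thetaKInf A N K hN x :=
  thetaFt_levK A N K _ _ x

theorem thetaKFin_jFin : thetaKFin A N K hN (jFin (Lvl K) N (baseRing A K)) = jF (Kap A) N := by
  apply Subtype.ext
  show coeffMap (iotaK A K) (theta (Lvl K) N (baseRing A K) ⟨jF (Lvl K) N, _⟩) = _
  rw [theta_jF, coeffMap_jqModC, coe_jF]

theorem thetaKInf_jInvInf :
    thetaKInf A N K hN (jInvInf (Lvl K) N (baseRing A K)) = (jF (Kap A) N)⁻¹ := by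
  apply Subtype.ext
  show coeffMap (iotaK A K) (theta (Lvl K) N (baseRing A K) ⟨(jF (Lvl K) N)⁻¹, _⟩) = _
  rw [theta_jF_inv, map_inv₀, coeffMap_jqModC]
  rfl

set_option synthInstance.maxHeartbeats 400000 in
set_option maxHeartbeats 1600000 in
theorem thetaKFin_algebraMap (a : ↥(baseRing A K)) :
    thetaKFin A N K hN (algebraMap _ _ a) =
      algebraMap (Kap A) (Ft A N) (IsLocalRing.residue ↥A (baseIncl A K a)) :=
  thetaChart_algebraMap A N K _ _ a

set_option synthInstance.maxHeartbeats 400000 in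
set_option maxHeartbeats 1600000 in
theorem thetaKInf_algebraMap (a : ↥(baseRing A K)) :
    thetaKInf A N K hN (algebraMap _ _ a) =
      algebraMap (Kap A) (Ft A N) (IsLocalRing.residue ↥A (baseIncl A K a)) :=
  thetaChart_algebraMap A N K _ _ a

set_option synthInstance.maxHeartbeats 400000 in
set_option maxHeartbeats 1600000 in
/-- `θ_K (R_K^fin) ⊆ Σ^fin`, the integral closure of `κ[j̄]` in `F_N(κ)`. -/
theorem thetaKFin_mem (x : ↥(Rfin (Lvl K) N (baseRing A K))) :
    thetaKFin A N K hN x ∈ chartAlg (Kap A) (Ft A N) {jF (Kap A) N} := by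
  have h := thetaChart_mem_chartAlg A N K (jF_mem_gaussSubalgebra (Lvl K) N (baseRing A K))
    (hfull_fin A N K hN) x
  have h2 := thetaKFin_jFin A N K hN
  unfold thetaKFin jFin chartGen at h2
  rw [h2] at h
  exact h

set_option synthInstance.maxHeartbeats 400000 in
set_option maxHeartbeats 1600000 in
/-- `θ_K (R_K^inf) ⊆ Σ^inf`, the integral closure of `κ[j̄⁻¹]` in `F_N(κ)`. -/
theorem thetaKInf_mem (x : ↥(Rinf (Lvl K) N (baseRing A K))) :
    thetaKInf A N K hN x ∈ chartAlg (Kap A) (Ft A N) {(jF (Kap A) N)⁻¹} := by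
  have h := thetaChart_mem_chartAlg A N K (jF_inv_mem_gaussSubalgebra (Lvl K) N (baseRing A K))
    (hfull_inf A N K hN) x
  have h2 := thetaKInf_jInvInf A N K hN
  unfold thetaKInf jInvInf chartGen at h2
  rw [h2] at h
  exact h

theorem transcendental_theta_jF_inv :
    Transcendental (IsLocalRing.ResidueField ↥(baseRing A K))
      (theta (Lvl K) N (baseRing A K)
        ⟨(jF (Lvl K) N)⁻¹, jF_inv_mem_gaussSubalgebra (Lvl K) N (baseRing A K)⟩) := by
  rw [theta_jF_inv]
  intro halg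
  exact Fermat.Agent.S24.FFBasics.transcendental_jqModC _ (by simpa using halg.inv)

/-- **Kernel of `θ_K` on `R_K^fin`**, given `(∗)`. -/
theorem exists_eq_mul_of_thetaKFin_eq_zero (hstar : StarStatement (Lvl K) N (baseRing A K))
    {ϖ : ↥(baseRing A K)} (hϖ : Irreducible ϖ) (x : ↥(Rfin (Lvl K) N (baseRing A K)))
    (hx : thetaKFin A N K hN x = 0) :
    ∃ x' : ↥(Rfin (Lvl K) N (baseRing A K)), x = algebraMap _ _ ϖ * x' :=
  exists_eq_mul_of_thetaChart_eq_zero A N K _ _ (transcendental_theta_jF (Lvl K) N (baseRing A K))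
    hstar.1.isPrime hϖ x hx

/-- **Kernel of `θ_K` on `R_K^inf`**, given `(∗)`. -/
theorem exists_eq_mul_of_thetaKInf_eq_zero (hstar : StarStatement (Lvl K) N (baseRing A K))
    {ϖ : ↥(baseRing A K)} (hϖ : Irreducible ϖ) (x : ↥(Rinf (Lvl K) N (baseRing A K)))
    (hx : thetaKInf A N K hN x = 0) :
    ∃ x' : ↥(Rinf (Lvl K) N (baseRing A K)), x = algebraMap _ _ ϖ * x' :=
  exists_eq_mul_of_thetaChart_eq_zero A N K _ _ (transcendental_theta_jF_inv A N K)
    hstar.2.isPrime hϖ x hx

end TwoCharts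

/-! ### `Q̄`-level corollaries -/

section QbarLevel

open Fermat.Agent.N4.BigDVR Fermat.Agent.N4F.C.ChartReduction

variable {A N}
variable {ℓ : ℕ} (hℓ : ℓ.Prime) (hA : A.LiesOverPrime ℓ) (hℓN : ¬ ℓ ∣ N)

include hℓ hA hℓN

/-- Every element of `R̃^fin` comes from the finite chart of a good level. -/
theorem exists_level_fin {g : Fb N} (hg : g ∈ RtFin A N) :
    ∃ (K : IntermediateField ℚ Qb) (_ : IsDiscreteValuationRing ↥(baseRing A K))
      (_ : IsAlgClosed (IsLocalRing.ResidueField ↥(baseRing A K))),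
      GoodBase (Lvl K) N (baseRing A K) ℓ ∧ (∀ ξ ∈ goodRoots A, ξ ∈ K) ∧
        ∃ x : ↥(Rfin (Lvl K) N (baseRing A K)), levK N K (x : FF (Lvl K) N) = g := by
  obtain ⟨K₀, hK₀, h⟩ := exists_finiteDimensional_RtFin A N hg
  haveI := hK₀
  obtain ⟨K, hK, hDVR, hAC, hGB, -, hroots⟩ := exists_level_ge A N hℓ hA hℓN K₀
  obtain ⟨x, hx, hxg⟩ := h K hK
  exact ⟨K, hDVR, hAC, hGB, hroots, ⟨x, hx⟩, hxg⟩

/-- Every element of `R̃^inf` comes from the chart at infinity of a good level. -/
theorem exists_level_inf {g : Fb N} (hg : g ∈ RtInf A N) :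
    ∃ (K : IntermediateField ℚ Qb) (_ : IsDiscreteValuationRing ↥(baseRing A K))
      (_ : IsAlgClosed (IsLocalRing.ResidueField ↥(baseRing A K))),
      GoodBase (Lvl K) N (baseRing A K) ℓ ∧ (∀ ξ ∈ goodRoots A, ξ ∈ K) ∧
        ∃ x : ↥(Rinf (Lvl K) N (baseRing A K)), levK N K (x : FF (Lvl K) N) = g := by
  obtain ⟨K₀, hK₀, h⟩ := exists_finiteDimensional_RtInf A N hg
  haveI := hK₀
  obtain ⟨K, hK, hDVR, hAC, hGB, -, hroots⟩ := exists_level_ge A N hℓ hA hℓN K₀
  obtain ⟨x, hx, hxg⟩ := h K hK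
  exact ⟨K, hDVR, hAC, hGB, hroots, ⟨x, hx⟩, hxg⟩

/-- `R̃^fin` lies in the Gauss ring over `A`, and its reduction lies in `F_N(κ)`. -/
theorem mem_gaussSub_of_mem_RtFin {g : Fb N} (hg : g ∈ RtFin A N) :
    g ∈ gaussSub A N ∧ thetaBar A N g ∈ modularFunctionFieldFullC (Kap A) N := by
  obtain ⟨K, hDVR, -, hGB, -, x, rfl⟩ := exists_level_fin hℓ hA hℓN hg
  have hN := isUnit_natCast_of_goodBase (Lvl K) N (baseRing A K) hGB
  have hxG : (x : FF (Lvl K) N) ∈ gaussSubalgebra (Lvl K) N (baseRing A K) :=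
    chartAlg_le_gaussSubalgebra (Lvl K) N (baseRing A K)
      (Set.singleton_subset_iff.mpr (jF_mem_gaussSubalgebra (Lvl K) N (baseRing A K))) x.2
  refine ⟨levK_mem_gaussSub A N K hxG, ?_⟩
  rw [thetaBar_levK A N K hxG]
  exact Fermat.Agent.N4.BaseDescent.coeffMap_mem_full _ N
    (theta_mem_full_of_mem_Rfin (Lvl K) N (baseRing A K) hN x.2 _)

/-- `R̃^inf` lies in the Gauss ring over `A`, and its reduction lies in `F_N(κ)`. -/
theorem mem_gaussSub_of_mem_RtInf {g : Fb N} (hg : g ∈ RtInf A N) :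
    g ∈ gaussSub A N ∧ thetaBar A N g ∈ modularFunctionFieldFullC (Kap A) N := by
  obtain ⟨K, hDVR, -, hGB, -, x, rfl⟩ := exists_level_inf hℓ hA hℓN hg
  have hN := isUnit_natCast_of_goodBase (Lvl K) N (baseRing A K) hGB
  have hxG : (x : FF (Lvl K) N) ∈ gaussSubalgebra (Lvl K) N (baseRing A K) :=
    chartAlg_le_gaussSubalgebra (Lvl K) N (baseRing A K)
      (Set.singleton_subset_iff.mpr (jF_inv_mem_gaussSubalgebra (Lvl K) N (baseRing A K))) x.2
  refine ⟨levK_mem_gaussSub A N K hxG, ?_⟩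
  rw [thetaBar_levK A N K hxG]
  exact Fermat.Agent.N4.BaseDescent.coeffMap_mem_full _ N
    (theta_mem_full_of_mem_Rinf (Lvl K) N (baseRing A K) hN x.2 _)

/-- The coercion of `thetaFt` on `R̃^fin`. -/
theorem coe_thetaFt_of_mem_RtFin {g : Fb N} (hg : g ∈ RtFin A N) :
    ((thetaFt A N g : Ft A N) : LaurentSeries (Kap A)) = thetaBar A N g :=
  coe_thetaFt_of_mem (mem_gaussSub_of_mem_RtFin hℓ hA hℓN hg).2

theorem coe_thetaFt_of_mem_RtInf {g : Fb N} (hg : g ∈ RtInf A N) :
    ((thetaFt A N g : Ft A N) : LaurentSeries (Kap A)) = thetaBar A N g :=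
  coe_thetaFt_of_mem (mem_gaussSub_of_mem_RtInf hℓ hA hℓN hg).2

/-! ### The fields `le_gauss`, `theta_mem`, `theta_mem_Sg`, `ker` of `Centre.ChartFacts`
for the two charts `(R̃^fin, Σ^fin)` and `(R̃^inf, Σ^inf)` (exact shapes of the structure fields,
`Σ^fin = chartAlg κ (F_N(κ)) {j̄} = ChartFibre.SigmaFin κ N`,
`Σ^inf = chartAlg κ (F_N(κ)) {j̄⁻¹} = ChartFibre.SigmaInf κ N`). -/

/-- Field `le_gauss` of `ChartFacts A N (RtFin A N) _`. -/
theorem le_gauss_fin : ∀ g ∈ RtFin A N, g ∈ gaussSub A N :=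
  fun _ hg => (mem_gaussSub_of_mem_RtFin hℓ hA hℓN hg).1

/-- Field `le_gauss` of `ChartFacts A N (RtInf A N) _`. -/
theorem le_gauss_inf : ∀ g ∈ RtInf A N, g ∈ gaussSub A N :=
  fun _ hg => (mem_gaussSub_of_mem_RtInf hℓ hA hℓN hg).1

/-- Field `theta_mem` of `ChartFacts A N (RtFin A N) _`. -/
theorem theta_mem_fin : ∀ g ∈ RtFin A N, thetaBar A N g ∈ modularFunctionFieldFullC (Kap A) N :=
  fun _ hg => (mem_gaussSub_of_mem_RtFin hℓ hA hℓN hg).2

/-- Field `theta_mem` of `ChartFacts A N (RtInf A N) _`. -/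
theorem theta_mem_inf : ∀ g ∈ RtInf A N, thetaBar A N g ∈ modularFunctionFieldFullC (Kap A) N :=
  fun _ hg => (mem_gaussSub_of_mem_RtInf hℓ hA hℓN hg).2

set_option synthInstance.maxHeartbeats 400000 in
set_option maxHeartbeats 1600000 in
/-- Field `theta_mem_Sg` of `ChartFacts A N (RtFin A N) (SigmaFin κ N)`: `θ(R̃^fin) ⊆ Σ^fin`. -/
theorem theta_mem_Sg_fin :
    ∀ g ∈ RtFin A N, thetaFt A N g ∈ chartAlg (Kap A) (Ft A N) {jF (Kap A) N} := by
  intro g hg
  obtain ⟨K, hDVR, -, hGB, -, x, rfl⟩ := exists_level_fin hℓ hA hℓN hg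
  have hN := isUnit_natCast_of_goodBase (Lvl K) N (baseRing A K) hGB
  rw [thetaFt_levK_fin A N K hN x]
  exact thetaKFin_mem A N K hN x

set_option synthInstance.maxHeartbeats 400000 in
set_option maxHeartbeats 1600000 in
/-- Field `theta_mem_Sg` of `ChartFacts A N (RtInf A N) (SigmaInf κ N)`: `θ(R̃^inf) ⊆ Σ^inf`. -/
theorem theta_mem_Sg_inf :
    ∀ g ∈ RtInf A N, thetaFt A N g ∈ chartAlg (Kap A) (Ft A N) {(jF (Kap A) N)⁻¹} := by
  intro g hg
  obtain ⟨K, hDVR, -, hGB, -, x, rfl⟩ := exists_level_inf hℓ hA hℓN hg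
  have hN := isUnit_natCast_of_goodBase (Lvl K) N (baseRing A K) hGB
  rw [thetaFt_levK_inf A N K hN x]
  exact thetaKInf_mem A N K hN x

/-- Field `ker` of `ChartFacts A N (RtFin A N) _`, given `(∗)` at the good levels: an element of
`R̃^fin` with zero reduction is divisible in `R̃^fin` by an element of the maximal ideal of `A`. -/
theorem ker_fin
    (hstar : ∀ (K : IntermediateField ℚ Qb) [IsDiscreteValuationRing ↥(baseRing A K)]
      [IsAlgClosed (IsLocalRing.ResidueField ↥(baseRing A K))],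
      GoodBase (Lvl K) N (baseRing A K) ℓ → (∀ ξ ∈ goodRoots A, ξ ∈ K) →
      StarStatement (Lvl K) N (baseRing A K)) :
    ∀ g ∈ RtFin A N, thetaFt A N g = 0 →
      ∃ ϖ : ↥A, ϖ ∈ IsLocalRing.maximalIdeal ↥A ∧ ∃ g' ∈ RtFin A N, g = ϖ • g' := by
  intro g hg h0
  obtain ⟨K, hDVR, hAC, hGB, hroots, x, rfl⟩ := exists_level_fin hℓ hA hℓN hg
  have hN := isUnit_natCast_of_goodBase (Lvl K) N (baseRing A K) hGB
  rw [thetaFt_levK_fin A N K hN x] at h0
  obtain ⟨ϖ, hϖ⟩ := IsDiscreteValuationRing.exists_irreducible ↥(baseRing A K)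
  obtain ⟨x', hx'⟩ := exists_eq_mul_of_thetaKFin_eq_zero A N K hN
    (hstar K hGB hroots) hϖ x h0
  refine ⟨baseIncl A K ϖ, ?_, levK N K (x' : FF (Lvl K) N), lev_mem_RtFin A N K x'.2, ?_⟩
  · rw [IsLocalRing.mem_maximalIdeal, mem_nonunits_iff, isUnit_map_iff]
    exact hϖ.not_isUnit
  · rw [Algebra.smul_def, hx', ← levK_algebraMap, ← map_mul]
    rfl

/-- Field `ker` of `ChartFacts A N (RtInf A N) _`, given `(∗)` at the good levels. -/
theorem ker_inf
    (hstar : ∀ (K : IntermediateField ℚ Qb) [IsDiscreteValuationRing ↥(baseRing A K)]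
      [IsAlgClosed (IsLocalRing.ResidueField ↥(baseRing A K))],
      GoodBase (Lvl K) N (baseRing A K) ℓ → (∀ ξ ∈ goodRoots A, ξ ∈ K) →
      StarStatement (Lvl K) N (baseRing A K)) :
    ∀ g ∈ RtInf A N, thetaFt A N g = 0 →
      ∃ ϖ : ↥A, ϖ ∈ IsLocalRing.maximalIdeal ↥A ∧ ∃ g' ∈ RtInf A N, g = ϖ • g' := by
  intro g hg h0
  obtain ⟨K, hDVR, hAC, hGB, hroots, x, rfl⟩ := exists_level_inf hℓ hA hℓN hg
  have hN := isUnit_natCast_of_goodBase (Lvl K) N (baseRing A K) hGB
  rw [thetaFt_levK_inf A N K hN x] at h0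
  obtain ⟨ϖ, hϖ⟩ := IsDiscreteValuationRing.exists_irreducible ↥(baseRing A K)
  obtain ⟨x', hx'⟩ := exists_eq_mul_of_thetaKInf_eq_zero A N K hN
    (hstar K hGB hroots) hϖ x h0
  refine ⟨baseIncl A K ϖ, ?_, levK N K (x' : FF (Lvl K) N), lev_mem_RtInf A N K x'.2, ?_⟩
  · rw [IsLocalRing.mem_maximalIdeal, mem_nonunits_iff, isUnit_map_iff]
    exact hϖ.not_isUnit
  · rw [Algebra.smul_def, hx', ← levK_algebraMap, ← map_mul]
    rfl

omit hℓ hℓN in
/-- The level-wise `(∗)` hypothesis of `ker_fin`/`ker_inf` from the `ω`-form of `(∗)`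
(`N4/Irreducible.StarTargetOmega`, restated in `PGI.StarOmegaHyp`; proved unconditionally as
`N4/SmoothModel.starTargetOmega`). -/
theorem starStatement_of_starOmega (hΩ : Fermat.Agent.N4F.C.PGI.StarOmegaHyp)
    (K : IntermediateField ℚ Qb) [IsDiscreteValuationRing ↥(baseRing A K)]
    (hGB : GoodBase (Lvl K) N (baseRing A K) ℓ) (hroots : ∀ ξ ∈ goodRoots A, ξ ∈ K) :
    StarStatement (Lvl K) N (baseRing A K) :=
  hΩ (Lvl K) N (baseRing A K) ℓ hGB fun h2 => by
    obtain ⟨z, hz⟩ := Fermat.Agent.N4F.C.PGI.exists_omega_of_goodRoots hA K hroots h2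
    exact ⟨(Lvl.toSub K).symm z, hz⟩

end QbarLevel

end Fermat.Agent.N4F.C.LevelTheta
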