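/-
N4-FULL block C, node C9 (helper9): the OUTPUT of block C.

For a prime `ℓ ∤ N` and a valuation subring `A ⊂ Q̄` over `ℓ`, the canonical place reduction
`rC := Centre.rCan (chartFacts_fin …) (chartFacts_inf …)` satisfies
* (T1) the congruences on the two charts (`rC_fin`, `rC_inf`, uniqueness),
* (T2) `IsPlaceReductionModL A N rC`,
* (T3) `PrincipalGeneratedByIntegral A (residue A) N`,
* (T4) equivariance under the decomposition group of `A`,
hence `ReductionInputsModL A N` and helper11's `Res.FromBlocks.CMain N A` (`cMain`).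
-/
import Mathlib
import Fermat.Agent.N4F.C.ChartFactsProof
import Fermat.Agent.N4F.C.Formula
import Fermat.Agent.N4F.C.PGI
import Fermat.Agent.N4F.C.Galois

set_option autoImplicit false
set_option linter.unusedSectionVars false
set_option linter.style.haveILetI false
set_option synthInstance.maxHeartbeats 400000
set_option maxHeartbeats 800000

open ModularCurve AlgebraicCurve

noncomputable section

namespace Fermat.Agent.N4F.C.Main

open Fermat.Agent.N4.Setting Fermat.Agent.N4.BigDVR Fermat.Agent.N4F.C Fermat.Agent.N4F.C.Levels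
  Fermat.Agent.N4F.C.LevelCharts Fermat.Agent.N4F.C.ChartFibre Fermat.Agent.N4F.C.Centre
  Fermat.Agent.N4F.C.ChartFactsProof

variable {A : ValuationSubring Qb} {N : ℕ} [NeZero N] {ℓ : ℕ}

/-- **The canonical reduction of places** `P ↦ rC P` of `Q̄·F_N` to places of `F_N(κ)`. -/
def rC (hℓ : ℓ.Prime) (hA : A.LiesOverPrime ℓ) (hℓN : ¬ ℓ ∣ N) :
    Place Qb (Fb N) → Place (Kap A) (Ft A N) :=
  rCan (chartFacts_fin hℓ hA hℓN) (chartFacts_inf hℓ hA hℓN)

theorem rC_def (hℓ : ℓ.Prime) (hA : A.LiesOverPrime ℓ) (hℓN : ¬ ℓ ∣ N) :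
    rC hℓ hA hℓN = rCan (chartFacts_fin hℓ hA hℓN) (chartFacts_inf hℓ hA hℓN) := rfl

variable (hℓ : ℓ.Prime) (hA : A.LiesOverPrime ℓ) (hℓN : ¬ ℓ ∣ N)

include hℓ hA hℓN

/-- **(T3)**: principal divisors are generated by the integral ones. -/
theorem principalGeneratedByIntegral :
    PrincipalGeneratedByIntegral A (IsLocalRing.residue ↥A) N :=
  PGI.principalGeneratedByIntegral_of_targets hℓ hA hℓN
    Fermat.Agent.N4.SmoothModel.starTargetOmega
    (fun K _ _ N _ O _ _ hG hstar y hy => ChartReduction.red_mem_full K N O hG hstar y hy)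

/-- **(T4)**: equivariance of `rC` for the decomposition group of `A`. -/
theorem rC_galois_smul (σ : A.decompositionSubgroup ℚ) (P : Place Qb (Fb N)) :
    rC hℓ hA hℓN (Galois.gal N (σ : Qb ≃ₐ[ℚ] Qb) • P) =
      CoeffAut.coeffAut (Kap A) N (Galois.resAut ℚ A σ) • rC hℓ hA hℓN P :=
  rCan_galois_smul _ _ σ P

/-- The level-wise chart data consumed by `Formula.isPlaceReduction_of_T1`. -/
def LevelHyp (A : ValuationSubring Qb) (N : ℕ) [NeZero N] (ℓ : ℕ) : Prop :=
  ∀ (K : IntermediateField ℚ Qb) [IsDiscreteValuationRing ↥(baseRing A K)]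
    [IsAlgClosed (IsLocalRing.ResidueField ↥(baseRing A K))],
    GoodBase (Lvl K) N (baseRing A K) ℓ → (∀ ξ ∈ goodRoots A, ξ ∈ K) →
    Formula.ChartLevel A N K (Rfin (Lvl K) N (baseRing A K)) (RtFin A N) (jb N) ∧
    Formula.ChartLevel A N K (Rinf (Lvl K) N (baseRing A K)) (RtInf A N) (jb N)⁻¹

/-- **(T2)**: `rC` is a place reduction in the sense of the prelude. -/
theorem isPlaceReductionModL_rC (hdegt : ∀ Q : Place (Kap A) (Ft A N), Q.deg = 1)
    (hlevel : LevelHyp A N ℓ) : IsPlaceReductionModL A N (rC hℓ hA hℓN) :=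
  Formula.isPlaceReduction_of_T1 hℓ hA hℓN (rC hℓ hA hℓN) hdegt
    (rCan_fin _ _) (rCan_inf_of_not _ _)
    (fun _ hj _ hg => WRing.RtFin_le_wRing hj hg)
    (fun _ hj _ hg => WRing.RtInf_le_wRing (intAt_inv_of_not hj) hg)
    hlevel

/-- **The inputs of the reduction map** (prelude). -/
theorem reductionInputsModL (hdegt : ∀ Q : Place (Kap A) (Ft A N), Q.deg = 1)
    (hlevel : LevelHyp A N ℓ) : ReductionInputsModL A N :=
  ⟨rC hℓ hA hℓN, isPlaceReductionModL_rC hℓ hA hℓN hdegt hlevel,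
    principalGeneratedByIntegral hℓ hA hℓN⟩

/-- **Output of block C** in the shape of `Res.FromBlocks.CMain N A`. -/
theorem cMain_of (hdegt : ∀ Q : Place (Kap A) (Ft A N), Q.deg = 1)
    (hlevel : LevelHyp A N ℓ) :
    ∃ (r : Place Qb (Fb N) → Place (Kap A) (Ft A N)) (_ : IsPlaceReductionModL A N r)
      (_ : PrincipalGeneratedByIntegral A (IsLocalRing.residue ↥A) N),
      ∀ (σ : A.decompositionSubgroup ℚ) (P : Place Qb (Fb N)),
        r (Galois.gal N (σ : Qb ≃ₐ[ℚ] Qb) • P) =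
          CoeffAut.coeffAut (Kap A) N (Galois.resAut ℚ A σ) • r P :=
  ⟨rC hℓ hA hℓN, isPlaceReductionModL_rC hℓ hA hℓN hdegt hlevel,
    principalGeneratedByIntegral hℓ hA hℓN, rC_galois_smul hℓ hA hℓN⟩

end Fermat.Agent.N4F.C.Main
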