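/-
N4-FULL block C, node C9 (helper9): the OUTPUT of block C, UNCONDITIONALLY.

For a prime `ℓ ∤ N` and a valuation subring `A ⊂ Q̄` over `ℓ`, the canonical place reduction
`Main.rC hℓ hA hℓN` is a place reduction in the sense of the prelude ((T2)), principal divisors
are generated by the integral ones ((T3)), and `rC` is equivariant under the decomposition group
of `A` ((T4)): `reductionInputsModL`, `cMain` (= helper11's `Res.FromBlocks.CMain N A`).
The two inputs of `C/Main.lean` are `DegOne.deg_eq_one_Ft` and `ChartLevelInst.levelHyp`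
(helper16).
-/
import Mathlib
import Fermat.Agent.N4F.C.Main
import Fermat.Agent.N4F.C.ChartLevelInst
import Fermat.Agent.N4F.C.DegOne

set_option autoImplicit false
set_option linter.unusedSectionVars false
set_option linter.style.haveILetI false
set_option synthInstance.maxHeartbeats 400000
set_option maxHeartbeats 800000

open ModularCurve AlgebraicCurve

noncomputable section

namespace Fermat.Agent.N4F.C.MainFinal

open Fermat.Agent.N4F.C Fermat.Agent.N4F.C.Main

variable {A : ValuationSubring Qb} {N : ℕ} [NeZero N] {ℓ : ℕ}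
  (hℓ : ℓ.Prime) (hA : A.LiesOverPrime ℓ) (hℓN : ¬ ℓ ∣ N)

include hℓ hA hℓN

theorem levelHyp : LevelHyp A N ℓ := ChartLevelInst.levelHyp A N hℓ hA

/-- **(T2)**: `rC` is a place reduction in the sense of the prelude. -/
theorem isPlaceReductionModL_rC : IsPlaceReductionModL A N (rC hℓ hA hℓN) :=
  Main.isPlaceReductionModL_rC hℓ hA hℓN (fun Q => DegOne.deg_eq_one_Ft A N Q)
    (levelHyp hℓ hA hℓN)

/-- **`ReductionInputsModL A N` as a theorem.** -/
theorem reductionInputsModL : ReductionInputsModL A N :=
  Main.reductionInputsModL hℓ hA hℓN (fun Q => DegOne.deg_eq_one_Ft A N Q) (levelHyp hℓ hA hℓN)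

/-- **Output of block C** (= `Res.FromBlocks.CMain N A`). -/
theorem cMain :
    ∃ (r : Place Qb (Fb N) → Place (Kap A) (Ft A N)) (_ : IsPlaceReductionModL A N r)
      (_ : PrincipalGeneratedByIntegral A (IsLocalRing.residue ↥A) N),
      ∀ (σ : A.decompositionSubgroup ℚ) (P : Place Qb (Fb N)),
        r (Galois.gal N (σ : Qb ≃ₐ[ℚ] Qb) • P) =
          CoeffAut.coeffAut (Kap A) N (Galois.resAut ℚ A σ) • r P :=
  Main.cMain_of hℓ hA hℓN (fun Q => DegOne.deg_eq_one_Ft A N Q) (levelHyp hℓ hA hℓN)

end Fermat.Agent.N4F.C.MainFinal
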